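import Fermat.Agent.GoodRed.SmallPrime.Member

/-!
# Coordinates of levels four and nine

`hFour = (η (z) / η (4 z)) ^ 8` and `hNine = (η (z) / η (9 z)) ^ 3`, obtained from the coordinates
of levels two and three at `z` and at `2 z`, `3 z`, with their relation to `j`.
-/

set_option autoImplicit false
set_option linter.unusedSectionVars false
set_option synthInstance.maxHeartbeats 100000

noncomputable section

open HahnSeries ModularCurve Finset

namespace FLTAgent.LevelSq

open FLTAgent.Igusa FLTAgent.GoodRed.SmallPrime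
open FLTAgent.ModPoly (qExpand_ofPowerSeries)

/-- `x = c s ^ n + ⋯`. -/
def HasLead (x : LaurentSeries ℤ) (n c : ℤ) : Prop :=
  ∃ f : PowerSeries ℤ, PowerSeries.constantCoeff f = c ∧ x = single n 1 * ofZ ℤ f

theorem ofZ_int (f : PowerSeries ℤ) : ofZ ℤ f = HahnSeries.ofPowerSeries ℤ ℤ f := by
  simp [ofZ]

namespace HasLead

variable {x y : LaurentSeries ℤ} {n m c d : ℤ}

theorem of_ofZ (f : PowerSeries ℤ) : HasLead (ofZ ℤ f) 0 (PowerSeries.constantCoeff f) :=
  ⟨f, rfl, by simp⟩

theorem single_one (n : ℤ) : HasLead (single n 1) n 1 := ⟨1, map_one _, by simp⟩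

theorem intCast (a : ℤ) : HasLead (a : LaurentSeries ℤ) 0 a :=
  ⟨(a : PowerSeries ℤ), by simp, by simp⟩

theorem natCast (a : ℕ) : HasLead (a : LaurentSeries ℤ) 0 a := by
  simpa using HasLead.intCast (a : ℤ)

theorem ofNat (a : ℕ) [a.AtLeastTwo] :
    HasLead (no_index (OfNat.ofNat a : LaurentSeries ℤ)) 0 (OfNat.ofNat a) := by
  have h := HasLead.natCast (OfNat.ofNat a : ℕ)
  rwa [Nat.cast_ofNat, Nat.cast_ofNat] at h

theorem congr (hx : HasLead x n c) {n' c' : ℤ} (hn : n = n') (hc : c = c') :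
    HasLead x n' c' := hn ▸ hc ▸ hx

theorem mul (hx : HasLead x n c) (hy : HasLead y m d) : HasLead (x * y) (n + m) (c * d) := by
  obtain ⟨f, hf, rfl⟩ := hx
  obtain ⟨g, hg, rfl⟩ := hy
  refine ⟨f * g, by rw [map_mul, hf, hg], ?_⟩
  rw [map_mul, ← mul_one (1 : ℤ), ← single_mul_single, mul_one]
  ring

theorem pow (hx : HasLead x n c) (k : ℕ) : HasLead (x ^ k) (k * n) (c ^ k) := by
  induction k with
  | zero => simpa using HasLead.intCast 1
  | succ k ih => exact (pow_succ x k ▸ ih.mul hx).congr (by push_cast; ring) (pow_succ c k).symm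

theorem neg (hx : HasLead x n c) : HasLead (-x) n (-c) := by
  obtain ⟨f, hf, rfl⟩ := hx
  exact ⟨-f, by rw [map_neg, hf], by rw [map_neg, mul_neg]⟩

theorem add_same (hx : HasLead x n c) (hy : HasLead y n d) : HasLead (x + y) n (c + d) := by
  obtain ⟨f, hf, rfl⟩ := hx
  obtain ⟨g, hg, rfl⟩ := hy
  exact ⟨f + g, by rw [map_add, hf, hg], by rw [map_add, mul_add]⟩

theorem zero_of_lt (hy : HasLead y m d) (h : n < m) : HasLead y n 0 := by
  obtain ⟨g, -, rfl⟩ := hy
  obtain ⟨k, hk, rfl⟩ : ∃ k : ℕ, k ≠ 0 ∧ m = n + k := ⟨(m - n).toNat, by omega, by omega⟩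
  refine ⟨PowerSeries.X ^ k * g, by simp [hk], ?_⟩
  rw [map_mul, map_pow, ← mul_assoc]
  congr 1
  simp [ofZ, HahnSeries.single_pow, single_mul_single]

theorem add_of_lt (hx : HasLead x n c) (hy : HasLead y m d) (h : n < m) :
    HasLead (x + y) n c := by
  simpa using hx.add_same (hy.zero_of_lt h)

theorem sub_of_lt (hx : HasLead x n c) (hy : HasLead y m d) (h : n < m) :
    HasLead (x - y) n c := by
  rw [sub_eq_add_neg]
  exact hx.add_of_lt hy.neg h

theorem coeff_eq (hx : HasLead x n c) : x.coeff n = c := by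
  obtain ⟨f, hf, rfl⟩ := hx
  rw [HahnSeries.coeff_single_mul, one_mul, sub_self, ofZ_int]
  show (HahnSeries.ofPowerSeries ℤ ℤ f).coeff ((0 : ℕ) : ℤ) = c
  rw [HahnSeries.ofPowerSeries_apply_coeff, PowerSeries.coeff_zero_eq_constantCoeff, hf]

theorem ne_zero (hx : HasLead x n c) (hc : c ≠ 0) : x ≠ 0 := fun h => hc (by
  rw [← hx.coeff_eq, h, HahnSeries.coeff_zero])

theorem isUnit (hx : HasLead x n 1) : IsUnit x := by
  obtain ⟨f, hf, rfl⟩ := hx
  refine IsUnit.mul (.of_mul_eq_one (single (-n) (1 : ℤ)) (by simp [single_mul_single])) ?_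
  exact (PowerSeries.isUnit_iff_constantCoeff.2 (by rw [hf]; exact isUnit_one)).map (ofZ ℤ)

/-- The lead of a quotient. -/
theorem div {z : LaurentSeries ℤ} (hx : HasLead x n c) (hy : HasLead y m 1) (h : z * y = x)
    {n' : ℤ} (hn : n = n' + m) : HasLead z n' c := by
  obtain ⟨g, hg, rfl⟩ := hy
  obtain ⟨f, hf, rfl⟩ := hx
  obtain ⟨u, rfl⟩ : IsUnit g := PowerSeries.isUnit_iff_constantCoeff.2 (by rw [hg]; exact isUnit_one)
  refine ⟨f * ↑u⁻¹, ?_, ?_⟩
  · have hu := congrArg PowerSeries.constantCoeff u.mul_inv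
    rw [map_mul, hg, one_mul, map_one] at hu
    rw [map_mul, hu, hf, mul_one]
  · have hne : single m (1 : ℤ) * ofZ ℤ (u : PowerSeries ℤ) ≠ 0 :=
      HasLead.ne_zero (n := m) (c := 1) ⟨_, hg, rfl⟩ one_ne_zero
    refine mul_right_cancel₀ hne ?_
    rw [h, mul_mul_mul_comm, single_mul_single, mul_one, ← hn, ← map_mul, mul_assoc, u.inv_mul,
      mul_one]

theorem qExpand (hx : HasLead x n c) (k : ℕ) [NeZero k] :
    HasLead (ModularCurve.qExpand ℤ k x) (k * n) c := by
  obtain ⟨f, hf, rfl⟩ := hx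
  refine ⟨PowerSeries.expand k (NeZero.ne k) f, by rw [PowerSeries.constantCoeff_expand, hf], ?_⟩
  rw [map_mul, qExpand_single, ofZ_int, ofZ_int, qExpand_ofPowerSeries]

end HasLead

theorem hasLead_jq : HasLead (jqModC ℤ) (-1) 1 :=
  ⟨jNum, constantCoeff_jNum, rfl⟩

theorem hasLead_ofZ_psD : HasLead (ofZ ℤ psD) 1 1 :=
  ⟨dedekindEtaUnit, constantCoeff_dedekindEtaUnit, ofZ_psD ℤ⟩

theorem hasLead_sDinv : HasLead (sDinv ℤ) (-1) 1 :=
  ⟨dedekindEtaUnitInv, constantCoeff_dedekindEtaUnitInv, rfl⟩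

theorem hasLead_hauptTwo : HasLead hauptTwo (-1) 1 :=
  (hasLead_ofZ_psD.mul (hasLead_sDinv.qExpand 2)).congr (by norm_num) (by norm_num)

theorem hasLead_hauptThree : HasLead hauptThree (-1) 1 := by
  have h1 : HasLead (ofZ ℤ (etaProd ^ 12)) 0 1 :=
    (HasLead.of_ofZ _).congr rfl (by rw [map_pow, constantCoeff_etaProd, one_pow])
  have h2 : HasLead (ofZ ℤ halfInv) 0 1 :=
    (HasLead.of_ofZ _).congr rfl (by
      rw [halfInv, map_mul, map_pow, constantCoeff_etaProd, constantCoeff_dedekindEtaUnitInv]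
      norm_num)
  exact (((HasLead.single_one (-1)).mul h1).mul (h2.qExpand 3)).congr (by norm_num) (by norm_num)

theorem qExpand_complex_haupt {p : ℕ} [NeZero p] (ζ : ℂˣ) (i : Fin p)
    (hi : (i : ℕ) = 0) {x : LaurentSeries ℤ} (hx : x = ofZ ℤ psD * qExpand ℤ p (sDinv ℤ)) :
    rootW ℂ p ζ (some i) = coeffMap (Int.castRingHom ℂ) x := by
  rw [hx, map_mul, coeffMap_ofZ, coeffMap_qExpand, coeffMap_sDinv]
  show FLTAgent.ModPoly.twist (ζ ^ (i : ℕ)) (ofZ ℂ psD) * _ = _
  rw [hi, pow_zero, FLTAgent.ModPoly.twist_one_unit]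

theorem eq_of_coeffMap_complex {x y : LaurentSeries ℤ}
    (h : coeffMap (Int.castRingHom ℂ) x = coeffMap (Int.castRingHom ℂ) y) : x = y :=
  HahnSeries.ext (funext fun k => (Int.castRingHom ℂ).injective_int
    (congr_arg (fun z : LaurentSeries ℂ => z.coeff k) h))

/-- `(x + 16) ^ 3 = j (2 z) x`. -/
theorem hauptTwo_equation_two :
    (hauptTwo + 16) ^ 3 = qExpand ℤ 2 (jqModC ℤ) * hauptTwo := by
  have hp : Nat.Prime 2 := Nat.prime_two
  have hζ := isPrimitiveRoot_zetaInt_complex 2
  set ζ := Units.map ((algebraMap AlgInt ℂ : AlgInt →+* ℂ) : AlgInt →* ℂ) (zetaInt 2)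
  have hD1 : StartsWith (psD ^ 1) lD := by rw [pow_one]; exact startsWith_psD
  have c1 : heckePS 2 1 (psD ^ 1) = formComb 1 [0, -48] := by
    refine heckePS_eq_formComb hp 1 _ fun n hn => ?_
    rw [hD1.coeff_heckePS 2 1 n (by show _ < 13; omega) two_pos, formComb]
    simp only [Finset.sum_range_succ, Finset.sum_range_zero, map_add, PowerSeries.coeff_C_mul]
    norm_num
    rw [startsWith_psD n (by show _ < 13; omega)]
    interval_cases n <;> decide +kernel
  have c2 : heckePS 2 2 (psD ^ 2) = formComb 2 [0, 2, 768] := by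
    refine heckePS_eq_formComb hp 2 _ fun n hn => ?_
    rw [startsWith_psD_two.coeff_heckePS 2 2 n (by show _ < 13; omega) two_pos, formComb]
    have h01 : StartsWith (psA * psD) (convList lA lD) := startsWith_psA.mul startsWith_psD rfl
    simp only [Finset.sum_range_succ, Finset.sum_range_zero, map_add, PowerSeries.coeff_C_mul]
    norm_num
    rw [h01 n (by show _ < 13; omega), startsWith_psD_two n (by show _ < 13; omega)]
    interval_cases n <;> decide +kernel
  have c3 : heckePS 2 3 (psD ^ 3) = formComb 3 [0, 0, -144, -12288] := by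
    refine heckePS_eq_formComb hp 3 _ fun n hn => ?_
    rw [startsWith_psD_three.coeff_heckePS 2 3 n (by show _ < 13; omega) two_pos, formComb]
    have h12 : StartsWith (psA * psD ^ 2) (convList lA lD2) :=
      startsWith_psA.mul startsWith_psD_two rfl
    simp only [Finset.sum_range_succ, Finset.sum_range_zero, map_add, PowerSeries.coeff_C_mul]
    norm_num
    rw [h12 n (by show _ < 13; omega), startsWith_psD_three n (by show _ < 13; omega)]
    interval_cases n <;> decide +kernel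
  have e1 := sum_rootW_pow c1 hζ
  have e2 := sum_rootW_pow c2 hζ
  have e3 := sum_rootW_pow c3 hζ
  simp only [Fintype.sum_option, Fin.sum_univ_two, Finset.sum_range_succ, Finset.sum_range_zero]
    at e1 e2 e3
  norm_num at e1 e2 e3
  set J := qExpand ℂ 2 (jqModC ℂ)
  set a := rootW ℂ 2 ζ none
  set u := rootW ℂ 2 ζ (some 0) with hu
  set v := rootW ℂ 2 ζ (some 1)
  have key : (u + 16) ^ 3 = J * u := by
    have h6 : (6 : LaurentSeries ℂ) ≠ 0 := by
      exact_mod_cast natCast_ne_zero_laurent (R := ℂ) (n := 6) (by norm_num)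
    refine mul_left_cancel₀ h6 ?_
    linear_combination (6 * u ^ 2 - 3 * u * (a + u + v - 48) + (a + u + v) ^ 2 - 48 * (a + u + v)
      + 2304 - 3 * (2 * J + 768)) * e1 + (3 * u - 3 * (a + u + v)) * e2 + 2 * e3
  apply eq_of_coeffMap_complex
  rw [hu, qExpand_complex_haupt ζ 0 rfl (rfl : hauptTwo = _)] at key
  simp only [map_pow, map_add, map_mul, map_ofNat, coeffMap_qExpand, coeffMap_jqModC]
  exact key

/-- `(η (z) / η (3 z)) ^ 12` squared is `Δ (z) / Δ (3 z)`. -/
theorem hauptThree_sq : hauptThree ^ 2 = ofZ ℤ psD * qExpand ℤ 3 (sDinv ℤ) := by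
  have hI : qExpand ℤ 3 (sDinv ℤ) = single (-3) 1 * qExpand ℤ 3 (ofZ ℤ halfInv) ^ 2 := by
    rw [sDinv, ← halfInv_sq, map_pow, map_mul, qExpand_single, map_pow]
    rfl
  have hD : ofZ ℤ psD = single 1 1 * ofZ ℤ (etaProd ^ 12) ^ 2 := by
    rw [ofZ_psD, ← map_pow, ← pow_mul]
    rfl
  have h3 : single (-1 : ℤ) (1 : ℤ) ^ 2 = single (1 : ℤ) (1 : ℤ) * single (-3 : ℤ) (1 : ℤ) := by
    simp [single_mul_single, HahnSeries.single_pow]
  rw [hauptThree, hD, hI]
  linear_combination (ofZ ℤ (etaProd ^ 12) ^ 2 * qExpand ℤ 3 (ofZ ℤ halfInv) ^ 2) * h3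

/-- `(x + 27) (x + 3) ^ 3 = j (3 z) x`. -/
theorem hauptThree_equation_three :
    (hauptThree + 27) * (hauptThree + 3) ^ 3 = qExpand ℤ 3 (jqModC ℤ) * hauptThree := by
  have hp : Nat.Prime 3 := Nat.prime_three
  have hζ := isPrimitiveRoot_zetaInt_complex 3
  set ζ := Units.map ((algebraMap AlgInt ℂ : AlgInt →+* ℂ) : AlgInt →* ℂ) (zetaInt 3)
  have hD1 : StartsWith (psD ^ 1) lD := by rw [pow_one]; exact startsWith_psD
  have h01 : StartsWith (psA * psD) (convList lA lD) := startsWith_psA.mul startsWith_psD rfl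
  have h02 : StartsWith (psA ^ 2 * psD) (convList lA2 lD) :=
    startsWith_psA_two.mul startsWith_psD rfl
  have h03 : StartsWith (psA ^ 3 * psD) (convList lA3 lD) :=
    startsWith_psA_three.mul startsWith_psD rfl
  have h12 : StartsWith (psA * psD ^ 2) (convList lA lD2) :=
    startsWith_psA.mul startsWith_psD_two rfl
  have h22 : StartsWith (psA ^ 2 * psD ^ 2) (convList lA2 lD2) :=
    startsWith_psA_two.mul startsWith_psD_two rfl
  have h13 : StartsWith (psA * psD ^ 3) (convList lA lD3) :=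
    startsWith_psA.mul startsWith_psD_three rfl
  have c1 : heckePS 3 1 (psD ^ 1) = formComb 1 [0, 756] := by
    refine heckePS_eq_formComb hp 1 _ fun n hn => ?_
    rw [hD1.coeff_heckePS 3 1 n (by show _ < 13; omega) three_pos, formComb]
    simp only [Finset.sum_range_succ, Finset.sum_range_zero, map_add, PowerSeries.coeff_C_mul]
    norm_num
    rw [startsWith_psD n (by show _ < 13; omega)]
    interval_cases n <;> decide +kernel
  have c2 : heckePS 3 2 (psD ^ 2) = formComb 2 [0, -144, 531684] := by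
    refine heckePS_eq_formComb hp 2 _ fun n hn => ?_
    rw [startsWith_psD_two.coeff_heckePS 3 2 n (by show _ < 13; omega) three_pos, formComb]
    simp only [Finset.sum_range_succ, Finset.sum_range_zero, map_add, PowerSeries.coeff_C_mul]
    norm_num
    rw [h01 n (by show _ < 13; omega), startsWith_psD_two n (by show _ < 13; omega)]
    interval_cases n <;> decide +kernel
  have c3 : heckePS 3 3 (psD ^ 3) = formComb 3 [0, 3, -167832, 387422676] := by
    refine heckePS_eq_formComb hp 3 _ fun n hn => ?_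
    rw [startsWith_psD_three.coeff_heckePS 3 3 n (by show _ < 13; omega) three_pos, formComb]
    simp only [Finset.sum_range_succ, Finset.sum_range_zero, map_add, PowerSeries.coeff_C_mul]
    norm_num
    rw [h02 n (by show _ < 13; omega), h12 n (by show _ < 13; omega), startsWith_psD_three n (by show _ < 13; omega)]
    interval_cases n <;> decide +kernel
  have c4 : heckePS 3 4 (psD ^ 4) =
      formComb 4 [0, 0, 13392, -163435968, 282429556164] := by
    refine heckePS_eq_formComb hp 4 _ fun n hn => ?_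
    rw [startsWith_psD_four.coeff_heckePS 3 4 n (by show _ < 13; omega) three_pos, formComb]
    simp only [Finset.sum_range_succ, Finset.sum_range_zero, map_add, PowerSeries.coeff_C_mul]
    norm_num
    rw [h22 n (by show _ < 13; omega), h13 n (by show _ < 13; omega), startsWith_psD_four n (by show _ < 13; omega)]
    interval_cases n <;> decide +kernel
  have e1 := sum_rootW_pow c1 hζ
  have e2 := sum_rootW_pow c2 hζ
  have e3 := sum_rootW_pow c3 hζ
  have e4 := sum_rootW_pow c4 hζ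
  simp only [Fintype.sum_option, Fin.sum_univ_three, Finset.sum_range_succ, Finset.sum_range_zero]
    at e1 e2 e3 e4
  norm_num at e1 e2 e3 e4
  set J := qExpand ℂ 3 (jqModC ℂ) with hJ
  set a := rootW ℂ 3 ζ none
  set u := rootW ℂ 3 ζ (some 0) with hu
  set v := rootW ℂ 3 ζ (some 1)
  set w := rootW ℂ 3 ζ (some 2)
  set P1 := a + (u + v + w) with hP1
  have key : u ^ 4 - 756 * u ^ 3 + (19926 + 72 * J) * u ^ 2
      - ((756 - J) ^ 2 - 393660) * u + 531441 = 0 := by
    have h24 : (24 : LaurentSeries ℂ) ≠ 0 := by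
      exact_mod_cast natCast_ne_zero_laurent (R := ℂ) (n := 24) (by norm_num)
    refine mul_left_cancel₀ h24 ?_
    have newton : 24 * u ^ 4 - 24 * P1 * u ^ 3
        + 12 * (P1 ^ 2 - (a ^ 2 + (u ^ 2 + v ^ 2 + w ^ 2))) * u ^ 2
        - 4 * (P1 ^ 3 - 3 * P1 * (a ^ 2 + (u ^ 2 + v ^ 2 + w ^ 2))
            + 2 * (a ^ 3 + (u ^ 3 + v ^ 3 + w ^ 3))) * u
        + (P1 ^ 4 - 6 * P1 ^ 2 * (a ^ 2 + (u ^ 2 + v ^ 2 + w ^ 2))
            + 3 * (a ^ 2 + (u ^ 2 + v ^ 2 + w ^ 2)) ^ 2
            + 8 * P1 * (a ^ 3 + (u ^ 3 + v ^ 3 + w ^ 3))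
            - 6 * (a ^ 4 + (u ^ 4 + v ^ 4 + w ^ 4))) = 0 := by
      simp only [hP1]; ring
    rw [e1, e2, e3, e4] at newton
    linear_combination newton
  rw [hu, qExpand_complex_haupt ζ 0 rfl hauptThree_sq, hJ,
    show qExpand ℂ 3 (jqModC ℂ) = coeffMap (Int.castRingHom ℂ) (qExpand ℤ 3 (jqModC ℤ)) by
      rw [coeffMap_qExpand, coeffMap_jqModC]] at key
  set x := hauptThree with hx
  set K := qExpand ℤ 3 (jqModC ℤ) with hK
  have hquartic : (x ^ 2) ^ 4 - 756 * (x ^ 2) ^ 3 + (19926 + 72 * K) * (x ^ 2) ^ 2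
      - ((756 - K) ^ 2 - 393660) * x ^ 2 + 531441 = 0 := by
    apply eq_of_coeffMap_complex
    simp only [map_pow, map_add, map_sub, map_mul, map_ofNat, map_zero]
    simpa only [map_pow] using key
  have hprod : ((x + 27) * (x + 3) ^ 3 - K * x) * ((27 - x) * (3 - x) ^ 3 + K * x) = 0 := by
    linear_combination hquartic
  refine sub_eq_zero.mp ((mul_eq_zero.mp hprod).resolve_right (HasLead.ne_zero (n := -4) (c := 2) ?_
    two_ne_zero))
  have hx1 : HasLead x (-1) 1 := hasLead_hauptThree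
  have h27 : HasLead (27 - x) (-1) (-1) := by
    rw [← neg_sub]
    exact (hx1.sub_of_lt (HasLead.ofNat 27) (by norm_num)).neg
  have h3 : HasLead (3 - x) (-1) (-1) := by
    rw [← neg_sub]
    exact (hx1.sub_of_lt (HasLead.ofNat 3) (by norm_num)).neg
  exact (((h27.mul (h3.pow 3)).congr (n' := -4) (c' := 1) (by norm_num) (by norm_num)).add_same
    (((hasLead_jq.qExpand 3).mul hx1).congr (n' := -4) (c' := 1) (by norm_num) (by norm_num))).congr
    rfl (by norm_num)

/-! ### Level four -/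

/-- `x (2 z)`. -/
def hauptTwoTwo : LaurentSeries ℤ := qExpand ℤ 2 hauptTwo

theorem hasLead_hauptTwoTwo : HasLead hauptTwoTwo (-2) 1 :=
  (hasLead_hauptTwo.qExpand 2).congr (by norm_num) rfl

theorem hauptTwo_pair :
    hauptTwoTwo ^ 2 - (hauptTwo ^ 2 + 48 * hauptTwo) * hauptTwoTwo - 4096 * hauptTwo = 0 := by
  have h1 := hauptTwo_equation_two
  have h2 := congrArg (qExpand ℤ 2) hauptTwo_equation
  simp only [map_mul, map_pow, map_add, map_ofNat] at h2
  rw [← hauptTwoTwo] at h2
  have hx := hasLead_hauptTwo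
  have hy := hasLead_hauptTwoTwo
  set x := hauptTwo
  set y := hauptTwoTwo
  have hprod : (x * y - 4096) * (y ^ 2 - (x ^ 2 + 48 * x) * y - 4096 * x) = 0 := by
    linear_combination (-y ^ 2) * h1 + (-x) * h2
  exact (mul_eq_zero.mp hprod).resolve_left
    (((hx.mul hy).sub_of_lt (HasLead.ofNat 4096) (by norm_num)).ne_zero (by norm_num))

theorem hasLead_hauptTwo_add : HasLead (hauptTwo + 16) (-1) 1 :=
  hasLead_hauptTwo.add_of_lt (HasLead.ofNat 16) (by norm_num)

/-- `(η (z) / η (4 z)) ^ 8`. -/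
def hFour : LaurentSeries ℤ :=
  (hauptTwoTwo - 16 * hauptTwo) * ↑hasLead_hauptTwo_add.isUnit.unit⁻¹

theorem hFour_mul : hFour * (hauptTwo + 16) = hauptTwoTwo - 16 * hauptTwo := by
  rw [hFour, mul_assoc, IsUnit.val_inv_mul, mul_one]

theorem hFour_sq_add : hFour ^ 2 + 16 * hFour = hauptTwoTwo := by
  refine mul_right_cancel₀ (pow_ne_zero 2 (hasLead_hauptTwo_add.ne_zero one_ne_zero)) ?_
  linear_combination (hFour * (hauptTwo + 16) + (hauptTwoTwo - 16 * hauptTwo)
    + 16 * (hauptTwo + 16)) * hFour_mul + hauptTwo_pair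

theorem hFour_sq : hFour ^ 2 = hauptTwo * (hFour + 16) := by
  linear_combination hFour_sq_add - hFour_mul

/-- `j` at level four. -/
theorem hFour_equation :
    jqModC ℤ * (hFour ^ 4 * (hFour + 16)) = (hFour ^ 2 + 256 * hFour + 4096) ^ 3 := by
  have hA : (hauptTwo + 256) * (hFour + 16) = hFour ^ 2 + 256 * hFour + 4096 := by
    linear_combination -hFour_sq
  have hB : hFour ^ 4 * (hFour + 16) = hauptTwo ^ 2 * (hFour + 16) ^ 3 := by
    rw [show hFour ^ 4 = (hFour ^ 2) ^ 2 by ring, hFour_sq]; ring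
  rw [← hA, hB, mul_pow]
  linear_combination (hFour + 16) ^ 3 * hauptTwo_equation

theorem hasLead_hFour : HasLead hFour (-1) 1 := by
  have hnum : HasLead (hauptTwoTwo - 16 * hauptTwo) (-2) 1 :=
    hasLead_hauptTwoTwo.sub_of_lt ((HasLead.ofNat 16).mul hasLead_hauptTwo) (by norm_num)
  exact hnum.div hasLead_hauptTwo_add hFour_mul (by norm_num)

/-! ### Level nine -/

/-- `x (3 z)`. -/
def hauptThreeThree : LaurentSeries ℤ := qExpand ℤ 3 hauptThree

theorem hasLead_hauptThreeThree : HasLead hauptThreeThree (-3) 1 :=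
  (hasLead_hauptThree.qExpand 3).congr (by norm_num) rfl

theorem hauptThree_pair :
    hauptThreeThree ^ 3
      - (hauptThree ^ 3 + 36 * hauptThree ^ 2 + 270 * hauptThree) * hauptThreeThree ^ 2
      - (729 * hauptThree ^ 2 + 26244 * hauptThree) * hauptThreeThree - 531441 * hauptThree = 0 := by
  have h1 := hauptThree_equation_three
  have h2 := congrArg (qExpand ℤ 3) hauptThree_equation
  simp only [map_mul, map_pow, map_add, map_ofNat] at h2
  rw [← hauptThreeThree] at h2
  have hx := hasLead_hauptThree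
  have hy := hasLead_hauptThreeThree
  set x := hauptThree
  set y := hauptThreeThree
  have hprod : (x * y - 729) * (y ^ 3 - (x ^ 3 + 36 * x ^ 2 + 270 * x) * y ^ 2
      - (729 * x ^ 2 + 26244 * x) * y - 531441 * x) = 0 := by
    linear_combination (-y ^ 3) * h1 + (-x) * h2
  exact (mul_eq_zero.mp hprod).resolve_left
    (((hx.mul hy).sub_of_lt (HasLead.ofNat 729) (by norm_num)).ne_zero (by norm_num))

/-- The denominator of `hNine`. -/
def hNineDen : LaurentSeries ℤ := (9 + hauptThree) * hauptThreeThree + 729 - 243 * hauptThree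

theorem hasLead_hNineDen : HasLead hNineDen (-4) 1 := by
  have h9 : HasLead (9 + hauptThree) (-1) 1 := by
    rw [add_comm]
    exact hasLead_hauptThree.add_of_lt (HasLead.ofNat 9) (by norm_num)
  exact ((((h9.mul hasLead_hauptThreeThree).congr (n' := -4) (c' := 1) (by norm_num)
    (by norm_num)).add_of_lt (HasLead.ofNat 729) (by norm_num)).sub_of_lt
    ((HasLead.ofNat 243).mul hasLead_hauptThree) (by norm_num))

/-- The numerator of `hNine`. -/
def hNineNum : LaurentSeries ℤ :=
  1458 * hauptThree + (hauptThree ^ 2 + 18 * hauptThree + 27) * hauptThreeThree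

theorem hasLead_hNineNum : HasLead hNineNum (-5) 1 := by
  rw [hNineNum, add_comm]
  have h2 : HasLead (hauptThree ^ 2 + 18 * hauptThree + 27) (-2) 1 :=
    (((hasLead_hauptThree.pow 2).congr (n' := -2) (c' := 1) (by norm_num) (by norm_num)).add_of_lt
      ((HasLead.ofNat 18).mul hasLead_hauptThree) (by norm_num)).add_of_lt
      (HasLead.ofNat 27) (by norm_num)
  exact ((h2.mul hasLead_hauptThreeThree).congr (n' := -5) (c' := 1) (by norm_num)
    (by norm_num)).add_of_lt ((HasLead.ofNat 1458).mul hasLead_hauptThree) (by norm_num)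

/-- `(η (z) / η (9 z)) ^ 3`. -/
def hNine : LaurentSeries ℤ := hNineNum * ↑hasLead_hNineDen.isUnit.unit⁻¹

theorem hNine_mul : hNine * hNineDen = hNineNum := by
  rw [hNine, mul_assoc, IsUnit.val_inv_mul, mul_one]

theorem hasLead_hNine : HasLead hNine (-1) 1 :=
  hasLead_hNineNum.div hasLead_hNineDen hNine_mul (by norm_num)

theorem hNine_cube_add : hNine ^ 3 + 9 * hNine ^ 2 + 27 * hNine = hauptThreeThree := by
  refine mul_right_cancel₀ (pow_ne_zero 3 (hasLead_hNineDen.ne_zero one_ne_zero)) ?_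
  have h := hNine_mul
  have hG := hauptThree_pair
  set H := hNine
  set N := hNineNum with hN
  set R := hNineDen with hR
  set x := hauptThree
  set y := hauptThreeThree
  have e : N ^ 3 + 9 * N ^ 2 * R + 27 * N * R ^ 2 - y * R ^ 3 = 0 := by
    rw [hN, hR, hNineNum, hNineDen]
    linear_combination (-x ^ 3 * y - 27 * x ^ 2 * y - 243 * x * y - 729 * y - 1458 * x ^ 2
      - 39366) * hG
  linear_combination e + ((H * R) ^ 2 + H * R * N + N ^ 2 + 9 * R * (H * R + N) + 27 * R ^ 2) * h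

theorem hNine_cube : hNine ^ 3 = hauptThree * (hNine ^ 2 + 9 * hNine + 27) := by
  refine mul_right_cancel₀ (pow_ne_zero 3 (hasLead_hNineDen.ne_zero one_ne_zero)) ?_
  have h := hNine_mul
  have hG := hauptThree_pair
  set H := hNine
  set N := hNineNum with hN
  set R := hNineDen with hR
  set x := hauptThree
  set y := hauptThreeThree
  have e : N ^ 3 - x * N ^ 2 * R - 9 * x * N * R ^ 2 - 27 * x * R ^ 3 = 0 := by
    rw [hN, hR, hNineNum, hNineDen]
    linear_combination (-243 * x ^ 3 - 5103 * x ^ 2 - 6561 * x + 19683) * hG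
  linear_combination e + ((H * R) ^ 2 + H * R * N + N ^ 2 - x * R * (H * R + N) - 9 * x * R ^ 2) * h

/-- `j` at level nine. -/
theorem hNine_equation :
    jqModC ℤ * (hNine ^ 9 * (hNine ^ 2 + 9 * hNine + 27)) =
      ((hNine + 9) * (hNine ^ 3 + 243 * hNine ^ 2 + 2187 * hNine + 6561)) ^ 3 := by
  set t := hNine ^ 2 + 9 * hNine + 27 with ht
  have hA : (hauptThree + 243) * t = hNine ^ 3 + 243 * t := by linear_combination -hNine_cube
  have hB : (hauptThree + 27) * t = (hNine + 9) ^ 3 := by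
    rw [ht] at hA ⊢
    linear_combination -hNine_cube
  have hC : hNine ^ 9 * t = hauptThree ^ 3 * t ^ 4 := by
    rw [show hNine ^ 9 = (hNine ^ 3) ^ 3 by ring, hNine_cube]; ring
  have hD : ((hNine + 9) * (hNine ^ 3 + 243 * hNine ^ 2 + 2187 * hNine + 6561)) ^ 3 =
      (hauptThree + 27) * (hauptThree + 243) ^ 3 * t ^ 4 := by
    have hcub : hNine ^ 3 + 243 * hNine ^ 2 + 2187 * hNine + 6561 = (hauptThree + 243) * t := by
      rw [hA, ht]; ring
    rw [mul_pow, hcub, ← hB]
    ring
  rw [hC, hD, ← hauptThree_equation]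
  ring

/-! ### Membership in the modular function field -/

theorem qExpand_mem_full {M d : ℕ} [NeZero M] [NeZero d] {x : LaurentSeries ℚ}
    (hx : x ∈ modularFunctionFieldFull M) :
    ModularCurve.qExpand ℚ d x ∈ modularFunctionFieldFull (d * M) := by
  have h : modularFunctionFieldFull M ≤
      (modularFunctionFieldFull (d * M)).comap (qExpandₐ d) := by
    refine IntermediateField.adjoin_le_iff.2 ?_
    rintro _ ⟨e, he, hdiv, rfl⟩
    show qExpandₐ d (ModularCurve.qExpand ℚ e jq) ∈ modularFunctionFieldFull (d * M)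
    rw [qExpandₐ_apply, qExpand_qExpand]
    exact jqd_mem_full _ (Nat.mul_dvd_mul_left d hdiv)
  exact h hx

theorem intToRat_qExpand (d : ℕ) [NeZero d] (x : LaurentSeries ℤ) :
    intToRat (ModularCurve.qExpand ℤ d x) = ModularCurve.qExpand ℚ d (intToRat x) :=
  coeffMap_qExpand ..

theorem modularFunctionFieldFull_mono {M M' : ℕ} [NeZero M] [NeZero M'] (h : M ∣ M') :
    modularFunctionFieldFull M ≤ modularFunctionFieldFull M' :=
  IntermediateField.adjoin.mono _ _ _ fun _ ⟨e, he, hd, hx⟩ => ⟨e, he, hd.trans h, hx⟩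

theorem intToRat_hFour_mem {M : ℕ} [NeZero M] (hM : 4 ∣ M) :
    intToRat hFour ∈ modularFunctionFieldFull M := by
  have hx := intToRat_hauptTwo_mem (M := 2) dvd_rfl
  have hy : intToRat hauptTwoTwo ∈ modularFunctionFieldFull M := by
    rw [hauptTwoTwo, intToRat_qExpand]
    have h2 : 2 * 2 ∣ M := hM
    exact modularFunctionFieldFull_mono h2 (qExpand_mem_full (M := 2) (d := 2) hx)
  have hx' := intToRat_hauptTwo_mem (M := M) ((Dvd.intro 2 rfl).trans hM)
  have hne : intToRat (hauptTwo + 16) ≠ 0 :=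
    (hasLead_hauptTwo_add.isUnit.map intToRat).ne_zero
  have he := congrArg intToRat hFour_mul
  rw [map_mul] at he
  rw [eq_div_of_mul_eq hne he, map_sub, map_mul, map_add, map_ofNat]
  exact div_mem (sub_mem hy (mul_mem (ofNat_mem _ 16) hx')) (add_mem hx' (ofNat_mem _ 16))

theorem intToRat_hNine_mem {M : ℕ} [NeZero M] (hM : 9 ∣ M) :
    intToRat hNine ∈ modularFunctionFieldFull M := by
  have hx := intToRat_hauptThree_mem (M := 3) dvd_rfl
  have hy : intToRat hauptThreeThree ∈ modularFunctionFieldFull M := by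
    rw [hauptThreeThree, intToRat_qExpand]
    have h2 : 3 * 3 ∣ M := hM
    exact modularFunctionFieldFull_mono h2 (qExpand_mem_full (M := 3) (d := 3) hx)
  have hx' := intToRat_hauptThree_mem (M := M) ((Dvd.intro 3 rfl).trans hM)
  have hne : intToRat hNineDen ≠ 0 := (hasLead_hNineDen.isUnit.map intToRat).ne_zero
  have he := congrArg intToRat hNine_mul
  rw [map_mul] at he
  rw [eq_div_of_mul_eq hne he, hNineNum, hNineDen]
  simp only [map_sub, map_mul, map_add, map_pow, map_ofNat]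
  exact div_mem
    (add_mem (mul_mem (ofNat_mem _ 1458) hx')
      (mul_mem (add_mem (add_mem (pow_mem hx' 2) (mul_mem (ofNat_mem _ 18) hx')) (ofNat_mem _ 27))
        hy))
    (sub_mem (add_mem (mul_mem (add_mem (ofNat_mem _ 9) hx') hy) (ofNat_mem _ 729))
      (mul_mem (ofNat_mem _ 243) hx'))

end FLTAgent.LevelSq
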