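import Fermat.Agent.Hecke.Inputs
import Fermat.Agent.GalRep.Model

/-!
# Pushforward along the degeneracy maps on `J₀`

`pushPic d h : JZero M →+ JZero L` for `L * d ∣ M`; it commutes with the Galois action and, on
`p`-power torsion, with the Hecke operators away from the level (by Eichler–Shimura).
-/

set_option autoImplicit false
set_option linter.style.haveILetI false

noncomputable section

namespace FLTAgent.LevelSq

open AlgebraicCurve ModularCurve

local notation "Qbar" => AlgebraicClosure ℚ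
local notation "Γℚ" => AlgebraicClosure ℚ ≃ₐ[ℚ] AlgebraicClosure ℚ

variable {M L : ℕ} [NeZero M] [NeZero L] (d : ℕ) [NeZero d] (h : L * d ∣ M)

/-- Pushforward of degree zero divisors along `x(q) ↦ x(q^d)`. -/
def pushDegZero : Divisor.degZero (K := Qbar) (F := Hecke.MF Qbar M) →+
    Divisor.degZero (K := Qbar) (F := Hecke.MF Qbar L) :=
  ((Divisor.pushforwardAlong (Hecke.degMap Qbar d h)
      ((Hecke.levelFacts Qbar).integral d h)).domRestrict
    (Divisor.degZero (K := Qbar) (F := Hecke.MF Qbar M))).codRestrict _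
      fun D => Divisor.pushforwardAlong_mem_degZero (Hecke.degMap Qbar d h)
        ((Hecke.levelFacts Qbar).integral d h) D.2

theorem coe_pushDegZero (D : Divisor.degZero (K := Qbar) (F := Hecke.MF Qbar M)) :
    (pushDegZero d h D : Divisor Qbar (Hecke.MF Qbar L)) =
      Divisor.pushforwardAlong (Hecke.degMap Qbar d h) ((Hecke.levelFacts Qbar).integral d h)
        (D : Divisor Qbar (Hecke.MF Qbar M)) :=
  rfl

/-- Pushforward of divisor classes along `x(q) ↦ x(q^d)`. -/
def pushPic : JZero M →+ JZero L :=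
  QuotientAddGroup.map _ _ (pushDegZero d h) (by
    rintro ⟨D, hD0⟩ hD
    simp only [AddSubgroup.mem_addSubgroupOf, AddSubgroup.mem_comap] at hD ⊢
    exact Divisor.isPrincipal_pushforwardAlong (Hecke.degMap Qbar d h)
      ((Hecke.levelFacts Qbar).integral d h) ((Hecke.levelFacts Qbar).finite L M d h)
      ((Hecke.levelFacts Qbar).norm L M d h _) hD)

theorem pushPic_mk (D : Divisor.degZero (K := Qbar) (F := Hecke.MF Qbar M)) :
    pushPic d h (Pic0.mk D) = Pic0.mk (pushDegZero d h D) :=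
  rfl

theorem pushPic_smul (σ : Γℚ) (x : JZero M) : pushPic d h (σ • x) = σ • pushPic d h x := by
  obtain ⟨D, rfl⟩ := Pic0.mk_surjective x
  rw [galois_smul_pic0_def, SemilinearAut.pic0_smul_mk, pushPic_mk, pushPic_mk,
    galois_smul_pic0_def, SemilinearAut.pic0_smul_mk]
  refine congrArg Pic0.mk (Subtype.ext ?_)
  exact Hecke.pushforwardAlong_smul (Hecke.degMap Qbar d h) ((Hecke.levelFacts Qbar).integral d h)
    (Hecke.intertwines_degMap d h σ) ((Hecke.levelFacts Qbar).deg_pos L)
    (D : Divisor Qbar (Hecke.MF Qbar M))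

/-- On `p`-power torsion the pushforward commutes with the Hecke operators away from `M * p`. -/
theorem pushPic_hecke {p : ℕ} (hGM : GalRep.GaloisFacts M p) (hGL : GalRep.GaloisFacts L p)
    {ℓ : ℕ} (hℓ : ℓ.Prime) (hℓM : ¬ ℓ ∣ M * p)
    {A : ValuationSubring Qbar} (hA : A.LiesOverPrime ℓ) {σ : Γℚ} (hσ : A.IsFrobeniusAt σ ℓ)
    (x : JZero M) (hx : ∃ n : ℕ, p ^ n • x = 0) :
    pushPic d h (heckeOperatorBar M ⟨ℓ, hℓ⟩ x) = heckeOperatorBar L ⟨ℓ, hℓ⟩ (pushPic d h x) := by
  obtain ⟨n, hn⟩ := hx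
  set y : JZero M := σ⁻¹ • x
  have hy : p ^ n • y = 0 := by rw [← GalRep.smul_nsmul_jZero, hn, GalRep.smul_zero_jZero]
  have hℓL : ¬ ℓ ∣ L * p := fun hd => hℓM (hd.trans
    (Nat.mul_dvd_mul_right ((dvd_mul_right L d).trans h) p))
  have h1 := hGM.frobenius ℓ hℓ hℓM A hA σ hσ y ⟨n, hy⟩
  have h2 := hGL.frobenius ℓ hℓ hℓL A hA σ hσ (pushPic d h y)
    ⟨n, by rw [← map_nsmul, hy, map_zero]⟩
  have h3 := congrArg (pushPic d h) h1
  rw [map_zero, map_add, map_sub, pushPic_smul, pushPic_smul, map_nsmul, ← h2] at h3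
  rw [add_left_inj, sub_right_inj] at h3
  rw [show σ • y = x from smul_inv_smul σ x] at h3
  rw [h3, ← pushPic_smul, show σ • y = x from smul_inv_smul σ x]

end FLTAgent.LevelSq
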