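import Fermat.Agent.FunctionField.Degree
import Fermat.Agent.GoodRed.Torsion
import Fermat.Agent.JTors.NormExp
import Fermat.Agent.LevelSq.Push
import Fermat.Agent.Semistable.LevelDatum

/-!
# Norms of functions with principal pushforward

If the pushforward of `D` is principal and `div f = m D`, the product of the conjugates of `f`
along the degeneracy map is an `m`-th power of a function below.  Both degeneracy maps from level
`q M'` to level `q ^ 2 M'` have degree `q`.
-/

set_option autoImplicit false
set_option linter.style.haveILetI false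
set_option linter.unusedSectionVars false
set_option synthInstance.maxHeartbeats 100000

noncomputable section

open ModularCurve AlgebraicCurve
open FLTAgent.Hecke
open FLTAgent.FunctionField (divisorOf divisorOf_apply ord_pow ord_div)
open FLTAgent.Semistable (alphaMap betaMap coe_alphaMap coe_betaMap exists_swap finrankAlong_alphaMap
  finrankAlong_equiv_comp)

namespace FLTAgent.LevelSq

local notation "Qbar" => AlgebraicClosure ℚ

section Power

variable {M L : ℕ} [NeZero M] [NeZero L] {d : ℕ} [NeZero d] {h : L * d ∣ M}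

/-- The norm of a function with divisor `m D` is an `m`-th power when the push of `D` is
principal. -/
theorem prod_eq_pow_of_pushPic_eq_zero {m : ℕ} (hm0 : m ≠ 0)
    (D : Divisor.degZero (K := Qbar) (F := MF Qbar M)) {f : MF Qbar M} (hf : f ≠ 0)
    (hdiv : ∀ v : Place Qbar (MF Qbar M),
      v.ord f = (m : ℤ) * (D : Divisor Qbar (MF Qbar M)) v)
    (hx : pushPic d h (Pic0.mk D) = 0) {T : Type*} [Field T] {ι : Type*} [Fintype ι]
    (i : MF Qbar L →+* T) (φ : ι → MF Qbar M →+* T)
    (hφ : ∀ x u, φ x (degMap Qbar d h u) = i u) (hinj : Function.Injective φ)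
    (hcard : Fintype.card ι = finrankAlong Qbar (degMap Qbar d h)) :
    ∃ H : MF Qbar L, ∏ x, φ x f = i H ^ m := by
  haveI := Hecke.isFunctionField_level Qbar L
  haveI : CharZero (MF Qbar L) :=
    charZero_of_injective_algebraMap (algebraMap Qbar (MF Qbar L)).injective
  have hfin := (Hecke.levelFacts Qbar).finite L M d h
  have hN := (Hecke.levelFacts Qbar).norm L M d h hfin
  rw [pushPic_mk] at hx
  obtain ⟨H, hH0, hH⟩ : Divisor.IsPrincipal (pushDegZero d h D : Divisor Qbar (MF Qbar L)) :=
    AddSubgroup.mem_addSubgroupOf.1 ((QuotientAddGroup.eq_zero_iff _).1 hx)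
  letI := algebraAlong (degMap Qbar d h)
  haveI := isScalarTower_along (degMap Qbar d h)
  haveI : Module.Finite (MF Qbar L) (MF Qbar M) := hfin
  haveI : Algebra.IsSeparable (MF Qbar L) (MF Qbar M) := Algebra.IsSeparable.of_integral _ _
  set n := Algebra.norm (MF Qbar L) f
  have hn0 : n ≠ 0 := Algebra.norm_ne_zero_iff.mpr hf
  have hord : ∀ v : Place Qbar (MF Qbar L), v.ord n = (m : ℤ) * v.ord H := fun v => by
    have h1 := hN f hf (m • (D : Divisor Qbar (MF Qbar M))) (fun w => by
      rw [Finsupp.coe_smul, Pi.smul_apply, nsmul_eq_mul, hdiv]) v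
    rw [← h1, map_nsmul, Finsupp.coe_smul, Pi.smul_apply, nsmul_eq_mul]
    exact congrArg ((m : ℤ) * ·) (hH v)
  obtain ⟨a, ha⟩ := GoodRed.exists_eq_algebraMap_of_divisorOf_eq_zero (K := Qbar)
    (z := n / H ^ m) (Finsupp.ext fun v => by
      rw [divisorOf_apply, ord_div hn0 (pow_ne_zero _ hH0), ord_pow, hord, sub_self,
        Finsupp.zero_apply])
  obtain ⟨b, hb⟩ := IsAlgClosed.exists_pow_nat_eq a (Nat.pos_of_ne_zero hm0)
  refine ⟨algebraMap Qbar (MF Qbar L) b * H, ?_⟩
  rw [← map_pow, mul_pow, ← map_pow, hb, ha, div_mul_cancel₀ _ (pow_ne_zero _ hH0)]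
  exact (JTors.map_norm_eq_prod i φ hφ hinj hcard f).symm

end Power

variable {q M' : ℕ} [hq : Fact q.Prime] [NeZero M']

local instance : NeZero q := ⟨hq.out.ne_zero⟩

theorem finrankAlong_beta' (hq' : ¬ q ∣ M') : finrankAlong Qbar (betaMap Qbar M' q) = q + 1 := by
  obtain ⟨w, hw, -, -⟩ := exists_swap Qbar M' q hq.out hq'
  rw [show betaMap Qbar M' q = w.toAlgHom.comp (alphaMap Qbar M' q) from
    AlgHom.ext fun u => (hw u).symm, finrankAlong_equiv_comp,
    finrankAlong_alphaMap Qbar M' q hq.out hq']

/-- The degree of the first map from level `q M'` to level `q ^ 2 M'`. -/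
theorem finrankAlong_top_one {L M : ℕ} [NeZero L] [NeZero M] (hL : L = M' * q) (hM : M = L * q)
    (h : L * 1 ∣ M) : finrankAlong Qbar (degMap Qbar 1 h) = q := by
  have h1 := finrankAlong_degMap (degreeFacts Qbar) h
  rw [show dedekindPsi M = q * dedekindPsi L by
    rw [hM, dedekindPsi_mul_prime_of_dvd (NeZero.ne L) hq.out (hL ▸ dvd_mul_left q M')],
    mul_comm q] at h1
  exact Nat.eq_of_mul_eq_mul_left (dedekindPsi_pos (NeZero.ne L)) h1

/-- The degree of the second map from level `q M'` to level `q ^ 2 M'`. -/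
theorem finrankAlong_top_q (hq' : ¬ q ∣ M') {L M : ℕ} [NeZero L] [NeZero M] (hL : L = M' * q)
    (hM : M = L * q) (h : L * q ∣ M) : finrankAlong Qbar (degMap Qbar q h) = q := by
  subst hL
  have h1 : M' * q * 1 ∣ M := ⟨q, by rw [hM]; ring⟩
  have h3 : M' * q ∣ M := (mul_one (M' * q)) ▸ h1
  have hcomp : (degMap Qbar q h).comp (alphaMap Qbar M' q) =
      (degMap Qbar 1 h1).comp (betaMap Qbar M' q) :=
    AlgHom.ext fun u => Subtype.ext (by
      rw [AlgHom.comp_apply, AlgHom.comp_apply, coe_degMap, coe_degMap, coe_alphaMap, coe_betaMap,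
        qExpand_one_apply])
  have h2 := congrArg (finrankAlong Qbar) hcomp
  rw [finrankAlong_comp, finrankAlong_comp, finrankAlong_alphaMap Qbar M' q hq.out hq',
    finrankAlong_beta' hq', finrankAlong_top_one rfl hM h1] at h2
  exact Nat.eq_of_mul_eq_mul_left (Nat.succ_pos q) h2

end FLTAgent.LevelSq
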