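import Fermat.Agent.LevelSq.LevelK

/-!
# The three branches at level `q ^ 2 N`

`branchPair b` is a pair of class `b`: `(0, ∞)`, `(0, 1)`, `(∞, 0)`.  `branchVal b` and
`branchRes b` are the Gauss valuation and reduction pulled back by `embK (branchPair b)`.  Pairs of
one class give the same valuation and the same reduction.
-/

set_option autoImplicit false
set_option linter.style.haveILetI false
set_option linter.unusedSectionVars false
set_option synthInstance.maxHeartbeats 100000

noncomputable section

open ModularCurve AlgebraicCurve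
open FLTAgent.Hecke

namespace FLTAgent.LevelSq

local notation "Qbar" => AlgebraicClosure ℚ

variable {q : ℕ} [hq : Fact q.Prime]

local instance : NeZero q := ⟨hq.out.ne_zero⟩

/-- Representatives of the classes of pairs. -/
def branchPair (b : Fin 3) : RootPair q :=
  if b = 0 then ⟨(some ⟨0, hq.out.pos⟩, none), by simp⟩
  else if b = 1 then ⟨(some ⟨0, hq.out.pos⟩, some ⟨1, hq.out.one_lt⟩), by simp [Fin.ext_iff]⟩
  else ⟨(none, some ⟨0, hq.out.pos⟩), by simp⟩

theorem pairClass_branchPair (b : Fin 3) : pairClass (branchPair (q := q) b) = (b : ℕ) := by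
  fin_cases b <;> simp [branchPair, pairClass]

theorem pairClass_lt_three (p : RootPair q) : pairClass p < 3 := by
  unfold pairClass
  split_ifs <;> norm_num

variable {A : ValuationSubring Qbar} {N : ℕ} [NeZero N] (hA : A.LiesOverPrime q) (hN : ¬ q ∣ N)
  {ζ : Qbarˣ} (hζ : IsPrimitiveRoot (ζ : Qbar) q)

/-- The valuation attached to a pair. -/
def pairVal (p : RootPair q) : ValuationSubring (MF (urField A) (q ^ 2 * N)) :=
  gaussVal hA (embK (A := A) hN hζ p) (embK_mem_fracRam hA hN hζ p)

/-- The reduction attached to a pair. -/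
def pairRes (p : RootPair q) :
    pairVal hA hN hζ p →+* LaurentSeries (IsLocalRing.ResidueField A) :=
  gaussRes hA (embK (A := A) hN hζ p) (embK_mem_fracRam hA hN hζ p)

theorem mem_pairVal {p : RootPair q} {z : MF (urField A) (q ^ 2 * N)} :
    z ∈ pairVal hA hN hζ p ↔
      ∃ r, Semistable.SRed (IsLocalRing.residue A) (embK (A := A) hN hζ p z) r := Iff.rfl

theorem mem_nonunits_pairVal {p : RootPair q} {z : MF (urField A) (q ^ 2 * N)} :
    z ∈ (pairVal hA hN hζ p).nonunits ↔
      Semistable.SRed (IsLocalRing.residue A) (embK (A := A) hN hζ p z) 0 :=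
  mem_nonunits_gaussVal hA _ _

theorem pairRes_eq {p : RootPair q} {z : pairVal hA hN hζ p}
    {r : LaurentSeries (IsLocalRing.ResidueField A)}
    (h : Semistable.SRed (IsLocalRing.residue A) (embK (A := A) hN hζ p z) r) :
    pairRes hA hN hζ p z = r := gaussRes_eq hA _ _ h

theorem pairRes_eq_zero (p : RootPair q) (z : pairVal hA hN hζ p) :
    pairRes hA hN hζ p z = 0 ↔
      (z : MF (urField A) (q ^ 2 * N)) ∈ (pairVal hA hN hζ p).nonunits :=
  gaussRes_eq_zero hA _ _ z

include hA in
theorem sRed_of_class {p p' : RootPair q} (h : pairClass p = pairClass p')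
    {z : MF (urField A) (q ^ 2 * N)} {r : LaurentSeries (IsLocalRing.ResidueField A)}
    (hr : Semistable.SRed (IsLocalRing.residue A) (embK (A := A) hN hζ p z) r) :
    Semistable.SRed (IsLocalRing.residue A) (embK (A := A) hN hζ p' z) r := by
  simpa using ((residual_of_class hA hN hζ h z).2 r hr).add hr

/-- Pairs of one class give the same valuation. -/
theorem pairVal_eq_of_class {p p' : RootPair q} (h : pairClass p = pairClass p') :
    pairVal hA hN hζ p = pairVal hA hN hζ p' := by
  ext z
  simp only [mem_pairVal]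
  exact ⟨fun ⟨r, hr⟩ => ⟨r, sRed_of_class hA hN hζ h hr⟩,
    fun ⟨r, hr⟩ => ⟨r, sRed_of_class hA hN hζ h.symm hr⟩⟩

/-- The three branches. -/
def branchVal (b : Fin 3) : ValuationSubring (MF (urField A) (q ^ 2 * N)) :=
  pairVal hA hN hζ (branchPair b)

/-- The reduction on a branch. -/
def branchRes (b : Fin 3) :
    branchVal hA hN hζ b →+* LaurentSeries (IsLocalRing.ResidueField A) :=
  pairRes hA hN hζ (branchPair b)

theorem pairVal_eq_branchVal (p : RootPair q) :
    ∃ b, pairVal hA hN hζ p = branchVal hA hN hζ b :=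
  ⟨⟨pairClass p, pairClass_lt_three p⟩,
    pairVal_eq_of_class hA hN hζ (pairClass_branchPair (q := q) ⟨_, pairClass_lt_three p⟩).symm⟩

end FLTAgent.LevelSq
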