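import Fermat.Agent.GoodRed.Lattice
import Mathlib.RingTheory.Ideal.GoingUp
import Mathlib.FieldTheory.Minpoly.Field
import Mathlib.RingTheory.IntegralClosure.IsIntegralClosure.Basic
import Mathlib.RingTheory.Valuation.LocalSubring

/-!
# Extensions of a valuation to an algebraic extension

Two extensions with the same centre in the integral closure are equal.  A finite family of
extensions is complete as soon as every element lying in all their maximal ideals is a root of a
monic polynomial whose lower coefficients lie in the maximal ideal of the base.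
-/

set_option autoImplicit false
set_option linter.style.haveILetI false
set_option linter.unusedSectionVars false

noncomputable section

open Polynomial

namespace FLTAgent.LevelSq

variable {E L : Type*} [Field E] [Field L] [Algebra E L] [Algebra.IsAlgebraic E L]
  {P : ValuationSubring E}

/-- Integral elements over a valuation subring lie in every extension. -/
theorem mem_of_isIntegral_of_comap_eq {V : ValuationSubring L}
    (hV : V.comap (algebraMap E L) = P) {z : L} (hz : IsIntegral P z) : z ∈ V := by
  subst hV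
  let f : V.comap (algebraMap E L) →+* V :=
    ((algebraMap E L).comp (V.comap (algebraMap E L)).subtype).codRestrict V.toSubring fun x => x.2
  letI : Algebra (V.comap (algebraMap E L)) V := f.toAlgebra
  haveI : IsScalarTower (V.comap (algebraMap E L)) V L :=
    IsScalarTower.of_algebraMap_eq fun x => rfl
  obtain ⟨w, hw⟩ := IsIntegrallyClosed.isIntegral_iff.1 (hz.tower_top (A := V))
  exact hw ▸ w.2

/-- An element of an extension is a quotient of integral elements with unit denominator. -/
theorem exists_integral_div (P : ValuationSubring E) {V : ValuationSubring L} {x : L}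
    (hx : x ∈ V) :
    ∃ b : L, IsIntegral P b ∧ IsIntegral P (b * x) ∧ b ∉ V.nonunits := by
  classical
  have hint : IsIntegral E x := Algebra.IsIntegral.isIntegral x
  set f := minpoly E x with hf
  set N := f.natDegree with hN
  obtain ⟨j, hj, hjP⟩ := GoodRed.exists_max_valuation P (fun i : Fin (N + 1) => f.coeff i)
    (fun h => one_ne_zero (α := E) (by
      have h1 := congrFun h ⟨N, Nat.lt_succ_self _⟩
      simp [hN, (minpoly.monic hint).coeff_natDegree, hf] at h1))
  set a : ℕ → E := fun i => f.coeff i / f.coeff j with ha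
  have haP : ∀ i, a i ∈ P := fun i => by
    by_cases hi : i < N + 1
    · exact hjP ⟨i, hi⟩
    · simp only [ha, coeff_eq_zero_of_natDegree_lt (by omega : f.natDegree < i), zero_div]
      exact zero_mem P
  have hsum : ∑ i ∈ Finset.range (N + 1), algebraMap E L (a i) * x ^ i = 0 := by
    have h := minpoly.aeval E x
    rw [aeval_eq_sum_range] at h
    simp only [Algebra.smul_def] at h
    have h2 := congrArg (algebraMap E L (f.coeff j)⁻¹ * ·) h
    rw [mul_zero] at h2
    rw [← h2, Finset.mul_sum]
    refine Finset.sum_congr rfl fun i _ => ?_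
    simp only [ha]
    rw [← mul_assoc, ← map_mul, div_eq_inv_mul]
  -- the partial sums `∑_{i ≥ k} a i x^(i-k)`
  set c : ℕ → L := fun k => ∑ i ∈ Finset.Icc k N, algebraMap E L (a i) * x ^ (i - k)
  have hc : ∀ k ≤ N, c k = algebraMap E L (a k) + c (k + 1) * x := by
    intro k hk
    simp only [c]
    rw [← Finset.add_sum_Ioc_eq_sum_Icc hk, Nat.sub_self, pow_zero, mul_one,
      ← Finset.Icc_add_one_left_eq_Ioc, Finset.sum_mul]
    congr 1
    refine Finset.sum_congr rfl fun i hi => ?_
    rw [mul_assoc, ← pow_succ, show i - (k + 1) + 1 = i - k by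
      have := (Finset.mem_Icc.1 hi).1; omega]
  letI : Algebra P L := ((algebraMap E L).comp P.subtype).toAlgebra
  have hmemW : ∀ (W : ValuationSubring L), (∀ r : P, algebraMap E L (r : E) ∈ W) → ∀ k ≤ N,
      c k * x ∈ W ∧ c k ∈ W := by
    intro W hW k hk
    have hck : c k * x ∈ W := by
      rcases W.mem_or_inv_mem x with hxW | hxW
      · exact mul_mem (sum_mem fun i _ => mul_mem (hW ⟨_, haP i⟩) (pow_mem hxW _)) hxW
      · rcases eq_or_ne x 0 with rfl | hx0
        · rw [mul_zero]; exact zero_mem W
        -- `c k x ^ k + ∑_{i < k} a i x ^ i = 0`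
        have hsplit : c k * x ^ k = -∑ i ∈ Finset.range k, algebraMap E L (a i) * x ^ i := by
          rw [eq_neg_iff_add_eq_zero, ← hsum, ← Finset.sum_range_add_sum_Ico _ (by omega : k ≤ N + 1),
            add_comm]
          congr 1
          simp only [c]
          rw [Finset.sum_mul, ← Finset.Ico_add_one_right_eq_Icc]
          refine Finset.sum_congr rfl fun i hi => ?_
          rw [mul_assoc, ← pow_add, Nat.sub_add_cancel (Finset.mem_Ico.1 hi).1]
        rcases Nat.eq_zero_or_pos k with rfl | hk0
        · rw [pow_zero, mul_one, Finset.range_zero, Finset.sum_empty, neg_zero] at hsplit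
          rw [hsplit, zero_mul]; exact zero_mem W
        have h2 : c k * x = -∑ i ∈ Finset.range k, algebraMap E L (a i) * x⁻¹ ^ (k - 1 - i) := by
          have hxk : x ^ (k - 1) ≠ 0 := pow_ne_zero _ hx0
          apply mul_right_cancel₀ hxk
          rw [mul_assoc, ← pow_succ', Nat.sub_add_cancel hk0, hsplit, neg_mul, Finset.sum_mul]
          congr 1
          refine Finset.sum_congr rfl fun i hi => ?_
          have hik : i ≤ k - 1 := by have := Finset.mem_range.1 hi; omega
          rw [mul_assoc, inv_pow]
          congr 1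
          rw [← pow_sub_mul_pow x hik, ← mul_assoc, inv_mul_cancel₀ (pow_ne_zero _ hx0), one_mul]
        rw [h2]
        exact neg_mem (sum_mem fun i _ => mul_mem (hW ⟨_, haP i⟩) (pow_mem hxW _))
    refine ⟨hck, ?_⟩
    rcases W.mem_or_inv_mem x with hxW | hxW
    · exact sum_mem fun i _ => mul_mem (hW ⟨_, haP i⟩) (pow_mem hxW _)
    · rcases eq_or_ne x 0 with rfl | hx0
      · exact sum_mem fun i _ => mul_mem (hW ⟨_, haP i⟩) (pow_mem (zero_mem W) _)
      have h3 := mul_mem hck hxW
      rwa [mul_assoc, mul_inv_cancel₀ hx0, mul_one] at h3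
  have hintc : ∀ k ≤ N, IsIntegral P (c k) ∧ IsIntegral P (c k * x) := by
    intro k hk
    have key : ∀ z : L, (∀ W : ValuationSubring L,
        (∀ r : P, algebraMap E L (r : E) ∈ W) → z ∈ W) → IsIntegral P z := by
      intro z hz
      by_contra hni
      obtain ⟨W, hW, hzW⟩ : ∃ W : ValuationSubring L,
          (∀ r : P, algebraMap E L (r : E) ∈ W) ∧ z ∉ W := by
        set R := (algebraMap P L).range
        have hz' : z ∉ (integralClosure R L).toSubring := fun h => hni (by
          obtain ⟨p, hp, hpz⟩ := h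
          obtain ⟨p', hp', -, hm'⟩ := Polynomial.lifts_and_degree_eq_and_monic
            (f := (algebraMap P L).rangeRestrict) (Polynomial.map_surjective _
              (algebraMap P L).rangeRestrict_surjective p) hp
          refine ⟨p', hm', ?_⟩
          rw [← hp', eval₂_map] at hpz
          exact hpz)
        haveI : IsIntegrallyClosedIn (integralClosure R L).toSubring L :=
          inferInstanceAs (IsIntegrallyClosedIn (integralClosure R L) L)
        obtain ⟨W, hW, hzW⟩ := Subring.exists_le_valuationSubring_of_isIntegrallyClosedIn hz'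
        exact ⟨W, fun r => hW (isIntegral_algebraMap (x := (⟨_, ⟨r, rfl⟩⟩ : R))), hzW⟩
      exact hzW (hz W hW)
    exact ⟨key _ fun W hW => (hmemW W hW k hk).2, key _ fun W hW => (hmemW W hW k hk).1⟩
  by_cases hall : ∀ k ≤ N, c k ∈ V.nonunits
  · exfalso
    have hj' : (j : ℕ) ≤ N := Nat.lt_succ_iff.1 j.2
    have h1 : algebraMap E L (a j) = 1 := by rw [ha]; simp [hj]
    have h2 := hc j hj'
    rw [h1] at h2
    have hnext : c ((j : ℕ) + 1) * x ∈ V.nonunits := by
      rcases Nat.lt_or_ge (j : ℕ) N with h | h
      · rw [mul_comm, ← SetLike.mem_coe, ← ValuationSubring.image_maximalIdeal]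
        have h' := hall _ (by omega : (j : ℕ) + 1 ≤ N)
        rw [← SetLike.mem_coe, ← ValuationSubring.image_maximalIdeal] at h'
        obtain ⟨w, hw, hwe⟩ := h'
        exact ⟨⟨x, hx⟩ * w, Ideal.mul_mem_left _ _ hw, congrArg (x * ·) hwe⟩
      · simp only [c, Finset.Icc_eq_empty (by omega : ¬ (j : ℕ) + 1 ≤ N), Finset.sum_empty,
          zero_mul]
        rw [V.mem_nonunits_iff]; simp
    have h3 := hall j hj'
    rw [← SetLike.mem_coe, ← ValuationSubring.image_maximalIdeal] at h3 hnext
    obtain ⟨u, hu, hue⟩ := h3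
    obtain ⟨w, hw, hwe⟩ := hnext
    have h4 : (1 : V) = u - w := Subtype.ext (by
      show (1 : L) = (u : L) - (w : L)
      rw [show (u : L) = c j from hue, show (w : L) = c ((j : ℕ) + 1) * x from hwe, h2]
      ring)
    exact (IsLocalRing.maximalIdeal V).ne_top_iff_one.1 Ideal.IsPrime.ne_top'
      (h4 ▸ sub_mem hu hw)
  · push Not at hall
    obtain ⟨k, hk, hkn⟩ := hall
    exact ⟨c k, (hintc k hk).1, (hintc k hk).2, hkn⟩

theorem le_of_centre_le {V V' : ValuationSubring L}
    (hV' : V'.comap (algebraMap E L) = P)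
    (h : ∀ b : L, IsIntegral P b → b ∈ V'.nonunits → b ∈ V.nonunits) : V ≤ V' := by
  intro x hx
  obtain ⟨b, hb, hbx, hbn⟩ := exists_integral_div P hx
  have hbn' : b ∉ V'.nonunits := fun h' => hbn (h b hb h')
  rw [V'.mem_nonunits_iff_or, not_or, not_not] at hbn'
  have := mul_mem hbn'.2 (mem_of_isIntegral_of_comap_eq hV' hbx)
  rwa [← mul_assoc, inv_mul_cancel₀ hbn'.1, one_mul] at this

/-- Completeness of a family of extensions. -/
theorem exists_eq_of_coeff_criterion {ι : Type*} [Finite ι] {V : ValuationSubring L}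
    (hV : V.comap (algebraMap E L) = P) (W : ι → ValuationSubring L)
    (hW : ∀ i, (W i).comap (algebraMap E L) = P)
    (hz : ∀ z : L, (∀ i, z ∈ (W i).nonunits) → ∃ f : E[X], f.Monic ∧ aeval z f = 0 ∧
      ∀ k < f.natDegree, f.coeff k ∈ P.nonunits) :
    ∃ i, V = W i := by
  classical
  haveI := Fintype.ofFinite ι
  letI : Algebra P L := ((algebraMap E L).comp P.subtype).toAlgebra
  set R := integralClosure P L
  have hRV : ∀ (U : ValuationSubring L), U.comap (algebraMap E L) = P → ∀ z : R, (z : L) ∈ U :=
    fun U hU z => mem_of_isIntegral_of_comap_eq hU z.2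
  let cen : ∀ U : ValuationSubring L, U.comap (algebraMap E L) = P → Ideal R := fun U hU =>
    (IsLocalRing.maximalIdeal U).comap (R.val.toRingHom.codRestrict U.toSubring (hRV U hU))
  have hmem : ∀ U hU (z : R), z ∈ cen U hU ↔ (z : L) ∈ U.nonunits := fun U hU z => by
    rw [← SetLike.mem_coe (p := U.nonunits), ← ValuationSubring.image_maximalIdeal]
    exact ⟨fun h => ⟨_, h, rfl⟩, fun ⟨w, hw, hwe⟩ => by
      rw [Ideal.mem_comap]
      convert hw
      exact Subtype.ext hwe.symm⟩
  have hprime : ∀ U hU, (cen U hU).IsPrime := fun U hU => Ideal.IsPrime.comap _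
  have hmax : ∀ U hU, (cen U hU).IsMaximal := fun U hU => by
    haveI := hprime U hU
    refine Ideal.isMaximal_of_isIntegral_of_isMaximal_comap (R := P) (cen U hU) ?_
    convert IsLocalRing.maximalIdeal.isMaximal P
    ext r
    rw [Ideal.mem_comap, hmem U hU]
    show algebraMap E L (r : E) ∈ U.nonunits ↔ _
    rw [IsLocalRing.mem_maximalIdeal, mem_nonunits_iff, U.mem_nonunits_iff_or]
    subst hU
    constructor
    · rintro (h0 | h) ⟨u, rfl⟩
      · exact u.ne_zero (Subtype.ext ((algebraMap E L).injective (by simp at h0)))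
      · refine h ?_
        have h2 : algebraMap E L ((u⁻¹ : (U.comap (algebraMap E L))ˣ) : U.comap (algebraMap E L)) =
            (algebraMap E L ((u : U.comap (algebraMap E L)) : E))⁻¹ := eq_inv_of_mul_eq_one_left (by
          rw [← map_mul, ← map_one (algebraMap E L)]
          exact congrArg (fun w : U.comap (algebraMap E L) => algebraMap E L (w : E)) u.inv_mul)
        rw [← h2]
        exact ((u⁻¹ : (U.comap (algebraMap E L))ˣ) : U.comap (algebraMap E L)).2
    · intro hnu
      by_contra hcon
      push Not at hcon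
      obtain ⟨h0, hinv⟩ := hcon
      have hr0 : (r : E) ≠ 0 := fun h => h0 (by rw [h, map_zero])
      refine hnu ⟨⟨r, ⟨(r : E)⁻¹, ?_⟩, Subtype.ext (mul_inv_cancel₀ hr0),
        Subtype.ext (inv_mul_cancel₀ hr0)⟩, rfl⟩
      show algebraMap E L (r : E)⁻¹ ∈ U
      rwa [map_inv₀]
  by_contra hne
  push Not at hne
  have hdiff : ∀ i, ¬ cen (W i) (hW i) ≤ cen V hV := by
    intro i hle
    have heq := (hmax _ (hW i)).eq_of_le (hprime V hV).ne_top hle
    refine hne i (le_antisymm (le_of_centre_le (hW i) fun b hb hbn => ?_)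
      (le_of_centre_le hV fun b hb hbn => ?_))
    · exact (hmem V hV ⟨b, hb⟩).1 (heq ▸ (hmem (W i) (hW i) ⟨b, hb⟩).2 hbn)
    · exact (hmem (W i) (hW i) ⟨b, hb⟩).1 (heq.symm ▸ (hmem V hV ⟨b, hb⟩).2 hbn)
  choose g hg hgV using fun i => SetLike.not_le_iff_exists.1 (hdiff i)
  set z := ∏ i, g i
  have hzn : z ∉ cen V hV := fun h => by
    obtain ⟨i, -, hi⟩ := (hprime V hV).prod_mem_iff.1 h
    exact hgV i hi
  obtain ⟨f, hf, hfz, hco⟩ := hz (z : L) fun i => (hmem (W i) (hW i) z).1
    (Ideal.prod_mem (I := cen (W i) (hW i)) (Finset.mem_univ i) (hg i))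
  refine hzn ((hprime V hV).mem_of_pow_mem f.natDegree ?_)
  rw [hmem V hV, SubmonoidClass.coe_pow]
  have hsum := hfz
  rw [aeval_eq_sum_range, Finset.sum_range_succ, hf.coeff_natDegree, one_smul] at hsum
  rw [eq_neg_of_add_eq_zero_right hsum]
  have hzV : (z : L) ∈ V := hRV V hV z
  have hterm : ∀ k < f.natDegree, f.coeff k • (z : L) ^ k ∈ V.nonunits := fun k hk => by
    have h1 := hco k hk
    have h2 : algebraMap E L (f.coeff k) ∈ V.nonunits := by
      rw [← hV, ValuationSubring.mem_nonunits_iff_or, ValuationSubring.mem_comap, map_inv₀] at h1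
      rw [ValuationSubring.mem_nonunits_iff_or]
      exact h1.imp (fun h => by rw [h, map_zero]) id
    rw [← SetLike.mem_coe, ← ValuationSubring.image_maximalIdeal] at h2 ⊢
    obtain ⟨w, hw, hwe⟩ := h2
    exact ⟨w * ⟨(z : L) ^ k, pow_mem hzV k⟩, Ideal.mul_mem_right _ _ hw, by
      rw [Algebra.smul_def, ← hwe]; rfl⟩
  rw [← SetLike.mem_coe, ← ValuationSubring.image_maximalIdeal]
  choose! w hw hwe using fun k (hk : k ∈ Finset.range f.natDegree) => by
    have := hterm k (Finset.mem_range.1 hk)
    rwa [← SetLike.mem_coe, ← ValuationSubring.image_maximalIdeal] at this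
  refine ⟨-∑ k ∈ Finset.range f.natDegree, w k, neg_mem ((IsLocalRing.maximalIdeal V).sum_mem hw), ?_⟩
  show ((-∑ k ∈ Finset.range f.natDegree, w k : V) : L) = _
  push_cast
  exact congrArg Neg.neg (Finset.sum_congr rfl hwe)

end FLTAgent.LevelSq
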