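import Fermat.Agent.LevelSq.LevelK
import Fermat.Agent.ModPoly.Rational

/-!
# The field generated by all conjugate expansions

`fieldL` is generated over the inertia field by the conjugates of `j` and `j_N`.  It contains the
images of all `embK p`, lies in `fracRam q A`, is finite over `K (j (t ^ q))`, and every
homomorphism into an algebraically closed field over `t ^ q` takes values in series and permutes the
conjugates.
-/

set_option autoImplicit false
set_option linter.style.haveILetI false
set_option linter.unusedSectionVars false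
set_option synthInstance.maxHeartbeats 100000

noncomputable section

open ModularCurve AlgebraicCurve Polynomial
open FLTAgent.Hecke FLTAgent.Igusa FLTAgent.ModPoly FLTAgent.Semistable

namespace FLTAgent.LevelSq

local notation "Qbar" => AlgebraicClosure ℚ

section Rel

variable {K L T : Type*} [Field K] [Algebra ℚ K] [Field L] [Algebra ℚ L] [Algebra K L]
  [CommRing T] [Algebra K T] [Algebra L T] [IsScalarTower K L T]

/-- The relation does not depend on the coefficient field. -/
theorem phiRel_iff_of_tower (n : ℕ) [NeZero n] (x y : T) :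
    PhiRel (L := K) n x y ↔ PhiRel (L := L) n x y := by
  have h : ev2 x y (phiK n L) = ev2 x y (phiK n K) := by
    rw [← mapXY_phiK n (algebraMap K L), ev2_apply, ev2_apply, mapXY, coe_mapRingHom, eval₂_map]
    congr 1
    refine Polynomial.ringHom_ext (fun a => ?_) ?_
    · simp only [RingHom.comp_apply, coe_mapRingHom, map_C, RingHom.coe_coe, aeval_C]
      exact (IsScalarTower.algebraMap_apply K L T a).symm
    · simp
  rw [PhiRel, PhiRel, h]

end Rel

/-- A root of `Φ_n (x, ·)` is integral over every field containing `x`. -/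
theorem isIntegral_of_phiRel {K E T : Type*} [Field K] [Algebra ℚ K] [Field E] [Algebra K E]
    [CommRing T] [Algebra K T] [Algebra E T] [IsScalarTower K E T] (n : ℕ) [NeZero n] (x : E)
    {y : T} (h : PhiRel (L := K) n (algebraMap E T x) y) : IsIntegral E y := by
  refine ⟨(phiK n K).map ((aeval x : K[X] →ₐ[K] E) : K[X] →+* E), (phiK_monic n K).map _, ?_⟩
  rw [eval₂_map]
  refine Eq.trans ?_ h
  rw [ev2_apply]
  congr 1
  refine Polynomial.ringHom_ext (fun a => ?_) ?_
  · simp only [RingHom.comp_apply, RingHom.coe_coe, aeval_C]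
    exact (IsScalarTower.algebraMap_apply K E T a).symm
  · simp

/-- A root of `Φ_n (y, ·)` is integral when `y` is. -/
theorem isIntegral_of_phiRel_trans {K E T : Type*} [Field K] [Algebra ℚ K] [Field E] [Algebra K E]
    [Field T] [Algebra K T] [Algebra E T] [IsScalarTower K E T] (n : ℕ) [NeZero n] {y z : T}
    (hy : IsIntegral E y) (h : PhiRel (L := K) n y z) : IsIntegral E z := by
  haveI : FiniteDimensional E (IntermediateField.adjoin E {y}) :=
    IntermediateField.adjoin.finiteDimensional hy
  haveI : IsScalarTower K (IntermediateField.adjoin E {y}) T :=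
    IsScalarTower.of_algebraMap_eq fun _ => rfl
  exact isIntegral_trans (A := IntermediateField.adjoin E {y}) z
    (isIntegral_of_phiRel (K := K) n
      (⟨y, IntermediateField.mem_adjoin_simple_self E y⟩ : IntermediateField.adjoin E {y}) h)

/-- Finitely many integral generators give a finite extension of `K (x)`. -/
theorem finiteDimensional_of_generators {K F : Type*} [Field K] [Field F] [Algebra K F] (x : F)
    (S : Set F) [Finite S]
    (hint : ∀ y ∈ S, IsIntegral (IntermediateField.adjoin K {x}) y)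
    (hgen : IntermediateField.adjoin K S = ⊤) :
    FiniteDimensional (IntermediateField.adjoin K {x}) F := by
  haveI : FiniteDimensional (IntermediateField.adjoin K {x})
      (IntermediateField.adjoin (IntermediateField.adjoin K {x}) S) :=
    IntermediateField.finiteDimensional_adjoin hint
  have htop : IntermediateField.adjoin (IntermediateField.adjoin K {x}) S = ⊤ := by
    refine eq_top_iff.2 fun z _ => ?_
    have hle : IntermediateField.adjoin K S ≤
        (IntermediateField.adjoin (IntermediateField.adjoin K {x}) S).restrictScalars K :=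
      IntermediateField.adjoin_le_iff.2 (IntermediateField.subset_adjoin _ _)
    exact hle (hgen.symm ▸ IntermediateField.mem_top)
  exact Module.Finite.equiv
    ((IntermediateField.equivOfEq htop).trans IntermediateField.topEquiv).toLinearEquiv

section Roots

variable {L T : Type*} [Field L] [Algebra ℚ L] [IsAlgClosed L] [Field T] [Algebra L T]

/-- The roots of `Φ_n (f (j_n), ·)` for an algebra map `f` out of series. -/
theorem phiRel_map_jd_iff (n : ℕ) [NeZero n] {ζ : Lˣ} (hζ : IsPrimitiveRoot (ζ : L) n)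
    (f : LaurentSeries L →ₐ[L] T) {z : T} :
    PhiRel (L := L) n (f (jd L n)) z ↔ ∃ p : HIdx n, z = f (jqConj L ζ p) := by
  have hroot : (cyclotomic n L).IsRoot (ζ : L) :=
    hζ.isRoot_cyclotomic (Nat.pos_of_ne_zero (NeZero.ne n))
  have e : ev2 (f (jd L n)) z (phiK n L) = ((phiRoots n L).map f.toRingHom).eval z := by
    rw [phiRoots, Polynomial.map_map, eval_map, ev2_apply]
    congr 1
    refine Polynomial.ringHom_ext (fun a => ?_) ?_
    · simp only [RingHom.comp_apply, evalL, RingHom.coe_coe, aeval_C, AlgHom.toRingHom_eq_coe]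
      exact (f.commutes a).symm
    · simp only [RingHom.comp_apply, evalL, RingHom.coe_coe, aeval_X, AlgHom.toRingHom_eq_coe]
  rw [PhiRel, e, phiRoots_eq_conjProd n ζ hroot, conjProd, Polynomial.map_prod, eval_prod,
    Finset.prod_eq_zero_iff]
  simp [sub_eq_zero]

end Roots

variable {q : ℕ} [hq : Fact q.Prime]

local instance : NeZero q := ⟨hq.out.ne_zero⟩

/-- The conjugates of `j` and `j_N`. -/
def conjGens (q : ℕ) [NeZero q] (N : ℕ) [NeZero N] (ζ : Qbarˣ) : Set (LaurentSeries Qbar) :=
  Set.range (fun o : Option (Fin q) => rootMap ζ o (jqModC Qbar)) ∪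
    Set.range (fun o : Option (Fin q) => rootMap ζ o (jd Qbar N))

/-- The field generated by the conjugates. -/
def fieldL (q : ℕ) [NeZero q] (A : ValuationSubring Qbar) (N : ℕ) [NeZero N] (ζ : Qbarˣ) :
    IntermediateField (urField A) (LaurentSeries Qbar) :=
  IntermediateField.adjoin (urField A) (conjGens q N ζ)

variable {A : ValuationSubring Qbar} {N : ℕ} [NeZero N] (hA : A.LiesOverPrime q) (hN : ¬ q ∣ N)
  {ζ : Qbarˣ} (hζ : IsPrimitiveRoot (ζ : Qbar) q)

theorem urAlgebraMap_series (c : urField A) :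
    algebraMap (urField A) (LaurentSeries Qbar) c =
      algebraMap Qbar (LaurentSeries Qbar) (c : Qbar) := rfl

theorem rootMap_j_mem_fieldL (o : Option (Fin q)) :
    rootMap ζ o (jqModC Qbar) ∈ fieldL q A N ζ :=
  IntermediateField.subset_adjoin _ _ (Or.inl ⟨o, rfl⟩)

theorem rootMap_jd_mem_fieldL (o : Option (Fin q)) :
    rootMap ζ o (jd Qbar N) ∈ fieldL q A N ζ :=
  IntermediateField.subset_adjoin _ _ (Or.inr ⟨o, rfl⟩)

variable (A N ζ) in
/-- A conjugate of `j`. -/
def conjJ (o : Option (Fin q)) : fieldL q A N ζ := ⟨_, rootMap_j_mem_fieldL o⟩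

variable (A N ζ) in
/-- A conjugate of `j_N`. -/
def conjN (o : Option (Fin q)) : fieldL q A N ζ := ⟨_, rootMap_jd_mem_fieldL o⟩

theorem coe_conjJ (o : Option (Fin q)) :
    (conjJ A N ζ o : LaurentSeries Qbar) = rootMap ζ o (jqModC Qbar) := rfl

theorem coe_conjN (o : Option (Fin q)) :
    (conjN A N ζ o : LaurentSeries Qbar) = rootMap ζ o (jd Qbar N) := rfl

theorem embK_mem_fieldL (p : RootPair q) (x : MF (urField A) (q ^ 2 * N)) :
    embK (A := A) hN hζ p x ∈ fieldL q A N ζ := by
  have hle : MF (urField A) (q ^ 2 * N) ≤ (IntermediateField.adjoin (urField A)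
      ({jMF (urField A) (q ^ 2 * N), ⟨jd (urField A) (q ^ 2 * N), jd_mem _ dvd_rfl⟩} :
        Set (MF (urField A) (q ^ 2 * N)))).map (MF (urField A) (q ^ 2 * N)).val := by
    conv_lhs => rw [(degreeFacts (urField A)).gen (q ^ 2 * N)]
    refine IntermediateField.adjoin_le_iff.2 ?_
    rintro z (rfl | rfl)
    · exact ⟨jMF (urField A) _, IntermediateField.subset_adjoin _ _ (Set.mem_insert _ _), rfl⟩
    · exact ⟨_, IntermediateField.subset_adjoin _ _ (Set.mem_insert_of_mem _ rfl), rfl⟩
  obtain ⟨y, hy, hyx⟩ := hle x.2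
  obtain rfl : y = x := Subtype.ext hyx
  clear hyx
  induction hy using IntermediateField.adjoin_induction with
  | mem z hz =>
    rcases hz with rfl | rfl
    · rw [embK_jMF]; exact rootMap_j_mem_fieldL _
    · rw [embK_jd]; exact rootMap_jd_mem_fieldL _
  | algebraMap c =>
    rw [embK_algebraMap, ← urAlgebraMap_series]
    exact (fieldL q A N ζ).algebraMap_mem c
  | add a b _ _ ha hb => rw [map_add]; exact add_mem ha hb
  | inv a _ ha => rw [map_inv₀]; exact inv_mem ha
  | mul a b _ _ ha hb => rw [map_mul]; exact mul_mem ha hb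

include hA hζ in
theorem fieldL_le_fracRam {y : LaurentSeries Qbar} (hy : y ∈ fieldL q A N ζ) :
    y ∈ fracRam q A := by
  induction hy using IntermediateField.adjoin_induction with
  | mem z hz =>
    rcases hz with ⟨o, rfl⟩ | ⟨o, rfl⟩
    · exact rootMap_mem_fracRam hA hζ jqModC_mem_fracRam o
    · exact rootMap_mem_fracRam hA hζ (qExpand_mem_fracRam jqModC_mem_fracRam N) o
  | algebraMap c =>
    rw [urAlgebraMap_series]
    exact algebraMap_mem_fracRam (urField_le_ramField q A c.2)
  | add a b _ _ ha hb => exact add_mem ha hb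
  | inv a _ ha => exact inv_mem ha
  | mul a b _ _ ha hb => exact mul_mem ha hb

/-- The expansions as maps into `fieldL`. -/
def iotaL (p : RootPair q) : MF (urField A) (q ^ 2 * N) →ₐ[urField A] fieldL q A N ζ where
  toRingHom := (embK (A := A) hN hζ p).codRestrict (fieldL q A N ζ).toSubfield.toSubring
    (embK_mem_fieldL hN hζ p)
  commutes' c := Subtype.ext (embK_algebraMap hN hζ p c)

theorem coe_iotaL (p : RootPair q) (x : MF (urField A) (q ^ 2 * N)) :
    (iotaL (A := A) hN hζ p x : LaurentSeries Qbar) = embK (A := A) hN hζ p x := rfl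

/-- A pair of each first coordinate. -/
theorem exists_pair_fst (o : Option (Fin q)) : ∃ p : RootPair q, p.1.1 = o := by
  rcases o with _ | i
  · exact ⟨⟨(none, some ⟨0, hq.out.pos⟩), by simp⟩, rfl⟩
  · exact ⟨⟨(some i, none), by simp⟩, rfl⟩

/-- A pair of each second coordinate. -/
theorem exists_pair_snd (o : Option (Fin q)) : ∃ p : RootPair q, p.1.2 = o := by
  rcases o with _ | i
  · exact ⟨⟨(some ⟨0, hq.out.pos⟩, none), by simp⟩, rfl⟩
  · exact ⟨⟨(none, some i), by simp⟩, rfl⟩

/-- `j (t ^ q)` in `fieldL`. -/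
def phiL (hN : ¬ q ∣ N) (hζ : IsPrimitiveRoot (ζ : Qbar) q) : fieldL q A N ζ :=
  iotaL hN hζ (exists_pair_fst (none : Option (Fin q))).choose
    (lev (urField A) q N 1 (jMF (urField A) N))

theorem coe_phiL : (phiL (A := A) hN hζ : LaurentSeries Qbar) = jd Qbar q := by
  rw [phiL, coe_iotaL, embK_lev_one, toSeriesQbar_apply, jMF_coe, coeffMap_jqModC]

theorem iotaL_phi (p : RootPair q) :
    iotaL (A := A) hN hζ p (lev (urField A) q N 1 (jMF (urField A) N)) = phiL (A := A) hN hζ :=
  Subtype.ext (by rw [coe_iotaL, phiL, coe_iotaL, embK_lev_one, embK_lev_one])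

include hζ in
theorem phiRel_gens (o : Option (Fin q)) :
    PhiRel (L := urField A) q (jd Qbar q) (rootMap ζ o (jqModC Qbar)) ∧
    PhiRel (L := urField A) q (qExpand Qbar q (jd Qbar N)) (rootMap ζ o (jd Qbar N)) ∧
    PhiRel (L := urField A) N (rootMap ζ o (jqModC Qbar)) (rootMap ζ o (jd Qbar N)) :=
  ⟨(phiRel_iff_of_tower (L := Qbar) q _ _).2
      ((phiRel_rootJ_iff' hq.out hζ).2 ⟨o, rootMap_jqModC ζ o⟩),
    (phiRel_iff_of_tower (L := Qbar) q _ _).2 (phiRel_rootMap_jd hq.out hζ N o),
    (phiRel_iff_of_tower (L := Qbar) N _ _).2 ((phiRel_jqModC N).map (rootMap ζ o))⟩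

theorem transcendental_phiL : Transcendental (urField A) (phiL (A := A) hN hζ) := by
  rw [← transcendental_algebraMap_iff (A := LaurentSeries Qbar) Subtype.val_injective]
  show Transcendental (urField A) (phiL (A := A) hN hζ : LaurentSeries Qbar)
  rw [coe_phiL]
  intro halg
  haveI : Algebra.IsAlgebraic ℚ Qbar := AlgebraicClosure.isAlgebraic ℚ
  exact transcendental_jd Qbar q (halg.extendScalars (algebraMap (urField A) Qbar).injective)

/-- `fieldL` is finite over `K (j (t ^ q))`. -/
theorem finiteDimensional_fieldL :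
    FiniteDimensional (IntermediateField.adjoin (urField A) {phiL (A := A) hN hζ})
      (fieldL q A N ζ) := by
  classical
  set x := phiL (A := A) hN hζ
  set E := IntermediateField.adjoin (urField A) {x}
  let xE : E := ⟨x, IntermediateField.mem_adjoin_simple_self _ x⟩
  let gy : Option (Fin q) → fieldL q A N ζ := conjJ A N ζ
  let gz : Option (Fin q) → fieldL q A N ζ := conjN A N ζ
  let incl := (fieldL q A N ζ).val
  have hy : ∀ o, IsIntegral E (gy o) := fun o => by
    refine isIntegral_of_phiRel q xE (PhiRel.of_map incl Subtype.val_injective ?_)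
    show PhiRel (L := urField A) q (x : LaurentSeries Qbar) (rootMap ζ o (jqModC Qbar))
    rw [coe_phiL]
    exact (phiRel_gens (A := A) (N := N) hζ o).1
  have hz : ∀ o, IsIntegral E (gz o) := fun o =>
    isIntegral_of_phiRel_trans (K := urField A) N (hy o)
      (PhiRel.of_map incl Subtype.val_injective (phiRel_gens (A := A) (N := N) hζ o).2.2)
  haveI : Finite (Set.range gy ∪ Set.range gz : Set (fieldL q A N ζ)) :=
    ((Set.finite_range gy).union (Set.finite_range gz)).to_subtype
  refine finiteDimensional_of_generators x (Set.range gy ∪ Set.range gz) ?_ ?_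
  · rintro w (⟨o, rfl⟩ | ⟨o, rfl⟩)
    · exact hy o
    · exact hz o
  · refine eq_top_iff.2 fun z _ => ?_
    have hle : fieldL q A N ζ ≤
        (IntermediateField.adjoin (urField A) (Set.range gy ∪ Set.range gz)).map incl := by
      refine IntermediateField.adjoin_le_iff.2 ?_
      rintro w (⟨o, rfl⟩ | ⟨o, rfl⟩)
      · exact ⟨gy o, IntermediateField.subset_adjoin _ _ (Or.inl ⟨o, rfl⟩), rfl⟩
      · exact ⟨gz o, IntermediateField.subset_adjoin _ _ (Or.inr ⟨o, rfl⟩), rfl⟩
    obtain ⟨w, hw, hwz⟩ := hle z.2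
    rwa [← Subtype.ext hwz]

section Conj

variable {T : Type*} [Field T] [Algebra Qbar T] (e : LaurentSeries Qbar →ₐ[Qbar] T)
  (ψ : fieldL q A N ζ →+* T)

theorem phiRel_ringHom
    (hc : ∀ c : urField A, ψ (algebraMap (urField A) (fieldL q A N ζ) c) =
      algebraMap Qbar T (c : Qbar))
    {n : ℕ} [NeZero n] {x y : fieldL q A N ζ}
    (h : PhiRel (L := urField A) n (x : LaurentSeries Qbar) (y : LaurentSeries Qbar)) :
    PhiRel (L := Qbar) n (ψ x) (ψ y) := by
  let ψ' : fieldL q A N ζ →ₐ[urField A] T := { ψ with commutes' := hc }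
  exact (phiRel_iff_of_tower (K := urField A) (L := Qbar) n _ _).1
    ((PhiRel.of_map (fieldL q A N ζ).val Subtype.val_injective h).map ψ')

include hζ in
/-- A homomorphism over `j (t ^ q) ↦ e (j (t ^ (q d)))` sends the conjugates of `j` to such. -/
theorem exists_conj_j
    (hc : ∀ c : urField A, ψ (algebraMap (urField A) (fieldL q A N ζ) c) =
      algebraMap Qbar T (c : Qbar))
    (d : ℕ) [NeZero d] (hφ : ψ (phiL hN hζ) = e (qExpand Qbar d (jd Qbar q))) (o : Option (Fin q)) :
    ∃ o' : Option (Fin q), ψ (conjJ A N ζ o) = e (qExpand Qbar d (rootMap ζ o' (jqModC Qbar))) := by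
  have h := phiRel_ringHom ψ hc (n := q) (x := phiL hN hζ)
    (y := (conjJ A N ζ o)) (by rw [coe_phiL]; exact (phiRel_gens (A := A) (N := N) hζ o).1)
  rw [hφ] at h
  obtain ⟨p, hp⟩ := (phiRel_map_jd_iff q hζ (e.comp (qExpandAlg Qbar d))).1 h
  obtain ⟨o', ho'⟩ := exists_rootJ_eq hq.out ζ p
  exact ⟨o', by rw [rootMap_jqModC, ← ho']; exact hp⟩

include hN hζ in
/-- Over the middle level `N`, a homomorphism permutes the conjugates. -/
theorem exists_conj
    (hc : ∀ c : urField A, ψ (algebraMap (urField A) (fieldL q A N ζ) c) =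
      algebraMap Qbar T (c : Qbar))
    (hφ : ψ (phiL hN hζ) = e (jd Qbar q))
    (hψN : ∀ y : fieldL q A N ζ, (y : LaurentSeries Qbar) = qExpand Qbar q (jd Qbar N) →
      ψ y = e (qExpand Qbar q (jd Qbar N)))
    (o : Option (Fin q)) :
    ∃ o' : Option (Fin q), ψ (conjJ A N ζ o) = e (rootMap ζ o' (jqModC Qbar)) ∧
      ψ (conjN A N ζ o) = e (rootMap ζ o' (jd Qbar N)) := by
  obtain ⟨o', ho'⟩ := exists_conj_j hN hζ e ψ hc 1 (by rw [qExpand_one_apply]; exact hφ) o
  rw [qExpand_one_apply] at ho'
  refine ⟨o', ho', ?_⟩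
  have hmem : qExpand Qbar q (jd Qbar N) ∈ fieldL q A N ζ := by
    have h := embK_mem_fieldL (A := A) hN hζ (exists_pair_fst (none : Option (Fin q))).choose
      (lev (urField A) q N 1 ⟨jd (urField A) N, jd_mem _ dvd_rfl⟩)
    rwa [embK_lev_one, toSeriesQbar_jd A N N dvd_rfl] at h
  have h1 := phiRel_ringHom ψ hc (n := q) (x := ⟨_, hmem⟩) (y := (conjN A N ζ o))
    (phiRel_gens (A := A) (N := N) hζ o).2.1
  rw [hψN ⟨_, hmem⟩ rfl, qExpand_jd_comm (q := q) N] at h1
  obtain ⟨p, hp⟩ := (phiRel_map_jd_iff q hζ (e.comp (qExpandAlg Qbar N))).1 h1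
  rw [hp]
  refine congrArg e ?_
  show qExpand Qbar N (jqConj Qbar ζ p) = _
  refine eq_rootMap_jd hq.out hζ hN o' ?_ ?_
  · refine PhiRel.of_map e e.toRingHom.injective ?_
    rw [qExpand_jd_comm (q := q) N]
    exact (phiRel_map_jd_iff q hζ (e.comp (qExpandAlg Qbar N))).2 ⟨p, rfl⟩
  · refine PhiRel.of_map e e.toRingHom.injective ?_
    have h2 := phiRel_ringHom ψ hc (n := N) (x := (conjJ A N ζ o))
      (y := (conjN A N ζ o)) (phiRel_gens (A := A) (N := N) hζ o).2.2
    rw [ho', hp, rootMap_jqModC] at h2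
    exact h2

end Conj

end FLTAgent.LevelSq
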