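import Fermat.Agent.LevelSq.BaseRing
import Fermat.Agent.LevelSq.BranchVal
import Fermat.Agent.LevelSq.Extensions
import Fermat.Agent.LevelSq.GaloisField

/-!
# The vertical valuations of the field of all conjugates

A valuation subring of `fieldL` extending the Gauss valuation of `urRing A [j (t ^ q)]` is the
Gauss valuation pulled back by a conjugation: a homomorphism into series over the middle level
permuting the conjugates of `j` and `j_N`.
-/

set_option autoImplicit false
set_option linter.style.haveILetI false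
set_option linter.unusedSectionVars false
set_option synthInstance.maxHeartbeats 100000

noncomputable section

open ModularCurve AlgebraicCurve Polynomial
open FLTAgent.Hecke FLTAgent.Igusa
open FLTAgent.Semistable (SRed PhiRel phiRel_jqModC)

namespace FLTAgent.LevelSq

local notation "Qbar" => AlgebraicClosure ℚ

/-- Extension of a valuation subring along a homomorphism of fields. -/
theorem exists_comap_eq_of_ringHom {F L : Type*} [Field F] [Field L] (f : F →+* L)
    (P : ValuationSubring F) : ∃ V : ValuationSubring L, V.comap f = P := by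
  set g : P →+* (f.comp P.subtype).range := (f.comp P.subtype).rangeRestrict
  have hg : Function.Injective g := fun a b h =>
    Subtype.ext (f.injective (congrArg Subtype.val h))
  have hne : (IsLocalRing.maximalIdeal P).map g ≠ ⊤ := by
    intro h
    obtain ⟨x, hx, hx1⟩ := (Ideal.mem_map_iff_of_surjective g
      (f.comp P.subtype).rangeRestrict_surjective).1 ((Ideal.eq_top_iff_one _).1 h)
    exact (IsLocalRing.maximalIdeal P).ne_top_iff_one.1 Ideal.IsPrime.ne_top'
      (hg (hx1.trans (map_one g).symm) ▸ hx)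
  obtain ⟨V, hV, hnu⟩ := Ideal.image_subset_nonunits_valuationSubring _ hne
  refine ⟨V, le_antisymm (fun x hx => ?_) fun x hx => hV ⟨⟨x, hx⟩, rfl⟩⟩
  by_contra hxP
  have hx0 : x ≠ 0 := fun h => hxP (h ▸ zero_mem P)
  have hxn : x⁻¹ ∈ P.nonunits := by
    rw [ValuationSubring.inv_mem_nonunits_iff]; exact Or.inr hxP
  rw [← SetLike.mem_coe, ← ValuationSubring.image_maximalIdeal] at hxn
  obtain ⟨u, hu, hue⟩ := hxn
  have h1 : f x⁻¹ ∈ V.nonunits := hnu ⟨g u, Ideal.mem_map_of_mem g hu, congrArg f hue⟩
  rw [map_inv₀, ValuationSubring.inv_mem_nonunits_iff] at h1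
  rcases h1 with h | h
  · exact hx0 (f.injective (h.trans (map_zero f).symm))
  · exact h hx

/-- A product of `X - y` with all `y` reducing to zero reduces to a power of `X`. -/
theorem sRed_coeff_prod {L k : Type*} [Field L] [Field k] {A : ValuationSubring L} {π : A →+* k}
    (s : Multiset (LaurentSeries L)) (h : ∀ y ∈ s, SRed π y 0) :
    ∀ i, SRed π ((s.map fun y => X - C y).prod.coeff i) (if i = s.card then 1 else 0) := by
  induction s using Multiset.induction with
  | empty =>
    intro i
    rw [Multiset.map_zero, Multiset.prod_zero, Multiset.card_zero, coeff_one]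
    split_ifs
    · exact Semistable.sRed_one
    · exact Semistable.sRed_zero
  | cons a s ih =>
    intro i
    have ih' := ih fun y hy => h y (Multiset.mem_cons_of_mem hy)
    rw [Multiset.map_cons, Multiset.prod_cons, Multiset.card_cons, sub_mul, coeff_sub, coeff_C_mul]
    have ha := (h a (Multiset.mem_cons_self a s)).mul (ih' i)
    rw [zero_mul] at ha
    rcases i with _ | i
    · rw [if_neg (by omega), mul_coeff_zero, coeff_X_zero, zero_mul]
      simpa using Semistable.sRed_zero.sub ha
    · rw [coeff_X_mul]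
      simpa using (ih' i).sub ha

variable {q : ℕ} [hq : Fact q.Prime]

local instance : NeZero q := ⟨hq.out.ne_zero⟩

instance (priority := 2000) urAlgebraFieldL (q : ℕ) [NeZero q] (A : ValuationSubring Qbar) (N : ℕ)
    [NeZero N] (ζ : Qbarˣ) : Algebra (urRing A) (fieldL q A N ζ) :=
  ((algebraMap (urField A) (fieldL q A N ζ)).comp (algebraMap (urRing A) (urField A))).toAlgebra

instance (priority := 2000) urTowerFieldL (q : ℕ) [NeZero q] (A : ValuationSubring Qbar) (N : ℕ)
    [NeZero N] (ζ : Qbarˣ) : IsScalarTower (urRing A) (urField A) (fieldL q A N ζ) :=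
  IsScalarTower.of_algebraMap_eq fun _ => rfl

variable {A : ValuationSubring Qbar} {N : ℕ} [NeZero N] {ζ : Qbarˣ}

/-- `fieldL` is generated by the conjugates. -/
theorem mem_adjoin_conjGens (z : fieldL q A N ζ) :
    z ∈ IntermediateField.adjoin (urField A)
      (Set.range (conjJ A N ζ) ∪ Set.range (conjN A N ζ)) := by
  have hle : fieldL q A N ζ ≤ (IntermediateField.adjoin (urField A)
      (Set.range (conjJ A N ζ) ∪ Set.range (conjN A N ζ))).map (fieldL q A N ζ).val := by
    refine IntermediateField.adjoin_le_iff.2 ?_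
    rintro w (⟨o, rfl⟩ | ⟨o, rfl⟩)
    · exact ⟨_, IntermediateField.subset_adjoin _ _ (Or.inl ⟨o, rfl⟩), rfl⟩
    · exact ⟨_, IntermediateField.subset_adjoin _ _ (Or.inr ⟨o, rfl⟩), rfl⟩
  obtain ⟨w, hw, hwz⟩ := hle z.2
  rwa [← Subtype.ext hwz]

variable (hA : A.LiesOverPrime q) (hN : ¬ q ∣ N) (hζ : IsPrimitiveRoot (ζ : Qbar) q)

/-- The middle level inside `fieldL`. -/
def midL : MF (urField A) N →ₐ[urField A] fieldL q A N ζ :=
  (iotaL hN hζ (exists_pair_fst (none : Option (Fin q))).choose).comp (lev (urField A) q N 1)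

theorem coe_midL (u : MF (urField A) N) :
    (midL (A := A) hN hζ u : LaurentSeries Qbar) = qExpand Qbar q (toSeriesQbar A N u) :=
  embK_lev_one hN hζ _ u

theorem midL_jMF : midL (A := A) hN hζ (jMF (urField A) N) = phiL hN hζ := rfl

theorem qExpand_toSeriesQbar_algebraMap (c : urField A) :
    qExpand Qbar q (toSeriesQbar A N (algebraMap (urField A) (MF (urField A) N) c)) =
      algebraMap Qbar (LaurentSeries Qbar) (c : Qbar) := by
  rw [← coe_baseEmb, baseEmb_algebraMap]
  exact (qExpandAlg Qbar q).commutes _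

/-- A homomorphism over the middle level permuting the conjugates by `π`. -/
def IsConjugation (ψ : fieldL q A N ζ →+* LaurentSeries Qbar)
    (π : Option (Fin q) → Option (Fin q)) : Prop :=
  (∀ u, ψ (midL hN hζ u) = qExpand Qbar q (toSeriesQbar A N u)) ∧
    ∀ o, ψ (conjJ A N ζ o) = rootMap ζ (π o) (jqModC Qbar) ∧
      ψ (conjN A N ζ o) = rootMap ζ (π o) (jd Qbar N)

variable {hN hζ} {ψ : fieldL q A N ζ →+* LaurentSeries Qbar}
  {π : Option (Fin q) → Option (Fin q)}

theorem IsConjugation.map_algebraMap (h : IsConjugation hN hζ ψ π) (c : urField A) :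
    ψ (algebraMap (urField A) (fieldL q A N ζ) c) =
      algebraMap Qbar (LaurentSeries Qbar) (c : Qbar) := by
  rw [← (midL hN hζ).commutes c, h.1, qExpand_toSeriesQbar_algebraMap]

include hA in
theorem IsConjugation.mem_fracRam (h : IsConjugation hN hζ ψ π) (z : fieldL q A N ζ) :
    ψ z ∈ fracRam q A := by
  induction mem_adjoin_conjGens z using IntermediateField.adjoin_induction with
  | mem w hw =>
    rcases hw with ⟨o, rfl⟩ | ⟨o, rfl⟩
    · rw [(h.2 o).1]; exact rootMap_mem_fracRam hA hζ jqModC_mem_fracRam _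
    · rw [(h.2 o).2]
      exact rootMap_mem_fracRam hA hζ (qExpand_mem_fracRam jqModC_mem_fracRam N) _
  | algebraMap c =>
    rw [h.map_algebraMap]
    exact algebraMap_mem_fracRam (urField_le_ramField q A c.2)
  | add a b _ _ ha hb => rw [map_add]; exact add_mem ha hb
  | inv a _ ha => rw [map_inv₀]; exact inv_mem ha
  | mul a b _ _ ha hb => rw [map_mul]; exact mul_mem ha hb

theorem IsConjugation.injective (h : IsConjugation hN hζ ψ π) : Function.Injective π := by
  intro o o' ho
  have h1 : conjN A N ζ o = conjN A N ζ o' := ψ.injective (by rw [(h.2 o).2, (h.2 o').2, ho])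
  exact rootMap_jd_injective hq.out hζ hN (congrArg Subtype.val h1)

/-- A conjugation is determined by the permutation. -/
theorem IsConjugation.unique {ψ' : fieldL q A N ζ →+* LaurentSeries Qbar}
    (h : IsConjugation hN hζ ψ π) (h' : IsConjugation hN hζ ψ' π) : ψ = ψ' := by
  refine RingHom.ext fun z => ?_
  induction mem_adjoin_conjGens z using IntermediateField.adjoin_induction with
  | mem w hw =>
    rcases hw with ⟨o, rfl⟩ | ⟨o, rfl⟩
    · rw [(h.2 o).1, (h'.2 o).1]
    · rw [(h.2 o).2, (h'.2 o).2]
  | algebraMap c => rw [h.map_algebraMap, h'.map_algebraMap]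
  | add a b _ _ ha hb => rw [map_add, map_add, ha, hb]
  | inv a _ ha => rw [map_inv₀, map_inv₀, ha]
  | mul a b _ _ ha hb => rw [map_mul, map_mul, ha, hb]

/-- The permuted pair. -/
def permPair (π : Option (Fin q) → Option (Fin q)) (hπ : Function.Injective π) (p : RootPair q) :
    RootPair q :=
  ⟨(π p.1.1, π p.1.2), fun h => p.2 (hπ h)⟩

theorem IsConjugation.comp_iotaL (h : IsConjugation hN hζ ψ π) (p : RootPair q)
    (x : MF (urField A) (q ^ 2 * N)) :
    ψ (iotaL hN hζ p x) = embK (A := A) hN hζ (permPair π h.injective p) x := by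
  refine RingHom.congr_fun (ringHom_MF_ext (f := ψ.comp (iotaL hN hζ p).toRingHom)
    (g := embK (A := A) hN hζ (permPair π h.injective p)) ?_ ?_ ?_) x
  · intro c
    show ψ (iotaL hN hζ p (algebraMap _ _ c)) = _
    rw [AlgHom.commutes, h.map_algebraMap, embK_algebraMap]
  · show ψ (iotaL hN hζ p _) = _
    have h1 : iotaL (A := A) hN hζ p (jMF (urField A) (q ^ 2 * N)) = conjJ A N ζ p.1.1 :=
      Subtype.ext (by rw [coe_iotaL, embK_jMF, coe_conjJ])
    rw [h1, (h.2 _).1, embK_jMF]
    rfl
  · show ψ (iotaL hN hζ p _) = _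
    have h1 : iotaL (A := A) hN hζ p ⟨jd (urField A) (q ^ 2 * N), jd_mem _ dvd_rfl⟩ =
        conjN A N ζ p.1.2 :=
      Subtype.ext (by rw [coe_iotaL, embK_jd, coe_conjN])
    rw [h1, (h.2 _).2, embK_jd]
    rfl

variable (hN hζ)

/-- A homomorphism over the middle level into an extension of the field of series is a
conjugation. -/
theorem exists_isConjugation {T : Type*} [Field T] [Algebra Qbar T]
    (e : LaurentSeries Qbar →ₐ[Qbar] T) (ψ' : fieldL q A N ζ →+* T)
    (hψ' : ∀ u, ψ' (midL hN hζ u) = e (qExpand Qbar q (toSeriesQbar A N u))) :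
    ∃ ψ π, IsConjugation (A := A) hN hζ ψ π ∧ ∀ z, ψ' z = e (ψ z) := by
  have hc : ∀ c : urField A, ψ' (algebraMap (urField A) (fieldL q A N ζ) c) =
      algebraMap Qbar T (c : Qbar) := fun c => by
    rw [← (midL hN hζ).commutes c, hψ', qExpand_toSeriesQbar_algebraMap, AlgHom.commutes]
  have hφ : ψ' (phiL hN hζ) = e (jd Qbar q) := by
    rw [← midL_jMF, hψ', toSeriesQbar_apply, jMF_coe, coeffMap_jqModC]
  have hψN : ∀ y : fieldL q A N ζ, (y : LaurentSeries Qbar) = qExpand Qbar q (jd Qbar N) →
      ψ' y = e (qExpand Qbar q (jd Qbar N)) := fun y hy => by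
    have h1 : y = midL hN hζ ⟨jd (urField A) N, jd_mem _ dvd_rfl⟩ :=
      Subtype.ext (by rw [hy, coe_midL, toSeriesQbar_jd A N N dvd_rfl])
    rw [h1, hψ', toSeriesQbar_jd A N N dvd_rfl]
  choose π hπJ hπN using exists_conj hN hζ e ψ' hc hφ hψN
  have hr : ∀ z, ψ' z ∈ e.fieldRange := fun z => by
    induction mem_adjoin_conjGens z using IntermediateField.adjoin_induction with
    | mem w hw =>
      rcases hw with ⟨o, rfl⟩ | ⟨o, rfl⟩
      · exact ⟨_, (hπJ o).symm⟩
      · exact ⟨_, (hπN o).symm⟩
    | algebraMap c => exact ⟨algebraMap Qbar _ (c : Qbar), (e.commutes _).trans (hc c).symm⟩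
    | add a b _ _ ha hb => rw [map_add]; exact add_mem ha hb
    | inv a _ ha => rw [map_inv₀]; exact inv_mem ha
    | mul a b _ _ ha hb => rw [map_mul]; exact mul_mem ha hb
  choose f hf' using hr
  have hf : ∀ z, e (f z) = ψ' z := hf'
  have hinj : Function.Injective e := e.toRingHom.injective
  let ψ : fieldL q A N ζ →+* LaurentSeries Qbar :=
    { toFun := f
      map_zero' := hinj (by simp [hf])
      map_one' := hinj (by simp [hf])
      map_add' := fun a b => hinj (by simp [hf])
      map_mul' := fun a b => hinj (by simp [hf]) }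
  refine ⟨ψ, π, ⟨fun u => hinj ?_, fun o => ⟨hinj ?_, hinj ?_⟩⟩, fun z => (hf z).symm⟩
  · exact (hf _).trans (hψ' u)
  · exact (hf _).trans (hπJ o)
  · exact (hf _).trans (hπN o)

include hA

/-- The restriction of a vertical valuation to the middle level. -/
theorem comap_midL_eq {V : ValuationSubring (fieldL q A N ζ)}
    (hV : IsVert (urRing A) (q : urRing A) (phiL hN hζ) V) :
    V.comap (midL hN hζ).toRingHom =
      gaussVal hA (toSeriesQbar A N) (toSeriesQbar_mem_fracRam A N q) := by
  refine eq_gaussVal_of_isVert hA hN ⟨?_, fun p hp => ?_⟩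
  · have h1 := hV.q_mem
    rw [ValuationSubring.mem_nonunits_iff_or] at h1 ⊢
    rw [map_natCast] at h1 ⊢
    rcases h1 with h | h
    · exact Or.inl (Nat.cast_eq_zero.2 (Nat.cast_eq_zero.1 h))
    · refine Or.inr fun h' => h ?_
      simpa using h'
  · have h1 := hV.unit_mem p hp
    have h2 : midL hN hζ (aeval (jMF (urField A) N) p) = aeval (phiL hN hζ) p := by
      rw [← midL_jMF, ← aeval_map_algebraMap (urField A) (jMF (urField A) N) p,
        ← aeval_map_algebraMap (urField A) (midL hN hζ (jMF (urField A) N)) p,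
        aeval_algHom_apply]
    refine ⟨?_, ?_⟩
    · show midL hN hζ _ ∈ V
      rw [h2]; exact h1.1
    · show midL hN hζ _ ∈ V
      rw [map_inv₀, h2]; exact h1.2

omit hζ in
/-- A function of the middle level reduces to zero iff it is a nonunit. -/
theorem sRed_middle_iff (u : MF (urField A) N) :
    u ∈ (gaussVal hA (toSeriesQbar A N) (toSeriesQbar_mem_fracRam A N q)).nonunits ↔
      SRed (IsLocalRing.residue A) (qExpand Qbar q (toSeriesQbar A N u)) 0 := by
  refine (mem_nonunits_gaussVal hA _ _).trans
    ⟨fun h => by simpa using h.qExpand q, fun h => ?_⟩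
  by_contra hcon
  rw [← mem_nonunits_gaussVal hA _ (toSeriesQbar_mem_fracRam A N q),
    ValuationSubring.mem_nonunits_iff_or, not_or, not_not] at hcon
  obtain ⟨hu0, r, hr⟩ := hcon
  have h1 := h.mul (hr.qExpand q)
  rw [← map_mul, ← map_mul, mul_inv_cancel₀ hu0, map_one, map_one, zero_mul] at h1
  exact one_ne_zero (Semistable.sRed_one.unique h1)

/-- A conjugation restricts to the vertical valuation of the middle level. -/
theorem comap_midL_gaussVal (h : IsConjugation (A := A) hN hζ ψ π) :
    (gaussVal hA ψ (h.mem_fracRam hA)).comap (midL hN hζ).toRingHom =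
      gaussVal hA (toSeriesQbar A N) (toSeriesQbar_mem_fracRam A N q) := by
  ext u
  show (∃ z, SRed _ (ψ (midL hN hζ u)) z) ↔ ∃ z, SRed _ (toSeriesQbar A N u) z
  rw [h.1]
  refine ⟨fun ⟨r, hr⟩ => ?_, fun ⟨r, hr⟩ => ⟨_, hr.qExpand q⟩⟩
  by_contra hu
  have hu0 : u ≠ 0 := fun h0 => hu ⟨0, by rw [h0, map_zero]; exact Semistable.sRed_zero⟩
  have h0 : u⁻¹ ∈ (gaussVal hA (toSeriesQbar A N)
      (toSeriesQbar_mem_fracRam A N q)).nonunits := by
    rw [ValuationSubring.inv_mem_nonunits_iff]; exact Or.inr hu
  have h1 := ((sRed_middle_iff hA _).1 h0).mul hr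
  rw [← map_mul, ← map_mul, inv_mul_cancel₀ hu0, map_one, map_one, zero_mul] at h1
  exact one_ne_zero (Semistable.sRed_one.unique h1)

omit hA in
theorem isIntegral_middle (z : fieldL q A N ζ) :
    (midL (A := A) hN hζ).toRingHom.IsIntegralElem z := by
  letI : Algebra (MF (urField A) N) (fieldL q A N ζ) := (midL hN hζ).toRingHom.toAlgebra
  haveI : IsScalarTower (urField A) (MF (urField A) N) (fieldL q A N ζ) :=
    IsScalarTower.of_algebraMap_eq fun c => ((midL hN hζ).commutes c).symm
  have hJ : ∀ o, IsIntegral (MF (urField A) N) (conjJ A N ζ o) := fun o => by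
    refine isIntegral_of_phiRel (K := urField A) q (jMF (urField A) N)
      (PhiRel.of_map (fieldL q A N ζ).val Subtype.val_injective ?_)
    show PhiRel (L := urField A) q (phiL (A := A) hN hζ : LaurentSeries Qbar) _
    rw [coe_phiL]
    exact (phiRel_gens (A := A) (N := N) hζ o).1
  show IsIntegral (MF (urField A) N) z
  induction mem_adjoin_conjGens z using IntermediateField.adjoin_induction with
  | mem w hw =>
    rcases hw with ⟨o, rfl⟩ | ⟨o, rfl⟩
    · exact hJ o
    · exact isIntegral_of_phiRel_trans (K := urField A) N (hJ o)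
        (PhiRel.of_map (fieldL q A N ζ).val Subtype.val_injective
          (phiRel_gens (A := A) (N := N) hζ o).2.2)
  | algebraMap c =>
    rw [IsScalarTower.algebraMap_apply (urField A) (MF (urField A) N) (fieldL q A N ζ)]
    exact isIntegral_algebraMap
  | add a b _ _ ha hb => exact ha.add hb
  | inv a _ ha => exact ha.inv
  | mul a b _ _ ha hb => exact ha.mul hb

/-- An element reducing to zero under all conjugations is a root of a monic polynomial over the
middle level with lower coefficients reducing to zero. -/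
theorem exists_poly_of_sRed_zero (z : fieldL q A N ζ)
    (hz : ∀ ψ π, IsConjugation (A := A) hN hζ ψ π → SRed (IsLocalRing.residue A) (ψ z) 0) :
    ∃ f : (MF (urField A) N)[X], f.Monic ∧ f.eval₂ (midL hN hζ).toRingHom z = 0 ∧
      ∀ k < f.natDegree,
        SRed (IsLocalRing.residue A) (qExpand Qbar q (toSeriesQbar A N (f.coeff k))) 0 := by
  classical
  letI : Algebra (MF (urField A) N) (fieldL q A N ζ) := (midL hN hζ).toRingHom.toAlgebra
  haveI : Algebra.IsAlgebraic (MF (urField A) N) (fieldL q A N ζ) :=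
    ⟨fun w => (show IsIntegral (MF (urField A) N) w from
      isIntegral_middle hN hζ w).isAlgebraic⟩
  set f := minpoly (MF (urField A) N) z with hf
  have hzi : IsIntegral (MF (urField A) N) z := isIntegral_middle hN hζ z
  refine ⟨f, minpoly.monic hzi, minpoly.aeval _ _, fun k hk => ?_⟩
  let e : LaurentSeries Qbar →ₐ[Qbar] AlgebraicClosure (LaurentSeries Qbar) :=
    IsScalarTower.toAlgHom Qbar _ _
  set τ : MF (urField A) N →+* LaurentSeries Qbar :=
    (qExpand Qbar q).comp (toSeriesQbar A N) with hτ
  letI : Algebra (MF (urField A) N) (AlgebraicClosure (LaurentSeries Qbar)) :=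
    (e.toRingHom.comp τ).toAlgebra
  have hroot : ∀ r ∈ ((f.map τ).map e.toRingHom).roots,
      ∃ y, e y = r ∧ SRed (IsLocalRing.residue A) y 0 := fun r hr => by
    have h1 : r ∈ f.rootSet (AlgebraicClosure (LaurentSeries Qbar)) := by
      refine mem_rootSet.2 ⟨minpoly.ne_zero hzi, ?_⟩
      have h2 := (mem_roots'.1 hr).2
      rw [IsRoot.def, map_map, eval_map] at h2
      exact h2
    rw [hf, ← Algebra.IsAlgebraic.range_eval_eq_rootSet_minpoly] at h1
    obtain ⟨ψ', hψ'⟩ := h1
    obtain ⟨ψ, π, hcj, hval⟩ := exists_isConjugation hN hζ e ψ'.toRingHom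
      fun u => ψ'.commutes u
    exact ⟨ψ z, (hval z).symm.trans hψ', hz ψ π hcj⟩
  choose! y hy hy0 using hroot
  have hmon : (f.map τ).Monic := (minpoly.monic hzi).map τ
  have hfac : f.map τ =
      ((((f.map τ).map e.toRingHom).roots.map y).map fun w => X - C w).prod := by
    refine Polynomial.map_injective e.toRingHom e.toRingHom.injective ?_
    rw [Polynomial.map_multiset_prod, Multiset.map_map, Multiset.map_map]
    conv_lhs => rw [(IsAlgClosed.splits ((f.map τ).map e.toRingHom)).eq_prod_roots_of_monic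
      (hmon.map _)]
    refine congrArg Multiset.prod (Multiset.map_congr rfl fun r hr => ?_)
    simp [hy r hr]
  have hcard : (((f.map τ).map e.toRingHom).roots.map y).card = f.natDegree := by
    rw [Multiset.card_map, ← (IsAlgClosed.splits _).natDegree_eq_card_roots,
      natDegree_map, natDegree_map]
  have h4 := sRed_coeff_prod (π := IsLocalRing.residue A)
    (((f.map τ).map e.toRingHom).roots.map y) (fun w hw => by
      obtain ⟨r, hr, rfl⟩ := Multiset.mem_map.1 hw
      exact hy0 r hr) k
  rw [hcard, if_neg (by omega), ← hfac, coeff_map] at h4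
  exact h4

/-- The vertical valuations are the Gauss valuations of the conjugations. -/
theorem exists_conjugation_of_isVert {V : ValuationSubring (fieldL q A N ζ)}
    (hV : IsVert (urRing A) (q : urRing A) (phiL hN hζ) V) :
    ∃ ψ π, ∃ h : IsConjugation (A := A) hN hζ ψ π,
      V = gaussVal hA ψ (h.mem_fracRam hA) := by
  classical
  let Idx := {π : Option (Fin q) → Option (Fin q) // ∃ ψ, IsConjugation (A := A) hN hζ ψ π}
  have hcj : ∀ i : Idx, IsConjugation hN hζ i.2.choose i.1 := fun i => i.2.choose_spec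
  letI : Algebra (MF (urField A) N) (fieldL q A N ζ) := (midL hN hζ).toRingHom.toAlgebra
  haveI : Algebra.IsAlgebraic (MF (urField A) N) (fieldL q A N ζ) :=
    ⟨fun w => (show IsIntegral (MF (urField A) N) w from
      isIntegral_middle hN hζ w).isAlgebraic⟩
  obtain ⟨i, hi⟩ := exists_eq_of_coeff_criterion (V := V) (comap_midL_eq hA hN hζ hV)
    (fun i : Idx => gaussVal hA i.2.choose ((hcj i).mem_fracRam hA))
    (fun i => comap_midL_gaussVal hA hN hζ (hcj i)) (fun z hz => by
      obtain ⟨f, hf, hfz, hco⟩ := exists_poly_of_sRed_zero hA hN hζ z fun ψ π h => by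
        have h3 := (mem_nonunits_gaussVal hA _ _).1 (hz ⟨π, ψ, h⟩)
        rwa [(hcj ⟨π, ψ, h⟩).unique h] at h3
      exact ⟨f, hf, hfz, fun k hk => (sRed_middle_iff hA _).2 (hco k hk)⟩)
  exact ⟨_, i.1, hcj i, hi⟩

end FLTAgent.LevelSq
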