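import Fermat.Agent.LevelSq.Balanced
import Fermat.Agent.LevelSq.Vertical

/-!
# Balanced exponents and the verticals of level `q ^ 2 N`

Exponents with vanishing row and column sums are balanced at every vertical valuation of
`fieldL`; the vertical valuations of level `q ^ 2 N` are the three branches.
-/

set_option autoImplicit false
set_option linter.style.haveILetI false
set_option linter.unusedSectionVars false
set_option synthInstance.maxHeartbeats 100000

noncomputable section

open ModularCurve AlgebraicCurve Polynomial Finset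
open FLTAgent.Hecke FLTAgent.Igusa
open FLTAgent.Semistable (SRed)

namespace FLTAgent.LevelSq

local notation "Qbar" => AlgebraicClosure ℚ

variable {q : ℕ} [hq : Fact q.Prime]

local instance : NeZero q := ⟨hq.out.ne_zero⟩

/-- Vanishing row and column sums give vanishing sums over the classes of permuted pairs. -/
theorem sum_class_eq_zero {π : Option (Fin q) → Option (Fin q)} (hπ : Function.Injective π)
    {c : RootPair q → ℤ} (hc1 : ∀ o, ∑ p ∈ univ.filter (fun p : RootPair q => p.1.1 = o), c p = 0)
    (hc2 : ∀ o, ∑ p ∈ univ.filter (fun p : RootPair q => p.1.2 = o), c p = 0) (k : ℕ) :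
    ∑ p ∈ univ.filter (fun p => pairClass (permPair π hπ p) = k), c p = 0 := by
  classical
  obtain ⟨o, ho⟩ := (Finite.injective_iff_surjective.1 hπ) none
  have hiff : ∀ x, π x = none ↔ x = o := fun x =>
    ⟨fun h => hπ (h.trans ho.symm), fun h => h ▸ ho⟩
  have h0 : univ.filter (fun p => pairClass (permPair π hπ p) = 0) =
      univ.filter (fun p : RootPair q => p.1.2 = o) := by
    refine Finset.filter_congr fun p _ => ?_
    unfold pairClass
    simp only [permPair, hiff]
    split_ifs <;> simp_all
  have h2 : univ.filter (fun p => pairClass (permPair π hπ p) = 2) =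
      univ.filter (fun p : RootPair q => p.1.1 = o) := by
    refine Finset.filter_congr fun p _ => ?_
    have hp := p.2
    unfold pairClass
    simp only [permPair, hiff]
    split_ifs <;> simp_all
  have htot : ∑ p, c p = 0 := by
    rw [← Finset.sum_fiberwise univ (fun p : RootPair q => p.1.1) c]
    exact Finset.sum_eq_zero fun x _ => hc1 x
  rcases k with _ | _ | _ | k
  · rw [h0, hc2]
  · have hsplit := Finset.sum_fiberwise_of_maps_to
      (s := (univ : Finset (RootPair q))) (t := Finset.range 3)
      (g := fun p => pairClass (permPair π hπ p))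
      (fun p _ => Finset.mem_range.2 (pairClass_lt_three _)) c
    simp only [Finset.sum_range_succ, Finset.sum_range_zero, zero_add] at hsplit
    rw [htot, h0, h2, hc1, hc2] at hsplit
    simpa using hsplit
  · rw [h2, hc1]
  · refine Finset.sum_eq_zero fun p hp => absurd (Finset.mem_filter.1 hp).2 ?_
    have := pairClass_lt_three (permPair π hπ p)
    omega

variable {A : ValuationSubring Qbar} {N : ℕ} [NeZero N] {ζ : Qbarˣ} (hA : A.LiesOverPrime q)
  (hN : ¬ q ∣ N) (hζ : IsPrimitiveRoot (ζ : Qbar) q)
include hA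

/-- Vanishing row and column sums are balanced at every vertical valuation. -/
theorem isBalancedAt_iotaL {c : RootPair q → ℤ}
    (hc1 : ∀ o, ∑ p ∈ univ.filter (fun p : RootPair q => p.1.1 = o), c p = 0)
    (hc2 : ∀ o, ∑ p ∈ univ.filter (fun p : RootPair q => p.1.2 = o), c p = 0)
    {V : ValuationSubring (fieldL q A N ζ)}
    (hV : IsVert (urRing A) (q : urRing A) (phiL hN hζ) V) :
    IsBalancedAt (fun p => iotaL (A := A) hN hζ p) c (q - 1) V := by
  obtain ⟨ψ, π, h, rfl⟩ := exists_conjugation_of_isVert hA hN hζ hV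
  refine ⟨fun p => pairClass (permPair π h.injective p), sum_class_eq_zero h.injective hc1 hc2,
    fun p p' hpp z => ?_⟩
  obtain ⟨hr, hd⟩ := residual_of_class hA hN hζ hpp z
  refine ⟨fun hz => ?_, fun hmem => ?_⟩
  · obtain ⟨w, hw, hsw⟩ := hr hz
    refine ⟨⟨w, ?_⟩, (mem_nonunits_gaussVal hA _ _).2 ?_⟩
    · rw [map_div₀, h.comp_iotaL, h.comp_iotaL]
      exact hsw
    · rw [map_sub, map_pow, map_one, map_div₀, h.comp_iotaL, h.comp_iotaL]
      have h1 := (hsw.pow (q - 1)).sub Semistable.sRed_one
      rwa [hw, sub_self] at h1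
  · obtain ⟨r, hr'⟩ := hmem
    refine (mem_nonunits_gaussVal hA _ _).2 ?_
    rw [map_sub, h.comp_iotaL, h.comp_iotaL]
    rw [h.comp_iotaL] at hr'
    exact hd r hr'

/-- The vertical valuations of level `q ^ 2 N` are the branches. -/
theorem exists_eq_branchVal {P : ValuationSubring (MF (urField A) (q ^ 2 * N))}
    (hP : IsVert (urRing A) (q : urRing A)
      (lev (urField A) q N 1 (jMF (urField A) N)) P) :
    ∃ b, P = branchVal hA hN hζ b := by
  obtain ⟨p₀, -⟩ := exists_pair_fst (none : Option (Fin q))
  obtain ⟨V, hV⟩ := exists_comap_eq_of_ringHom (iotaL (A := A) hN hζ p₀).toRingHom P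
  have hmem : ∀ x, x ∈ P ↔ iotaL hN hζ p₀ x ∈ V := fun x => by rw [← hV]; rfl
  have hnat : iotaL (A := A) hN hζ p₀ (q : MF (urField A) (q ^ 2 * N)) = q := map_natCast _ q
  have hvert : IsVert (urRing A) (q : urRing A) (phiL hN hζ) V := by
    refine ⟨?_, fun f hf => ?_⟩
    · have h1 := hP.q_mem
      rw [ValuationSubring.mem_nonunits_iff_or, map_natCast] at h1 ⊢
      rcases h1 with h | h
      · exact Or.inl (Nat.cast_eq_zero.2 (Nat.cast_eq_zero.1 h))
      · refine Or.inr fun h' => h ?_
        rw [hmem, map_inv₀, hnat]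
        exact h'
    · obtain ⟨h1, h2⟩ := hP.unit_mem f hf
      rw [hmem, ← aeval_map_algebraMap (urField A), ← aeval_algHom_apply, iotaL_phi,
        aeval_map_algebraMap] at h1
      rw [hmem, map_inv₀, ← aeval_map_algebraMap (urField A), ← aeval_algHom_apply, iotaL_phi,
        aeval_map_algebraMap] at h2
      exact ⟨h1, h2⟩
  obtain ⟨ψ, π, h, rfl⟩ := exists_conjugation_of_isVert hA hN hζ hvert
  obtain ⟨b, hb⟩ := pairVal_eq_branchVal hA hN hζ (permPair π h.injective p₀)
  refine ⟨b, hb ▸ ?_⟩
  ext x
  rw [hmem, mem_gaussVal, mem_pairVal, h.comp_iotaL]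

end FLTAgent.LevelSq
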