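import Fermat.Agent.LevelSq.Charts
import Fermat.Agent.Genus.LaurentOps

/-!
# Input of the local lemma at level `q ^ 2 * N`

`BaseData`: the level `N` chart `chart O j`, its reduction in `k((s))` and a function `h`, étale
modulo `q`. `SqData`: the three degeneracy maps `ι i` (`i = 0, 1, 2`, the chart of `F` is taken
over `ι 1 j`), the three branches `V b` (`b = 0`: `(u, u^q, u^(q^2))`; `b = 1`: `(u, u^q, u)`;
`b = 2`: `(u^(q^2), u^q, u)`) with their residue maps, and the congruences of Kronecker type.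
-/

set_option autoImplicit false

noncomputable section

open Polynomial

namespace FLTAgent.LevelSq

/-- The level `N` chart modulo `q`. -/
structure BaseData (O : Type) [CommRing O] (q : O) (qn : ℕ)
    (FN : Type) [Field FN] [Algebra O FN] (k : Type) [Field k] where
  /-- reduction of constants -/
  resO : O →+* k
  resO_surjective : Function.Surjective resO
  resO_eq_zero : ∀ a : O, resO a = 0 ↔ q ∣ a
  q_eq : q = (qn : O)
  /-- `j` -/
  j : FN
  j_transcendental : Transcendental O j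
  /-- the coordinate -/
  h : chart O j
  /-- reduction of expansions -/
  red : chart O j →+* LaurentSeries k
  red_algebraMap : ∀ a : O, red (algebraMap O _ a) = HahnSeries.C (resO a)
  red_eq_zero : ∀ z, red z = 0 ↔ algebraMap O _ q ∣ z
  red_j : Transcendental k (red ⟨j, self_mem_chart O j⟩)
  /-- functions with rational expansion -/
  rat : Subring (chart O j)
  j_mem_rat : (⟨j, self_mem_chart O j⟩ : chart O j) ∈ rat
  h_mem_rat : h ∈ rat
  adjoin_rat : Algebra.adjoin O (rat : Set (chart O j)) = ⊤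
  finite : Module.Finite (Algebra.adjoin O ({j} : Set FN))
    (integralClosure (Algebra.adjoin O ({j} : Set FN)) FN)
  /-- the chart is étale over the line of `h` modulo `q` -/
  unif : ∀ x : Ideal (chart O j), x.IsMaximal → algebraMap O _ q ∈ x →
    ∃ a : O, h - algebraMap O _ a ∈ x ∧ ∀ z ∈ x, ∃ d u v : chart O j, d ∉ x ∧
      d * z = u * algebraMap O _ q + v * (h - algebraMap O _ a)
  euler_h_ne : Genus.euler (red h) ≠ 0
  /-- `θ / θh` preserves the residue field -/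
  deriv_red : ∀ g, ∃ g' d : chart O j, red d ≠ 0 ∧
    Genus.euler (red g) * red d = red g' * Genus.euler (red h)
  /-- the supersingular polynomial in `j` modulo `q` -/
  P : chart O j
  P_mem_rat : P ∈ rat
  /-- `(θh)^6 / Δ` -/
  Q : chart O j
  isUnit_Q : IsUnit Q
  /-- `ρ ^ 6 * P = Q ^ (q - 1)`, `ρ = (θh) ^ (q - 1)` -/
  rho_pow : (Genus.euler (red h) ^ (qn - 1)) ^ 6 * red P = red Q ^ (qn - 1)

variable {O : Type} [CommRing O] {q : O} {qn : ℕ} {FN : Type} [Field FN] [Algebra O FN]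
  {k : Type} [Field k]

/-- `ρ`. -/
def BaseData.rho (B : BaseData O q qn FN k) : LaurentSeries k :=
  Genus.euler (B.red B.h) ^ (qn - 1)

/-- The three branches at level `q ^ 2 * N`. -/
structure SqData (B : BaseData O q qn FN k) (F : Type) [Field F] [Algebra O F]
    where
  /-- degeneracy maps -/
  ι : Fin 3 → FN →ₐ[O] F
  ι_zero_mem : ι 0 B.j ∈ chart O (ι 1 B.j)
  ι_two_mem : ι 2 B.j ∈ chart O (ι 1 B.j)
  /-- `F` is generated by the images -/
  frac : ∀ z : F, ∃ a b : F,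
    a ∈ Algebra.adjoin O (⋃ i, (fun g : chart O B.j => ι i g) '' Set.univ) ∧
    b ∈ Algebra.adjoin O (⋃ i, (fun g : chart O B.j => ι i g) '' Set.univ) ∧ b ≠ 0 ∧ z * b = a
  /-- the branches -/
  V : Fin 3 → ValuationSubring F
  isVert : ∀ b, IsVert O q (ι 1 B.j) (V b)
  eq_V : ∀ P, IsVert O q (ι 1 B.j) P → ∃ b, P = V b
  /-- residue maps -/
  res : (b : Fin 3) → (V b) →+* LaurentSeries k
  res_eq_zero : ∀ b (z : V b), res b z = 0 ↔ (z : F) ∈ (V b).nonunits
  res_algebraMap : ∀ b (a : O) (z : V b), (z : F) = algebraMap O F a →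
    res b z = HahnSeries.C (B.resO a)
  res_mem : ∀ b (z : V b), (z : F) ∈ chart O (ι 1 B.j) →
    ∃ g d : chart O B.j, B.red d ≠ 0 ∧ res b z * B.red d = B.red g
  res_base_zero : ∀ (g : chart O B.j) (z : V 0), (z : F) = ι 0 g → res 0 z = B.red g
  res_base_one : ∀ (g : chart O B.j) (z : V 1), ((z : F) = ι 0 g ∨ (z : F) = ι 2 g) →
    res 1 z = B.red g
  res_base_two : ∀ (g : chart O B.j) (z : V 2), (z : F) = ι 2 g → res 2 z = B.red g
  res_mid : ∀ g ∈ B.rat, ∀ b (z : V b), (z : F) = ι 1 g → res b z = B.red g ^ qn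
  res_far_zero : ∀ g ∈ B.rat, ∀ z : V 0, (z : F) = ι 2 g → res 0 z = B.red g ^ qn ^ 2
  res_far_two : ∀ g ∈ B.rat, ∀ z : V 2, (z : F) = ι 0 g → res 2 z = B.red g ^ qn ^ 2
  /-- uniformisers: `q`, `h₂ - h₀`, `q` -/
  nonunits_zero : ∀ z ∈ (V 0).nonunits, ∃ w ∈ V 0, z = algebraMap O F q * w
  nonunits_one : ∀ z ∈ (V 1).nonunits, ∃ w ∈ V 1, z = (ι 2 B.h - ι 0 B.h) * w
  nonunits_two : ∀ z ∈ (V 2).nonunits, ∃ w ∈ V 2, z = algebraMap O F q * w
  sub_ne : ι 2 B.h - ι 0 B.h ≠ 0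
  res_pow : ∃ z : V 1, algebraMap O F q * z = (ι 2 B.h - ι 0 B.h) ^ (qn - 1) ∧
    res 1 z = -B.rho
  /-- `δ = (g(qτ) - g(τ)^q)/q` modulo `q`, and `R = (g₀ - g₁^q)(g₁ - g₀^q)/q` -/
  kronecker : ∀ g ∈ B.rat, ∃ δ : LaurentSeries k,
    Genus.euler δ = Genus.euler (B.red g) ^ qn - B.red g ^ (qn - 1) * Genus.euler (B.red g) ∧
    ∀ b, ∃ z : V b,
      algebraMap O F q * z = (ι 0 g - ι 1 g ^ qn) * (ι 1 g - ι 0 g ^ qn) ∧
      res b z = if b = 2 then ((B.red g - B.red g ^ qn ^ 2) * δ) ^ qn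
        else (B.red g - B.red g ^ qn ^ 2) * δ
  /-- separation of the branches off the zeros of `P` -/
  sep : ∃ U U' : F, U ∈ chart O (ι 1 B.j) ∧ U' ∈ chart O (ι 1 B.j) ∧ ∀ b, ∃ z z' : V b,
    (z : F) = U ∧ (z' : F) = U' ∧ res b z = (if b = 2 then 0 else B.red B.P) ∧
      res b z' = (if b = 0 then B.red B.P ^ qn else 0)
  /-- the modular equation of `h` -/
  G : Polynomial (chart O B.j)
  modular : ∀ i, i = (0 : Fin 3) ∨ i = 2 →
    (ι i B.h - ι 1 B.h ^ qn) * (ι i B.h ^ qn - ι 1 B.h)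
      + algebraMap O F q * G.eval₂ ((ι 1).toRingHom.comp (chart O B.j).val.toRingHom) (ι i B.h)
      = 0

end FLTAgent.LevelSq
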