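import Fermat.Agent.LevelSq.Setting
import Fermat.Agent.LevelSq.SqData
import Fermat.Agent.Semistable.Series
import Fermat.Agent.Hecke.LevelField
import Fermat.Agent.Igusa.PrimeLevel

/-!
# The level `N` data in the field `MF (urField A) N`

`IsBaseModel B`: the abstract data `B` is that of the modular function field of level `N` over the
inertia field, reduced through `q`-expansions; the distinguished subring has rational expansions and
the supersingular function reduces to `Δ / Δ ^ q`.
-/

set_option autoImplicit false
set_option linter.unusedSectionVars false
set_option synthInstance.maxHeartbeats 100000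

noncomputable section

open ModularCurve FLTAgent.Hecke

namespace FLTAgent.LevelSq

local notation "Qbar" => AlgebraicClosure ℚ

variable {q : ℕ} [NeZero q] {A : ValuationSubring Qbar} {N : ℕ}

/-- `B` is the level `N` chart of the modular function field at `A`. -/
structure IsBaseModel
    (B : BaseData (urRing A) (q : urRing A) q (MF (urField A) N) (IsLocalRing.ResidueField A)) :
    Prop where
  j_eq : B.j = jMF (urField A) N
  resO_eq : B.resO = urRes A
  red_eq : ∀ g : chart (urRing A) B.j,
    Semistable.SRed (IsLocalRing.residue A) (toSeriesQbar A N g) (B.red g)
  rat_coeff : ∀ g ∈ B.rat, ∀ k : ℤ,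
    ∃ r : ℚ, (toSeriesQbar A N (g : MF (urField A) N)).coeff k = (r : Qbar)
  red_P : B.red B.P = Igusa.ofZ (IsLocalRing.ResidueField A) Igusa.psD *
    qExpand (IsLocalRing.ResidueField A) q (Igusa.sDinv (IsLocalRing.ResidueField A))

end FLTAgent.LevelSq
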