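import Fermat.Agent.LevelSq.Infinity
import Mathlib.FieldTheory.IsAlgClosed.AlgebraicClosure
import Mathlib.FieldTheory.RatFunc.AsPolynomial
import Fermat.Prelude.Def_ModularCurve_JqCoeff

/-!
# Split data from generators with expansions over `W`

If one expansion of `L` extends `φ ↦ J` and every embedding over it into an algebraic closure sends
generators of `L` to quotients of series over `W`, all embeddings form a `SplitData`.
-/

set_option autoImplicit false
set_option linter.style.haveILetI false
set_option linter.unusedSectionVars false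

noncomputable section

open Polynomial IntermediateField ModularCurve

namespace FLTAgent.LevelSq

universe uO uK uL uW uK' uT

variable {O : Type uO} {K : Type uK} {L : Type uL} [CommRing O] [Field K] [Field L] [Algebra O L]
  [Algebra O K] [Algebra K L] [IsFractionRing O K] {W : Type uW} [CommRing W] [IsDomain W]
  {K' : Type uK'} [Field K'] [Algebra W K'] [Algebra K K']

set_option maxHeartbeats 400000 in
/-- An expansion over `φ ↦ J` with generators in the fractions of `W`-series takes all its values
there. -/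
theorem exists_fraction_eq (φ : L) (β : O →+* W)
    (β_compat : ∀ a, algebraMap W K' (β a) = algebraMap K K' (algebraMap O K a))
    (J : LaurentSeries W) (hW : Function.Injective (algebraMap W K')) (S : Set L)
    (hS : IntermediateField.adjoin K⟮φ⟯ S = ⊤) (ψ : L →+* AlgebraicClosure (LaurentSeries K'))
    (hφ : ψ φ = algebraMap (LaurentSeries K') _ (coeffMap (algebraMap W K') J))
    (hK : ∀ x, ψ (algebraMap K L x) =
      algebraMap (LaurentSeries K') _ (HahnSeries.C (algebraMap K K' x)))
    (hψS : ∀ s ∈ S, ∃ a b : LaurentSeries W, b ≠ 0 ∧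
      ψ s * algebraMap (LaurentSeries K') _ (coeffMap (algebraMap W K') b) =
        algebraMap (LaurentSeries K') _ (coeffMap (algebraMap W K') a)) (z : L) :
    ∃ a b : LaurentSeries W, coeffMap (algebraMap W K') b ≠ 0 ∧ b ≠ 0 ∧
      ψ z * algebraMap (LaurentSeries K') _ (coeffMap (algebraMap W K') b) =
        algebraMap (LaurentSeries K') _ (coeffMap (algebraMap W K') a) := by
  classical
  let Ω := AlgebraicClosure (LaurentSeries K')
  set E := coeffMap (algebraMap W K')
  set e := algebraMap (LaurentSeries K') Ω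
  have hE : Function.Injective E := fun x y hxy =>
    HahnSeries.ext (funext fun k => hW (by simpa [E] using congrArg (fun s => s.coeff k) hxy))
  have hEC : ∀ w : W, E (HahnSeries.C w) = HahnSeries.C (algebraMap W K' w) := fun w => by
    ext k
    by_cases hk : k = 0 <;> simp [E, HahnSeries.C_apply, hk]
  let θ : FractionRing (LaurentSeries W) →+* Ω :=
    IsFractionRing.lift (g := e.comp E) (e.injective.comp hE)
  have hθ : ∀ x, θ (algebraMap (LaurentSeries W) _ x) = e (E x) :=
    IsFractionRing.lift_algebraMap _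
  have hEne : ∀ {b : LaurentSeries W}, b ≠ 0 → e (E b) ≠ 0 := fun hb h =>
    hb (hE (e.injective (by rw [h, map_zero, map_zero])))
  have hKmem : ∀ x : K, ψ (algebraMap K L x) ∈ θ.fieldRange := fun x => by
    obtain ⟨a, b, hb, rfl⟩ := IsFractionRing.div_surjective (A := O) x
    have hO : ∀ a : O, ψ (algebraMap K L (algebraMap O K a)) ∈ θ.fieldRange := fun a =>
      ⟨algebraMap (LaurentSeries W) _ (HahnSeries.C (β a)), by rw [hθ, hEC, β_compat, hK]⟩
    rw [map_div₀, map_div₀]
    exact div_mem (hO a) (hO b)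
  have hφmem : ∀ w ∈ K⟮φ⟯, ψ w ∈ θ.fieldRange := fun w hw => by
    induction hw using IntermediateField.adjoin_induction with
    | mem y hy =>
      rw [Set.mem_singleton_iff] at hy
      exact ⟨algebraMap _ _ J, by rw [hθ, hy, hφ]⟩
    | algebraMap c => exact hKmem c
    | add a b _ _ ha hb => rw [map_add]; exact add_mem ha hb
    | inv a _ ha => rw [map_inv₀]; exact inv_mem ha
    | mul a b _ _ ha hb => rw [map_mul]; exact mul_mem ha hb
  have hz : ψ z ∈ θ.fieldRange := by
    have hz' : z ∈ IntermediateField.adjoin K⟮φ⟯ S := hS ▸ IntermediateField.mem_top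
    induction hz' using IntermediateField.adjoin_induction with
    | mem y hy =>
      obtain ⟨a, b, hb, hab⟩ := hψS y hy
      exact ⟨algebraMap _ _ a / algebraMap _ _ b, by
        rw [map_div₀, hθ, hθ, div_eq_iff (hEne hb), hab]⟩
    | algebraMap c => exact hφmem (c : L) c.2
    | add a b _ _ ha hb => rw [map_add]; exact add_mem ha hb
    | inv a _ ha => rw [map_inv₀]; exact inv_mem ha
    | mul a b _ _ ha hb => rw [map_mul]; exact mul_mem ha hb
  obtain ⟨x, hx⟩ := hz
  obtain ⟨a, b, hb, rfl⟩ := IsFractionRing.div_surjective (A := LaurentSeries W) x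
  have hb0 : b ≠ 0 := nonZeroDivisors.ne_zero hb
  exact ⟨a, b, fun h => hEne hb0 (by rw [h, map_zero]), hb0,
    by rw [← hx, map_div₀, hθ, hθ, div_mul_cancel₀ _ (hEne hb0)]⟩

set_option maxHeartbeats 400000 in
/-- Split data from a base expansion and the splitting of generators. -/
theorem exists_splitData (φ : L) (β : O →+* W)
    (β_compat : ∀ a, algebraMap W K' (β a) = algebraMap K K' (algebraMap O K a))
    (J : LaurentSeries W) (r : ℕ) (u : PowerSeries W) (hJ : IsPoleSeries J r u)
    (hW : Function.Injective (algebraMap W K')) [FiniteDimensional K⟮φ⟯ L]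
    [Algebra.IsSeparable K⟮φ⟯ L] (τ₀ : L →+* LaurentSeries K')
    (h₀φ : τ₀ φ = coeffMap (algebraMap W K') J)
    (h₀K : ∀ x, τ₀ (algebraMap K L x) = HahnSeries.C (algebraMap K K' x))
    (S : Set L) (hS : IntermediateField.adjoin K⟮φ⟯ S = ⊤)
    (hsplit : ∀ ψ : L →+* AlgebraicClosure (LaurentSeries K'),
      ψ φ = algebraMap (LaurentSeries K') _ (coeffMap (algebraMap W K') J) →
      (∀ x, ψ (algebraMap K L x) =
        algebraMap (LaurentSeries K') _ (HahnSeries.C (algebraMap K K' x))) →
      ∀ s ∈ S, ∃ a b : LaurentSeries W, b ≠ 0 ∧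
        ψ s * algebraMap (LaurentSeries K') _ (coeffMap (algebraMap W K') b) =
          algebraMap (LaurentSeries K') _ (coeffMap (algebraMap W K') a)) :
    Nonempty (SplitData.{uO, uK, uL, uW, uK', uT} O K W K' φ) := by
  classical
  let Ω := AlgebraicClosure (LaurentSeries K')
  set E := coeffMap (algebraMap W K')
  set e := algebraMap (LaurentSeries K') Ω
  letI : Algebra K⟮φ⟯ Ω := (e.comp (τ₀.comp (algebraMap K⟮φ⟯ L))).toAlgebra
  have hσK : ∀ (σ : L →ₐ[K⟮φ⟯] Ω) (x : K),
      σ (algebraMap K L x) = e (HahnSeries.C (algebraMap K K' x)) := fun σ x => by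
    rw [show algebraMap K L x = algebraMap K⟮φ⟯ L (algebraMap K K⟮φ⟯ x) from rfl, AlgHom.commutes,
      ← h₀K]
    rfl
  have hσφ : ∀ σ : L →ₐ[K⟮φ⟯] Ω, σ φ = e (E J) := fun σ => by
    exact (σ.commutes ⟨φ, mem_adjoin_simple_self K φ⟩).trans (congrArg e h₀φ)
  have hall : ∀ (σ : L →ₐ[K⟮φ⟯] Ω) (z : L), ∃ a b : LaurentSeries W, E b ≠ 0 ∧ b ≠ 0 ∧
      σ z * e (E b) = e (E a) := fun σ z =>
    exists_fraction_eq φ β β_compat J hW S hS σ.toRingHom (hσφ σ) (hσK σ)
      (hsplit σ.toRingHom (hσφ σ) (hσK σ)) z
  have hrange : ∀ (σ : L →ₐ[K⟮φ⟯] Ω) (z : L), ∃ y, e y = σ z := fun σ z => by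
    obtain ⟨a, b, hEb, -, hab⟩ := hall σ z
    exact ⟨E a / E b, by rw [map_div₀, div_eq_iff ((map_ne_zero e).2 hEb), hab]⟩
  choose f hf using hrange
  let τ : (L →ₐ[K⟮φ⟯] Ω) → L →+* LaurentSeries K' := fun σ =>
    { toFun := f σ
      map_one' := e.injective (by rw [hf, map_one, map_one])
      map_mul' := fun x y => e.injective (by rw [hf, map_mul, map_mul, hf, hf])
      map_zero' := e.injective (by rw [hf, map_zero, map_zero])
      map_add' := fun x y => e.injective (by rw [hf, map_add, map_add, hf, hf]) }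
  let eqv : ULift.{uT} (Fin (Fintype.card (L →ₐ[K⟮φ⟯] Ω))) ≃ (L →ₐ[K⟮φ⟯] Ω) :=
    Equiv.ulift.trans (Fintype.equivFin _).symm
  refine ⟨{ β, β_compat, J, r, u, hJ, T := ULift.{uT} (Fin (Fintype.card (L →ₐ[K⟮φ⟯] Ω)))
            fin := inferInstance
            τ := fun t => τ (eqv t)
            τ_φ := fun t => e.injective ((hf _ φ).trans (hσφ _))
            τ_K := fun t x => e.injective ((hf _ _).trans (hσK _ x))
            τ_inj := fun t t' h => eqv.injective (AlgHom.ext fun z => ?_)
            card_eq := ?_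
            τ_frac := fun t z => ?_ }⟩
  · rw [← hf, ← hf]; exact congrArg e (RingHom.congr_fun h z)
  · rw [Nat.card_congr eqv, Nat.card_eq_fintype_card, AlgHom.card]
  · obtain ⟨a, b, -, hb, hab⟩ := hall (eqv t) z
    refine ⟨a, b, hb, e.injective ?_⟩
    rw [map_mul]
    exact (congrArg (· * e (E b)) (hf _ z)).trans hab

set_option maxHeartbeats 400000 in
/-- Split data from the splitting of generators alone, for transcendental `φ`. -/
theorem exists_splitData_of_transcendental (φ : L) (hφ : Transcendental K φ) (β : O →+* W)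
    (β_compat : ∀ a, algebraMap W K' (β a) = algebraMap K K' (algebraMap O K a))
    (J : LaurentSeries W) (r : ℕ) (u : PowerSeries W) (hJ : IsPoleSeries J r u)
    (hW : Function.Injective (algebraMap W K')) [FiniteDimensional K⟮φ⟯ L]
    [Algebra.IsSeparable K⟮φ⟯ L]
    (S : Set L) (hS : IntermediateField.adjoin K⟮φ⟯ S = ⊤)
    (hsplit : ∀ ψ : L →+* AlgebraicClosure (LaurentSeries K'),
      ψ φ = algebraMap (LaurentSeries K') _ (coeffMap (algebraMap W K') J) →
      (∀ x, ψ (algebraMap K L x) =
        algebraMap (LaurentSeries K') _ (HahnSeries.C (algebraMap K K' x))) →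
      ∀ s ∈ S, ∃ a b : LaurentSeries W, b ≠ 0 ∧
        ψ s * algebraMap (LaurentSeries K') _ (coeffMap (algebraMap W K') b) =
          algebraMap (LaurentSeries K') _ (coeffMap (algebraMap W K') a)) :
    Nonempty (SplitData.{uO, uK, uL, uW, uK', uT} O K W K' φ) := by
  classical
  let Ω := AlgebraicClosure (LaurentSeries K')
  set E := coeffMap (algebraMap W K')
  set e := algebraMap (LaurentSeries K') Ω
  have hJ' : IsPoleSeries (E J) r (u.map (algebraMap W K')) := by
    refine ⟨hJ.pos, ?_, ?_⟩
    · rw [← PowerSeries.coeff_zero_eq_constantCoeff_apply, PowerSeries.coeff_map,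
        PowerSeries.coeff_zero_eq_constantCoeff_apply]
      exact hJ.unit.map _
    · ext n
      rw [hJ.eq, map_mul]
      congr 2
      · ext m; simp [E, HahnSeries.coeff_single, apply_ite (algebraMap W K')]
      · ext m
        show algebraMap W K' ((HahnSeries.ofPowerSeries ℤ W u).coeff m) = _
        rcases le_or_gt 0 m with hm | hm
        · lift m to ℕ using hm
          rw [HahnSeries.ofPowerSeries_apply_coeff, HahnSeries.ofPowerSeries_apply_coeff,
            PowerSeries.coeff_map]
        · rw [ModularCurve.ofPowerSeries_coeff_of_neg _ hm,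
            ModularCurve.ofPowerSeries_coeff_of_neg _ hm, map_zero]
  let g₀ : K[X] →+* Ω :=
    eval₂RingHom (e.comp (HahnSeries.C.comp (algebraMap K K'))) (e (E J))
  have hg₀ : Function.Injective g₀ := by
    rw [injective_iff_map_eq_zero]
    intro P hP
    have hP' : (P.map (algebraMap K K')).eval₂ HahnSeries.C (E J) = 0 := e.injective (by
      rw [map_zero, ← hP, eval₂_map, hom_eval₂]; rfl)
    have hj : ∀ j, 0 < j → P.coeff j = 0 := fun j hjp => by
      have h1 := hJ'.dvd_coeff (P.map (algebraMap K K')) 0 (B := 0)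
        (fun i _ => by rw [hP', HahnSeries.coeff_zero]) (Nat.mul_pos hjp hJ.pos)
      rwa [zero_dvd_iff, coeff_map, map_eq_zero] at h1
    have hC : P = C (P.coeff 0) := by
      refine Polynomial.ext fun j => ?_
      rcases Nat.eq_zero_or_pos j with rfl | hjp
      · rw [coeff_C_zero]
      · rw [hj j hjp, coeff_C_ne_zero hjp.ne']
    rw [hC, show g₀ (C (P.coeff 0)) = e (HahnSeries.C (algebraMap K K' (P.coeff 0))) from
      eval₂_C _ _, map_eq_zero, ← map_zero HahnSeries.C, HahnSeries.C_injective.eq_iff,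
      map_eq_zero] at hP
    rw [hC, hP, map_zero]
  let g : RatFunc K →+* Ω := IsFractionRing.lift hg₀
  have hg : ∀ P, g (algebraMap K[X] (RatFunc K) P) = g₀ P := IsFractionRing.lift_algebraMap hg₀
  let eqv := (RatFunc.algEquivOfTranscendental φ hφ).symm
  letI : Algebra K⟮φ⟯ Ω := (g.comp eqv.toRingEquiv.toRingHom).toAlgebra
  let ψ : L →ₐ[K⟮φ⟯] Ω := IsAlgClosed.lift
  have hψφ : ψ φ = e (E J) := by
    refine (ψ.commutes (AdjoinSimple.gen K φ)).trans ?_
    show g (eqv (AdjoinSimple.gen K φ)) = _
    rw [RatFunc.algEquivOfTranscendental_symm_gen φ hφ, ← RatFunc.algebraMap_X, hg]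
    exact eval₂_X _ _
  have hψK : ∀ x, ψ (algebraMap K L x) = e (HahnSeries.C (algebraMap K K' x)) := fun x => by
    refine (ψ.commutes (algebraMap K K⟮φ⟯ x)).trans ?_
    show g (eqv (algebraMap K K⟮φ⟯ x)) = _
    rw [AlgEquiv.commutes, IsScalarTower.algebraMap_apply K K[X] (RatFunc K), hg]
    exact eval₂_C _ _
  have hrange : ∀ z : L, ∃ y, e y = ψ z := fun z => by
    obtain ⟨a, b, hEb, -, hab⟩ := exists_fraction_eq φ β β_compat J hW S hS ψ.toRingHom hψφ hψK
      (hsplit ψ.toRingHom hψφ hψK) z
    exact ⟨E a / E b, by rw [map_div₀, div_eq_iff ((map_ne_zero e).2 hEb)]; exact hab.symm⟩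
  choose f hf using hrange
  let τ₀ : L →+* LaurentSeries K' :=
    { toFun := f
      map_one' := e.injective (by rw [hf, map_one, map_one])
      map_mul' := fun x y => e.injective (by rw [hf, map_mul, map_mul, hf, hf])
      map_zero' := e.injective (by rw [hf, map_zero, map_zero])
      map_add' := fun x y => e.injective (by rw [hf, map_add, map_add, hf, hf]) }
  exact exists_splitData φ β β_compat J r u hJ hW τ₀ (e.injective ((hf φ).trans hψφ))
    (fun x => e.injective ((hf _).trans (hψK x))) S hS hsplit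

end FLTAgent.LevelSq
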