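import Fermat.Agent.LevelSq.Local

/-!
# Divisible horizontal divisors are locally principal

At a closed point over `q` the horizontal divisor of a function whose orders are divisible by `m`
is `m` times a principal divisor.
-/

set_option autoImplicit false
set_option linter.style.haveILetI false
set_option linter.unusedSectionVars false

noncomputable section

namespace FLTAgent.LevelSq

section UFD

variable {R : Type*} [CommRing R] [IsDomain R] [UniqueFactorizationMonoid R]

/-- An element whose multiplicities at the primes not dividing `c` are divisible by `m` is an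
`m`-th power times a product dividing a power of `c`. -/
theorem exists_pow_mul_dvd_pow {x c : R} (hx : x ≠ 0) {m : ℕ} (hm : m ≠ 0)
    (h : ∀ p : R, Prime p → ¬ p ∣ c → m ∣ primeCount p x) :
    ∃ (y r : R) (j : ℕ), x = r * y ^ m ∧ r ∣ c ^ j := by
  classical
  revert h
  induction x using UniqueFactorizationMonoid.induction_on_prime with
  | h₁ => exact absurd rfl hx
  | h₂ x hxu => exact fun _ => ⟨1, x, 0, by simp, by rw [pow_zero]; exact hxu.dvd⟩
  | h₃ x p hx0 hp _ =>
    intro h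
    -- strong induction on the factorisation
    obtain ⟨s, t, hs, ht, hst⟩ : ∃ s t : R, (∀ l, Prime l → l ∣ s → l ∣ c) ∧
        (∀ l, Prime l → l ∣ t → ¬ l ∣ c) ∧ p * x = s * t := by
      set M := UniqueFactorizationMonoid.factors (p * x)
      obtain ⟨u, hu⟩ := UniqueFactorizationMonoid.factors_prod (mul_ne_zero hp.ne_zero hx0)
      have hfac : ∀ (N : Multiset R), N ≤ M → ∀ l, Prime l → l ∣ N.prod → ∃ l' ∈ N, Associated l l' :=
        fun N hN l hl hd => by
          obtain ⟨l', hl', hdl⟩ := hl.exists_mem_multiset_dvd hd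
          exact ⟨l', hl', hl.associated_of_dvd (UniqueFactorizationMonoid.prime_of_factor l'
            (Multiset.mem_of_le hN hl')) hdl⟩
      refine ⟨(M.filter (· ∣ c)).prod * u, (M.filter fun a => ¬ a ∣ c).prod, fun l hl hd => ?_,
        fun l hl hd hlc => ?_, ?_⟩
      · rw [IsUnit.dvd_mul_right u.isUnit] at hd
        obtain ⟨l', hl', hal⟩ := hfac _ (Multiset.filter_le _ _) l hl hd
        exact hal.dvd.trans (Multiset.mem_filter.1 hl').2
      · obtain ⟨l', hl', hal⟩ := hfac _ (Multiset.filter_le _ _) l hl hd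
        exact (Multiset.mem_filter.1 hl').2 (hal.symm.dvd.trans hlc)
      · rw [mul_right_comm, ← Multiset.prod_add, Multiset.filter_add_not, hu]
    have hs0 : s ≠ 0 := fun h0 => mul_ne_zero hp.ne_zero hx0 (by rw [hst, h0, zero_mul])
    have ht0 : t ≠ 0 := fun h0 => mul_ne_zero hp.ne_zero hx0 (by rw [hst, h0, mul_zero])
    obtain ⟨w, d, hwd⟩ := exists_unit_mul_pow ht0 (m := m) fun l hl => by
      by_cases hlt : l ∣ t
      · have hlc := ht l hl hlt
        have hls : ¬ l ∣ s := fun hls => hlc (hs l hl hls)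
        have := h l hl hlc
        rwa [hst, primeCount_mul l hs0 ht0, primeCount_eq_zero hls, zero_add] at this
      · rw [primeCount_eq_zero hlt]; exact dvd_zero m
    refine ⟨d, s * w, (UniqueFactorizationMonoid.factors s).card, by rw [hst, hwd]; ring, ?_⟩
    rw [IsUnit.mul_right_dvd w.isUnit]
    refine (UniqueFactorizationMonoid.factors_prod hs0).symm.dvd.trans ?_
    refine (Multiset.prod_dvd_prod_of_dvd _ (fun _ => c) fun l hl => hs l
      (UniqueFactorizationMonoid.prime_of_factor l hl)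
      (UniqueFactorizationMonoid.dvd_of_mem_factors hl)) |> fun h' => ?_
    simpa using h'

end UFD

variable {O : Type} [CommRing O] [IsDomain O] [IsDiscreteValuationRing O] {q : O} {qn : ℕ}
  {FN : Type} [Field FN] [Algebra O FN] {k : Type} [Field k] [IsAlgClosed k]
  {B : BaseData O q qn FN k} {F : Type} [Field F] [Algebra O F] {K : Type} [Field K] [Algebra O K]
  [IsFractionRing O K] [Algebra K F] [IsScalarTower O K F]

namespace SqData

variable (D : SqData B F) (hq : Prime q) (hqn : qn.Prime) [IsNoetherianRing D.A]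

include hq hqn in
/-- The horizontal part near a closed point over `q` of a divisible divisor is `m` times a
principal divisor. -/
theorem exists_horizontal_root {m : ℕ} (hm0 : m ≠ 0) {f : F} (hf0 : f ≠ 0)
    (hdivF : ∀ V : ValuationSubring F, (∀ c : K, algebraMap K F c ∈ V) →
      ∃ y u : F, f = u * y ^ m ∧ u ∈ V ∧ u⁻¹ ∈ V)
    (n : Ideal D.A) [n.IsMaximal] (hqn' : algebraMap O D.A q ∈ n) :
    ∃ g : F, g ≠ 0 ∧ ∀ W : ValuationSubring F, (∀ c : K, algebraMap K F c ∈ W) →
      (∀ z : D.A, (z : F) ∈ W) → (∀ z : D.A, (z : F) ∈ W.nonunits → z ∈ n) →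
      f / g ^ m ∈ W ∧ (f / g ^ m)⁻¹ ∈ W := by
  classical
  haveI := D.ufd_point hq hqn n hqn'
  haveI : IsDomain (Localization.AtPrime n) :=
    IsLocalization.isDomain_localization n.primeCompl_le_nonZeroDivisors
  set R := Localization.AtPrime n
  have hunit : ∀ y : n.primeCompl, IsUnit (D.A.val.toRingHom y) := fun y =>
    IsUnit.mk0 _ fun h => y.2 (by rw [show (y : D.A) = 0 from Subtype.ext h]; exact n.zero_mem)
  let ψ : R →+* F := IsLocalization.lift (M := n.primeCompl) (g := D.A.val.toRingHom) hunit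
  have hψ : ∀ a : D.A, ψ (algebraMap D.A R a) = (a : F) := fun a =>
    IsLocalization.lift_eq _ a
  have hψinj : Function.Injective ψ := by
    refine IsLocalization.lift_injective_iff (S := R) hunit |>.2 fun a b => ?_
    rw [(IsLocalization.injective R n.primeCompl_le_nonZeroDivisors).eq_iff]
    exact ⟨fun h => h ▸ rfl, fun h => Subtype.ext h⟩
  -- fractions
  have hfrac : ∀ z : F, ∃ a b : R, b ≠ 0 ∧ z * ψ b = ψ a := by
    intro z
    obtain ⟨u, v, hu, hv, hv0, huv⟩ := D.frac z
    have hle : Algebra.adjoin O (⋃ i, (fun g : chart O B.j => D.ι i g) '' Set.univ) ≤ D.A := by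
      refine Algebra.adjoin_le ?_
      rintro _ ⟨_, ⟨i, rfl⟩, ⟨g, -, rfl⟩⟩
      exact D.ι_mem i g
    refine ⟨algebraMap D.A R ⟨u, hle hu⟩, algebraMap D.A R ⟨v, hle hv⟩, fun h => hv0 ?_, ?_⟩
    · exact congrArg Subtype.val ((map_eq_zero_iff _
        (IsLocalization.injective R n.primeCompl_le_nonZeroDivisors)).1 h)
    · rw [hψ, hψ]; exact huv
  set qR : R := algebraMap D.A R (algebraMap O D.A q) with hqR
  -- the valuation of a prime not dividing `q`
  have hval : ∀ p : R, Prime p → ¬ p ∣ qR → ∃ y u a₁ b₁ a₂ b₂ : _, (f = u * y ^ m) ∧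
      (¬ p ∣ b₁ ∧ u * ψ b₁ = ψ a₁) ∧ (¬ p ∣ b₂ ∧ u⁻¹ * ψ b₂ = ψ a₂) := by
    intro p hp hpq
    let V : ValuationSubring F :=
      { carrier := {z | ∃ a b : R, ¬ p ∣ b ∧ z * ψ b = ψ a}
        mul_mem' := by
          rintro x y ⟨a, b, hb, h⟩ ⟨a', b', hb', h'⟩
          exact ⟨a * a', b * b', fun hd => (hp.dvd_or_dvd hd).elim hb hb', by
            rw [map_mul, map_mul, mul_mul_mul_comm, h, h']⟩
        one_mem' := ⟨1, 1, fun hd => hp.not_isUnit (isUnit_of_dvd_one hd), by simp⟩
        add_mem' := by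
          rintro x y ⟨a, b, hb, h⟩ ⟨a', b', hb', h'⟩
          refine ⟨a * b' + a' * b, b * b', fun hd => (hp.dvd_or_dvd hd).elim hb hb', ?_⟩
          simp only [map_add, map_mul]
          linear_combination ψ b' * h + ψ b * h'
        zero_mem' := ⟨0, 1, fun hd => hp.not_isUnit (isUnit_of_dvd_one hd), by simp⟩
        neg_mem' := by
          rintro x ⟨a, b, hb, h⟩
          exact ⟨-a, b, hb, by rw [map_neg, neg_mul, h]⟩
        mem_or_inv_mem' := by
          intro z
          rcases eq_or_ne z 0 with rfl | hz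
          · exact Or.inl ⟨0, 1, fun hd => hp.not_isUnit (isUnit_of_dvd_one hd), by simp⟩
          obtain ⟨a, b, hb, h⟩ := hfrac z
          have hb' : ψ b ≠ 0 := (map_ne_zero_iff _ hψinj).2 hb
          have ha : a ≠ 0 := fun h0 => mul_ne_zero hz hb' (by rw [h, h0, map_zero])
          obtain ⟨i, a₁, ha₁, rfl⟩ := WfDvdMonoid.max_power_factor ha hp.irreducible
          obtain ⟨j, b₁, hb₁, rfl⟩ := WfDvdMonoid.max_power_factor hb hp.irreducible
          have hpne : ψ p ≠ 0 := (map_ne_zero_iff _ hψinj).2 hp.ne_zero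
          rw [map_mul, map_mul, map_pow, map_pow] at h
          rcases le_total j i with hji | hij
          · refine Or.inl ⟨p ^ (i - j) * a₁, b₁, hb₁, ?_⟩
            obtain ⟨l, rfl⟩ := Nat.exists_eq_add_of_le hji
            rw [Nat.add_sub_cancel_left, map_mul, map_pow]
            refine mul_left_cancel₀ (pow_ne_zero j hpne) ?_
            rw [pow_add] at h
            linear_combination h
          · refine Or.inr ⟨p ^ (j - i) * b₁, a₁, ha₁, ?_⟩
            obtain ⟨l, rfl⟩ := Nat.exists_eq_add_of_le hij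
            rw [Nat.add_sub_cancel_left, map_mul, map_pow]
            refine mul_left_cancel₀ (pow_ne_zero i hpne) ?_
            rw [pow_add] at h
            rw [← mul_assoc, mul_comm _ z⁻¹, mul_assoc, inv_mul_eq_iff_eq_mul₀ hz]
            linear_combination -h }
    have hK : ∀ c : K, algebraMap K F c ∈ V := by
      intro c
      obtain ⟨a, b, hb, rfl⟩ := IsFractionRing.div_surjective (A := O) c
      have hb0 : b ≠ 0 := nonZeroDivisors.ne_zero hb
      obtain ⟨i, u, rfl⟩ := IsDiscreteValuationRing.eq_unit_mul_pow_irreducible hb0 hq.irreducible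
      refine ⟨algebraMap D.A R (algebraMap O D.A a),
        algebraMap D.A R (algebraMap O D.A ((u : O) * q ^ i)), fun hd => ?_, ?_⟩
      · rw [map_mul, map_mul, map_pow, map_pow, IsUnit.dvd_mul_left
          ((u.isUnit.map (algebraMap O D.A)).map (algebraMap D.A R))] at hd
        exact hpq (hp.dvd_of_dvd_pow hd)
      · rw [hψ, hψ, map_div₀, ← IsScalarTower.algebraMap_apply, ← IsScalarTower.algebraMap_apply]
        exact div_mul_cancel₀ _ (D.algebraMap_ne_zero hb0)
    obtain ⟨y, u, hfu, ⟨a₁, b₁, hb₁, h₁⟩, a₂, b₂, hb₂, h₂⟩ := hdivF V hK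
    exact ⟨y, u, a₁, b₁, a₂, b₂, hfu, ⟨hb₁, h₁⟩, hb₂, h₂⟩
  obtain ⟨a, b, hb, hab⟩ := hfrac f
  have hbF : ψ b ≠ 0 := (map_ne_zero_iff _ hψinj).2 hb
  have ha : a ≠ 0 := fun h0 => mul_ne_zero hf0 hbF (by rw [hab, h0, map_zero])
  set c := a * b ^ (m - 1)
  have hc : c ≠ 0 := mul_ne_zero ha (pow_ne_zero _ hb)
  obtain ⟨y₀, r, j, hry, hrd⟩ := exists_pow_mul_dvd_pow (c := qR) hc hm0 fun p hp hpq => by
    obtain ⟨y, u, a₁, b₁, a₂, b₂, hfu, ⟨hb₁, h₁⟩, hb₂, h₂⟩ := hval p hp hpq
    obtain ⟨a₃, b₃, hb₃, h₃⟩ := hfrac y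
    have hu : u ≠ 0 := fun h0 => hf0 (by rw [hfu, h0, zero_mul])
    have hy : y ≠ 0 := fun h0 => hf0 (by rw [hfu, h0, zero_pow hm0, mul_zero])
    have hprod : a₁ * a₂ = b₁ * b₂ := hψinj (by
      rw [map_mul, map_mul, ← h₁, ← h₂]
      field_simp)
    have ha₁ : ¬ p ∣ a₁ := fun hd => by
      have : p ∣ b₁ * b₂ := hprod ▸ hd.mul_right a₂
      exact (hp.dvd_or_dvd this).elim hb₁ hb₂
    have ha₃ : a₃ ≠ 0 := fun h0 => mul_ne_zero hy ((map_ne_zero_iff _ hψinj).2 hb₃)
      (by rw [h₃, h0, map_zero])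
    have key : a * b₁ * b₃ ^ m = b * a₁ * a₃ ^ m := hψinj (by
      simp only [map_mul, map_pow]
      rw [← hab, ← h₁, ← h₃, hfu, mul_pow]
      ring)
    have hb₁0 : b₁ ≠ 0 := fun h0 => hb₁ (h0 ▸ dvd_zero p)
    have ha₁0 : a₁ ≠ 0 := fun h0 => ha₁ (h0 ▸ dvd_zero p)
    have h := congrArg (primeCount p) key
    rw [primeCount_mul p (mul_ne_zero ha hb₁0) (pow_ne_zero _ hb₃), primeCount_mul p ha hb₁0,
      primeCount_mul p (mul_ne_zero hb ha₁0) (pow_ne_zero _ ha₃), primeCount_mul p hb ha₁0,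
      primeCount_pow p hb₃, primeCount_pow p ha₃, primeCount_eq_zero hb₁,
      primeCount_eq_zero ha₁] at h
    rw [primeCount_mul p ha (pow_ne_zero _ hb), primeCount_pow p hb]
    obtain ⟨i, rfl⟩ := Nat.exists_eq_succ_of_ne_zero hm0
    have e : (primeCount p a + (i + 1 - 1) * primeCount p b) + (i + 1) * primeCount p b₃
        = (i + 1) * (primeCount p b + primeCount p a₃) := by
      simp only [Nat.succ_eq_add_one, Nat.add_sub_cancel, add_zero] at h ⊢
      linarith
    exact (Nat.dvd_add_left (dvd_mul_right _ _)).1 (e ▸ dvd_mul_right _ _)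
  have hy₀ : y₀ ≠ 0 := fun h0 => hc (by rw [hry, h0, zero_pow hm0, mul_zero])
  refine ⟨ψ y₀ / ψ b, div_ne_zero ((map_ne_zero_iff _ hψinj).2 hy₀) hbF, fun W hK hA hW => ?_⟩
  have hRW : ∀ s : R, ψ s ∈ W := by
    intro s
    obtain ⟨⟨e, d⟩, hs⟩ := IsLocalization.surj n.primeCompl s
    have h := congrArg ψ hs
    rw [map_mul, hψ, hψ] at h
    have hdu : ((d : D.A) : F) ∉ W.nonunits := fun hh => d.2 (hW _ hh)
    rw [W.mem_nonunits_iff_or, not_or, not_not] at hdu
    rw [show ψ s = (e : F) * ((d : D.A) : F)⁻¹ by rw [← h, mul_inv_cancel_right₀ hdu.1]]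
    exact mul_mem (hA e) hdu.2
  have heq : f / (ψ y₀ / ψ b) ^ m = ψ r := by
    rw [div_pow, div_div_eq_mul_div, div_eq_iff (pow_ne_zero _ ((map_ne_zero_iff _ hψinj).2 hy₀)),
      ← map_pow, ← map_pow, ← map_mul, ← hry, map_mul, ← hab, map_pow, map_pow, mul_assoc,
      ← pow_succ', Nat.sub_add_cancel (Nat.one_le_iff_ne_zero.2 hm0)]
  rw [heq]
  obtain ⟨s, hs⟩ := hrd
  refine ⟨hRW r, ?_⟩
  have hqj : ψ qR ^ j ≠ 0 := pow_ne_zero _ (by rw [hψ]; exact D.algebraMap_ne_zero hq.ne_zero)
  have hinv : (ψ r)⁻¹ = ψ s * (algebraMap K F (algebraMap O K q)⁻¹) ^ j := by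
    rw [map_inv₀, ← IsScalarTower.algebraMap_apply, show algebraMap O F q = ψ qR from (hψ (algebraMap O D.A q)).symm]
    refine inv_eq_of_mul_eq_one_right ?_
    rw [inv_pow, ← mul_assoc, ← map_mul, ← hs, map_pow, mul_inv_cancel₀ hqj]
  rw [hinv]
  exact mul_mem (hRW s) (pow_mem (hK _) _)

end SqData

end FLTAgent.LevelSq
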