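import Mathlib.RingTheory.AdicCompletion.Algebra
import Mathlib.RingTheory.DiscreteValuationRing.Basic
import Mathlib.RingTheory.Localization.FractionRing
import Mathlib.RingTheory.Filtration
import Mathlib.LinearAlgebra.Basis.VectorSpace
import Mathlib.RingTheory.Valuation.ValuationSubring
import Mathlib.FieldTheory.IsAlgClosed.Basic

/-!
# The completion of a discrete valuation ring is a domain; scalar extension keeps independence
-/

set_option autoImplicit false
set_option linter.style.haveILetI false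
set_option linter.unusedSectionVars false

noncomputable section

namespace FLTAgent.LevelSq

variable {O : Type*} [CommRing O] [IsDomain O] [IsDiscreteValuationRing O]

/-- The completion of `O` at the ideal spanned by `q`. -/
abbrev Compl (q : O) : Type _ := AdicCompletion (Ideal.span {q}) O

variable {q : O}

theorem mem_span_pow_iff {x : O} {n : ℕ} : x ∈ Ideal.span {q} ^ n ↔ q ^ n ∣ x := by
  rw [Ideal.span_singleton_pow, Ideal.mem_span_singleton]

theorem evalₐ_mk_eq_zero {f : AdicCompletion.AdicCauchySequence (Ideal.span {q}) O} {n : ℕ} :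
    AdicCompletion.evalₐ (Ideal.span {q}) n (AdicCompletion.mk _ _ f) = 0 ↔ q ^ n ∣ f n := by
  rw [AdicCompletion.evalₐ_mk, Ideal.Quotient.eq_zero_iff_mem, mem_span_pow_iff]

theorem dvd_sub_of_cauchy (f : AdicCompletion.AdicCauchySequence (Ideal.span {q}) O) {m n : ℕ}
    (h : m ≤ n) : q ^ m ∣ f n - f m := by
  have := Ideal.Quotient.eq.1 (AdicCompletion.Ideal.mk_eq_mk (I := Ideal.span {q}) h f)
  exact mem_span_pow_iff.1 this

theorem isDomain_compl (hq : Prime q) : IsDomain (Compl q) := by
  haveI : NoZeroDivisors (Compl q) := by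
    refine ⟨fun {x y} h => ?_⟩
    obtain ⟨f, rfl⟩ := AdicCompletion.mk_surjective _ _ x
    obtain ⟨g, rfl⟩ := AdicCompletion.mk_surjective _ _ y
    by_contra hne
    push Not at hne
    obtain ⟨hx, hy⟩ := hne
    obtain ⟨n, hn⟩ : ∃ n, ¬ q ^ n ∣ f n := by
      by_contra! hall
      exact hx (AdicCompletion.ext_evalₐ fun n => by rw [map_zero]; exact evalₐ_mk_eq_zero.2 (hall n))
    obtain ⟨m, hm⟩ : ∃ m, ¬ q ^ m ∣ g m := by
      by_contra! hall
      exact hy (AdicCompletion.ext_evalₐ fun n => by rw [map_zero]; exact evalₐ_mk_eq_zero.2 (hall n))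
    have hprod : q ^ (n + m) ∣ f (n + m) * g (n + m) := by
      have h2 := congrArg (AdicCompletion.evalₐ (Ideal.span {q}) (n + m)) h
      rw [map_mul, map_zero, AdicCompletion.evalₐ_mk, AdicCompletion.evalₐ_mk, ← map_mul,
        Ideal.Quotient.eq_zero_iff_mem, mem_span_pow_iff] at h2
      exact h2
    have hfn : ¬ q ^ n ∣ f (n + m) := fun hd => hn (by
      simpa using dvd_sub hd (dvd_sub_of_cauchy f (Nat.le_add_right n m)))
    have hgm : ¬ q ^ m ∣ g (n + m) := fun hd => hm (by
      simpa using dvd_sub hd (dvd_sub_of_cauchy g (Nat.le_add_left m n)))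
    have hf0 : f (n + m) ≠ 0 := fun h0 => hfn (h0 ▸ dvd_zero _)
    have hg0 : g (n + m) ≠ 0 := fun h0 => hgm (h0 ▸ dvd_zero _)
    obtain ⟨i, u, hu⟩ := IsDiscreteValuationRing.eq_unit_mul_pow_irreducible hf0 hq.irreducible
    obtain ⟨j, v, hv⟩ := IsDiscreteValuationRing.eq_unit_mul_pow_irreducible hg0 hq.irreducible
    have hi : i < n := by
      by_contra! hc
      exact hfn (hu ▸ dvd_mul_of_dvd_right (pow_dvd_pow q hc) _)
    have hj : j < m := by
      by_contra! hc
      exact hgm (hv ▸ dvd_mul_of_dvd_right (pow_dvd_pow q hc) _)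
    rw [hu, hv, show ((u : O) * q ^ i) * ((v : O) * q ^ j) = ((u * v : Oˣ) : O) * q ^ (i + j) by
      rw [Units.val_mul]; ring] at hprod
    rw [IsUnit.dvd_mul_left (Units.isUnit _)] at hprod
    exact absurd ((pow_dvd_pow_iff hq.ne_zero hq.not_isUnit).1 hprod) (by omega)
  haveI : Nontrivial (Compl q) := by
    refine ⟨0, 1, fun h => hq.not_isUnit ?_⟩
    have h2 := congrArg (AdicCompletion.evalₐ (Ideal.span {q}) 1) h
    rw [map_zero, map_one, ← map_one (Ideal.Quotient.mk _), eq_comm,
      Ideal.Quotient.eq_zero_iff_mem, mem_span_pow_iff, pow_one] at h2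
    exact isUnit_of_dvd_one h2
  exact NoZeroDivisors.to_isDomain _

theorem algebraMap_compl_injective (hq : Prime q) :
    Function.Injective (algebraMap O (Compl q)) := by
  rw [injective_iff_map_eq_zero]
  intro a ha
  by_contra h0
  obtain ⟨i, u, rfl⟩ := IsDiscreteValuationRing.eq_unit_mul_pow_irreducible h0 hq.irreducible
  have h2 := congrArg (AdicCompletion.evalₐ (Ideal.span {q}) (i + 1)) ha
  rw [map_zero, AlgHom.commutes, Ideal.Quotient.algebraMap_eq, Ideal.Quotient.eq_zero_iff_mem,
    mem_span_pow_iff, IsUnit.dvd_mul_left u.isUnit, pow_dvd_pow_iff hq.ne_zero hq.not_isUnit] at h2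
  omega

/-- Independence of families of coefficient sequences survives an extension of fields. -/
theorem linearIndependent_map {K Ω ι κ : Type*} [Field K] [Field Ω] [Algebra K Ω] [Fintype ι]
    {v : ι → κ → K} (hv : LinearIndependent K v) :
    LinearIndependent Ω fun i j => algebraMap K Ω (v i j) := by
  classical
  rw [Fintype.linearIndependent_iff] at hv ⊢
  intro w hw i
  refine (Module.Basis.ofVectorSpace K Ω).repr.map_eq_zero_iff.1 (Finsupp.ext fun t => ?_)
  refine hv (fun i => (Module.Basis.ofVectorSpace K Ω).repr (w i) t) (funext fun j => ?_) i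
  have h := congrFun hw j
  simp only [Finset.sum_apply, Pi.smul_apply, smul_eq_mul, Pi.zero_apply] at h ⊢
  have h2 := congrArg (fun x => (Module.Basis.ofVectorSpace K Ω).repr x t) h
  simp only [map_sum, map_zero, Finsupp.coe_zero, Pi.zero_apply, Finsupp.coe_finsetSum,
    Finset.sum_apply] at h2
  rw [← h2]
  refine Finset.sum_congr rfl fun k _ => ?_
  rw [mul_comm (w k), ← Algebra.smul_def, map_smul, Finsupp.smul_apply, smul_eq_mul, mul_comm]

/-- A discrete valuation ring cut out of an algebraically closed valued field by automorphisms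
preserving the valuation has no new algebraic elements in its completion. -/
theorem exists_algebraMap_eq_of_isAlgebraic (hq : Prime q) {K Ω : Type*} [Field K] [Field Ω]
    [IsAlgClosed Ω] [Algebra O K] [Algebra O Ω] [Algebra K Ω] [IsScalarTower O K Ω]
    [IsFractionRing O K] (A : ValuationSubring Ω)
    (hOA : ∀ x : K, algebraMap K Ω x ∈ A ↔ ∃ a : O, algebraMap O K a = x)
    (hsep : ∀ z : Ω, (∀ n : ℕ, ∃ w ∈ A, z = algebraMap O Ω q ^ n * w) → z = 0)
    (hfix : ∀ z : Ω, (∀ σ : Ω ≃ₐ[K] Ω, (∀ w ∈ A, σ w ∈ A) → σ z = z) →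
      ∃ y : K, algebraMap K Ω y = z)
    (x : Compl q) (hx : IsAlgebraic O x) : ∃ a : O, algebraMap O (Compl q) a = x := by
  classical
  obtain ⟨P, hP0, hPx⟩ := hx
  obtain ⟨f, rfl⟩ := AdicCompletion.mk_surjective _ _ x
  have hA : ∀ a : O, algebraMap O Ω a ∈ A := fun a => by
    rw [IsScalarTower.algebraMap_apply O K Ω]; exact (hOA _).2 ⟨a, rfl⟩
  have hinj : Function.Injective (algebraMap O Ω) := by
    rw [IsScalarTower.algebraMap_eq O K Ω]
    exact (algebraMap K Ω).injective.comp (IsFractionRing.injective O K)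
  set π := algebraMap O Ω q with hπ
  have hπ0 : π ≠ 0 := (map_ne_zero_iff _ hinj).2 hq.ne_zero
  have hπA : π ∈ A := hA q
  have hPdvd : ∀ n, q ^ n ∣ P.eval (f n) := by
    intro n
    have h := congrArg (AdicCompletion.evalₐ (Ideal.span {q}) n) hPx
    rw [map_zero, ← Polynomial.aeval_algHom_apply, AdicCompletion.evalₐ_mk,
      ← Ideal.Quotient.algebraMap_eq, Polynomial.aeval_algebraMap_apply,
      Polynomial.coe_aeval_eq_eval, Ideal.Quotient.algebraMap_eq, Ideal.Quotient.eq_zero_iff_mem,
      mem_span_pow_iff] at h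
    exact h
  set R := (P.map (algebraMap O Ω)).roots
  set c := (P.map (algebraMap O Ω)).leadingCoeff
  have hc : c ≠ 0 :=
    Polynomial.leadingCoeff_ne_zero.2 ((Polynomial.map_ne_zero_iff hinj).2 hP0)
  obtain ⟨e, he⟩ : ∃ e : ℕ, ∀ w ∈ A, c ≠ π ^ e * w := by
    by_contra! hall
    exact hc (hsep c hall)
  have hnear : ∀ N, ∃ r ∈ R, ∃ w ∈ A,
      algebraMap O Ω (f (R.card * N + e)) - r = π ^ N * w := by
    intro N
    by_contra! hall
    set n := R.card * N + e
    set y := algebraMap O Ω (f n)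
    obtain ⟨a, ha⟩ := hPdvd n
    have hev : c * (R.map fun r => y - r).prod = π ^ n * algebraMap O Ω a := by
      have h := congrArg (algebraMap O Ω) ha
      rw [map_mul, map_pow, ← Polynomial.eval_map_apply,
        (IsAlgClosed.splits (P.map (algebraMap O Ω))).eq_prod_roots, Polynomial.eval_mul,
        Polynomial.eval_C, Polynomial.eval_multiset_prod, Multiset.map_map] at h
      simpa [Function.comp_def] using h
    have hall' : ∀ r ∈ R, π ^ N / (y - r) ∈ A ∧ y - r ≠ 0 := by
      intro r hr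
      have hne : y - r ≠ 0 := fun h0 => hall r hr 0 A.zero_mem (by rw [mul_zero]; exact h0)
      refine ⟨(A.mem_or_inv_mem _).resolve_right fun hinv => hall r hr _ hinv ?_, hne⟩
      field_simp
    have hprod : ((R.map fun r => y - r).map fun z => π ^ N / z).prod ∈ A := by
      refine A.toSubring.multiset_prod_mem _ fun z hz => ?_
      rw [Multiset.map_map, Multiset.mem_map] at hz
      obtain ⟨r, hr, rfl⟩ := hz
      exact (hall' r hr).1
    have hne0 : (R.map fun r => y - r).prod ≠ 0 := Multiset.prod_ne_zero fun h0 => by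
      obtain ⟨r, hr, hr0⟩ := Multiset.mem_map.1 h0
      exact (hall' r hr).2 hr0
    refine he _ (mul_mem (hA a) hprod) ?_
    rw [Multiset.prod_map_div, Multiset.map_id', Multiset.map_const', Multiset.prod_replicate,
      Multiset.card_map]
    have hn : π ^ n = π ^ e * (π ^ N) ^ R.card := by
      rw [← pow_mul, ← pow_add]; congr 1; simp only [n]; ring
    rw [hn] at hev
    field_simp
    linear_combination hev
  choose r hr w hw heq using hnear
  haveI : Finite {z // z ∈ R.toFinset} := inferInstance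
  obtain ⟨⟨α, hαR⟩, hα⟩ := Finite.exists_infinite_fiber
    fun N => (⟨r N, Multiset.mem_toFinset.2 (hr N)⟩ : {z // z ∈ R.toFinset})
  rw [Set.infinite_coe_iff] at hα
  have happ : ∀ N, ∃ w ∈ A, α = algebraMap O Ω (f N) + π ^ N * w := by
    intro N
    obtain ⟨M, hM, hNM⟩ := hα.exists_gt N
    have hrM : r M = α := congrArg Subtype.val hM
    have hcard : M ≤ R.card * M := Nat.le_mul_of_pos_left M (Multiset.card_pos_iff_exists_mem.2
      ⟨_, hr M⟩)
    obtain ⟨a, ha⟩ := dvd_sub_of_cauchy f (show N ≤ R.card * M + e by omega)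
    refine ⟨algebraMap O Ω a - π ^ (M - N) * w M,
      sub_mem (hA a) (mul_mem (pow_mem hπA _) (hw M)), ?_⟩
    have ha' := congrArg (algebraMap O Ω) ha
    rw [map_sub, map_mul, map_pow, ← hπ] at ha'
    rw [mul_sub, ← mul_assoc, ← pow_add, Nat.add_sub_cancel' hNM.le, ← heq M, hrM]
    linear_combination ha'
  obtain ⟨z, hz⟩ := hfix α fun σ hσ => by
    refine sub_eq_zero.1 (hsep _ fun N => ?_)
    obtain ⟨v, hv, hαv⟩ := happ N
    refine ⟨σ v - v, sub_mem (hσ v hv) hv, ?_⟩
    have hσO : ∀ a : O, σ (algebraMap O Ω a) = algebraMap O Ω a := fun a => by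
      rw [IsScalarTower.algebraMap_apply O K Ω, AlgEquiv.commutes]
    conv_lhs => rw [hαv]
    rw [map_add, map_mul, map_pow, hπ, hσO, hσO]
    ring
  obtain ⟨a, rfl⟩ := (hOA z).1 (by
    obtain ⟨v, hv, hαv⟩ := happ 0
    rw [hz, hαv, pow_zero, one_mul]; exact add_mem (hA _) hv)
  refine ⟨a, AdicCompletion.ext_evalₐ fun N => ?_⟩
  rw [AlgHom.commutes, AdicCompletion.evalₐ_mk, Ideal.Quotient.algebraMap_eq, Ideal.Quotient.eq,
    mem_span_pow_iff]
  obtain ⟨v, hv, hαv⟩ := happ N
  rw [← hz, ← IsScalarTower.algebraMap_apply] at hαv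
  have hv' : algebraMap K Ω (algebraMap O K (a - f N) / algebraMap O K (q ^ N)) = v := by
    rw [map_div₀, ← IsScalarTower.algebraMap_apply, ← IsScalarTower.algebraMap_apply,
      div_eq_iff (by rw [map_pow]; exact pow_ne_zero _ hπ0), map_sub, map_pow, ← hπ, hαv]
    ring
  obtain ⟨b, hb⟩ := (hOA _).1 (hv' ▸ hv)
  refine ⟨b, IsFractionRing.injective O K ?_⟩
  rw [eq_div_iff ((map_ne_zero_iff _ (IsFractionRing.injective O K)).2 (pow_ne_zero _ hq.ne_zero))]
    at hb
  rw [map_mul, ← hb, mul_comm]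

end FLTAgent.LevelSq
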