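import Fermat.Agent.LevelSq.GaloisField
import Fermat.Agent.LevelSq.Vertical
import Fermat.Agent.LevelSq.SplitOf
import Fermat.Agent.LevelSq.Completion

/-!
# Split data for the field of all conjugates

Over `j (t ^ q) ↦ j (t ^ (N q))` every embedding sends the conjugates to quotients of series over
`ramRing q A`.  The completion of `urRing A` has no new algebraic elements.
-/

set_option autoImplicit false
set_option linter.style.haveILetI false
set_option linter.unusedSectionVars false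
set_option synthInstance.maxHeartbeats 100000

noncomputable section

open ModularCurve AlgebraicCurve Polynomial
open FLTAgent.Hecke FLTAgent.Igusa FLTAgent.Semistable FLTAgent.TW.Flat
open FLTAgent.ModPoly (twist coeffMap_twist jqConj jqConj_eq HIdx mem_hermiteSet)

namespace FLTAgent.LevelSq

local notation "Qbar" => AlgebraicClosure ℚ

instance ramAlgebraQbar (q : ℕ) (A : ValuationSubring Qbar) : Algebra (ramRing q A) Qbar :=
  (ramToQbar q A).toAlgebra

theorem ramToQbar_injective (q : ℕ) (A : ValuationSubring Qbar) :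
    Function.Injective (algebraMap (ramRing q A) Qbar) := fun _ _ h =>
  Subtype.ext (Subtype.ext h)

variable {q : ℕ} [hq : Fact q.Prime]

local instance : NeZero q := ⟨hq.out.ne_zero⟩

variable {A : ValuationSubring Qbar} (hA : A.LiesOverPrime q)
include hA

/-- Substitutions by roots of unity in `ramField q A` preserve `fracRam q A`. -/
theorem twist_mem_fracRam_of_mem {y : LaurentSeries Qbar} (hy : y ∈ fracRam q A) {ξ : Qbarˣ}
    {n : ℕ} (hn : n ≠ 0) (hξn : ξ ^ n = 1) (hξ : (ξ : Qbar) ∈ ramField q A) :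
    twist ξ y ∈ fracRam q A := by
  obtain ⟨a, b, hb, h⟩ := hy
  have hξ' : (ξ : Qbar) ^ n = 1 := by rw [← Units.val_pow_eq_pow_val, hξn, Units.val_one]
  set r : ramRing q A := ⟨⟨ξ, hξ⟩, mem_of_pow_eq_one hA hn hξ'⟩
  have hrq : r ^ n = 1 := Subtype.ext (Subtype.ext hξ')
  set u : (ramRing q A)ˣ := (IsUnit.of_pow_eq_one hrq hn).unit
  have hu : Units.map (ramToQbar q A : ramRing q A →* Qbar) u = ξ := Units.ext (by
    show ramToQbar q A ((IsUnit.of_pow_eq_one hrq hn).unit : ramRing q A) = ξ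
    rw [IsUnit.unit_spec]; rfl)
  refine ⟨twist u a, twist u b, fun h0 => hb ?_, ?_⟩
  · have := congrArg (twist u⁻¹) h0
    rwa [ModPoly.twist_twist, inv_mul_cancel, ModPoly.twist_one_unit, map_zero] at this
  · rw [ramSeries, coeffMap_twist, coeffMap_twist, hu, ← map_mul]
    exact congrArg _ h

/-- The conjugates of `j_n`, `q ∤ n`, lie in `fracRam q A`. -/
theorem jqConj_mem_fracRam {n : ℕ} [NeZero n] (hn : ¬ q ∣ n) {ζn : Qbarˣ}
    (hζn : IsPrimitiveRoot (ζn : Qbar) n) (p : HIdx n) :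
    jqConj Qbar ζn (p : ℕ × ℕ) ∈ fracRam q A := by
  have hp : (p : ℕ × ℕ).1 ≠ 0 := fun h =>
    NeZero.ne n (Nat.eq_zero_of_zero_dvd (h ▸ (mem_hermiteSet.1 p.2).1))
  haveI : NeZero ((p : ℕ × ℕ).1 * (p : ℕ × ℕ).1) := ⟨mul_ne_zero hp hp⟩
  rw [jqConj_eq]
  have h1 : (ζn ^ ((p : ℕ × ℕ).1 * (p : ℕ × ℕ).2)) ^ n = 1 := by
    rw [← pow_mul, mul_comm, pow_mul, (IsPrimitiveRoot.coe_units_iff.1 hζn).pow_eq_one, one_pow]
  refine qExpand_mem_fracRam (twist_mem_fracRam_of_mem hA jqModC_mem_fracRam (NeZero.ne n) h1 ?_) _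
  refine urField_le_ramField q A (mem_urField_of_pow_eq_one hA hn ?_)
  rw [← Units.val_pow_eq_pow_val, h1, Units.val_one]

variable {N : ℕ} [NeZero N] (hN : ¬ q ∣ N) {ζ : Qbarˣ} (hζ : IsPrimitiveRoot (ζ : Qbar) q)
include hN hζ

/-- Over `j (t ^ q) ↦ j (t ^ (N q))` the conjugates go into `fracRam q A`. -/
theorem exists_split_gen {T : Type*} [Field T] [Algebra Qbar T]
    (e : LaurentSeries Qbar →ₐ[Qbar] T) (ψ : fieldL q A N ζ →+* T)
    (hc : ∀ c : urField A, ψ (algebraMap (urField A) (fieldL q A N ζ) c) =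
      algebraMap Qbar T (c : Qbar))
    (hφ : ψ (phiL hN hζ) = e (qExpand Qbar N (jd Qbar q))) (o : Option (Fin q)) :
    ψ (conjJ A N ζ o) ∈ e '' (fracRam q A : Set (LaurentSeries Qbar)) ∧
      ψ (conjN A N ζ o) ∈ e '' (fracRam q A : Set (LaurentSeries Qbar)) := by
  obtain ⟨o', ho'⟩ := exists_conj_j hN hζ e ψ hc N hφ o
  refine ⟨⟨_, qExpand_mem_fracRam (rootMap_mem_fracRam hA hζ jqModC_mem_fracRam o') N, ho'.symm⟩, ?_⟩
  obtain ⟨ζN, hζN⟩ := Semistable.exists_primitiveRoot_unit (L := Qbar) N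
  obtain ⟨g, hg, hgN⟩ : ∃ g : LaurentSeries Qbar →ₐ[Qbar] LaurentSeries Qbar,
      (∀ y ∈ fracRam q A, g y ∈ fracRam q A) ∧
      g (jd Qbar N) = qExpand Qbar N (rootMap ζ o' (jqModC Qbar)) := by
    rcases o' with _ | i
    · refine ⟨qExpandAlg Qbar (q * q), fun y hy => qExpand_mem_fracRam hy _, ?_⟩
      show qExpand Qbar (q * q) (qExpand Qbar N (jqModC Qbar)) = qExpand Qbar N (qExpand Qbar (q * q) _)
      rw [qExpand_qExpand, qExpand_qExpand]
      exact qExpand_congr (by ring) _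
    · obtain ⟨N', hN'⟩ := Nat.exists_mul_mod_eq_one_of_coprime
        ((Nat.Prime.coprime_iff_not_dvd hq.out).2 hN).symm hq.out.one_lt
      have hu := IsPrimitiveRoot.coe_units_iff.1 hζ
      refine ⟨twistHom (ζ ^ ((i : ℕ) * N')), fun y hy => twist_mem_fracRam hA hy (by
        rw [← pow_mul, mul_comm, pow_mul, hu.pow_eq_one, one_pow]), ?_⟩
      show twist _ (qExpand Qbar N (jqModC Qbar)) = qExpand Qbar N (twist _ _)
      rw [Igusa.twist_qExpand]
      refine congrArg (fun u => qExpand Qbar N (twist u (jqModC Qbar))) ?_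
      rw [← pow_mul, mul_assoc, mul_comm N', pow_mul]
      conv_rhs => rw [← pow_one (ζ ^ (i : ℕ))]
      have h1 : (ζ ^ (i : ℕ)) ^ q = 1 := by rw [← pow_mul, mul_comm, pow_mul, hu.pow_eq_one, one_pow]
      conv_lhs => rw [← Nat.mod_add_div (N * N') q, pow_add, pow_mul _ q, h1, one_pow, mul_one, hN'.2]
  have h := phiRel_ringHom ψ hc (n := N) (x := (conjJ A N ζ o)) (y := (conjN A N ζ o))
    (phiRel_gens (A := A) (N := N) hζ o).2.2
  rw [ho', ← hgN] at h
  obtain ⟨p, hp⟩ := (phiRel_map_jd_iff N hζN (e.comp g)).1 h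
  exact ⟨_, hg _ (jqConj_mem_fracRam hA hN hζN p), hp.symm⟩

omit hA hN hζ in
/-- The conjugates generate `fieldL` over every subfield. -/
theorem adjoin_conjGens_eq_top (E : IntermediateField (urField A) (fieldL q A N ζ)) :
    IntermediateField.adjoin E (Set.range (conjJ (q := q) A N ζ) ∪ Set.range (conjN (q := q) A N ζ)) = ⊤ := by
  refine eq_top_iff.2 fun z _ => ?_
  have hle : IntermediateField.adjoin (urField A)
      (Set.range (conjJ (q := q) A N ζ) ∪ Set.range (conjN (q := q) A N ζ)) ≤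
      (IntermediateField.adjoin E (Set.range (conjJ (q := q) A N ζ) ∪
        Set.range (conjN (q := q) A N ζ))).restrictScalars (urField A) :=
    IntermediateField.adjoin_le_iff.2 (IntermediateField.subset_adjoin _ _)
  exact hle (mem_adjoin_conjGens z)

/-- The split data of `fieldL`. -/
theorem exists_splitData_fieldL :
    ∃ Sd : SplitData.{0, 0, 0, 0, 0, 0} (urRing A) (urField A) (ramRing q A) Qbar (phiL (A := A) hN hζ),
      Sd.β = urRamIncl q A := by
  classical
  haveI := finiteDimensional_fieldL (A := A) (N := N) hN hζ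
  haveI : Algebra.IsSeparable (IntermediateField.adjoin (urField A) {phiL (A := A) hN hζ})
      (fieldL q A N ζ) := Algebra.IsSeparable.of_integral _ _
  haveI : NeZero (N * q) := ⟨mul_ne_zero (NeZero.ne N) hq.out.ne_zero⟩
  set W := ramRing q A
  set J : LaurentSeries W := qExpand W (N * q) (jqModC W) with hJdef
  have hE : coeffMap (algebraMap W Qbar) J = qExpand Qbar N (jd Qbar q) := by
    rw [hJdef, coeffMap_qExpand, coeffMap_jqModC, qExpand_qExpand]
  let τ₀ : fieldL q A N ζ →+* LaurentSeries Qbar :=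
    (qExpand Qbar N).comp (fieldL q A N ζ).val.toRingHom
  have hC : ∀ c : Qbar, HahnSeries.C c = algebraMap Qbar (LaurentSeries Qbar) c := fun c => by
    rw [HahnSeries.C_apply, algebraMap_laurentSeries_eq_single]
  suffices h : Nonempty (SplitData.{0, 0, 0, 0, 0, 0} (urRing A) (urField A) W Qbar
      (phiL (A := A) hN hζ)) by
    obtain ⟨Sd⟩ := h
    exact ⟨Sd, RingHom.ext fun a => ramToQbar_injective q A (Sd.β_compat a)⟩
  refine exists_splitData (L := fieldL q A N ζ) (phiL (A := A) hN hζ) (urRamIncl q A)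
    (fun a => rfl) J (N * q) (PowerSeries.expand (N * q) (NeZero.ne _)
      (jNum.map (Int.castRingHom W))) ⟨?_, ?_, ?_⟩ (ramToQbar_injective q A) τ₀ ?_ ?_
    (Set.range (conjJ A N ζ) ∪ Set.range (conjN A N ζ)) ?_ ?_
  · exact Nat.pos_of_ne_zero (NeZero.ne _)
  · rw [PowerSeries.constantCoeff_expand, ← PowerSeries.coeff_zero_eq_constantCoeff_apply,
      PowerSeries.coeff_map, PowerSeries.coeff_zero_eq_constantCoeff_apply, constantCoeff_jNum,
      map_one]
    exact isUnit_one
  · rw [hJdef, jqModC, map_mul, qExpand_single, ModPoly.qExpand_ofPowerSeries]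
    simp
  · rw [hE]
    show qExpand Qbar N (phiL (A := A) hN hζ : LaurentSeries Qbar) = _
    rw [coe_phiL]
  · intro c
    rw [hC]
    exact (qExpandAlg Qbar N).commutes _
  · exact adjoin_conjGens_eq_top _
  · intro ψ hψφ hψc s hs
    let e : LaurentSeries Qbar →ₐ[Qbar] AlgebraicClosure (LaurentSeries Qbar) :=
      IsScalarTower.toAlgHom Qbar _ _
    have hc : ∀ c : urField A, ψ (algebraMap (urField A) (fieldL q A N ζ) c) =
        algebraMap Qbar (AlgebraicClosure (LaurentSeries Qbar)) (c : Qbar) := fun c => by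
      rw [hψc, hC]
      exact e.commutes _
    have hφ : ψ (phiL hN hζ) = e (qExpand Qbar N (jd Qbar q)) := by rw [hψφ, hE]; rfl
    have hmem : ψ s ∈ e '' (fracRam q A : Set (LaurentSeries Qbar)) := by
      rcases hs with ⟨o, rfl⟩ | ⟨o, rfl⟩
      · exact (exists_split_gen hA hN hζ e ψ hc hφ o).1
      · exact (exists_split_gen hA hN hζ e ψ hc hφ o).2
    obtain ⟨y, ⟨a, b, hb, hab⟩, hy⟩ := hmem
    refine ⟨a, b, hb, ?_⟩
    rw [← hy]
    exact (map_mul e _ _).symm.trans (congrArg e hab)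

omit hN hζ in
/-- Algebraic elements of the completion of `urRing A` are in `urRing A`. -/
theorem exists_eq_of_isAlgebraic_compl (x : Compl (q : urRing A)) (hx : IsAlgebraic (urRing A) x) :
    ∃ a : urRing A, algebraMap (urRing A) (Compl (q : urRing A)) a = x := by
  haveI := isDiscreteValuationRing_urRing hA
  letI : Algebra (urRing A) Qbar :=
    ((algebraMap (urField A) Qbar).comp (algebraMap (urRing A) (urField A))).toAlgebra
  haveI : IsScalarTower (urRing A) (urField A) Qbar := IsScalarTower.of_algebraMap_eq fun _ => rfl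
  refine exists_algebraMap_eq_of_isAlgebraic (prime_natCast_urRing hA) (K := urField A) A
    (mem_urRing_iff_exists hA) (fun z hz => ?_) (exists_eq_of_fixed hA) x hx
  obtain ⟨𝔓, rfl, -⟩ := exists_nm hA
  by_contra h0
  have hpos : 0 < 𝔓.nm z := lt_of_le_of_ne (𝔓.nm_nonneg _) fun h => h0 (map_eq_zero _ |>.1 h.symm)
  obtain ⟨n, hn⟩ := exists_pow_lt_of_lt_one hpos (y := ((q : ℝ))⁻¹)
    (inv_lt_one_of_one_lt₀ (by exact_mod_cast hq.out.one_lt))
  obtain ⟨w, hw, hwz⟩ := hz n
  have hle : 𝔓.nm z ≤ ((q : ℝ))⁻¹ ^ n := by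
    rw [hwz, map_natCast, map_mul, map_pow, 𝔓.nm_p]
    exact mul_le_of_le_one_right (by positivity) ((𝔓.mem_iff _).1 hw)
  exact absurd hn (not_lt.2 hle)

end FLTAgent.LevelSq
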