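import Fermat.Agent.LevelSq.Balanced
import Mathlib.RingTheory.Localization.AtPrime.Basic
import Mathlib.RingTheory.Ideal.GoingUp

/-!
# Removing the vertical part of a function at a factorial closed point
-/

set_option autoImplicit false
set_option linter.style.haveILetI false
set_option linter.unusedSectionVars false
set_option linter.overlappingInstances false

noncomputable section

open Polynomial

namespace FLTAgent.LevelSq

/-- Splitting off the part supported at the primes dividing `c`. -/
theorem exists_split_primes {R : Type*} [CommRing R] [IsDomain R] [UniqueFactorizationMonoid R]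
    (c : R) {x : R} (hx : x ≠ 0) :
    ∃ (y r : R) (j : ℕ), x = r * y ∧ r ∣ c ^ j ∧ ∀ p, Prime p → p ∣ c → ¬ p ∣ y := by
  classical
  induction x using UniqueFactorizationMonoid.induction_on_prime with
  | h₁ => exact absurd rfl hx
  | h₂ x hxu =>
    exact ⟨1, x, 0, by simp, by rw [pow_zero]; exact hxu.dvd,
      fun p hp _ h => hp.not_isUnit (isUnit_of_dvd_one h)⟩
  | h₃ x p hx0 hp ih =>
    obtain ⟨y, r, j, rfl, hr, hy⟩ := ih hx0
    by_cases hpc : p ∣ c
    · exact ⟨y, p * r, j + 1, (mul_assoc _ _ _).symm, by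
        rw [pow_succ']; exact mul_dvd_mul hpc hr, hy⟩
    · exact ⟨p * y, r, j, mul_left_comm _ _ _, hr, fun l hl hlc h =>
        (hl.dvd_or_dvd h).elim (fun h' => hpc ((hl.associated_of_dvd hp h').symm.dvd.trans hlc))
          (hy l hl hlc)⟩

variable {O K F : Type*} [CommRing O] [IsDomain O] [IsDiscreteValuationRing O] [Field K]
  [Algebra O K] [IsFractionRing O K] [Field F] [Algebra K F] [Algebra O F] [IsScalarTower O K F]
  {q : O} {φ : F}

/-- At a factorial closed point over `q` every function differs from a function which is a unit at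
the vertical valuations through the point by one whose divisor there is vertical. -/
theorem exists_unit_at_verticals (hq : Prime q) (hfrac : ∀ z : F, ∃ a b : chart O φ,
      b ≠ 0 ∧ z * (b : F) = (a : F))
    (n : Ideal (chart O φ)) [n.IsPrime] [IsDomain (Localization.AtPrime n)]
    [UniqueFactorizationMonoid (Localization.AtPrime n)]
    {g₀ : F} (hg₀ : g₀ ≠ 0) :
    ∃ g : F, g ≠ 0 ∧
      (∀ U, IsVert O q φ U → (∀ z : chart O φ, (z : F) ∈ U.nonunits → z ∈ n) →
        g ∈ U ∧ g⁻¹ ∈ U) ∧
      ∀ B : ValuationSubring F, (∀ x : K, algebraMap K F x ∈ B) →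
        (∀ z : chart O φ, (z : F) ∈ B) → (∀ z : chart O φ, (z : F) ∈ B.nonunits → z ∈ n) →
        g₀ / g ∈ B ∧ (g₀ / g)⁻¹ ∈ B := by
  classical
  set R := Localization.AtPrime n
  have hunit : ∀ y : n.primeCompl, IsUnit ((chart O φ).val.toRingHom y) := fun y =>
    IsUnit.mk0 _ fun h => y.2 (by rw [show (y : chart O φ) = 0 from Subtype.ext h]; exact n.zero_mem)
  let ψ : R →+* F := IsLocalization.lift (M := n.primeCompl) (g := (chart O φ).val.toRingHom) hunit
  have hψ : ∀ a : chart O φ, ψ (algebraMap _ R a) = (a : F) := fun a => IsLocalization.lift_eq _ a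
  have hψinj : Function.Injective ψ := by
    refine IsLocalization.lift_injective_iff (S := R) hunit |>.2 fun a b => ?_
    rw [(IsLocalization.injective R n.primeCompl_le_nonZeroDivisors).eq_iff]
    exact ⟨fun h => h ▸ rfl, fun h => Subtype.ext h⟩
  have hRW : ∀ (W : ValuationSubring F), (∀ z : chart O φ, (z : F) ∈ W) →
      (∀ z : chart O φ, (z : F) ∈ W.nonunits → z ∈ n) → ∀ s : R, ψ s ∈ W := by
    intro W hA hW s
    obtain ⟨⟨e, d⟩, hs⟩ := IsLocalization.surj n.primeCompl s
    have h := congrArg ψ hs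
    rw [map_mul, hψ, hψ] at h
    have hdu : ((d : chart O φ) : F) ∉ W.nonunits := fun hh => d.2 (hW _ hh)
    rw [W.mem_nonunits_iff_or, not_or, not_not] at hdu
    rw [show ψ s = (e : F) * ((d : chart O φ) : F)⁻¹ by rw [← h, mul_inv_cancel_right₀ hdu.1]]
    exact mul_mem (hA e) hdu.2
  set qR : R := algebraMap _ R (algebraMap O (chart O φ) q) with hqR
  have hq0 : qR ≠ 0 := fun h => hq.ne_zero (by
    have h' : algebraMap O F q = 0 := by
      rw [show algebraMap O F q = ψ qR from (hψ (algebraMap O (chart O φ) q)).symm, h, map_zero]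
    rw [IsScalarTower.algebraMap_apply O K F, map_eq_zero] at h'
    exact (map_eq_zero_iff _ (IsFractionRing.injective O K)).1 h')
  -- at a vertical valuation, the elements prime to `q` are units
  have hvert : ∀ U, IsVert O q φ U → (∀ z : chart O φ, (z : F) ∈ U.nonunits → z ∈ n) →
      ∀ y : R, y ≠ 0 → (∀ p, Prime p → p ∣ qR → ¬ p ∣ y) → (ψ y)⁻¹ ∈ U := by
    intro U hU hn y hy0 hy
    have hA : ∀ z : chart O φ, (z : F) ∈ U := fun z => (hU.chart_le' hq).1 z.2
    by_contra hc
    have hynu : ψ y ∈ U.nonunits := U.mem_nonunits_iff_or.2 (Or.inr hc)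
    let P : Ideal R :=
      { carrier := {s | ψ s ∈ U.nonunits}
        zero_mem' := by
          show ψ 0 ∈ U.nonunits
          rw [map_zero]; exact U.nonunits.zero_mem
        add_mem' := fun {a b} ha hb => by
          show ψ (a + b) ∈ U.nonunits
          rw [map_add]; exact U.nonunits.add_mem ha hb
        smul_mem' := fun a s hs => by
          show ψ (a * s) ∈ U.nonunits
          rw [map_mul]; exact nonunits_mul (hRW U hA hn a) hs }
    have hP1 : (1 : R) ∉ P := fun h => one_not_mem_nonunits U (by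
      have h' : ψ 1 ∈ U.nonunits := h
      rwa [map_one] at h')
    have hqP : qR ∈ P := by
      show ψ qR ∈ U.nonunits
      rw [hψ]; exact hU.q_mem
    have hPp : P.IsPrime := by
      refine ⟨fun h => hP1 (h ▸ Submodule.mem_top), fun {a b} hab => ?_⟩
      by_contra! h
      have hu : ∀ s, s ∉ P → (ψ s)⁻¹ ∈ U := fun s hs => by
        by_contra hc'
        exact hs (U.mem_nonunits_iff_or.2 (Or.inr hc'))
      have hab' : ψ a * ψ b ∈ U.nonunits := by rw [← map_mul]; exact hab
      have h0 : ψ a * ψ b ≠ 0 := mul_ne_zero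
        (fun h0 => h.1 (show ψ a ∈ U.nonunits by rw [h0]; exact U.nonunits.zero_mem))
        (fun h0 => h.2 (show ψ b ∈ U.nonunits by rw [h0]; exact U.nonunits.zero_mem))
      exact not_mem_nonunits_of_inv_mem h0 (by rw [mul_inv]; exact mul_mem (hu a h.1) (hu b h.2))
        hab'
    obtain ⟨p, hp, hpq, hpP⟩ : ∃ p, Prime p ∧ p ∣ qR ∧ p ∈ P := by
      obtain ⟨u, hu⟩ := UniqueFactorizationMonoid.factors_prod hq0
      have hmem : (UniqueFactorizationMonoid.factors qR).prod ∈ P := by
        have := P.mul_mem_right (↑u⁻¹ : R) hqP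
        rwa [← hu, Units.mul_inv_cancel_right] at this
      obtain ⟨p, hp, hpP⟩ := hPp.multiset_prod_mem_iff_exists_mem _ |>.1 hmem
      exact ⟨p, UniqueFactorizationMonoid.prime_of_factor p hp,
        UniqueFactorizationMonoid.dvd_of_mem_factors hp, hpP⟩
    haveI : (Ideal.span {p}).IsPrime := (Ideal.span_singleton_prime hp.ne_zero).2 hp
    -- incomparability over `O[φ]`
    set A := Algebra.adjoin O ({φ} : Set F)
    letI : Algebra A (chart O φ) := (Subalgebra.inclusion (adjoin_le_chart O φ)).toAlgebra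
    haveI : IsScalarTower A (chart O φ) F := IsScalarTower.of_algebraMap_eq fun _ => rfl
    haveI : Algebra.IsIntegral A (chart O φ) := ⟨fun z =>
      (isIntegral_algHom_iff (IsScalarTower.toAlgHom A (chart O φ) F) Subtype.val_injective).1 z.2⟩
    set P' := P.comap (algebraMap (chart O φ) R)
    set P'' := (Ideal.span {p}).comap (algebraMap (chart O φ) R)
    have hle : P'' ≤ P' := Ideal.comap_mono ((Ideal.span_singleton_le_iff_mem _).2 hpP)
    have heq : P'' = P' := by
      by_contra hne
      obtain ⟨x, hx, hx'⟩ := SetLike.exists_of_lt (lt_of_le_of_ne hle hne)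
      obtain ⟨r, hr, hr'⟩ := SetLike.exists_of_lt
        (Ideal.comap_lt_comap_of_integral_mem_sdiff (R := A) hle ⟨hx, hx'⟩
          (Algebra.IsIntegral.isIntegral x))
      obtain ⟨s, hs⟩ := exists_aeval_eq O r.2
      have hsq : C q ∣ s := by
        by_contra hsq
        have hrU : ψ (algebraMap _ R (algebraMap A (chart O φ) r)) ∈ U.nonunits := hr
        rw [hψ, show ((algebraMap A (chart O φ) r : chart O φ) : F) = aeval φ s from hs.symm]
          at hrU
        rcases U.mem_nonunits_iff_or.1 hrU with h | h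
        · have := hU.q_mem
          exact not_mem_nonunits_of_inv_mem (one_ne_zero : (1 : F) ≠ 0) (by simp) (by
            have h1 := (hU.unit_mem (s + C q) fun hd => hsq (by
              simpa using dvd_sub hd dvd_rfl)).2
            rw [map_add, aeval_C, h, zero_add] at h1
            have h2 := nonunits_mul h1 this
            rwa [inv_mul_cancel₀ (fun h0 => hq0 (hψinj (by rw [hψ, map_zero]; exact h0)))] at h2)
        · exact h (hU.unit_mem s hsq).2
      obtain ⟨t, rfl⟩ := hsq
      apply hr'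
      show algebraMap _ R (algebraMap A (chart O φ) r) ∈ Ideal.span {p}
      rw [show algebraMap A (chart O φ) r
          = algebraMap O (chart O φ) q * ⟨aeval φ t, aeval_mem_chart O φ t⟩ from
        Subtype.ext (hs.symm.trans (by rw [map_mul, aeval_C]; rfl)), map_mul]
      exact Ideal.mul_mem_right _ _ (Ideal.mem_span_singleton.2 hpq)
    obtain ⟨⟨e, d⟩, hed⟩ := IsLocalization.surj n.primeCompl y
    have he : algebraMap _ R e ∈ Ideal.span {p} := by
      show e ∈ P''
      rw [heq]
      show algebraMap _ R e ∈ P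
      rw [← hed]
      exact P.mul_mem_right _ hynu
    rw [← hed, Ideal.mem_span_singleton] at he
    exact hy p hp hpq (((hp.dvd_or_dvd he)).resolve_right fun h =>
      hp.not_isUnit (isUnit_of_dvd_unit h (IsLocalization.map_units R d)))
  obtain ⟨a, b, hb, hab⟩ := hfrac g₀
  have hbF : (b : F) ≠ 0 := fun h => hb (Subtype.ext h)
  have ha : a ≠ 0 := fun h => mul_ne_zero hg₀ hbF (by rw [hab, h, ZeroMemClass.coe_zero])
  have hinj := IsLocalization.injective R n.primeCompl_le_nonZeroDivisors
  obtain ⟨ya, ra, ja, hya, hra, hpa⟩ :=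
    exists_split_primes qR ((map_ne_zero_iff _ hinj).2 ha)
  obtain ⟨yb, rb, jb, hyb, hrb, hpb⟩ :=
    exists_split_primes qR ((map_ne_zero_iff _ hinj).2 hb)
  have hya0 : ya ≠ 0 := fun h => (map_ne_zero_iff _ hinj).2 ha (by rw [hya, h, mul_zero])
  have hyb0 : yb ≠ 0 := fun h => (map_ne_zero_iff _ hinj).2 hb (by rw [hyb, h, mul_zero])
  have hψ0 : ∀ {s : R}, s ≠ 0 → ψ s ≠ 0 := fun h => (map_ne_zero_iff _ hψinj).2 h
  refine ⟨ψ ya / ψ yb, div_ne_zero (hψ0 hya0) (hψ0 hyb0), fun U hU hn => ?_,
    fun B hK hA hn => ?_⟩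
  · have hA : ∀ z : chart O φ, (z : F) ∈ U := fun z => (hU.chart_le' hq).1 z.2
    rw [inv_div, div_eq_mul_inv, div_eq_mul_inv]
    exact ⟨mul_mem (hRW U hA hn ya) (hvert U hU hn yb hyb0 hpb),
      mul_mem (hRW U hA hn yb) (hvert U hU hn ya hya0 hpa)⟩
  · have hqinv : (ψ qR)⁻¹ ∈ B := by
      have := hK (algebraMap O K q)⁻¹
      rw [map_inv₀, ← IsScalarTower.algebraMap_apply] at this
      rw [hψ]; exact this
    have hrinv : ∀ {r : R} {j : ℕ}, r ∣ qR ^ j → (ψ r)⁻¹ ∈ B := by
      rintro r j ⟨s, hs⟩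
      rcases eq_or_ne (ψ r) 0 with h0 | h0
      · simp [h0]
      rw [show (ψ r)⁻¹ = ψ s * ((ψ qR)⁻¹) ^ j by
        have hs0 : ψ s ≠ 0 := fun hs0 => hψ0 (pow_ne_zero j hq0) (by rw [hs, map_mul, hs0, mul_zero])
        rw [inv_pow, ← map_pow, hs, map_mul, mul_inv, mul_left_comm, mul_inv_cancel₀ hs0, mul_one]]
      exact mul_mem (hRW B hA hn s) (pow_mem hqinv j)
    have heq : g₀ / (ψ ya / ψ yb) = ψ ra * (ψ rb)⁻¹ := by
      have h1 : (a : F) = ψ ra * ψ ya := by rw [← hψ, hya, map_mul]
      have h2 : (b : F) = ψ rb * ψ yb := by rw [← hψ, hyb, map_mul]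
      have h3 : g₀ = (a : F) / (b : F) := by rw [eq_div_iff hbF, hab]
      have := hψ0 hya0
      have := hψ0 hyb0
      rw [h3, h1, h2]
      field_simp
    rw [heq, mul_inv, inv_inv]
    exact ⟨mul_mem (hRW B hA hn ra) (hrinv hrb), mul_mem (hrinv hra) (hRW B hA hn rb)⟩

end FLTAgent.LevelSq
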