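import Fermat.Agent.LevelSq.Compat
import Fermat.Agent.LevelSq.Horizontal
import Fermat.Agent.LevelSq.SplitField
import Fermat.Agent.LevelSq.VerticalBalanced
import Fermat.Agent.LevelSq.VerticalFree

/-!
# Balanced products of the conjugates of a function are powers

For a function on `X₀ (q ^ 2 N)` over the inertia field with orders divisible by `m`, `q ∤ m`, and
exponents with vanishing row and column sums, the product of the conjugates is an `m`-th power
in `fieldL`.
-/

set_option autoImplicit false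
set_option linter.style.haveILetI false
set_option linter.unusedSectionVars false
set_option synthInstance.maxHeartbeats 100000

noncomputable section

open ModularCurve AlgebraicCurve Polynomial IntermediateField Finset
open FLTAgent.Hecke FLTAgent.Igusa

namespace FLTAgent.LevelSq

local notation "Qbar" => AlgebraicClosure ℚ

/-- Finiteness over `K (φ)` descends along an embedding. -/
theorem finiteDimensional_of_algHom {K F L : Type*} [Field K] [Field F] [Field L] [Algebra K F]
    [Algebra K L] (f : F →ₐ[K] L) {φ : F} {φL : L} (h : f φ = φL) [FiniteDimensional K⟮φL⟯ L] :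
    FiniteDimensional K⟮φ⟯ F := by
  letI : Algebra K⟮φ⟯ L := (f.toRingHom.comp (algebraMap K⟮φ⟯ F)).toAlgebra
  have hmap : (K⟮φ⟯).map f = K⟮φL⟯ := by rw [IntermediateField.adjoin_map, Set.image_singleton, h]
  let e : K⟮φ⟯ ≃ₐ[K] K⟮φL⟯ := (IntermediateField.equivMap K⟮φ⟯ f).trans (equivOfEq hmap)
  haveI : Module.Finite K⟮φ⟯ L :=
    Module.Finite.of_equiv_equiv e.symm.toRingEquiv (RingEquiv.refl L) (RingHom.ext fun x => by
      show f (e.symm x : F) = (x : L)
      conv_rhs => rw [← e.apply_symm_apply x]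
      rfl)
  let fl : F →ₗ[K⟮φ⟯] L :=
    { toFun := f
      map_add' := map_add f
      map_smul' := fun a x => by
        simp only [Algebra.smul_def, map_mul, RingHom.id_apply]
        rfl }
  exact Module.Finite.of_injective fl f.injective

/-- Noetherianity of a chart in characteristic zero. -/
theorem isNoetherianRing_chart_of_finite {O K L : Type*} [CommRing O] [IsDomain O]
    [IsDiscreteValuationRing O] [Field K] [CharZero K] [Algebra O K] [IsFractionRing O K] [Field L]
    [Algebra K L] [Algebra O L] [IsScalarTower O K L] (ψ : L) [FiniteDimensional K⟮ψ⟯ L]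
    (hψ : Transcendental O ψ) : IsNoetherianRing (chart O ψ) := by
  haveI : CharZero K⟮ψ⟯ := charZero_of_injective_algebraMap (algebraMap K K⟮ψ⟯).injective
  haveI : Algebra.IsSeparable K⟮ψ⟯ L := Algebra.IsSeparable.of_integral _ _
  exact isNoetherianRing_chart (K := K) hψ

variable {q : ℕ} [hq : Fact q.Prime]

local instance : NeZero q := ⟨hq.out.ne_zero⟩

variable {A : ValuationSubring Qbar} (hA : A.LiesOverPrime q)
include hA

theorem isUnit_natCast_urRing {n : ℕ} (hn : ¬ q ∣ n) : IsUnit (n : urRing A) := by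
  have hn0 : (n : urRing A) ≠ 0 := fun h => hn
    (Nat.cast_eq_zero.1 (show (n : urField A) = 0 by simpa using congrArg Subtype.val h) ▸
      dvd_zero q)
  obtain ⟨k, u, hku⟩ := exists_unit_mul_pow_ur hA hn0
  rcases Nat.eq_zero_or_pos k with rfl | hk
  · exact hku ▸ by simp
  · have h0 : urRes A (n : urRing A) = 0 :=
      (urRes_eq_zero hA).2 (hku ▸ dvd_mul_of_dvd_right (dvd_pow_self _ hk.ne') _)
    rw [map_natCast] at h0
    exact absurd h0 (natCast_residue_ne_zero hA hn)

/-- Roots of unity of order prime to `q` are in `urRing A`. -/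
theorem exists_primitiveRoot_urRing {n : ℕ} (hn : ¬ q ∣ n) :
    ∃ x : urRing A, IsPrimitiveRoot x n := by
  haveI : NeZero n := ⟨fun h => hn (h ▸ dvd_zero q)⟩
  obtain ⟨x, hx⟩ := Semistable.exists_primitiveRoot_unit (L := Qbar) n
  refine ⟨⟨⟨x, mem_urField_of_pow_eq_one hA hn hx.pow_eq_one⟩,
    mem_of_pow_eq_one hA (NeZero.ne n) hx.pow_eq_one⟩, ?_⟩
  exact IsPrimitiveRoot.of_map_of_injective
    (f := (algebraMap (urField A) Qbar).comp (urRing A).subtype) hx
    fun _ _ h => Subtype.ext (Subtype.ext h)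

variable {N : ℕ} [NeZero N] (hN : ¬ q ∣ N) {ζ : Qbarˣ} (hζ : IsPrimitiveRoot (ζ : Qbar) q)

/-- `j (t ^ q)` at level `q ^ 2 N`. -/
abbrev phiF (q : ℕ) [NeZero q] (A : ValuationSubring Qbar) (N : ℕ) :
    MF (urField A) (q ^ 2 * N) :=
  lev (urField A) q N 1 (jMF (urField A) N)

omit hA in
include hN hζ in
theorem finiteDimensional_phiF :
    FiniteDimensional (urField A)⟮phiF q A N⟯ (MF (urField A) (q ^ 2 * N)) := by
  obtain ⟨p₀, -⟩ := exists_pair_fst (none : Option (Fin q))
  haveI := finiteDimensional_fieldL (A := A) (N := N) hN hζ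
  exact finiteDimensional_of_algHom (iotaL hN hζ p₀) (iotaL_phi hN hζ p₀)

include hN hζ in
theorem isNoetherianRing_chart_phiF (hφ : Transcendental (urRing A) (phiF q A N)) :
    IsNoetherianRing (chart (urRing A) (phiF q A N)) := by
  haveI := isDiscreteValuationRing_urRing hA
  haveI := finiteDimensional_phiF (A := A) hN hζ
  exact isNoetherianRing_chart_of_finite (K := urField A) (phiF q A N) hφ

variable [IsAlgClosed (IsLocalRing.ResidueField A)]
  {B : BaseData (urRing A) (q : urRing A) q (MF (urField A) N) (IsLocalRing.ResidueField A)}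
  (hB : IsBaseModel B) (D : SqData B (MF (urField A) (q ^ 2 * N)))
  (hD : ∀ i z, D.ι i z = lev (urField A) q N i z)
include hB hD

omit hA in
theorem chart_phiF_eq [IsDiscreteValuationRing (urRing A)] : D.A = chart (urRing A) (phiF q A N) := by
  refine congrArg (chart (urRing A)) ?_
  rw [hD, hB.j_eq]

omit hA in
theorem exists_frac_phiF [IsDiscreteValuationRing (urRing A)] (z : MF (urField A) (q ^ 2 * N)) :
    ∃ a b : chart (urRing A) (phiF q A N),
      b ≠ 0 ∧ z * (b : MF (urField A) (q ^ 2 * N)) = (a : MF (urField A) (q ^ 2 * N)) := by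
  obtain ⟨a, b, ha, hb, hb0, hab⟩ := D.frac z
  have hle : Algebra.adjoin (urRing A) (⋃ i, (fun g : chart (urRing A) B.j => D.ι i g) '' Set.univ) ≤
      chart (urRing A) (phiF q A N) := by
    refine Algebra.adjoin_le ?_
    rintro _ ⟨_, ⟨i, rfl⟩, ⟨g, -, rfl⟩⟩
    exact chart_phiF_eq hB D hD ▸ D.ι_mem i g
  exact ⟨⟨a, hle ha⟩, ⟨b, hle hb⟩, fun h => hb0 (congrArg Subtype.val h), hab⟩

include hN hζ in
/-- At a closed point over `q` a divisible divisor is principal off the verticals. -/
theorem exists_local_generator {m : ℕ} (hm0 : m ≠ 0)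
    {f : MF (urField A) (q ^ 2 * N)} (hf0 : f ≠ 0)
    (hdivF : ∀ V : ValuationSubring (MF (urField A) (q ^ 2 * N)),
      (∀ x : urField A, algebraMap (urField A) _ x ∈ V) →
      ∃ y u : MF (urField A) (q ^ 2 * N), f = u * y ^ m ∧ u ∈ V ∧ u⁻¹ ∈ V)
    (n : Ideal (chart (urRing A) (phiF q A N))) [n.IsMaximal]
    (hqn : algebraMap (urRing A) (chart (urRing A) (phiF q A N)) (q : urRing A) ∈ n) :
    ∃ g : MF (urField A) (q ^ 2 * N), g ≠ 0 ∧
      (∀ U, IsVert (urRing A) (q : urRing A) (phiF q A N) U →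
        (∀ z : chart (urRing A) (phiF q A N), (z : MF (urField A) (q ^ 2 * N)) ∈ U.nonunits →
          z ∈ n) → g ∈ U ∧ g⁻¹ ∈ U) ∧
      ∀ W : ValuationSubring (MF (urField A) (q ^ 2 * N)),
        (∀ x : urField A, algebraMap (urField A) _ x ∈ W) →
        (∀ z : chart (urRing A) (phiF q A N), (z : MF (urField A) (q ^ 2 * N)) ∈ W) →
        (∀ z : chart (urRing A) (phiF q A N), (z : MF (urField A) (q ^ 2 * N)) ∈ W.nonunits →
          z ∈ n) → f / g ^ m ∈ W ∧ (f / g ^ m)⁻¹ ∈ W := by
  haveI := isDiscreteValuationRing_urRing hA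
  have hq' := prime_natCast_urRing hA
  have hA' := chart_phiF_eq hB D hD
  haveI : IsNoetherianRing D.A := by
    rw [hA']
    refine isNoetherianRing_chart_phiF hA hN hζ ?_
    have := D.transcendental_ι 1
    rwa [hD, hB.j_eq] at this
  suffices h : ∀ (C : Subalgebra (urRing A) (MF (urField A) (q ^ 2 * N))) (_ : C = D.A)
      (n : Ideal C) [n.IsMaximal], algebraMap (urRing A) C (q : urRing A) ∈ n →
      UniqueFactorizationMonoid (Localization.AtPrime n) ∧
      ∃ g₀ : MF (urField A) (q ^ 2 * N), g₀ ≠ 0 ∧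
        ∀ W : ValuationSubring (MF (urField A) (q ^ 2 * N)),
          (∀ x : urField A, algebraMap (urField A) _ x ∈ W) →
          (∀ z : C, (z : MF (urField A) (q ^ 2 * N)) ∈ W) →
          (∀ z : C, (z : MF (urField A) (q ^ 2 * N)) ∈ W.nonunits → z ∈ n) →
          f / g₀ ^ m ∈ W ∧ (f / g₀ ^ m)⁻¹ ∈ W by
    obtain ⟨hufd, g₀, hg₀, hg₀W⟩ := h _ hA'.symm n hqn
    haveI := hufd
    haveI : IsDomain (Localization.AtPrime n) :=
      IsLocalization.isDomain_localization n.primeCompl_le_nonZeroDivisors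
    obtain ⟨g, hg, hgv, hgh⟩ := exists_unit_at_verticals (K := urField A)
      hq' (exists_frac_phiF hB D hD) n hg₀
    refine ⟨g, hg, hgv, fun W h1 h2 h3 => ?_⟩
    obtain ⟨h4, h5⟩ := hg₀W W h1 h2 h3
    obtain ⟨h6, h7⟩ := hgh W h1 h2 h3
    have heq : f / g ^ m = f / g₀ ^ m * (g₀ / g) ^ m := by
      rw [div_pow, div_mul_div_cancel₀ (pow_ne_zero _ hg₀)]
    rw [heq, mul_inv, ← inv_pow]
    exact ⟨mul_mem h4 (pow_mem h6 _), mul_mem h5 (pow_mem h7 _)⟩
  rintro C rfl n hn hqn
  exact ⟨D.ufd_point hq' hq.out n hqn, D.exists_horizontal_root hq' hq.out hm0 hf0 hdivF n hqn⟩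

include hN hζ in
/-- Products with vanishing row and column sums of exponents are `m`-th powers. -/
theorem exists_pow_eq_conjProd_of_sqData {m : ℕ} (hm : ¬ q ∣ m)
    {f : MF (urField A) (q ^ 2 * N)} (hf0 : f ≠ 0)
    (hdivF : ∀ V : ValuationSubring (MF (urField A) (q ^ 2 * N)),
      (∀ x : urField A, algebraMap (urField A) _ x ∈ V) →
      ∃ y u : MF (urField A) (q ^ 2 * N), f = u * y ^ m ∧ u ∈ V ∧ u⁻¹ ∈ V)
    (c : RootPair q → ℤ) (hc1 : ∀ o, ∑ p ∈ univ.filter (fun p : RootPair q => p.1.1 = o), c p = 0)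
    (hc2 : ∀ o, ∑ p ∈ univ.filter (fun p : RootPair q => p.1.2 = o), c p = 0) :
    ∃ h : fieldL q A N ζ, h ^ m = ∏ p, (iotaL (A := A) hN hζ p f) ^ c p := by
  haveI := isDiscreteValuationRing_urRing hA
  haveI := isDiscreteValuationRing_ramRing (q := q) hA
  haveI := finiteDimensional_fieldL (A := A) (N := N) hN hζ
  haveI : Algebra.IsAlgebraic ℚ Qbar := AlgebraicClosure.isAlgebraic ℚ
  haveI : Algebra.IsAlgebraic (urField A) Qbar :=
    Algebra.IsAlgebraic.tower_top (K := ℚ) (urField A)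
  have hm0 : m ≠ 0 := fun h => hm (h ▸ dvd_zero q)
  have hq1 : q - 1 ≠ 0 := by have := hq.out.two_le; omega
  have hdvd : ¬ q ∣ q - 1 := fun h => by
    have h2 := Nat.le_of_dvd (Nat.pos_of_ne_zero hq1) h
    omega
  have hqe : ¬ q ∣ (q - 1) * m := fun h => (hq.out.dvd_mul.1 h).elim hdvd hm
  obtain ⟨ρ, hρ⟩ := exists_primitiveRoot_urRing hA hqe
  have hρ1 : IsPrimitiveRoot (ρ ^ (q - 1)) m :=
    hρ.pow (Nat.pos_of_ne_zero (mul_ne_zero hq1 hm0)) rfl
  have hρ2 : IsPrimitiveRoot (ρ ^ m) (q - 1) :=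
    hρ.pow (Nat.pos_of_ne_zero (mul_ne_zero hq1 hm0)) (mul_comm _ _)
  have hφL : Transcendental (urRing A) (phiL (A := A) (N := N) hN hζ) := fun h =>
    transcendental_phiL hN hζ (h.extendScalars Subtype.val_injective)
  obtain ⟨Sd, hSd⟩ := exists_splitData_fieldL hA hN hζ
  exact exists_pow_eq_of_balanced (K := urField A) (φ := phiF q A N)
    (φL := phiL (A := A) hN hζ)
    (prime_natCast_urRing hA) (isUnit_natCast_urRing hA hm) hm0 hρ1 hφL
    (fun p => iotaL (A := A) hN hζ p) (fun p => iotaL_phi hN hζ p) c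
    (isUnit_natCast_urRing hA hdvd) hq1 hρ2
    (fun V hV => isBalancedAt_iotaL hA hN hζ hc1 hc2 hV) hf0
    (fun n hn hqn => haveI := hn
      exists_local_generator hA hN hζ hB D hD hm0 hf0 hdivF n hqn)
    hdivF Sd (ramToQbar_injective q A) (hSd ▸ not_isUnit_urRamIncl hA)
    (hSd ▸ urRamIncl_natCast_ne_zero hA) (fun u => exists_root_ram hA hm u)
    (exists_eq_of_isAlgebraic_compl hA)

end FLTAgent.LevelSq
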