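import Fermat.Agent.LevelSq.Setting
import Fermat.Agent.Hecke.Inputs
import Fermat.Agent.MW.Galois
import Fermat.Agent.JTors.FieldDescent
import Fermat.Agent.FlatModel.X0Curve
import Fermat.Agent.GoodRed.X0Good

/-!
# A torsion class fixed by inertia gives a rational function which is locally an `m`-th power

If `x : JZero M` is fixed by inertia at `A` and killed by `m`, then `m • D = div f` for a
representative `D` of `x` and some `f` over `urField A`, and at every valuation ring over the
constants `f` is a unit times an `m`-th power (already over `urField A`).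
-/

set_option autoImplicit false
set_option linter.style.haveILetI false
set_option linter.unusedSectionVars false
set_option maxSynthPendingDepth 3
set_option synthInstance.maxHeartbeats 400000

noncomputable section

open AlgebraicCurve Module
open FLTAgent.FunctionField

namespace FLTAgent.LevelSq

section Abstract

variable {K F : Type*} [Field K] [Field F] [Algebra K F] [IsFunctionField K F] [IsAlgClosed K]
  {G : Set (SemilinearAut K F)} {O : Place K F}

/-- A fixed class of degree `0` has a fixed representative. -/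
theorem exists_fixed_representative (hO : ∀ g ∈ G, g • O = O) {D : Divisor K F}
    (hdeg : Divisor.degree D = 0) (hD : ∀ g ∈ G, g • D - D ∈ Divisor.principal (K := K) (F := F)) :
    ∃ D' : Divisor K F, Divisor.degree D' = 0 ∧ (∀ g ∈ G, g • D' = D') ∧
      D' - D ∈ Divisor.principal (K := K) (F := F) := by
  classical
  have hdegO : ∀ n : ℤ, Divisor.degree (Finsupp.single O n : Divisor K F) = n := fun n => by
    rw [Divisor.degree_single, deg_eq_one, Nat.cast_one, mul_one]
  have hex : ∃ r : ℕ, 0 < ell (D + Finsupp.single O (r : ℤ)) := ⟨genusFF K F, by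
    have := riemann_inequality (D + Finsupp.single O (genusFF K F : ℤ))
    rw [map_add, hdeg, hdegO] at this
    omega⟩
  set r := Nat.find hex
  have hr : 0 < ell (D + Finsupp.single O (r : ℤ)) := Nat.find_spec hex
  set Dr := D + Finsupp.single O (r : ℤ) with hDr
  have h1 : ell Dr ≤ 1 := by
    have h := MW.ell_pred_le (Dr - Finsupp.single O 1) O
    rw [sub_add_cancel] at h
    suffices ell (Dr - Finsupp.single O 1) ≤ 0 by omega
    rcases Nat.eq_zero_or_pos r with h0 | h0
    · refine le_of_eq (MW.ell_eq_zero_of_degree_neg ?_)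
      rw [map_sub, hDr, map_add, hdeg, hdegO, hdegO, h0]
      simp
    · have h2 := Nat.find_min hex (Nat.sub_lt h0 one_pos)
      rw [not_lt, Nat.cast_sub (by omega), Nat.cast_one, Finsupp.single_sub,
        add_sub_assoc'] at h2
      exact h2
  simp only [ell] at hr h1
  obtain ⟨⟨f, hf⟩, hne⟩ :=
    Module.finrank_pos_iff_exists_ne_zero.1 (show 0 < finrank K (riemannRochSpace Dr) by omega)
  have hf0 : f ≠ 0 := fun h => hne (Subtype.ext h)
  have h3 : finrank K (riemannRochSpace Dr) = 1 := by omega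
  set E₀ := Dr + divisorOf (K := K) f with hE₀
  have hfix : ∀ g ∈ G, g • E₀ = E₀ := by
    intro g hg
    obtain ⟨h, hh0, hh⟩ := hD g hg
    have hdh : divisorOf (K := K) h = g • D - D := Finsupp.ext fun v => (hh v).symm
    have hsf0 : g • f ≠ 0 := by rwa [smul_ne_zero_iff_ne]
    have key : g • E₀ = Dr + divisorOf (K := K) (h * (g • f)) := by
      rw [hE₀, smul_add, MW.smul_divisorOf, divisorOf_mul hh0 hsf0, hDr, smul_add,
        SemilinearAut.smul_single, hO g hg, hdh]
      abel
    have hmem : h * (g • f) ∈ riemannRochSpace Dr := by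
      refine (MW.mem_L_iff (mul_ne_zero hh0 hsf0)).2 fun R => ?_
      have h2 : (0 : ℤ) ≤ (g • E₀) R := by
        rw [SemilinearAut.divisor_smul_apply]
        exact MW.effective_add_divisorOf hf hf0 _
      rw [key, Finsupp.add_apply, divisorOf_apply] at h2
      omega
    obtain ⟨c, hc⟩ := (finrank_eq_one_iff_of_nonzero' (⟨f, hf⟩ : riemannRochSpace Dr)
      (fun h => hf0 (congrArg Subtype.val h))).1 h3 ⟨_, hmem⟩
    have hc' : c • f = h * (g • f) := congrArg Subtype.val hc
    have hc0 : c ≠ 0 := fun h2 => mul_ne_zero hh0 hsf0 (by rw [← hc', h2, zero_smul])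
    rw [key, ← hc', MW.divisorOf_smul hc0]
  refine ⟨E₀ - Finsupp.single O (r : ℤ), ?_, fun g hg => ?_, f, hf0, fun v => ?_⟩
  · rw [map_sub, hE₀, map_add, hDr, map_add, hdeg, degree_divisorOf, hdegO]
    simp
  · rw [smul_sub, hfix g hg, SemilinearAut.smul_single, hO g hg]
  · rw [hE₀, hDr]
    simp only [Finsupp.sub_apply, Finsupp.add_apply, divisorOf_apply]
    ring

/-- A function with fixed divisor, normalised at a coefficient, is fixed. -/
theorem smul_eq_of_divisorOf_eq {D : Divisor K F} (hdeg : Divisor.degree D = 0)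
    {m : ℕ} {g : SemilinearAut K F} (hgD : g • D = D) {f : F} (hf0 : f ≠ 0)
    (hf : divisorOf (K := K) f = m • D) (c : F →ₗ[K] K) (hc1 : c f = 1) (hc : c (g • f) = 1) :
    g • f = f := by
  have hline : ∀ z : F, z ≠ 0 → divisorOf (K := K) z = m • D →
      z ∈ riemannRochSpace (-(m • D)) := fun z hz hz' => (MW.mem_L_iff hz).2 fun R => by
    rw [Finsupp.neg_apply, ← hz', divisorOf_apply]
    omega
  have hσD : divisorOf (K := K) (g • f) = m • D := by
    rw [← MW.smul_divisorOf, hf, smul_nsmul_comm g m D, hgD]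
  obtain ⟨e, he⟩ := MW.exists_eq_smul_of_degree_zero (D := -(m • D))
    (by rw [map_neg, map_nsmul, hdeg]; simp) (hline f hf0 hf)
    (hline (g • f) (by rwa [smul_ne_zero_iff_ne]) hσD) hf0
  rw [he, map_smul, hc1, smul_eq_mul, mul_one] at hc
  rw [he, hc, one_smul]
where
  smul_nsmul_comm (g : SemilinearAut K F) (m : ℕ) (D : Divisor K F) : g • (m • D) = m • (g • D) :=
    map_nsmul (DistribSMul.toAddMonoidHom (Divisor K F) g) m D

/-- Somewhere in a large space the lower bound at a given place is attained. -/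
theorem exists_ord_add_eq_zero {B : Divisor K F} (hB : MW.rrBound K F + 1 ≤ Divisor.degree B)
    (W : Place K F) : ∃ f ∈ riemannRochSpace B, f ∉ riemannRochSpace (B - Finsupp.single W 1) := by
  refine SetLike.not_le_iff_exists.1 fun hle => ?_
  have hd : Divisor.degree (B - Finsupp.single W 1) = Divisor.degree B - 1 := by
    rw [map_sub, Divisor.degree_single, deg_eq_one, Nat.cast_one, mul_one]
  have h1 := MW.finrank_eq (D := B) (by omega)
  have h2 := MW.finrank_eq (D := B - Finsupp.single W 1) (by omega)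
  have h3 := Submodule.finrank_mono hle
  omega

omit [IsAlgClosed K] in
theorem ord_add_eq_zero_of_notMem {B : Divisor K F} {W : Place K F} {f : F}
    (hf : f ∈ riemannRochSpace B) (hf' : f ∉ riemannRochSpace (B - Finsupp.single W 1)) :
    f ≠ 0 ∧ W.ord f + B W = 0 := by
  classical
  have hf0 : f ≠ 0 := fun h => hf' (h ▸ zero_mem _)
  refine ⟨hf0, ?_⟩
  by_contra hne
  refine hf' ((MW.mem_L_iff hf0).2 fun R => ?_)
  have h := (MW.mem_L_iff hf0).1 hf R
  rw [Finsupp.sub_apply]
  rcases eq_or_ne R W with rfl | hR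
  · rw [Finsupp.single_eq_same]; omega
  · rw [Finsupp.single_eq_of_ne hR]; omega

end Abstract

open ModularCurve FLTAgent.Hecke

local notation "Qbar" => AlgebraicClosure ℚ
local notation "Γℚ" => AlgebraicClosure ℚ ≃ₐ[ℚ] AlgebraicClosure ℚ

local instance (priority := high) instAlgebraBaseChangeRational
    {F₀ : IntermediateField ℚ (LaurentSeries ℚ)} : Algebra Qbar ↥(laurentBaseChange Qbar F₀) :=
  inferInstance

local instance (priority := high) instModuleBaseChangeRational
    {F₀ : IntermediateField ℚ (LaurentSeries ℚ)} : Module Qbar ↥(laurentBaseChange Qbar F₀) :=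
  inferInstance

local instance (priority := high) instAlgebraMFRational {n : ℕ} : Algebra Qbar ↥(MF Qbar n) :=
  inferInstance

local instance (priority := high) instModuleMFRational {n : ℕ} : Module Qbar ↥(MF Qbar n) :=
  inferInstance

section Descent

variable {F₀ : IntermediateField ℚ (LaurentSeries ℚ)}

local notation "FB" => laurentBaseChange (AlgebraicClosure ℚ) F₀

theorem coe_gal_smul_coeff (σ : Γℚ) (v : FB) (k : ℤ) :
    ((arithmeticGalois (L := Qbar) F₀ σ • v : FB) : LaurentSeries Qbar).coeff k =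
      σ ((v : LaurentSeries Qbar).coeff k) :=
  rfl

/-- A separating family of functionals contains the coordinates of some basis. -/
theorem exists_coordinates {L V ι : Type*} [Field L] [AddCommGroup V] [Module L V]
    [Module.Finite L V] (φ : ι → Module.Dual L V) (hsep : ∀ v, (∀ k, φ k v = 0) → v = 0) :
    ∃ (n : ℕ) (b : Basis (Fin n) L V), ∀ i, ∃ k, ∀ v, b.repr v i = φ k v := by
  classical
  have hspan : ⊤ ≤ Submodule.span L (Set.range φ) := by
    rw [← Subspace.dualCoannihilator_dualAnnihilator_eq (W := Submodule.span L (Set.range φ)),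
      show (Submodule.span L (Set.range φ)).dualCoannihilator = ⊥ from
        (Submodule.eq_bot_iff _).2 fun v hv => hsep v fun k =>
          (Submodule.mem_dualCoannihilator v).1 hv _ (Submodule.subset_span ⟨k, rfl⟩),
      Submodule.dualAnnihilator_bot]
  let bb₀ := Basis.ofSpan hspan
  haveI : Fintype _ := FiniteDimensional.fintypeBasisIndex bb₀
  let bb := bb₀.reindex (Fintype.equivFin _)
  let Φ : V →ₗ[L] _ → L := LinearMap.pi fun i => bb i
  have hΦ : Function.Injective Φ := (injective_iff_map_eq_zero Φ).2 fun v hv => by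
    refine hsep v fun k => ?_
    rw [← bb.sum_repr (φ k), LinearMap.sum_apply]
    refine Finset.sum_eq_zero fun i _ => ?_
    rw [LinearMap.smul_apply, show bb i v = Φ v i from rfl, hv]
    simp
  let e := LinearMap.linearEquivOfInjective Φ hΦ (by
    rw [Module.finrank_fintype_fun_eq_card, ← Module.finrank_eq_card_basis bb,
      Subspace.dual_finrank_eq])
  refine ⟨_, Basis.ofEquivFun e, fun i => ?_⟩
  obtain ⟨k, hk⟩ := Basis.ofSpan_subset hspan ⟨(Fintype.equivFin _).symm i, rfl⟩
  refine ⟨k, fun v => ?_⟩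
  rw [Basis.ofEquivFun_repr_apply, hk]
  show bb i v = _
  rw [Basis.reindex_apply]

/-- A finite dimensional space of series stable under conjugation is spanned by fixed series. -/
theorem le_span_fixed (V : Submodule Qbar FB) [Module.Finite Qbar V] (H : Set Γℚ)
    (hV : ∀ σ ∈ H, ∀ v ∈ V, arithmeticGalois (L := Qbar) F₀ σ • v ∈ V) :
    V ≤ Submodule.span Qbar {v : FB | v ∈ V ∧ ∀ σ ∈ H, arithmeticGalois (L := Qbar) F₀ σ • v = v} := by
  obtain ⟨n, b, hb⟩ := exists_coordinates (V := V)
    (fun k : ℤ => (FlatModel.co k).comp V.subtype) fun v hv =>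
      Subtype.ext (Subtype.ext (HahnSeries.ext (funext fun k => by
        have h : ((v : FB) : LaurentSeries Qbar).coeff (- -k) = 0 := hv (-k)
        rw [neg_neg] at h
        exact h)))
  have hfix : ∀ i, ∀ σ ∈ H, arithmeticGalois (L := Qbar) F₀ σ • (b i : FB) = (b i : FB) := fun i σ hσ => by
    refine congrArg Subtype.val
      (b.ext_elem (x := ⟨_, hV σ hσ _ (b i).2⟩) (y := b i) fun j => ?_)
    obtain ⟨k, hk⟩ := hb j
    rw [hk, hk]
    show σ ((((b i : V) : FB) : LaurentSeries Qbar).coeff (-k)) = _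
    have h := hk (b i)
    rw [b.repr_self, LinearMap.comp_apply, FlatModel.co_apply] at h
    rw [LinearMap.comp_apply, Submodule.subtype_apply, FlatModel.co_apply]
    rw [Submodule.subtype_apply] at h
    rw [← h, Finsupp.single_apply]
    split <;> simp
  intro v hv
  have h2 := congrArg Subtype.val (b.sum_repr ⟨v, hv⟩)
  rw [Submodule.coe_sum] at h2
  rw [show v = _ from h2.symm]
  exact Submodule.sum_mem _ fun i _ => Submodule.smul_mem _ _
    (Submodule.subset_span ⟨(b i).2, hfix i⟩)

end Descent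

variable {A : ValuationSubring Qbar}

/-- Extension of the constants from the inertia field. -/
def baseIncl (A : ValuationSubring Qbar) (M : ℕ) : MF (urField A) M →+* MF Qbar M :=
  ((coeffMap (algebraMap (urField A) Qbar)).comp (MF (urField A) M).val.toRingHom).codRestrict
    (MF Qbar M).toSubfield
    fun x => JTors.coeffMap_mem_laurentBaseChange' _ _ x.2

theorem coe_baseIncl {M : ℕ} (x : MF (urField A) M) :
    (baseIncl A M x : LaurentSeries Qbar) =
      coeffMap (algebraMap (urField A) Qbar) (x : LaurentSeries (urField A)) :=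
  rfl

theorem baseIncl_algebraMap {M : ℕ} (c : urField A) :
    baseIncl A M (algebraMap (urField A) (MF (urField A) M) c) =
      algebraMap Qbar (MF Qbar M) (c : Qbar) :=
  Subtype.ext (by
    show coeffMap _ (algebraMap (urField A) (LaurentSeries (urField A)) c) =
      algebraMap Qbar (LaurentSeries Qbar) (c : Qbar)
    rw [algebraMap_laurentSeries_eq_single, algebraMap_laurentSeries_eq_single, coeffMap_single]
    rfl)

theorem baseIncl_jMF (M : ℕ) : baseIncl A M (jMF (urField A) M) = jMF Qbar M :=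
  Subtype.ext (map_jqModC (algebraMap (urField A) Qbar))

/-- Functions fixed by inertia are defined over the inertia field. -/
theorem exists_baseIncl_eq {M : ℕ} {g : MF Qbar M}
    (hg : ∀ σ ∈ A.inertiaSubgroupIn ℚ,
      arithmeticGalois (L := Qbar) (modularFunctionFieldFull M) σ • g = g) :
    ∃ f, baseIncl A M f = g := by
  obtain ⟨y, hy, hyg⟩ := JTors.exists_coeffMap_eq_of_mem (K := urField A) (L := Qbar)
    (modularFunctionFieldFull M) g.2 fun k =>
      ⟨⟨(g : LaurentSeries Qbar).coeff k, (IntermediateField.mem_fixedField_iff _ _).2 fun σ hσ => by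
        exact congrArg (fun v : MF Qbar M => (v : LaurentSeries Qbar).coeff k) (hg σ hσ)⟩, rfl⟩
  exact ⟨⟨y, hy⟩, Subtype.ext hyg⟩

variable {M : ℕ} [NeZero M]

/-- The cusp infinity. -/
theorem exists_cusp (M : ℕ) [NeZero M] :
    ∃ O : Place Qbar (MF Qbar M), FlatModel.IsInfPlace O ∧ O.ord (jMF Qbar M) = -1 := by
  have hj0 : (jqModC Qbar) ≠ 0 := fun h => ne_zero_of_transcendental (transcendental_jd Qbar 1) (by rw [jd_one, h])
  have hj : (jqModC Qbar).order = -1 := FlatModel.jqModC_order Qbar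
  obtain ⟨O, hO⟩ := FlatModel.exists_isInfPlace (f := (jMF Qbar M)⁻¹) (by
    show ((jqModC Qbar)⁻¹).order = 1
    rw [Genus.order_inv', hj, neg_neg])
  refine ⟨O, hO, ?_⟩
  rw [hO _ (fun h => hj0 (congrArg Subtype.val h))]
  exact hj

theorem gal_smul_cusp {O : Place Qbar (MF Qbar M)} (hO : FlatModel.IsInfPlace O) (σ : Γℚ) :
    arithmeticGalois (L := Qbar) (modularFunctionFieldFull M) σ • O = O :=
  FlatModel.gal_smul_isInfPlace (F₀ := modularFunctionFieldFull M) hO σ

/-- A place over a valuation ring over the inertia field. -/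
theorem exists_place_over {w : ValuationSubring (MF (urField A) M)}
    (hc : ∀ c : urField A, algebraMap _ (MF (urField A) M) c ∈ w) (hw : w ≠ ⊤) :
    ∃ W : Place Qbar (MF Qbar M), ∀ z, baseIncl A M z ∈ W.toValuationSubring → z ∈ w := by
  set ι := baseIncl A M
  set R : Subring (MF Qbar M) := w.toSubring.map ι
  let e : w →+* R := (ι.comp w.subtype).codRestrict R fun x => ⟨x, x.2, rfl⟩
  have he : Function.Surjective e := by
    rintro ⟨_, x, hx, rfl⟩
    exact ⟨⟨x, hx⟩, rfl⟩
  have hinj : Function.Injective e := fun a b h =>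
    Subtype.ext (ι.injective (congrArg Subtype.val h))
  have hne : (IsLocalRing.maximalIdeal w).map e ≠ ⊤ := by
    intro h
    obtain ⟨a, ha, ha1⟩ := (Ideal.mem_map_iff_of_surjective e he).1
      (h ▸ Submodule.mem_top : (1 : R) ∈ (IsLocalRing.maximalIdeal w).map e)
    rw [show a = 1 from hinj (by rw [ha1, map_one])] at ha
    exact (IsLocalRing.maximalIdeal.isMaximal w).ne_top ((Ideal.eq_top_iff_one _).2 ha)
  obtain ⟨B, hle, hsub⟩ := Ideal.image_subset_nonunits_valuationSubring _ hne
  have hK : ∀ c : Qbar, algebraMap Qbar (MF Qbar M) c ∈ B := fun c => by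
    let β : urField A →+* B :=
      (ι.comp (algebraMap (urField A) (MF (urField A) M))).codRestrict B.toSubring fun a =>
        hle ⟨_, hc a, rfl⟩
    have : Algebra.IsAlgebraic ℚ Qbar := AlgebraicClosure.isAlgebraic ℚ
    have halg : IsAlgebraic ℚ c := Algebra.IsAlgebraic.isAlgebraic c
    obtain ⟨p, hp, hpc⟩ := (halg.isIntegral.tower_top : IsIntegral (urField A) c)
    have hint : IsIntegral B (algebraMap Qbar (MF Qbar M) c) := by
      refine ⟨p.map β, hp.map β, ?_⟩
      rw [Polynomial.eval₂_map, show (algebraMap B (MF Qbar M)).comp β =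
        (algebraMap Qbar (MF Qbar M)).comp (algebraMap (urField A) Qbar) from
          RingHom.ext baseIncl_algebraMap, ← Polynomial.hom_eval₂, hpc, map_zero]
    obtain ⟨b, hb⟩ := IsIntegrallyClosed.isIntegral_iff.1 hint
    exact hb ▸ b.2
  have hmem : ∀ z, z ∈ w.nonunits → ι z ∈ B.nonunits := fun z hz => by
    have hzw : z ∈ w := w.nonunits_subset hz
    refine hsub ⟨e ⟨z, hzw⟩, Ideal.mem_map_of_mem e ?_, rfl⟩
    exact (IsLocalRing.mem_maximalIdeal _).2 fun hu =>
      absurd (ValuationSubring.coe_mem_nonunits_iff.1 hz) (IsLocalRing.notMem_maximalIdeal.2 hu)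
  have hiff : ∀ z, ι z ∈ B → z ∈ w := fun z hz => by
    by_contra hzw
    have h1 : z⁻¹ ∈ w.nonunits := by
      rw [ValuationSubring.inv_mem_nonunits_iff]
      exact Or.inr hzw
    have h2 := hmem _ h1
    rw [map_inv₀, ValuationSubring.inv_mem_nonunits_iff] at h2
    rcases h2 with h2 | h2
    · exact hzw (by rw [ι.injective (h2.trans (map_zero ι).symm)]; exact zero_mem _)
    · exact h2 hz
  refine ⟨placeOfValuationSubring B hK fun htop => hw (eq_top_iff.2 fun z _ => hiff z ?_), hiff⟩
  rw [htop]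
  exact ValuationSubring.mem_top _

set_option maxHeartbeats 1600000 in
/-- A fixed divisor is cut out at a given place by a function over the inertia field. -/
theorem exists_rational_ord_eq {O : Place Qbar (MF Qbar M)} (hO : FlatModel.IsInfPlace O)
    (hOj : O.ord (jMF Qbar M) = -1) {D : Divisor Qbar (MF Qbar M)}
    (hD : ∀ σ ∈ A.inertiaSubgroupIn ℚ, arithmeticGalois (L := Qbar) (modularFunctionFieldFull M) σ • D = D)
    (W : Place Qbar (MF Qbar M)) :
    ∃ y : MF (urField A) M, y ≠ 0 ∧ W.ord (baseIncl A M y) = D W := by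
  classical
  haveI := Hecke.isFunctionField_level Qbar M
  set r : ℕ := (MW.rrBound Qbar (MF Qbar M) + 1 + Divisor.degree D).toNat
  set B : Divisor Qbar (MF Qbar M) := Finsupp.single O (r : ℤ) - D with hBdef
  have hB : MW.rrBound Qbar (MF Qbar M) + 1 ≤ Divisor.degree B := by
    rw [hBdef, map_sub, Divisor.degree_single, deg_eq_one, Nat.cast_one, mul_one]
    omega
  obtain ⟨g₀, hg₀, hg₀'⟩ := exists_ord_add_eq_zero hB W
  have hstab : ∀ σ ∈ (A.inertiaSubgroupIn ℚ : Set Γℚ), ∀ v ∈ riemannRochSpace B,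
      arithmeticGalois (L := Qbar) (modularFunctionFieldFull M) σ • v ∈ riemannRochSpace B := by
    intro σ hσ v hv
    have hBfix : arithmeticGalois (L := Qbar) (modularFunctionFieldFull M) σ • B = B := by
      rw [hBdef, smul_sub, SemilinearAut.smul_single, gal_smul_cusp hO σ, hD σ hσ]
    exact hBfix ▸ MW.smul_mem_L (arithmeticGalois (L := Qbar) (modularFunctionFieldFull M) σ) hv
  obtain ⟨g, ⟨hgB, hgfix⟩, hgW⟩ : ∃ g, (g ∈ riemannRochSpace B ∧ ∀ σ ∈ A.inertiaSubgroupIn ℚ,
      arithmeticGalois (L := Qbar) (modularFunctionFieldFull M) σ • g = g) ∧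
      g ∉ riemannRochSpace (B - Finsupp.single W 1) := by
    have hspan := le_span_fixed (F₀ := modularFunctionFieldFull M) (riemannRochSpace B)
      (A.inertiaSubgroupIn ℚ : Set Γℚ) hstab hg₀
    by_contra! h
    refine hg₀' (Submodule.span_le.2 ?_ hspan)
    exact fun v hv => h v hv
  obtain ⟨hg0, hord⟩ := ord_add_eq_zero_of_notMem hgB hgW
  obtain ⟨y, hy⟩ := exists_baseIncl_eq hgfix
  have hy0 : y ≠ 0 := fun h => hg0 (by rw [← hy, h, map_zero])
  have hj0 : jMF (urField A) M ≠ 0 :=
    ne_zero_of_transcendental (transcendental_jMF _ M)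
  rw [hBdef, Finsupp.sub_apply] at hord
  rcases eq_or_ne W O with rfl | hW
  · refine ⟨y * (jMF (urField A) M ^ r)⁻¹, mul_ne_zero hy0 (inv_ne_zero (pow_ne_zero _ hj0)), ?_⟩
    rw [map_mul, map_inv₀, map_pow, baseIncl_jMF, hy, W.ord_mul hg0 (inv_ne_zero (pow_ne_zero _
      (ne_zero_of_transcendental (transcendental_jMF _ M)))), W.ord_inv, Genus.ord_pow, hOj]
    rw [Finsupp.single_eq_same] at hord
    omega
  · refine ⟨y, hy0, ?_⟩
    rw [hy]
    rw [Finsupp.single_eq_of_ne hW] at hord
    omega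

set_option maxHeartbeats 1600000 in
/-- A torsion class fixed by inertia gives a function over the inertia field, locally an `m`-th
power at every valuation ring over the constants. -/
theorem exists_ratFun (A : ValuationSubring Qbar) {m : ℕ} {x : JZero M} (hx : m • x = 0)
    (hfix : ∀ σ ∈ A.inertiaSubgroupIn ℚ, σ • x = x) :
    ∃ (f : MF (urField A) M) (D : Divisor.degZero (K := Qbar) (F := MF Qbar M)), f ≠ 0 ∧
      Pic0.mk D = x ∧
      (∀ v, (m : ℤ) * (D : Divisor Qbar (MF Qbar M)) v = v.ord (baseIncl A M f)) ∧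
      ∀ V : ValuationSubring (MF (urField A) M),
        (∀ c : urField A, algebraMap _ (MF (urField A) M) c ∈ V) →
        ∃ y u : MF (urField A) M, f = u * y ^ m ∧ u ∈ V ∧ u⁻¹ ∈ V := by
  classical
  haveI := Hecke.isFunctionField_level Qbar M
  obtain ⟨O, hO, hOj⟩ := exists_cusp M
  obtain ⟨⟨D₀, hD₀⟩, rfl⟩ := Pic0.mk_surjective x
  set gal := arithmeticGalois (L := Qbar) (modularFunctionFieldFull M)
  obtain ⟨D, hdeg, hDfix, hDD₀⟩ := exists_fixed_representative
    (G := gal '' (A.inertiaSubgroupIn ℚ : Set Γℚ)) (O := O) (D := D₀)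
    (by rintro _ ⟨σ, -, rfl⟩; exact gal_smul_cusp hO σ) hD₀ (by
      rintro _ ⟨σ, hσ, rfl⟩
      have h := hfix σ hσ
      rw [galois_smul_pic0_def, SemilinearAut.pic0_smul_mk] at h
      exact AddSubgroup.mem_addSubgroupOf.1 ((QuotientAddGroup.eq_iff_sub_mem).1 h))
  have hmk : Pic0.mk (⟨D, hdeg⟩ : Divisor.degZero (K := Qbar) (F := MF Qbar M)) =
      Pic0.mk ⟨D₀, hD₀⟩ :=
    QuotientAddGroup.eq_iff_sub_mem.2 (AddSubgroup.mem_addSubgroupOf.2 hDD₀)
  obtain ⟨g, hg0, hg⟩ : m • D ∈ Divisor.principal (K := Qbar) (F := MF Qbar M) := by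
    rw [← hmk] at hx
    exact AddSubgroup.mem_addSubgroupOf.1 ((QuotientAddGroup.eq_zero_iff
      (m • (⟨D, hdeg⟩ : Divisor.degZero (K := Qbar) (F := MF Qbar M)))).1 hx)
  set c := ((g : LaurentSeries Qbar).coeff (g : LaurentSeries Qbar).order) with hc_def
  have hc : c ≠ 0 := HahnSeries.coeff_order_eq_zero.not.2 fun h => hg0 (Subtype.ext h)
  set g' := c⁻¹ • g with hg'_def
  have hg'0 : g' ≠ 0 := smul_ne_zero (inv_ne_zero hc) hg0
  have hg' : divisorOf (K := Qbar) g' = m • D := by
    rw [MW.divisorOf_smul (inv_ne_zero hc)]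
    exact Finsupp.ext fun v => (hg v).symm
  have hcoef : (g' : LaurentSeries Qbar).coeff (g : LaurentSeries Qbar).order = 1 := by
    have h := map_smul (FlatModel.co (-(g : LaurentSeries Qbar).order)) c⁻¹ g
    rw [FlatModel.co_apply, FlatModel.co_apply, neg_neg, smul_eq_mul] at h
    exact h.trans (inv_mul_cancel₀ hc)
  have hfixg : ∀ σ ∈ A.inertiaSubgroupIn ℚ, gal σ • g' = g' := fun σ hσ =>
    smul_eq_of_divisorOf_eq hdeg (hDfix _ ⟨σ, hσ, rfl⟩) hg'0 hg'
      (FlatModel.co (-(g : LaurentSeries Qbar).order)) (by rw [FlatModel.co_apply, neg_neg, hcoef]) (by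
        rw [FlatModel.co_apply, neg_neg, coe_gal_smul_coeff, hcoef, map_one])
  obtain ⟨f, hf⟩ := exists_baseIncl_eq hfixg
  have hf0 : f ≠ 0 := fun h => hg'0 (by rw [← hf, h, map_zero])
  have hdiv : ∀ v : Place Qbar (MF Qbar M), (m : ℤ) * D v = v.ord (baseIncl A M f) := fun v => by
    rw [hf, ← divisorOf_apply, hg']
    simp
  refine ⟨f, ⟨D, hdeg⟩, hf0, hmk, hdiv, fun V hV => ?_⟩
  rcases eq_or_ne V ⊤ with rfl | hVtop
  · exact ⟨1, f, by simp, ValuationSubring.mem_top _, ValuationSubring.mem_top _⟩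
  obtain ⟨W, hW⟩ := exists_place_over hV hVtop
  obtain ⟨y, hy0, hy⟩ := exists_rational_ord_eq hO hOj (D := D)
    (fun σ hσ => hDfix _ ⟨σ, hσ, rfl⟩) W
  have hy0' : baseIncl A M y ≠ 0 := (map_ne_zero _).2 hy0
  have h0 : W.ord (baseIncl A M (f / y ^ m)) = 0 := by
    rw [map_div₀, map_pow, Genus.ord_div' W ((map_ne_zero _).2 hf0) (pow_ne_zero _ hy0'),
      Genus.ord_pow, hy, ← hdiv W, sub_self]
  refine ⟨y, f / y ^ m, (div_mul_cancel₀ f (pow_ne_zero _ hy0)).symm,
    hW _ ((Genus.mem_iff_ord_nonneg W _).2 h0.ge), hW _ ((Genus.mem_iff_ord_nonneg W _).2 ?_)⟩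
  rw [map_inv₀, W.ord_inv, h0, neg_zero]

/-- Being locally an `m`-th power passes to larger fields. -/
theorem locallyPow_map {K F F' : Type*} [Field K] [Field F] [Field F'] [Algebra K F] [Algebra K F']
    (φ : F →ₐ[K] F') {f : F} {m : ℕ}
    (hloc : ∀ V : ValuationSubring F, (∀ c : K, algebraMap K F c ∈ V) →
      ∃ y u : F, f = u * y ^ m ∧ u ∈ V ∧ u⁻¹ ∈ V)
    (V : ValuationSubring F') (hV : ∀ c : K, algebraMap K F' c ∈ V) :
    ∃ y u : F', φ f = u * y ^ m ∧ u ∈ V ∧ u⁻¹ ∈ V := by
  obtain ⟨y, u, hfu, hu, hu'⟩ := hloc (V.comap (φ : F →+* F')) fun c => by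
    show φ (algebraMap K F c) ∈ V
    rw [AlgHom.commutes]
    exact hV c
  exact ⟨φ y, φ u, by rw [hfu, map_mul, map_pow], hu, by rw [← map_inv₀]; exact hu'⟩

set_option maxHeartbeats 1600000 in
/-- The form at an auxiliary level. -/
theorem exists_ratFun_degMap (A : ValuationSubring Qbar) {N : ℕ} (d : ℕ) [NeZero d]
    (h : M * d ∣ N) {m : ℕ} {x : JZero M} (hx : m • x = 0)
    (hfix : ∀ σ ∈ A.inertiaSubgroupIn ℚ, σ • x = x) :
    ∃ (f : MF (urField A) M) (D : Divisor.degZero (K := Qbar) (F := MF Qbar M)), f ≠ 0 ∧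
      Pic0.mk D = x ∧
      (∀ v, (m : ℤ) * (D : Divisor Qbar (MF Qbar M)) v = v.ord (baseIncl A M f)) ∧
      ∀ V : ValuationSubring (MF (urField A) N),
        (∀ c : urField A, algebraMap _ (MF (urField A) N) c ∈ V) →
        ∃ y u : MF (urField A) N,
          degMap (urField A) d h f = u * y ^ m ∧ u ∈ V ∧ u⁻¹ ∈ V := by
  obtain ⟨f, D, hf0, hD, hdiv, hloc⟩ := exists_ratFun A hx hfix
  exact ⟨f, D, hf0, hD, hdiv, locallyPow_map (degMap (urField A) d h) hloc⟩

set_option linter.unusedVariables false in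
set_option maxHeartbeats 1600000 in
/-- The form at level `q ^ 2 * N`, for a torsion class at level `q ^ 2 * M'`. -/
theorem exists_rational_function {q M' M N : ℕ} [Fact q.Prime] [NeZero M] [NeZero N]
    (hM : M = q ^ 2 * M') (hMN : M' ∣ N) (hqN : ¬ q ∣ N) {A : ValuationSubring Qbar}
    (hA : A.LiesOverPrime q) {m : ℕ} (hm : ¬ q ∣ m) (x : JZero M) (hx : m • x = 0)
    (hfix : ∀ σ ∈ A.inertiaSubgroupIn ℚ, σ • x = x) :
    ∃ (D : Divisor.degZero (K := Qbar) (F := MF Qbar M)) (f : MF Qbar M)
      (f' : MF (urField A) (q ^ 2 * N)),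
      Pic0.mk D = x ∧ f ≠ 0 ∧
      (∀ v : Place Qbar (MF Qbar M), v.ord f = (m : ℤ) * (D : Divisor Qbar (MF Qbar M)) v) ∧
      toSeriesQbar A (q ^ 2 * N) f' = (f : LaurentSeries Qbar) ∧
      ∀ V : ValuationSubring (MF (urField A) (q ^ 2 * N)),
        (∀ c : urField A, algebraMap (urField A) (MF (urField A) (q ^ 2 * N)) c ∈ V) →
        ∃ y u : MF (urField A) (q ^ 2 * N), f' = u * y ^ m ∧ u ∈ V ∧ u⁻¹ ∈ V := by
  obtain ⟨f, D, hf0, hD, hdiv, hloc⟩ := exists_ratFun_degMap A 1
    (show M * 1 ∣ q ^ 2 * N by rw [mul_one, hM]; exact Nat.mul_dvd_mul_left _ hMN) hx hfix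
  exact ⟨D, baseIncl A M f, _, hD, (map_ne_zero _).2 hf0, fun v => (hdiv v).symm,
    series_degMap_one A _ f, hloc⟩
where
  series_degMap_one (A : ValuationSubring Qbar) {M L : ℕ} (h : M * 1 ∣ L)
      (f : MF (urField A) M) : toSeriesQbar A L (degMap (urField A) 1 h f) =
        (baseIncl A M f : LaurentSeries Qbar) := by
    rw [toSeriesQbar_apply, coe_degMap, qExpand_one_apply, coe_baseIncl]

end FLTAgent.LevelSq
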