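import Mathlib.RingTheory.Valuation.LocalSubring
import Mathlib.RingTheory.IntegralClosure.GoingDown
import Mathlib.RingTheory.DedekindDomain.IntegralClosure
import Mathlib.RingTheory.Polynomial.UniqueFactorization
import Mathlib.RingTheory.Polynomial.RationalRoot
import Mathlib.RingTheory.DiscreteValuationRing.Basic
import Mathlib.RingTheory.Ideal.MinimalPrime.Noetherian
import Mathlib.FieldTheory.IntermediateField.Adjoin.Algebra
import Mathlib.RingTheory.Localization.Integral
import Mathlib.RingTheory.Algebraic.Integral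

/-!
# Charts of a function field over a discrete valuation ring

For `ψ` transcendental in a function field `L / K` over a discrete valuation ring `O` with
fraction field `K`, `chart O ψ` is the integral closure of `O[ψ]` in `L`, and `IsVert q φ P` says
that the valuation subring `P` extends the Gauss valuation of `O[φ]`.
-/

set_option autoImplicit false
set_option linter.style.haveILetI false
set_option linter.unusedSectionVars false

noncomputable section

open Polynomial IntermediateField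

namespace FLTAgent.LevelSq

variable (O : Type*) {L : Type*} [CommRing O] [Field L] [Algebra O L]

/-- The integral closure of `O[ψ]`. -/
def chart (ψ : L) : Subalgebra O L :=
  (integralClosure (Algebra.adjoin O ({ψ} : Set L)) L).restrictScalars O

theorem mem_chart {ψ z : L} :
    z ∈ chart O ψ ↔ IsIntegral (Algebra.adjoin O ({ψ} : Set L)) z := Iff.rfl

theorem aeval_mem_adjoin (ψ : L) (p : O[X]) : aeval ψ p ∈ Algebra.adjoin O ({ψ} : Set L) :=
  Algebra.adjoin_singleton_eq_range_aeval O ψ ▸ ⟨p, rfl⟩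

theorem exists_aeval_eq {ψ x : L} (hx : x ∈ Algebra.adjoin O ({ψ} : Set L)) :
    ∃ p : O[X], aeval ψ p = x := by
  rw [Algebra.adjoin_singleton_eq_range_aeval] at hx
  exact hx

theorem adjoin_le_chart (ψ : L) : Algebra.adjoin O ({ψ} : Set L) ≤ chart O ψ := fun _ hx =>
  (mem_chart O).2 (isIntegral_algebraMap (x := (⟨_, hx⟩ : Algebra.adjoin O ({ψ} : Set L))))

theorem aeval_mem_chart (ψ : L) (p : O[X]) : aeval ψ p ∈ chart O ψ :=
  adjoin_le_chart O ψ (aeval_mem_adjoin O ψ p)

theorem self_mem_chart (ψ : L) : ψ ∈ chart O ψ := by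
  simpa using aeval_mem_chart O ψ X

/-- A valuation subring containing `O` and `ψ` contains the chart. -/
theorem chart_le {ψ : L} {P : ValuationSubring L} (hO : ∀ a : O, algebraMap O L a ∈ P)
    (hψ : ψ ∈ P) {z : L} (hz : z ∈ chart O ψ) : z ∈ P := by
  have hle : (Algebra.adjoin O ({ψ} : Set L)).toSubring ≤ P.toSubring := by
    intro x hx
    induction hx using Algebra.adjoin_induction with
    | mem y hy => obtain rfl := hy; exact hψ
    | algebraMap r => exact hO r
    | add _ _ _ _ hx hy => exact P.add_mem _ _ hx hy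
    | mul _ _ _ _ hx hy => exact P.mul_mem _ _ hx hy
  letI : Algebra (Algebra.adjoin O ({ψ} : Set L)) P := (Subring.inclusion hle).toAlgebra
  haveI : IsScalarTower (Algebra.adjoin O ({ψ} : Set L)) P L := IsScalarTower.of_algebraMap_eq fun _ => rfl
  obtain ⟨w, hw⟩ := IsIntegrallyClosed.isIntegral_iff.1 (((mem_chart O).1 hz).tower_top (A := P))
  exact hw ▸ w.2

/-- `P` extends the Gauss valuation of `O[φ]`. -/
structure IsVert (q : O) (φ : L) (P : ValuationSubring L) : Prop where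
  q_mem : algebraMap O L q ∈ P.nonunits
  unit_mem : ∀ p : O[X], ¬ C q ∣ p → aeval φ p ∈ P ∧ (aeval φ p)⁻¹ ∈ P

variable {O} {q : O} {φ : L} {P : ValuationSubring L}

theorem IsVert.mem (h : IsVert O q φ P) (hq : ¬ IsUnit q) : φ ∈ P ∧ φ⁻¹ ∈ P := by
  simpa using h.unit_mem X fun hX => hq (isUnit_of_dvd_one (by
    simpa using C_dvd_iff_dvd_coeff q X |>.1 hX 1))

theorem IsVert.algebraMap_mem (h : IsVert O q φ P) [IsDomain O] (hq : Prime q)
    [IsDiscreteValuationRing O] (a : O) : algebraMap O L a ∈ P := by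
  rcases eq_or_ne a 0 with rfl | ha
  · simp
  obtain ⟨k, u, rfl⟩ := IsDiscreteValuationRing.eq_unit_mul_pow_irreducible ha hq.irreducible
  rw [map_mul, map_pow]
  refine mul_mem ?_ (pow_mem (P.nonunits_subset h.q_mem) k)
  simpa using (h.unit_mem (C (u : O)) fun hd => hq.not_isUnit (isUnit_of_dvd_unit
    ((by simpa using C_dvd_iff_dvd_coeff q (C (u : O)) |>.1 hd 0)) u.isUnit)).1

theorem IsVert.chart_le' (h : IsVert O q φ P) [IsDomain O] [IsDiscreteValuationRing O]
    (hq : Prime q) {z : L} : (z ∈ chart O φ → z ∈ P) ∧ (z ∈ chart O φ⁻¹ → z ∈ P) :=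
  ⟨chart_le O (h.algebraMap_mem hq) (h.mem hq.not_isUnit).1,
    chart_le O (h.algebraMap_mem hq) (h.mem hq.not_isUnit).2⟩

theorem dvd_reverse_iff [IsDomain O] (p : O[X]) : C q ∣ p.reverse ↔ C q ∣ p := by
  simp only [C_dvd_iff_dvd_coeff]
  constructor <;> intro h i
  · have := h (revAt p.natDegree i)
    rwa [coeff_reverse, revAt_invol] at this
  · rw [coeff_reverse]; exact h _

theorem aeval_reverse_inv {φ : L} (hφ : φ ≠ 0) (p : O[X]) :
    aeval φ⁻¹ p.reverse = (φ⁻¹) ^ p.natDegree * aeval φ p := by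
  haveI := invertibleOfNonzero hφ
  simp only [aeval_def]
  rw [← eval₂_reverse_mul_pow (algebraMap O L) φ p, invOf_eq_inv, mul_comm _ (φ ^ _), ← mul_assoc,
    ← mul_pow, inv_mul_cancel₀ hφ, one_pow, one_mul]

/-- Symmetry of verticality. -/
theorem IsVert.inv [IsDomain O] (h : IsVert O q φ P) (hq : ¬ IsUnit q) (hφ : φ ≠ 0) :
    IsVert O q φ⁻¹ P := by
  refine ⟨h.q_mem, fun p hp => ?_⟩
  obtain ⟨h1, h2⟩ := h.mem hq
  obtain ⟨h3, h4⟩ := h.unit_mem p.reverse fun hd => hp ((dvd_reverse_iff p).1 hd)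
  have key := aeval_reverse_inv (O := O) (inv_ne_zero hφ) p
  rw [inv_inv] at key
  have h5 : aeval φ⁻¹ p = (φ⁻¹) ^ p.natDegree * aeval φ p.reverse := by
    rw [key, ← mul_assoc, ← mul_pow, inv_mul_cancel₀ hφ, one_pow, one_mul]
  rw [h5]
  refine ⟨mul_mem (pow_mem h2 _) h3, ?_⟩
  rw [mul_inv, ← inv_pow, inv_inv]
  exact mul_mem (pow_mem h1 _) h4

variable [IsDomain O] [IsDiscreteValuationRing O]

section Finite

variable {K : Type*} [Field K] [Algebra O K] [IsFractionRing O K] [Algebra K L]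
  [IsScalarTower O K L] {ψ : L}

/-- `O[X] ≅ O[ψ]`. -/
def adjoinEquiv (hψ : Transcendental O ψ) : O[X] ≃ₐ[O] Algebra.adjoin O ({ψ} : Set L) :=
  (AlgEquiv.ofInjective (aeval ψ) (transcendental_iff_injective.1 hψ)).trans
    (Subalgebra.equivOfEq _ _ (Algebra.adjoin_singleton_eq_range_aeval O ψ).symm)

theorem coe_adjoinEquiv (hψ : Transcendental O ψ) (p : O[X]) :
    (adjoinEquiv hψ p : L) = aeval ψ p := rfl

theorem isIntegrallyClosed_adjoin (hψ : Transcendental O ψ) :
    IsIntegrallyClosed (Algebra.adjoin O ({ψ} : Set L)) :=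
  IsIntegrallyClosed.of_equiv (adjoinEquiv hψ).toRingEquiv

theorem isNoetherianRing_adjoin (hψ : Transcendental O ψ) :
    IsNoetherianRing (Algebra.adjoin O ({ψ} : Set L)) :=
  isNoetherianRing_of_surjective _ _ (adjoinEquiv hψ).toRingEquiv.toRingHom
    (adjoinEquiv hψ).surjective

theorem adjoin_le_adjoinField (x : Algebra.adjoin O ({ψ} : Set L)) : (x : L) ∈ K⟮ψ⟯ := by
  obtain ⟨p, hp⟩ := exists_aeval_eq O x.2
  rw [← hp, ← aeval_map_algebraMap K]
  exact algebra_adjoin_le_adjoin K _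
    (Algebra.adjoin_singleton_eq_range_aeval K ψ ▸ ⟨_, rfl⟩)

/-- Every element of `K(ψ)` is a ratio of values of polynomials over `O`. -/
theorem exists_eq_div_of_mem_adjoin {z : L} (hz : z ∈ K⟮ψ⟯) :
    ∃ r s : O[X], z = aeval ψ r / aeval ψ s := by
  obtain ⟨r, s, rfl⟩ := (mem_adjoin_simple_iff K z).1 hz
  obtain ⟨a, ha, hr⟩ := IsLocalization.integerNormalization_spec (nonZeroDivisors O) r
  obtain ⟨b, hb, hs⟩ := IsLocalization.integerNormalization_spec (nonZeroDivisors O) s
  set r' := IsLocalization.integerNormalization (nonZeroDivisors O) r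
  set s' := IsLocalization.integerNormalization (nonZeroDivisors O) s
  refine ⟨C b * r', C a * s', ?_⟩
  have h1 : aeval ψ r' = algebraMap O L a * aeval ψ r := by
    rw [← aeval_map_algebraMap K, hr, Algebra.smul_def, Polynomial.algebraMap_apply, map_mul,
      aeval_C, ← IsScalarTower.algebraMap_apply O K L]
  have h2 : aeval ψ s' = algebraMap O L b * aeval ψ s := by
    rw [← aeval_map_algebraMap K, hs, Algebra.smul_def, Polynomial.algebraMap_apply, map_mul,
      aeval_C, ← IsScalarTower.algebraMap_apply O K L]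
  have hinj : Function.Injective (algebraMap O L) := by
    rw [IsScalarTower.algebraMap_eq O K L]
    exact (algebraMap K L).injective.comp (IsFractionRing.injective O K)
  have ha0 : algebraMap O L a ≠ 0 := by
    rw [← map_zero (algebraMap O L)]; exact hinj.ne (nonZeroDivisors.ne_zero ha)
  have hb0 : algebraMap O L b ≠ 0 := by
    rw [← map_zero (algebraMap O L)]; exact hinj.ne (nonZeroDivisors.ne_zero hb)
  rw [map_mul, map_mul, aeval_C, aeval_C, h1, h2, ← mul_assoc, ← mul_assoc,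
    mul_comm (algebraMap O L b), mul_div_mul_left _ _ (mul_ne_zero ha0 hb0)]

/-- The chart is a finite module over `O[ψ]`. -/
theorem finite_chart (hψ : Transcendental O ψ) [FiniteDimensional K⟮ψ⟯ L]
    [Algebra.IsSeparable K⟮ψ⟯ L] :
    Module.Finite (Algebra.adjoin O ({ψ} : Set L))
      (integralClosure (Algebra.adjoin O ({ψ} : Set L)) L) := by
  set A := Algebra.adjoin O ({ψ} : Set L)
  haveI := isIntegrallyClosed_adjoin hψ
  haveI := isNoetherianRing_adjoin hψ
  letI : Algebra A K⟮ψ⟯ :=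
    ((A.val.toRingHom).codRestrict K⟮ψ⟯.toSubfield.toSubring fun x =>
      adjoin_le_adjoinField (K := K) x).toAlgebra
  haveI : IsScalarTower A K⟮ψ⟯ L := IsScalarTower.of_algebraMap_eq fun _ => rfl
  haveI : FaithfulSMul A K⟮ψ⟯ := (faithfulSMul_iff_algebraMap_injective _ _).2 fun x y h =>
    Subtype.ext (congrArg (fun w : K⟮ψ⟯ => (w : L)) h)
  haveI : IsFractionRing A K⟮ψ⟯ := by
    refine IsFractionRing.of_field A _ fun z => ?_
    obtain ⟨r, s, h⟩ := exists_eq_div_of_mem_adjoin (O := O) z.2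
    exact ⟨⟨_, aeval_mem_adjoin O ψ r⟩, ⟨_, aeval_mem_adjoin O ψ s⟩, Subtype.ext h⟩
  exact IsIntegralClosure.finite A K⟮ψ⟯ L (integralClosure A L)

theorem isNoetherianRing_chart (hψ : Transcendental O ψ) [FiniteDimensional K⟮ψ⟯ L]
    [Algebra.IsSeparable K⟮ψ⟯ L] : IsNoetherianRing (chart O ψ) := by
  haveI := isNoetherianRing_adjoin hψ
  haveI := finite_chart (K := K) hψ
  exact IsNoetherianRing.of_finite (Algebra.adjoin O ({ψ} : Set L))
    (integralClosure (Algebra.adjoin O ({ψ} : Set L)) L)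

end Finite

/-- A prime of a subring is the centre of some valuation subring. -/
theorem exists_valuationSubring_centre (A : Subring L) (𝔭 : Ideal A) [𝔭.IsPrime] :
    ∃ B : ValuationSubring L, ∀ z : A, (z : L) ∈ B ∧ ((z : L) ∈ B.nonunits ↔ z ∈ 𝔭) := by
  obtain ⟨B, hle, hloc⟩ := (LocalSubring.ofPrime A 𝔭).exists_le_valuationSubring
  refine ⟨B, fun z => ?_⟩
  set R := (LocalSubring.ofPrime A 𝔭).toSubring
  have hzR : (z : L) ∈ R := LocalSubring.le_ofPrime A 𝔭 z.2
  have hunit : IsUnit (⟨z, hle hzR⟩ : B) ↔ z ∉ 𝔭 := by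
    refine Iff.trans ?_ (IsLocalization.AtPrime.isUnit_to_map_iff R 𝔭 z)
    exact ⟨fun h => hloc.map_nonunit _ h, fun h => h.map (Subring.inclusion hle)⟩
  refine ⟨hle hzR, ?_⟩
  rw [← SetLike.mem_coe, ← ValuationSubring.image_maximalIdeal]
  constructor
  · rintro ⟨w, hw, hwz⟩
    by_contra hz
    obtain rfl : w = ⟨z, hle hzR⟩ := Subtype.ext hwz
    exact hw (hunit.2 hz)
  · intro hz
    exact ⟨⟨z, hle hzR⟩, fun h => hunit.1 h hz, rfl⟩

/-- A prime of the chart which is minimal over `(q)` is the centre of a vertical valuation. -/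
theorem exists_isVert_of_minimalPrime {ψ : L} (hq : Prime q) (hψ : Transcendental O ψ)
    {𝔭 : Ideal (chart O ψ)}
    (h𝔭 : 𝔭 ∈ (Ideal.span {algebraMap O (chart O ψ) q}).minimalPrimes) :
    ∃ P : ValuationSubring L, IsVert O q ψ P ∧
      ∀ z : chart O ψ, (z : L) ∈ P ∧ ((z : L) ∈ P.nonunits ↔ z ∈ 𝔭) := by
  haveI := h𝔭.isPrime
  set A := Algebra.adjoin O ({ψ} : Set L) with hA
  haveI := isIntegrallyClosed_adjoin hψ
  letI : Algebra A (chart O ψ) := (Subalgebra.inclusion (adjoin_le_chart O ψ)).toAlgebra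
  haveI : IsScalarTower A (chart O ψ) L := IsScalarTower.of_algebraMap_eq fun _ => rfl
  haveI : FaithfulSMul A (chart O ψ) := (faithfulSMul_iff_algebraMap_injective _ _).2 fun x y h =>
    Subtype.ext (congrArg (fun w : chart O ψ => (w : L)) h)
  haveI : Algebra.IsIntegral A (chart O ψ) := ⟨fun z =>
    (isIntegral_algHom_iff (IsScalarTower.toAlgHom A (chart O ψ) L) Subtype.val_injective).1 z.2⟩
  set qA : A := algebraMap O A q with hqA
  have hprime : Prime qA := by
    have h : (adjoinEquiv hψ) (C q) = qA := (adjoinEquiv hψ).commutes q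
    rw [← h]
    exact (MulEquiv.prime_iff (adjoinEquiv hψ).toRingEquiv.toMulEquiv).2 (Polynomial.prime_C_iff.2 hq)
  haveI : (Ideal.span {qA}).IsPrime := (Ideal.span_singleton_prime hprime.ne_zero).2 hprime
  have hq𝔭 : algebraMap O (chart O ψ) q ∈ 𝔭 := h𝔭.1.2 (Ideal.mem_span_singleton_self _)
  have hle : Ideal.span {qA} ≤ 𝔭.under A := by
    rw [Ideal.span_singleton_le_iff_mem]; exact hq𝔭
  obtain ⟨𝔭', h𝔭'le, h𝔭'p, h𝔭'o⟩ :=
    Ideal.exists_ideal_le_liesOver_of_le (q := 𝔭.under A) 𝔭 hle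
  have hq' : algebraMap O (chart O ψ) q ∈ 𝔭' :=
    (Ideal.mem_of_liesOver 𝔭' (Ideal.span {qA}) qA).1 (Ideal.mem_span_singleton_self _)
  have heq : 𝔭' = 𝔭 := le_antisymm h𝔭'le
    (h𝔭.2 ⟨h𝔭'p, (Ideal.span_singleton_le_iff_mem _).2 hq'⟩ h𝔭'le)
  subst heq
  obtain ⟨B, hB⟩ := exists_valuationSubring_centre (chart O ψ).toSubring 𝔭'
  have hEB : ∀ z : chart O ψ, (z : L) ∈ B := fun z => (hB z).1
  have hcent : ∀ z : chart O ψ, (z : L) ∈ B.nonunits ↔ z ∈ 𝔭' := fun z => (hB z).2
  refine ⟨B, ⟨(hcent (algebraMap O (chart O ψ) q)).2 hq', fun p hp => ?_⟩,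
    fun z => ⟨hEB z, hcent z⟩⟩
  have hmem := hEB ⟨_, aeval_mem_chart O ψ p⟩
  refine ⟨hmem, ?_⟩
  have hnot : ⟨_, aeval_mem_chart O ψ p⟩ ∉ 𝔭' := by
    intro h
    have h2 : (⟨_, aeval_mem_adjoin O ψ p⟩ : A) ∈ Ideal.span {qA} :=
      (Ideal.mem_of_liesOver 𝔭' (Ideal.span {qA}) _).2 h
    obtain ⟨b, hb⟩ := Ideal.mem_span_singleton'.1 h2
    apply hp
    refine ⟨(adjoinEquiv hψ).symm b, (adjoinEquiv hψ).injective ?_⟩
    rw [map_mul, AlgEquiv.apply_symm_apply, mul_comm]
    exact (Subtype.ext (coe_adjoinEquiv hψ p)).trans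
      (hb.symm.trans (congrArg (b * ·) ((adjoinEquiv hψ).commutes q).symm))
  rw [← hcent] at hnot
  by_contra hc
  exact hnot (B.mem_nonunits_iff_or.2 (Or.inr hc))

end FLTAgent.LevelSq
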