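import Fermat.Agent.LevelSq.GaloisField
import Fermat.Agent.LevelSq.Charts
import Mathlib.FieldTheory.IsAlgClosed.AlgebraicClosure
import Mathlib.RingTheory.Polynomial.GaussLemma

/-!
# Charts and minimal polynomials over the middle copy of level `N`

The chart is closed under roots of monic polynomials over it, minimal polynomials of its elements
have coefficients in the chart below, and over the series `t ↦ t ^ q` they split into the values
of the `embK p`.
-/

set_option autoImplicit false
set_option linter.style.haveILetI false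
set_option linter.unusedSectionVars false
set_option synthInstance.maxHeartbeats 100000

noncomputable section

open ModularCurve AlgebraicCurve Polynomial
open FLTAgent.Hecke FLTAgent.Igusa FLTAgent.ModPoly FLTAgent.Semistable

namespace FLTAgent.LevelSq

local notation "Qbar" => AlgebraicClosure ℚ

section Chart

variable {O L : Type*} [CommRing O] [Field L] [Algebra O L]

/-- The chart contains the roots of monic polynomials over it. -/
theorem mem_chart_of_monic {φ : L} {P : Polynomial L} (hP : P.Monic)
    (hc : ∀ n, P.coeff n ∈ chart O φ) {y : L} (hy : P.eval y = 0) : y ∈ chart O φ := by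
  rw [mem_chart]
  set A := Algebra.adjoin O ({φ} : Set L)
  set C := integralClosure A L
  obtain ⟨Q, hQ, -, hQm⟩ := lifts_and_natDegree_eq_and_monic
    (show P ∈ lifts (algebraMap C L) from
      (lifts_iff_coeff_lifts _).2 fun n => ⟨⟨_, hc n⟩, rfl⟩) hP
  haveI : Algebra.IsIntegral A C := integralClosure.AlgebraIsIntegral
  exact isIntegral_trans (A := C) y ⟨Q, hQm, by rw [← eval_map, hQ, hy]⟩

/-- Values of integral polynomials at an element of the chart. -/
theorem eval₂_mem_chart {φ x : L} (hx : x ∈ chart O φ) (p : Polynomial ℤ) :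
    p.eval₂ (Int.castRingHom L) x ∈ chart O φ := by
  induction p using Polynomial.induction_on' with
  | add a b ha hb => rw [eval₂_add]; exact add_mem ha hb
  | monomial n a => rw [eval₂_monomial]; exact mul_mem (intCast_mem _ a) (pow_mem hx n)

/-- Values at an element of the chart of monic integral polynomials in two variables. -/
theorem mem_chart_of_intPoly {φ x y : L} (hx : x ∈ chart O φ) {P : Polynomial (Polynomial ℤ)}
    (hP : P.Monic) (hy : P.eval₂ (eval₂RingHom (Int.castRingHom L) x) y = 0) : y ∈ chart O φ :=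
  mem_chart_of_monic (hP.map (eval₂RingHom (Int.castRingHom L) x))
    (fun n => by rw [coeff_map]; exact eval₂_mem_chart hx _) (by rwa [eval_map])

theorem ev2_phiK_eq {K : Type*} [Field K] [Algebra K L] (n : ℕ) [NeZero n] (x y : L) :
    ev2 x y (phiK n K) = (phiZ n).eval₂ (eval₂RingHom (Int.castRingHom L) x) y := by
  rw [ev2_apply, phiK, mapXY, coe_mapRingHom, eval₂_map]
  congr 1
  exact Polynomial.ringHom_ext (fun a => by simp) (by simp)

/-- The chart is closed under the modular relations. -/
theorem mem_chart_of_phiRel {K : Type*} [Field K] [Algebra ℚ K] [Algebra K L] (n : ℕ) [NeZero n]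
    {φ x y : L} (hx : x ∈ chart O φ) (h : PhiRel (L := K) n x y) : y ∈ chart O φ :=
  mem_chart_of_intPoly hx (phiZ_monic n) ((ev2_phiK_eq (K := K) n x y).symm.trans h)

/-- Homomorphisms map charts into charts. -/
theorem algHom_mem_chart {L' : Type*} [Field L'] [Algebra O L'] (f : L →ₐ[O] L') {ψ : L} {φ : L'}
    (hψ : f ψ ∈ chart O φ) {z : L} (hz : z ∈ chart O ψ) : f z ∈ chart O φ := by
  obtain ⟨P, hPm, hP⟩ := (mem_chart O).1 hz
  refine mem_chart_of_monic ((hPm.map (algebraMap _ L)).map f.toRingHom) (fun n => ?_) ?_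
  · rw [coeff_map, coeff_map]
    obtain ⟨p, hp⟩ := exists_aeval_eq O (P.coeff n).2
    show f ((P.coeff n : L)) ∈ chart O φ
    rw [← hp, ← aeval_algHom_apply, show f ψ = (chart O φ).val ⟨_, hψ⟩ from rfl,
      aeval_algHom_apply]
    exact (aeval (⟨_, hψ⟩ : chart O φ) p).2
  · show ((P.map (algebraMap _ L)).map f.toRingHom).eval (f.toRingHom z) = 0
    rw [eval_map, eval₂_at_apply, eval_map, hP, map_zero]

/-- Minimal polynomials of elements of a chart have coefficients in the chart below. -/
theorem coeff_minpoly_mem_chart {E F : Type*} [Field E] [Field F] [Algebra O E] [Algebra O F]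
    [Algebra E F] [IsScalarTower O E F] [FiniteDimensional E F] {ψ : E} {w : F}
    (hw : w ∈ chart O (algebraMap E F ψ)) (n : ℕ) : (minpoly E w).coeff n ∈ chart O ψ := by
  obtain ⟨P, hPm, hP⟩ := (mem_chart O).1 hw
  set A := Algebra.adjoin O ({ψ} : Set E)
  obtain ⟨Q, hQ, -, hQm⟩ := lifts_and_natDegree_eq_and_monic
    (show P.map (algebraMap _ F) ∈ lifts ((algebraMap E F).comp (algebraMap A E)) from
      (lifts_iff_coeff_lifts _).2 fun i => by
        obtain ⟨p, hp⟩ := exists_aeval_eq O (P.coeff i).2
        refine ⟨⟨_, aeval_mem_adjoin O ψ p⟩, ?_⟩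
        rw [coeff_map]
        show algebraMap E F (aeval ψ p) = (P.coeff i : F)
        rw [← hp, aeval_algebraMap_apply]) (hPm.map _)
  have hdvd : minpoly E w ∣ Q.map (algebraMap A E) := by
    refine minpoly.dvd E w ?_
    rw [aeval_def, eval₂_eq_eval_map, Polynomial.map_map, hQ, eval_map, hP]
  have h := integralClosure.mem_lifts_of_monic_of_dvd_map E hQm
    (minpoly.monic (IsIntegral.of_finite E w)) hdvd
  obtain ⟨c, hc⟩ := (lifts_iff_coeff_lifts _).1 h n
  rw [← hc]
  exact c.2

end Chart

/-- A minimal polynomial is the product over the distinct values of the embeddings. -/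
theorem minpoly_map_eq_prod {E F T : Type*} [Field E] [Field F] [Algebra E F] [Field T]
    [CharZero E] [FiniteDimensional E F] [DecidableEq T] {P : Type*} [Fintype P] (ψ : E →+* T)
    (σ : P → F →+* T) (hσ : ∀ p x, σ p (algebraMap E F x) = ψ x)
    (hall : ∀ e : F →+* AlgebraicClosure T,
      (∀ x, e (algebraMap E F x) = algebraMap T (AlgebraicClosure T) (ψ x)) →
        ∃ p, ∀ x, e x = algebraMap T (AlgebraicClosure T) (σ p x))
    (w : F) :
    (minpoly E w).map ψ = ∏ r ∈ Finset.univ.image (fun p => σ p w), (X - C r) := by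
  classical
  letI : Algebra E (AlgebraicClosure T) := ((algebraMap T (AlgebraicClosure T)).comp ψ).toAlgebra
  set i := algebraMap T (AlgebraicClosure T) with hi
  have hint : IsIntegral E w := IsIntegral.of_finite E w
  have hm : (minpoly E w).Monic := minpoly.monic hint
  set g := (minpoly E w).map (algebraMap E (AlgebraicClosure T)) with hg
  have hsep : g.Separable := Separable.map (minpoly.irreducible hint).separable
  have hroots : g.roots.toFinset = (Finset.univ.image fun p => σ p w).image i := by
    ext r
    rw [Multiset.mem_toFinset, show r ∈ g.roots ↔ r ∈ (minpoly E w).rootSet (AlgebraicClosure T)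
      from by rw [rootSet_def, Finset.mem_coe, Multiset.mem_toFinset, aroots_def],
      ← Algebra.IsAlgebraic.range_eval_eq_rootSet_minpoly (AlgebraicClosure T) w]
    simp only [Set.mem_range, Finset.mem_image, Finset.mem_univ, true_and]
    constructor
    · rintro ⟨e, rfl⟩
      obtain ⟨p, hp⟩ := hall e.toRingHom fun x => e.commutes x
      exact ⟨_, ⟨p, rfl⟩, (hp w).symm⟩
    · rintro ⟨_, ⟨p, rfl⟩, rfl⟩
      exact ⟨{ i.comp (σ p) with commutes' := fun x => congrArg i (hσ p x) }, rfl⟩
  refine Polynomial.map_injective i i.injective ?_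
  rw [Polynomial.map_map, Polynomial.map_prod]
  simp only [Polynomial.map_sub, map_X, map_C]
  rw [← Finset.prod_image (f := fun r => X - C r) (fun a _ b _ h => i.injective h), ← hroots]
  show g = _
  rw [Finset.prod, Multiset.toFinset_val,
    (Multiset.dedup_eq_self.2 (nodup_roots hsep))]
  exact (IsAlgClosed.splits g).eq_prod_roots_of_monic (hm.map _)

variable {q : ℕ} [hq : Fact q.Prime]

local instance : NeZero q := ⟨hq.out.ne_zero⟩

section Pairs

theorem card_pairClass_zero :
    (Finset.univ.filter fun p : RootPair q => pairClass p = 0).card = q := by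
  classical
  have h : (Finset.univ.filter fun p : RootPair q => pairClass p = 0) =
      Finset.univ.image fun i : Fin q => (⟨(some i, none), by simp⟩ : RootPair q) := by
    ext ⟨⟨x, y⟩, hxy⟩
    rcases x with _ | i <;> rcases y with _ | j <;> simp [pairClass] at hxy ⊢
  rw [h, Finset.card_image_of_injective _ fun i j e => by simpa using e, Finset.card_univ,
    Fintype.card_fin]

theorem card_pairClass_two :
    (Finset.univ.filter fun p : RootPair q => pairClass p = 2).card = q := by
  classical
  have h : (Finset.univ.filter fun p : RootPair q => pairClass p = 2) =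
      Finset.univ.image fun i : Fin q => (⟨(none, some i), by simp⟩ : RootPair q) := by
    ext ⟨⟨x, y⟩, hxy⟩
    rcases x with _ | i <;> rcases y with _ | j <;> simp [pairClass] at hxy ⊢
  rw [h, Finset.card_image_of_injective _ fun i j e => by simpa using e, Finset.card_univ,
    Fintype.card_fin]

theorem card_pairClass_one :
    (Finset.univ.filter fun p : RootPair q => pairClass p = 1).card = q * (q - 1) := by
  classical
  have h : (Finset.univ.filter fun p : RootPair q => pairClass p = 1) =
      (Finset.univ : Finset (Fin q)).offDiag.attach.image fun x =>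
        (⟨(some x.1.1, some x.1.2), by simpa using (Finset.mem_offDiag.1 x.2).2.2⟩ : RootPair q) := by
    ext ⟨⟨x, y⟩, hxy⟩
    rcases x with _ | i <;> rcases y with _ | j <;> simp [pairClass] at hxy ⊢
    exact hxy
  rw [h, Finset.card_image_of_injective _ fun i j e => by
      simp only [Subtype.mk.injEq, Prod.mk.injEq, Option.some.injEq] at e
      exact Subtype.ext (Prod.ext e.1 e.2),
    Finset.card_attach, Finset.offDiag_card, Finset.card_univ, Fintype.card_fin, Nat.mul_sub,
    mul_one]

end Pairs

variable {A : ValuationSubring Qbar} {N : ℕ} [NeZero N] (hN : ¬ q ∣ N)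
  {ζ : Qbarˣ} (hζ : IsPrimitiveRoot (ζ : Qbar) q)

/-- `embK p` over the inertia field. -/
def embKAlg (p : RootPair q) :
    MF (urField A) (q ^ 2 * N) →ₐ[urField A] LaurentSeries Qbar where
  toRingHom := embK (A := A) hN hζ p
  commutes' c := embK_algebraMap hN hζ p c

theorem toSeriesQbar_jMF (M : ℕ) : toSeriesQbar A M (jMF (urField A) M) = jqModC Qbar := by
  rw [toSeriesQbar_apply, jMF_coe, coeffMap_jqModC]

include hN hζ in
/-- The modular relations between the copies of level `N`. -/
theorem phiRel_lev (n : ℕ) [NeZero n] (v : MF (urField A) N)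
    (hv : toSeriesQbar A N v = jd Qbar n) (i : Fin 3) (hi : i = 0 ∨ i = 2) :
    PhiRel (L := urField A) q (lev (urField A) q N 1 v) (lev (urField A) q N i v) := by
  let p : RootPair q := ⟨(some ⟨0, hq.out.pos⟩, none), by simp⟩
  refine PhiRel.of_map (embKAlg (A := A) hN hζ p) (embKAlg (A := A) hN hζ p).toRingHom.injective ?_
  show PhiRel (L := urField A) q (embK (A := A) hN hζ p _) (embK (A := A) hN hζ p _)
  rw [phiRel_iff_of_tower (L := Qbar), embK_lev_one, hv]
  rcases hi with rfl | rfl
  · rw [embK_lev_zero, hv]; exact phiRel_rootMap_jd hq.out hζ n _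
  · rw [embK_lev_two, hv]; exact phiRel_rootMap_jd hq.out hζ n _

theorem jMF_eq_lev_zero :
    jMF (urField A) (q ^ 2 * N) = lev (urField A) q N 0 (jMF (urField A) N) :=
  Subtype.ext (by rw [coe_lev_zero]; rfl)

theorem jd_eq_lev_two :
    (⟨jd (urField A) (q ^ 2 * N), jd_mem _ dvd_rfl⟩ : MF (urField A) (q ^ 2 * N)) =
      lev (urField A) q N 2 ⟨jd (urField A) N, jd_mem _ dvd_rfl⟩ := by
  refine Subtype.ext ?_
  rw [coe_lev_two]
  show qExpand (urField A) (q ^ 2 * N) (jqModC (urField A)) =
    qExpand (urField A) (q * q) (qExpand (urField A) N (jqModC (urField A)))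
  rw [qExpand_qExpand]
  exact qExpand_congr (by ring) _

include hN hζ in
/-- Every homomorphism over `lev 1` is one of the `embK p`. -/
theorem exists_eq_embK {T : Type*} [Field T] [Algebra Qbar T]
    (i : LaurentSeries Qbar →ₐ[Qbar] T) (e : MF (urField A) (q ^ 2 * N) →+* T)
    (he : ∀ u, e (lev (urField A) q N 1 u) = i (qExpand Qbar q (toSeriesQbar A N u))) :
    ∃ p : RootPair q, ∀ x, e x = i (embK (A := A) hN hζ p x) := by
  have hc : ∀ c : urField A,
      e (algebraMap (urField A) (MF (urField A) (q ^ 2 * N)) c) = algebraMap Qbar T (c : Qbar) := by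
    intro c
    rw [← (lev (urField A) q N 1).commutes c, he, ← i.commutes]
    congr 1
    rw [← coe_baseEmb, baseEmb_algebraMap]
    exact (qExpandAlg Qbar q).commutes _
  let eK : MF (urField A) (q ^ 2 * N) →ₐ[urField A] T := { e with commutes' := hc }
  set gN : MF (urField A) N := ⟨jd (urField A) N, jd_mem _ dvd_rfl⟩ with hgN
  have hgs : toSeriesQbar A N gN = jd Qbar N := toSeriesQbar_jd A N N dvd_rfl
  have hjs : toSeriesQbar A N (jMF (urField A) N) = jd Qbar 1 := by
    rw [toSeriesQbar_jMF, jd_one]
  have hrel : ∀ (n : ℕ) (_ : NeZero n) (v : MF (urField A) N), toSeriesQbar A N v = jd Qbar n →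
      ∀ k : Fin 3, k = 0 ∨ k = 2 →
        PhiRel (L := Qbar) q (i (qExpand Qbar q (jd Qbar n))) (e (lev (urField A) q N k v)) := by
    intro n _ v hv k hk
    have h := ((phiRel_lev hN hζ n v hv k hk).map eK)
    rw [phiRel_iff_of_tower (L := Qbar)] at h
    change PhiRel (L := Qbar) q (e _) (e _) at h
    rwa [he, hv] at h
  have hkey : ∀ k : Fin 3, k = 0 ∨ k = 2 → ∃ o : Option (Fin q), ∀ u,
      e (lev (urField A) q N k u) = i (rootMap ζ o (toSeriesQbar A N u)) := by
    intro k hk
    have h1 := hrel 1 inferInstance _ hjs k hk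
    rw [jd_one, show qExpand Qbar q (jqModC Qbar) = jd Qbar q from rfl] at h1
    obtain ⟨r, hr⟩ := (phiRel_map_jd_iff q hζ i).1 h1
    obtain ⟨o, ho⟩ := exists_rootJ_eq hq.out ζ r
    rw [ho] at hr
    have h2 := hrel N inferInstance gN hgs k hk
    rw [qExpand_jd_comm (q := q) N] at h2
    obtain ⟨s, hs⟩ := (phiRel_map_jd_iff q hζ (i.comp (qExpandAlg Qbar N))).1 h2
    have hs' : e (lev (urField A) q N k gN) = i (rootMap ζ o (jd Qbar N)) := by
      rw [hs]
      refine congrArg i ?_
      show qExpand Qbar N (jqConj Qbar ζ s) = _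
      refine eq_rootMap_jd hq.out hζ hN o ?_ ?_
      · refine PhiRel.of_map i i.toRingHom.injective ?_
        rw [qExpand_jd_comm (q := q) N]
        exact (phiRel_map_jd_iff q hζ (i.comp (qExpandAlg Qbar N))).2 ⟨s, rfl⟩
      · refine PhiRel.of_map i i.toRingHom.injective ?_
        have h3 : PhiRel (L := urField A) N (jMF (urField A) N) gN :=
          PhiRel.of_map (MF (urField A) N).val Subtype.val_injective (phiRel_jqModC N)
        have h4 := ((h3.map (lev (urField A) q N k)).map eK)
        rw [phiRel_iff_of_tower (L := Qbar)] at h4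
        change PhiRel (L := Qbar) N (e _) (e _) at h4
        rwa [hr, hs] at h4
    refine ⟨o, fun u => RingHom.congr_fun (ringHom_MF_ext
      (f := e.comp (lev (urField A) q N k).toRingHom)
      (g := i.toRingHom.comp ((rootMap ζ o).toRingHom.comp (toSeriesQbar A N))) ?_ ?_ ?_) u⟩
    · intro c
      show e (lev (urField A) q N k (algebraMap (urField A) (MF (urField A) N) c)) =
        i (rootMap ζ o (toSeriesQbar A N (algebraMap (urField A) _ c)))
      rw [AlgHom.commutes, hc, ← coe_baseEmb, baseEmb_algebraMap]
      show _ = i (rootMap ζ o (algebraMap Qbar (LaurentSeries Qbar) (c : Qbar)))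
      rw [AlgHom.commutes, AlgHom.commutes]
    · show e (lev (urField A) q N k (jMF (urField A) N)) =
        i (rootMap ζ o (toSeriesQbar A N (jMF (urField A) N)))
      rw [hr, toSeriesQbar_jMF, rootMap_jqModC]
    · show e (lev (urField A) q N k gN) = i (rootMap ζ o (toSeriesQbar A N gN))
      rw [hs', hgs]
  obtain ⟨x, hx⟩ := hkey 0 (Or.inl rfl)
  obtain ⟨y, hy⟩ := hkey 2 (Or.inr rfl)
  have hxy : x ≠ y := by
    rintro rfl
    have h := e.injective ((hx gN).trans (hy gN).symm)
    have h1 := congrArg (embK (A := A) hN hζ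
      ⟨(some ⟨0, hq.out.pos⟩, none), by simp⟩) h
    rw [embK_lev_zero, embK_lev_two, hgs] at h1
    exact Option.some_ne_none _ (rootMap_jd_injective hq.out hζ hN h1)
  refine ⟨⟨(x, y), hxy⟩, fun z => RingHom.congr_fun (ringHom_MF_ext (f := e)
    (g := i.toRingHom.comp (embK (A := A) hN hζ ⟨(x, y), hxy⟩)) ?_ ?_ ?_) z⟩
  · intro c
    show _ = i (embK (A := A) hN hζ _ (algebraMap (urField A) _ c))
    rw [hc, embK_algebraMap, AlgHom.commutes]
  · show _ = i (embK (A := A) hN hζ _ _)
    rw [jMF_eq_lev_zero, hx, embK_lev_zero]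
  · show _ = i (embK (A := A) hN hζ _ _)
    rw [jd_eq_lev_two, hy, embK_lev_two]

include hN hζ in
/-- The minimal polynomial over `lev 1`, mapped by `t ↦ t ^ q`. -/
theorem minpoly_lev_one_map [DecidableEq (LaurentSeries Qbar)]
    (w : MF (urField A) (q ^ 2 * N)) :
    letI := (lev (urField A) q N 1).toRingHom.toAlgebra
    (minpoly (MF (urField A) N) w).map ((qExpand Qbar q).comp (toSeriesQbar A N)) =
      ∏ r ∈ Finset.univ.image (fun p => embK (A := A) hN hζ p w), (X - C r) := by
  letI := (lev (urField A) q N 1).toRingHom.toAlgebra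
  haveI : FiniteDimensional (MF (urField A) N) (MF (urField A) (q ^ 2 * N)) :=
    (levelFacts (urField A)).finite N (q ^ 2 * N) (q ^ ((1 : Fin 3) : ℕ)) (lev_dvd q N 1)
  haveI : CharZero (MF (urField A) N) :=
    charZero_of_injective_algebraMap (algebraMap (urField A) (MF (urField A) N)).injective
  exact minpoly_map_eq_prod _ (fun p => embK (A := A) hN hζ p)
    (fun p x => embK_lev_one hN hζ p x)
    (fun e he => exists_eq_embK hN hζ
      (IsScalarTower.toAlgHom Qbar (LaurentSeries Qbar) (AlgebraicClosure (LaurentSeries Qbar))) e he)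
    w

include hN hζ in
/-- Minimal polynomials over `lev 1` of elements of the chart have coefficients in the chart. -/
theorem coeff_minpoly_lev_one_mem {w : MF (urField A) (q ^ 2 * N)} {ψ : MF (urField A) N}
    (hw : w ∈ chart (urRing A) (lev (urField A) q N 1 ψ)) (n : ℕ) :
    letI := (lev (urField A) q N 1).toRingHom.toAlgebra
    (minpoly (MF (urField A) N) w).coeff n ∈ chart (urRing A) ψ := by
  letI := (lev (urField A) q N 1).toRingHom.toAlgebra
  haveI : FiniteDimensional (MF (urField A) N) (MF (urField A) (q ^ 2 * N)) :=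
    (levelFacts (urField A)).finite N (q ^ 2 * N) (q ^ ((1 : Fin 3) : ℕ)) (lev_dvd q N 1)
  haveI : IsScalarTower (urRing A) (MF (urField A) N) (MF (urField A) (q ^ 2 * N)) :=
    IsScalarTower.of_algebraMap_eq fun a => ((lev (urField A) q N 1).commutes (a : urField A)).symm
  exact coeff_minpoly_mem_chart hw n

end FLTAgent.LevelSq
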