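import Fermat.Agent.LevelSq.SqBuildRed
import Fermat.Agent.LevelSq.SqBuildRoots
import Fermat.Agent.Igusa.PrimeEquation
import Mathlib.FieldTheory.Normal.Basic

/-!
# The separating functions of the branches at level `q ^ 2 N`

`edgeW x y` interpolates `Δ (qτ) / Δ (τ)` from the modular equation.  On the lower edge it reduces to
`Δ / Δ ^ q` on the two branches over `V 0`, `V 1`; on the upper edge to its `q`-th power on `V 0`
only.
-/

set_option autoImplicit false
set_option linter.style.haveILetI false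
set_option linter.unusedSectionVars false
set_option synthInstance.maxHeartbeats 100000

noncomputable section

open ModularCurve Polynomial
open FLTAgent.Hecke FLTAgent.Igusa
open FLTAgent.ModPoly (twist coeffMap_twist twist_twist twist_one_unit)

namespace FLTAgent.LevelSq

local notation "Qbar" => AlgebraicClosure ℚ
local notation "Γℚ" => AlgebraicClosure ℚ ≃ₐ[ℚ] AlgebraicClosure ℚ

open Semistable (SRed)

theorem eval_derivative_prod {R ι : Type*} [CommRing R] [Fintype ι] [DecidableEq ι] (a : ι → R)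
    (o : ι) :
    (derivative (∏ i, (X - C (a i)))).eval (a o) = ∏ i ∈ Finset.univ.erase o, (a o - a i) := by
  rw [derivative_prod_finset, eval_finsetSum, Finset.sum_eq_single o]
  · simp [eval_prod]
  · intro b _ hb
    rw [eval_mul, eval_prod, Finset.prod_eq_zero (Finset.mem_erase.2 ⟨hb.symm, Finset.mem_univ o⟩)
      (by simp), zero_mul]
  · simp

section Edge

variable {F : Type*} [Field F]

/-- The interpolation of the roots of `G` along those of `Φ`. -/
def edgeW (Φ U : Polynomial (Polynomial ℤ)) (x y : F) : F :=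
  U.eval₂ (eval₂RingHom (Int.castRingHom F) x) y /
    (derivative Φ).eval₂ (eval₂RingHom (Int.castRingHom F) x) y

variable {q : ℕ} [hq : Fact q.Prime]

local instance : NeZero q := ⟨hq.out.ne_zero⟩

variable {ζ : Qbarˣ} {Φ G U : Polynomial (Polynomial ℤ)}
  (hE : EquationsHold q Φ G U Qbar ζ) (hζ : IsPrimitiveRoot (ζ : Qbar) q)
  {x y : F} (e : F →+* LaurentSeries Qbar) (θ : LaurentSeries Qbar →+* LaurentSeries Qbar)
  {o : Option (Fin q)} (hx : e x = θ (qExpand Qbar q (jqModC Qbar)))
  (hy : e y = θ (rootJ Qbar q ζ o))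
include hE hζ hx hy

/-- The value of `edgeW` under an embedding. -/
theorem map_edgeW : e (edgeW Φ U x y) = θ (rootW Qbar q ζ o) := by
  classical
  obtain ⟨hΦ, -, hU⟩ := hE
  have hcomp : e.comp (eval₂RingHom (Int.castRingHom F) x) = θ.comp (evZ q Qbar) :=
    Polynomial.ringHom_ext (fun a => by simp) (by simpa [evZ] using hx)
  have hev : ∀ P : Polynomial (Polynomial ℤ),
      e (P.eval₂ (eval₂RingHom (Int.castRingHom F) x) y) =
        θ ((P.map (evZ q Qbar)).eval (rootJ Qbar q ζ o)) := fun P => by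
    rw [hom_eval₂, hcomp, hy, eval_map, hom_eval₂]
  have hden : ∏ k ∈ Finset.univ.erase o, (rootJ Qbar q ζ o - rootJ Qbar q ζ k) ≠ 0 :=
    Finset.prod_ne_zero_iff.2 fun k hk h =>
      (Finset.mem_erase.1 hk).1 (rootJ_injective hq.out hζ (sub_eq_zero.1 h)).symm
  rw [edgeW, map_div₀, hev, hev, ← derivative_map, hΦ, hU, eval_derivative_prod, eval_finsetSum,
    Finset.sum_eq_single o, eval_mul, eval_C, eval_prod, map_mul,
    show (∏ j ∈ Finset.univ.erase o, eval (rootJ Qbar q ζ o) (X - C (rootJ Qbar q ζ j))) =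
      ∏ j ∈ Finset.univ.erase o, (rootJ Qbar q ζ o - rootJ Qbar q ζ j) from
      Finset.prod_congr rfl fun j _ => by simp,
    mul_div_cancel_right₀ _ ((map_ne_zero θ).2 hden)]
  · intro b _ hb
    rw [eval_mul, eval_prod, Finset.prod_eq_zero (Finset.mem_erase.2 ⟨hb.symm, Finset.mem_univ o⟩)
      (by simp), mul_zero]
  · simp

/-- `edgeW` is a root of `G`. -/
theorem eval_edgeW : G.eval₂ (eval₂RingHom (Int.castRingHom F) x) (edgeW Φ U x y) = 0 := by
  classical
  have hcomp : e.comp (eval₂RingHom (Int.castRingHom F) x) = θ.comp (evZ q Qbar) :=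
    Polynomial.ringHom_ext (fun a => by simp) (by simpa [evZ] using hx)
  refine e.injective ?_
  rw [map_zero, hom_eval₂, hcomp, map_edgeW hE hζ e θ hx hy, ← hom_eval₂, ← eval_map, hE.2.1,
    eval_prod, Finset.prod_eq_zero (Finset.mem_univ o) (by simp), map_zero]

end Edge

variable {q : ℕ} [hq : Fact q.Prime]

local instance : NeZero q := ⟨hq.out.ne_zero⟩

/-- The modular equations at a prescribed root of unity. -/
theorem exists_equations_at {ζ : Qbarˣ} (hζ : IsPrimitiveRoot (ζ : Qbar) q) :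
    ∃ Φ G U : Polynomial (Polynomial ℤ),
      Φ.Monic ∧ G.Monic ∧ EquationsHold q Φ G U Qbar ζ := by
  obtain ⟨Φ, G, U, hΦ, hG, -, h⟩ := exists_modularEquations q hq.out
  haveI : Algebra.IsAlgebraic ℤ AlgInt := Algebra.IsIntegral.isAlgebraic
  let φ₀ : AlgInt →+* Qbar := (IsAlgClosed.lift (R := ℤ) (S := AlgInt) (M := Qbar)).toRingHom
  set z : Qbar := φ₀ (zetaInt q : AlgIntˣ) with hz
  have hprim0 : IsPrimitiveRoot ((zetaInt q : AlgIntˣ) : AlgInt) q :=
    IsPrimitiveRoot.of_map_of_injective (f := algebraMap AlgInt ℂ)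
      (IsPrimitiveRoot.coe_units_iff.2 (isPrimitiveRoot_zetaInt_complex q)) Subtype.val_injective
  have hz1 : z ^ q = 1 := by rw [hz, ← map_pow, hprim0.pow_eq_one, map_one]
  have hne : z ≠ 1 := by
    intro h1
    have h0 := congrArg φ₀ (hprim0.geom_sum_eq_zero hq.out.one_lt)
    simp only [map_sum, map_pow, ← hz, h1, one_pow, Finset.sum_const, Finset.card_range,
      nsmul_eq_mul, mul_one, map_zero] at h0
    exact hq.out.ne_zero (Nat.cast_eq_zero.1 h0)
  have hprim : IsPrimitiveRoot z q := by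
    rw [← orderOf_eq_prime hz1 hne]; exact IsPrimitiveRoot.orderOf z
  haveI : Algebra.IsAlgebraic ℚ Qbar := AlgebraicClosure.isAlgebraic ℚ
  haveI : IsAlgClosure ℚ Qbar := ⟨inferInstance, inferInstance⟩
  haveI : Normal ℚ Qbar := IsAlgClosure.normal ℚ Qbar
  obtain ⟨σ, hσ⟩ : ∃ σ : Γℚ, σ z = (ζ : Qbar) := by
    refine minpoly.exists_algEquiv_of_root' (Algebra.IsAlgebraic.isAlgebraic z) ?_
    rw [← Polynomial.cyclotomic_eq_minpoly_rat hprim hq.out.pos, Polynomial.aeval_def,
      eval₂_eq_eval_map, map_cyclotomic]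
    exact hζ.isRoot_cyclotomic hq.out.pos
  refine ⟨Φ, G, U, hΦ, hG, ?_⟩
  have hzeta : zetaIn q ((σ : Qbar →+* Qbar).comp φ₀) = ζ := Units.ext hσ
  have h' := h Qbar ((σ : Qbar →+* Qbar).comp φ₀)
  rwa [hzeta] at h'

variable {A : ValuationSubring Qbar}

theorem sRed_ofZ (f : PowerSeries ℤ) :
    SRed (IsLocalRing.residue A) (ofZ Qbar f) (ofZ (IsLocalRing.ResidueField A) f) := by
  rw [← coeffMap_ofZ A.subtype, ← coeffMap_ofZ (IsLocalRing.residue A)]
  exact Semistable.sRed_coeffMap _

theorem sRed_sDinv :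
    SRed (IsLocalRing.residue A) (sDinv Qbar) (sDinv (IsLocalRing.ResidueField A)) := by
  rw [← coeffMap_sDinv A.subtype, ← coeffMap_sDinv (IsLocalRing.residue A)]
  exact Semistable.sRed_coeffMap _

variable {N : ℕ} [NeZero N] (hA : A.LiesOverPrime q) (hN : ¬ q ∣ N)
  {ζ : Qbarˣ} (hζ : IsPrimitiveRoot (ζ : Qbar) q)
include hA hN hζ

/-- The functions separating the branches. -/
theorem exists_sep :
    ∃ U U' : MF (urField A) (q ^ 2 * N),
      U ∈ chart (urRing A) (lev (urField A) q N 1 (jMF (urField A) N)) ∧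
      U' ∈ chart (urRing A) (lev (urField A) q N 1 (jMF (urField A) N)) ∧
      ∀ p : RootPair q,
        SRed (IsLocalRing.residue A) (embK (A := A) hN hζ p U)
          (if p.1.1 = none then 0 else ofZ (IsLocalRing.ResidueField A) psD *
            qExpand (IsLocalRing.ResidueField A) q (sDinv (IsLocalRing.ResidueField A))) ∧
        SRed (IsLocalRing.residue A) (embK (A := A) hN hζ p U')
          (if p.1.2 = none then (ofZ (IsLocalRing.ResidueField A) psD *
            qExpand (IsLocalRing.ResidueField A) q (sDinv (IsLocalRing.ResidueField A))) ^ q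
           else 0) := by
  obtain ⟨Φ, G, U, hΦ, hG, hE⟩ := exists_equations_at hζ
  set kA := IsLocalRing.ResidueField A
  set j₀ := lev (urField A) q N 0 (jMF (urField A) N) with hj₀
  set j₁ := lev (urField A) q N 1 (jMF (urField A) N) with hj₁
  set j₂ := lev (urField A) q N 2 (jMF (urField A) N) with hj₂
  have hjs : toSeriesQbar A N (jMF (urField A) N) = jd Qbar 1 := by
    rw [toSeriesQbar_jMF, jd_one]
  have hj₂mem : j₂ ∈ chart (urRing A) j₁ :=
    mem_chart_of_phiRel q (self_mem_chart (urRing A) j₁) (phiRel_lev hN hζ 1 _ hjs 2 (Or.inr rfl))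
  have hW : SRed (IsLocalRing.residue A) (qExpand Qbar q (sDinv Qbar))
      (qExpand kA q (sDinv kA)) := sRed_sDinv.qExpand q
  have hpow : ∀ i : Fin q, (ζ ^ (i : ℕ)) ^ q = 1 := fun i => by
    rw [← pow_mul, mul_comm, pow_mul, (IsPrimitiveRoot.coe_units_iff.1 hζ).pow_eq_one, one_pow]
  have hsome : ∀ i : Fin q, SRed (IsLocalRing.residue A) (rootW Qbar q ζ (some i))
      (ofZ kA psD * qExpand kA q (sDinv kA)) := fun i =>
    (sRed_twist hA (sRed_ofZ psD) (hpow i)).mul hW
  have hnone : SRed (IsLocalRing.residue A) (rootW Qbar q ζ (none : Option (Fin q))) 0 := by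
    have h := ((SRed.pow (sRed_natCast_zero hA) 12).mul
      ((sRed_ofZ (A := A) psD).qExpand (q * q))).mul hW
    rwa [zero_pow (by norm_num : (12 : ℕ) ≠ 0), zero_mul, zero_mul] at h
  have hlow : ∀ p : RootPair q,
      embK (A := A) hN hζ p j₁ = RingHom.id _ (qExpand Qbar q (jqModC Qbar)) ∧
      embK (A := A) hN hζ p j₀ = RingHom.id _ (rootJ Qbar q ζ p.1.1) := fun p => by
    refine ⟨?_, ?_⟩
    · rw [hj₁, embK_lev_one, toSeriesQbar_jMF]; rfl
    · rw [hj₀, embK_lev_zero, toSeriesQbar_jMF, rootMap_jqModC]; rfl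
  let p₀ : RootPair q := ⟨(some ⟨0, hq.out.pos⟩, none), by simp⟩
  have hup : ∀ p : RootPair q, p.1.2 = none →
      embK (A := A) hN hζ p j₂ = qExpand Qbar q (qExpand Qbar q (jqModC Qbar)) ∧
      embK (A := A) hN hζ p j₁ =
        qExpand Qbar q (rootJ Qbar q ζ (some ⟨0, hq.out.pos⟩)) := fun p hp => by
    refine ⟨?_, ?_⟩
    · rw [hj₂, embK_lev_two, hp, toSeriesQbar_jMF, rootMap_none, qExpand_qExpand]
    · rw [hj₁, embK_lev_one, toSeriesQbar_jMF, ← rootMap_jqModC, rootMap_some, pow_zero,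
        twist_one_unit]
  refine ⟨edgeW Φ U j₁ j₀, edgeW Φ U j₂ j₁,
    mem_chart_of_intPoly (self_mem_chart (urRing A) j₁) hG
      (eval_edgeW hE hζ (embK (A := A) hN hζ p₀) _ (hlow p₀).1 (hlow p₀).2),
    mem_chart_of_intPoly hj₂mem hG
      (eval_edgeW hE hζ (embK (A := A) hN hζ p₀) _ (hup p₀ rfl).1 (hup p₀ rfl).2), fun p => ⟨?_, ?_⟩⟩
  · rw [map_edgeW hE hζ (embK (A := A) hN hζ p) _ (hlow p).1 (hlow p).2, RingHom.id_apply]
    rcases ho : p.1.1 with _ | i
    · rw [if_pos rfl]; exact hnone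
    · rw [if_neg (by simp)]; exact hsome i
  · rcases ho : p.1.2 with _ | i
    · rw [if_pos rfl, map_edgeW hE hζ (embK (A := A) hN hζ p) _ (hup p ho).1 (hup p ho).2, rootW,
        pow_zero, twist_one_unit]
      refine sRed_qExpand_of_qFixed hA ?_ ((sRed_ofZ psD).mul hW)
      refine QFixed.mul (fun σ => coeffMap_ofZ _ _) (QFixed.qExpand (fun σ => coeffMap_sDinv _) q)
    · rw [if_neg (by simp)]
      set c : Qbarˣ := ζ ^ (i : ℕ) with hc
      set e : MF (urField A) (q ^ 2 * N) →+* LaurentSeries Qbar :=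
        (qExpand Qbar q).comp ((twist c⁻¹).comp (embK (A := A) hN hζ p)) with he
      have hcj : twist c⁻¹ (qExpand Qbar q (jqModC Qbar)) = qExpand Qbar q (jqModC Qbar) :=
        twist_qExpand_eq_self _ q (by rw [inv_pow, hpow i, inv_one]) _
      have h := map_edgeW hE hζ e (RingHom.id _) (o := none) (x := j₂) (y := j₁) (by
          show qExpand Qbar q (twist c⁻¹ (embK (A := A) hN hζ p j₂)) = _
          rw [hj₂, embK_lev_two, ho, toSeriesQbar_jMF, rootMap_some, twist_twist, inv_mul_cancel,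
            twist_one_unit]
          rfl) (by
          show qExpand Qbar q (twist c⁻¹ (embK (A := A) hN hζ p j₁)) = _
          rw [hj₁, embK_lev_one, toSeriesQbar_jMF, hcj, qExpand_qExpand, ← rootMap_jqModC,
            rootMap_none]
          rfl)
      have hY : twist c⁻¹ (embK (A := A) hN hζ p (edgeW Φ U j₂ j₁)) =
          (q : LaurentSeries Qbar) ^ 12 * qExpand Qbar q (ofZ Qbar psD) * sDinv Qbar := by
        refine qExpand_injective q ?_
        refine h.trans ?_
        rw [RingHom.id_apply, rootW, map_mul, map_mul, map_pow, map_natCast, qExpand_qExpand]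
      have hr := sRed_twist hA (((SRed.pow (sRed_natCast_zero hA) 12).mul
        ((sRed_ofZ (A := A) psD).qExpand q)).mul sRed_sDinv) (hpow i)
      rw [← hY, twist_twist, ← hc, mul_inv_cancel, twist_one_unit,
        zero_pow (by norm_num : (12 : ℕ) ≠ 0), zero_mul, zero_mul] at hr
      exact hr

end FLTAgent.LevelSq
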