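import Fermat.Agent.LevelSq.GaussSeries
import Fermat.Agent.Semistable.Deriv
import Fermat.Agent.Semistable.FullC
import Fermat.Agent.Frobenius.Lifting
import Fermat.Agent.WeilPairing.FrobeniusTrace

/-!
# Reductions of series used for the data at level `q ^ 2 N`

Series fixed by every automorphism of the coefficients reduce to series fixed by Frobenius, and are
divisible by `q` as soon as their reduction vanishes.  `(y (ξ t) - y) / (ξ - 1)` reduces to
`t d/dt` of the reduction.
-/

set_option autoImplicit false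
set_option linter.style.haveILetI false
set_option linter.unusedSectionVars false
set_option synthInstance.maxHeartbeats 100000

noncomputable section

open ModularCurve Polynomial
open FLTAgent.ModPoly (twist twist_coeff)

namespace FLTAgent.LevelSq

local notation "Qbar" => AlgebraicClosure ℚ
local notation "Γℚ" => AlgebraicClosure ℚ ≃ₐ[ℚ] AlgebraicClosure ℚ

open Semistable (SRed)

/-- Fixed by every automorphism of the coefficients. -/
def QFixed (y : LaurentSeries Qbar) : Prop :=
  ∀ σ : Γℚ, coeffMap (σ : Qbar →+* Qbar) y = y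

theorem qFixed_of_coeff {y : LaurentSeries Qbar}
    (h : ∀ k : ℤ, ∃ r : ℚ, y.coeff k = (r : Qbar)) : QFixed y := fun σ =>
  HahnSeries.ext (funext fun k => by
    obtain ⟨r, hr⟩ := h k
    rw [coeffMap_coeff, hr, map_ratCast])

theorem QFixed.mul {x y : LaurentSeries Qbar} (hx : QFixed x) (hy : QFixed y) :
    QFixed (x * y) := fun σ => by rw [map_mul, hx, hy]

theorem QFixed.sub {x y : LaurentSeries Qbar} (hx : QFixed x) (hy : QFixed y) :
    QFixed (x - y) := fun σ => by rw [map_sub, hx, hy]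

theorem QFixed.pow {x : LaurentSeries Qbar} (hx : QFixed x) (n : ℕ) :
    QFixed (x ^ n) := fun σ => by rw [map_pow, hx]

theorem QFixed.inv {x : LaurentSeries Qbar} (hx : QFixed x) : QFixed x⁻¹ := fun σ => by
  rw [map_inv₀, hx]

theorem qFixed_natCast (n : ℕ) : QFixed (n : LaurentSeries Qbar) := fun σ => map_natCast _ n

theorem QFixed.qExpand {x : LaurentSeries Qbar} (hx : QFixed x) (n : ℕ) [NeZero n] :
    QFixed (ModularCurve.qExpand Qbar n x) := fun σ => by rw [coeffMap_qExpand, hx]

variable {q : ℕ} [hq : Fact q.Prime] {A : ValuationSubring Qbar} (hA : A.LiesOverPrime q)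

local instance : NeZero q := ⟨hq.out.ne_zero⟩

local notation "ρA" => IsLocalRing.residue A
local notation "kA" => IsLocalRing.ResidueField A

include hA

/-- Frobenius fixes the coefficients of the reduction of a fixed series. -/
theorem qExpand_red_of_qFixed {y : LaurentSeries Qbar} {z : LaurentSeries kA}
    (hy : QFixed y) (h : SRed ρA y z) : qExpand kA q z = z ^ q := by
  haveI := charP_residueField hA
  haveI : ExpChar kA q := ExpChar.prime hq.out
  obtain ⟨σ, hσ⟩ := Frobenius.exists_isFrobeniusAt hq.out hA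
  obtain ⟨-, hd⟩ := Frobenius.isFrobeniusAt_iff.1 hσ
  have hmem : ∀ a ∈ A, σ a ∈ A := fun a ha => by
    simpa using A.add_mem _ _ (A.nonunits_subset (hd a ha)) (pow_mem ha q)
  have h2 := h.map (σ : Qbar →+* Qbar) (frobenius kA q) hmem fun a => by
    rw [frobenius_def, ← map_pow, ← sub_eq_zero, ← map_sub, residue_eq_zero_iff' hA]
    exact hd a a.2
  rw [hy σ] at h2
  calc qExpand kA q z = qExpand kA q (coeffMap (frobenius kA q) z) := by rw [h2.unique h]
    _ = z ^ q := Semistable.qExpand_coeffMap_frobenius q z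

theorem sRed_qExpand_of_qFixed {y : LaurentSeries Qbar} {z : LaurentSeries kA}
    (hy : QFixed y) (h : SRed ρA y z) : SRed ρA (qExpand Qbar q y) (z ^ q) :=
  qExpand_red_of_qFixed hA hy h ▸ h.qExpand q

omit hA in
theorem laurent_natCast_eq {L : Type*} [Field L] (n : ℕ) :
    (n : LaurentSeries L) = algebraMap L (LaurentSeries L) (n : L) :=
  (map_natCast (algebraMap L (LaurentSeries L)) n).symm

omit hA in
theorem laurent_natCast_ne_zero {n : ℕ} (h : n ≠ 0) : (n : LaurentSeries Qbar) ≠ 0 := by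
  rw [laurent_natCast_eq, _root_.map_ne_zero]
  exact Nat.cast_ne_zero.2 h

theorem sRed_natCast_zero : SRed ρA (q : LaurentSeries Qbar) 0 := by
  rw [laurent_natCast_eq]
  exact sRed_algebraMap_zero hA (natCast_mem_nonunits hA)

/-- An inertia-fixed element with zero reduction is divisible by `q`. -/
theorem exists_sRed_div {y : LaurentSeries Qbar} (hy : y ∈ fracRam q A)
    (hfix : ∀ σ ∈ A.inertiaSubgroupIn ℚ, coeffMap ((σ : Γℚ) : Qbar →+* Qbar) y = y)
    (h : SRed ρA y 0) :
    ∃ z, SRed ρA ((q : LaurentSeries Qbar)⁻¹ * y) z := by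
  rcases eq_or_ne y 0 with rfl | hy0
  · exact ⟨0, by rw [mul_zero]; exact Semistable.sRed_zero⟩
  obtain ⟨η, hη⟩ := exists_eta (q := q)
  obtain ⟨n, w, z, hz, hw, rfl⟩ := exists_lead hA hη hy hy0
  have hη0 : (η : Qbar) - 1 ≠ 0 := sub_ne_zero.2 (hη.ne_one hq.out.one_lt)
  have hsub := sub_one_mem_nonunits hA hη.pow_eq_one
  set c : A := ⟨(η : Qbar) - 1, A.nonunits_subset hsub⟩ with hc
  obtain ⟨m, rfl⟩ : ∃ m : ℕ, n = ((m + 1 : ℕ) : ℤ) := by
    rcases n with m | m
    · rcases m with _ | m
      · refine absurd ?_ hz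
        rw [Int.ofNat_eq_natCast, Nat.cast_zero, zpow_zero, map_one, one_mul] at h
        exact hw.unique h
      · exact ⟨m, by simp⟩
    · refine absurd ?_ hz
      have h1 := (Semistable.sRed_algebraMap (π := ρA) (c ^ (m + 1))).mul h
      rw [mul_zero, ← mul_assoc, ← map_mul, show ((c ^ (m + 1) : A) : Qbar) *
          ((η : Qbar) - 1) ^ (Int.negSucc m) = 1 by
        rw [zpow_negSucc, SubmonoidClass.coe_pow]
        exact mul_inv_cancel₀ (pow_ne_zero _ hη0), map_one, one_mul] at h1
      exact hw.unique h1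
  simp only [zpow_natCast] at h hfix hy0 ⊢
  -- the exponent is divisible by `q - 1`
  haveI := charP_residueField hA
  obtain ⟨g, hg⟩ := IsCyclic.exists_generator (α := (ZMod q)ˣ)
  set d : ℕ := (g : ZMod q).val with hd
  have hdcast : (d : ZMod q) = (g : ZMod q) := ZMod.natCast_zmod_val _
  have hcop : d.Coprime q := Nat.coprime_comm.1 (hq.out.coprime_iff_not_dvd.2 fun hdvd =>
    g.ne_zero (by rw [← hdcast, ZMod.natCast_eq_zero_iff]; exact hdvd))
  obtain ⟨σ, hσ, hσe⟩ := exists_inertia_map hA hη (hη.pow_of_coprime d hcop)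
  set ηA : A := ⟨η, mem_of_pow_eq_one hA hq.out.ne_zero hη.pow_eq_one⟩ with hηA
  set s : A := ∑ i ∈ Finset.range d, ηA ^ i with hs
  have hsres : ρA s = (d : kA) := by
    simp [hs, map_sum, residue_root_eq_one hA (η := ηA) (Subtype.ext hη.pow_eq_one)]
  have hσs : σ ((η : Qbar) - 1) = (s : Qbar) * ((η : Qbar) - 1) := by
    rw [map_sub, map_one, hσe, hs]
    push_cast
    rw [hηA, geom_sum_mul]
  have hw2 := (Semistable.sRed_algebraMap (π := ρA) (s ^ (m + 1))).mul (sRed_inertia hA hw hσ)
  have heq : algebraMap Qbar (LaurentSeries Qbar) ((s ^ (m + 1) : A) : Qbar) *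
      coeffMap (σ : Qbar →+* Qbar) w = w := by
    have h1 := hfix σ hσ
    rw [map_mul, coeffMap_algebraMap, RingHom.coe_coe, map_pow σ, hσs, mul_pow, map_mul] at h1
    refine mul_left_cancel₀ ((_root_.map_ne_zero _).2 (pow_ne_zero (m + 1) hη0) :
      algebraMap Qbar (LaurentSeries Qbar) (((η : Qbar) - 1) ^ (m + 1)) ≠ 0) ?_
    rw [← mul_assoc, mul_comm (algebraMap Qbar (LaurentSeries Qbar) (((η : Qbar) - 1) ^ (m + 1))),
      SubmonoidClass.coe_pow]
    exact h1
  rw [heq] at hw2
  have hd1 : (d : kA) ^ (m + 1) = 1 := by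
    have h1 := mul_right_cancel₀ hz ((hw2.unique hw).trans (one_mul z).symm)
    rw [map_pow, hsres] at h1
    refine (algebraMap kA (LaurentSeries kA)).injective ?_
    rw [map_one]
    exact h1
  have hdvd : q - 1 ∣ m + 1 := by
    have h1 : (d : ZMod q) ^ (m + 1) = 1 :=
      (ZMod.castHom dvd_rfl kA).injective (by rw [map_pow, map_natCast, map_one, hd1])
    rw [hdcast] at h1
    have h2 : g ^ (m + 1) = 1 := Units.ext (by rw [Units.val_pow_eq_pow_val, h1, Units.val_one])
    have h3 := orderOf_dvd_of_pow_eq_one h2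
    rwa [orderOf_eq_card_of_forall_mem_zpowers hg, Nat.card_eq_fintype_card,
      ZMod.card_units] at h3
  obtain ⟨e, he⟩ := Nat.exists_eq_add_of_le (Nat.le_of_dvd (Nat.succ_pos m) hdvd)
  obtain ⟨u, hu, -⟩ := exists_residue_pow_div hA hη
  refine ⟨algebraMap kA (LaurentSeries kA) (ρA (u * c ^ e)) * z, ?_⟩
  convert (Semistable.sRed_algebraMap (π := ρA) (u * c ^ e)).mul hw using 1
  rw [laurent_natCast_eq, ← map_inv₀, ← mul_assoc, ← map_mul]
  congr 2
  have hq0 : (q : Qbar) ≠ 0 := Nat.cast_ne_zero.2 hq.out.ne_zero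
  rw [show m + 1 = q - 1 + e from he, _root_.pow_add, ← hu, MulMemClass.coe_mul, SubmonoidClass.coe_pow, hc]
  field_simp

/-- The difference quotient of a substitution by a root of unity. -/
theorem sRed_diffQuot {y : LaurentSeries Qbar} {z : LaurentSeries kA} (h : SRed ρA y z)
    {ξ : Qbarˣ} (hξ : IsPrimitiveRoot (ξ : Qbar) q) :
    SRed ρA ((algebraMap Qbar (LaurentSeries Qbar) ((ξ : Qbar) - 1))⁻¹ * (twist ξ y - y))
      (Genus.euler z) := by
  haveI := charP_residueField hA
  have hρA : (ξ : Qbar) - 1 ≠ 0 := sub_ne_zero.2 (hξ.ne_one hq.out.one_lt)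
  set r : A := ⟨(ξ : Qbar) - 1, A.nonunits_subset (sub_one_mem_nonunits hA hξ.pow_eq_one)⟩ with hr
  have hrres : ρA r = 0 := (residue_eq_zero_iff' hA r).2 (sub_one_mem_nonunits hA hξ.pow_eq_one)
  set ξA : A := ⟨(ξ : Qbar), mem_of_pow_eq_one hA hq.out.ne_zero hξ.pow_eq_one⟩ with hξA
  let s : ℤ → A := fun k => ∑ i ∈ Finset.range (k % (q : ℤ)).toNat, ξA ^ i
  have hs1 : ∀ k : ℤ, (s k : Qbar) * ((ξ : Qbar) - 1) = ((ξ ^ k : Qbarˣ) : Qbar) - 1 := fun k => by
    have hmod : ξ ^ k = ξ ^ ((k % (q : ℤ)).toNat : ℤ) := by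
      rw [Int.toNat_of_nonneg (Int.emod_nonneg _ (by exact_mod_cast hq.out.ne_zero))]
      conv_lhs => rw [← Int.emod_add_mul_ediv k q, zpow_add, zpow_mul, zpow_natCast,
        (IsPrimitiveRoot.coe_units_iff.1 hξ).pow_eq_one, one_zpow, mul_one]
    rw [hmod, zpow_natCast, Units.val_pow_eq_pow_val]
    show ((∑ i ∈ Finset.range _, ξA ^ i : A) : Qbar) * _ = _
    push_cast
    rw [hξA, geom_sum_mul]
  have hs2 : ∀ k : ℤ, ρA (s k) = (k : kA) := fun k => by
    show ρA (∑ i ∈ Finset.range _, ξA ^ i) = _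
    simp only [map_sum, map_pow, residue_root_eq_one hA (η := ξA) (Subtype.ext hξ.pow_eq_one),
      one_pow, Finset.sum_const, Finset.card_range, nsmul_eq_mul, mul_one]
    rw [← Int.cast_natCast (R := kA),
      Int.toNat_of_nonneg (Int.emod_nonneg _ (by exact_mod_cast hq.out.ne_zero))]
    conv_rhs => rw [← Int.emod_add_mul_ediv k q, Int.cast_add, Int.cast_mul, Int.cast_natCast,
      CharP.cast_eq_zero kA q, zero_mul, add_zero]
  let D : LaurentSeries A → LaurentSeries A := fun a =>
    ⟨fun k => s k * a.coeff k, a.isPWO_support.mono fun k hk h0 => hk (by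
      show s k * a.coeff k = 0
      rw [h0, mul_zero])⟩
  have hD1 : ∀ a : LaurentSeries A, twist ξ (coeffMap A.subtype a) =
      coeffMap A.subtype (a + HahnSeries.C r * D a) := fun a => HahnSeries.ext (funext fun k => by
    rw [twist_coeff, map_add, map_mul, HahnSeries.coeff_add, coeffMap_coeff,
      HahnSeries.C_apply, coeffMap_single, HahnSeries.coeff_single_zero_mul]
    show ((ξ ^ k : Qbarˣ) : Qbar) * (a.coeff k : Qbar) = (a.coeff k : Qbar) + ((ξ : Qbar) - 1) * ((s k * a.coeff k : A) : Qbar)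
    rw [MulMemClass.coe_mul]
    linear_combination (-(a.coeff k : Qbar)) * hs1 k)
  have hD2 : ∀ a : LaurentSeries A, coeffMap ρA (D a) = Genus.euler (coeffMap ρA a) := fun a =>
    HahnSeries.ext (funext fun k => by
      rw [coeffMap_coeff, Genus.euler_coeff, coeffMap_coeff]
      show ρA (s k * a.coeff k) = _
      rw [map_mul, hs2])
  obtain ⟨a, b, hb, hy, hz⟩ := h
  have hTb : coeffMap ρA (b + HahnSeries.C r * D b) = coeffMap ρA b := by
    rw [map_add, map_mul, HahnSeries.C_apply, coeffMap_single, hrres,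
      HahnSeries.single_eq_zero, zero_mul, add_zero]
  refine ⟨D a * b - a * D b, b * (b + HahnSeries.C r * D b), ?_, ?_, ?_⟩
  · rw [map_mul, hTb]; exact mul_ne_zero hb hb
  · have hy2 : twist ξ y * coeffMap A.subtype (b + HahnSeries.C r * D b) =
        coeffMap A.subtype (a + HahnSeries.C r * D a) := by
      rw [← hD1, ← hD1, ← map_mul, hy]
    have hCr : coeffMap A.subtype (HahnSeries.C r) =
        algebraMap Qbar (LaurentSeries Qbar) ((ξ : Qbar) - 1) := by
      rw [HahnSeries.C_apply, coeffMap_single, algebraMap_laurentSeries_eq_single]; rfl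
    rw [mul_assoc, inv_mul_eq_iff_eq_mul₀ ((_root_.map_ne_zero _).2 hρA), ← hCr]
    simp only [map_add, map_mul, map_sub] at hy2 ⊢
    linear_combination (coeffMap A.subtype b) * hy2 -
      (coeffMap A.subtype b + coeffMap A.subtype (HahnSeries.C r) * coeffMap A.subtype (D b)) * hy
  · rw [map_mul, hTb, map_sub, map_mul, map_mul, hD2, hD2, ← hz, Genus.euler_mul]
    ring

omit hA hq in
/-- Products of linear factors reduce coefficientwise. -/
theorem sRed_prod_coeff {ι : Type*} (s : Finset ι) {a : ι → LaurentSeries Qbar}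
    {r : ι → LaurentSeries kA} (h : ∀ i ∈ s, SRed ρA (a i) (r i)) :
    ∀ n : ℕ, SRed ρA ((∏ i ∈ s, (X - C (a i))).coeff n) ((∏ i ∈ s, (X - C (r i))).coeff n) := by
  classical
  induction s using Finset.induction with
  | empty =>
    intro n
    simp only [Finset.prod_empty, Polynomial.coeff_one]
    split_ifs
    exacts [Semistable.sRed_one, Semistable.sRed_zero]
  | insert i s hi ih =>
    intro n
    have hs := ih fun j hj => h j (Finset.mem_insert_of_mem hj)
    have hi' := h i (Finset.mem_insert_self i s)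
    rw [Finset.prod_insert hi, Finset.prod_insert hi, sub_mul, sub_mul, coeff_sub, coeff_sub,
      coeff_C_mul, coeff_C_mul]
    refine SRed.sub ?_ (hi'.mul (hs n))
    rcases n with _ | n
    · simp only [mul_coeff_zero, coeff_X_zero, zero_mul]
      exact Semistable.sRed_zero
    · rw [coeff_X_mul, coeff_X_mul]
      exact hs n

omit hA in
/-- The coefficient of `X ^ (a + q (m - 1))` of `X ^ a (X - r) ^ (q m)` in characteristic `q`. -/
theorem coeff_pow_frob {K : Type*} [CommRing K] [CharP K q] (r : K) (a : ℕ) {m : ℕ} (hm : 1 ≤ m) :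
    ((X : K[X]) ^ a * (X - C r) ^ (q * m)).coeff ((m - 1) * q + a) = -((m : K) * r ^ q) := by
  haveI : ExpChar K q := ExpChar.prime hq.out
  rw [coeff_X_pow_mul, pow_mul, sub_pow_char (p := q), ← C_pow,
    show ((X : K[X]) ^ q - C (r ^ q)) = expand K q (X + C (-(r ^ q))) by
      rw [map_add, expand_X, expand_C, map_neg, ← sub_eq_add_neg],
    ← map_pow, coeff_expand_mul hq.out.pos, coeff_X_add_C_pow,
    show m - (m - 1) = 1 by omega, pow_one]
  obtain ⟨l, rfl⟩ : ∃ l, m = l + 1 := ⟨m - 1, by omega⟩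
  rw [Nat.add_sub_cancel, Nat.choose_succ_self_right]
  push_cast
  ring

end FLTAgent.LevelSq
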