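import Fermat.Agent.LevelSq.BranchVal
import Fermat.Agent.LevelSq.Compat
import Fermat.Agent.LevelSq.SqBuildRed
import Fermat.Agent.LevelSq.SqBuildRoots
import Fermat.Agent.LevelSq.SqBuildEdge

/-!
# The data `SqData` of the field of level `q ^ 2 N`

The three branches with their residue maps satisfy all the congruences of `SqData` over the level
`N` model.
-/

set_option autoImplicit false
set_option linter.style.haveILetI false
set_option linter.unusedSectionVars false
set_option synthInstance.maxHeartbeats 100000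
set_option maxHeartbeats 800000

noncomputable section

open ModularCurve Polynomial
open FLTAgent.Hecke
open FLTAgent.ModPoly (twist twist_twist twist_one_unit coeffMap_twist)

namespace FLTAgent.LevelSq

local notation "Qbar" => AlgebraicClosure ℚ
local notation "Γℚ" => AlgebraicClosure ℚ ≃ₐ[ℚ] AlgebraicClosure ℚ

open Semistable (SRed)

/-- The shape of the modular equation modulo `q`. -/
theorem map_kronecker_shape {R S : Type*} [CommRing R] [CommRing S] {p : ℕ} [Fact p.Prime]
    [CharP S p] (φ : R →+* S) (h : R) (x : S) (hh : φ h = x ^ p) :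
    ((X - C (h ^ p)) * (X ^ p - C h) : R[X]).map φ =
      ∏ o : Option (Fin p), (X - C (o.elim (x ^ p ^ 2) fun _ => x)) := by
  rw [Fintype.prod_option, Polynomial.map_mul, Polynomial.map_sub, Polynomial.map_sub,
    Polynomial.map_pow, map_X, map_C, map_C, map_pow, hh, ← pow_mul, ← pow_two]
  simp only [Option.elim, Finset.prod_const, Finset.card_univ, Fintype.card_fin]
  rw [sub_pow_char (X : S[X]) (C x) (p := p)]
  simp only [C_pow]

variable {q : ℕ} [hq : Fact q.Prime] {A : ValuationSubring Qbar} {N : ℕ} [NeZero N]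

local instance : NeZero q := ⟨hq.out.ne_zero⟩

local instance (priority := high) instAddMonoidHomClassSqBuild {R S : Type*}
    [NonAssocSemiring R] [NonAssocSemiring S] : AddMonoidHomClass (R →+* S) R S :=
  RingHomClass.toAddMonoidHomClass

local instance (priority := high) instAddHomClassSqBuild {R S : Type*}
    [NonAssocSemiring R] [NonAssocSemiring S] : AddHomClass (R →+* S) R S :=
  AddMonoidHomClass.toAddHomClass

local instance (priority := high) instAlgebraResSqBuild {B : ValuationSubring Qbar} :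
    Algebra (IsLocalRing.ResidueField B) (LaurentSeries (IsLocalRing.ResidueField B)) :=
  inferInstance

local notation "ρA" => IsLocalRing.residue A
local notation "kA" => IsLocalRing.ResidueField A
local notation "FN" => MF (urField A) N
local notation "FF" => MF (urField A) (q ^ 2 * N)
local notation "levv" => lev (urField A) q N

theorem rootMap_some_zero (ζ : Qbarˣ) (h : 0 < q) (x : LaurentSeries Qbar) :
    rootMap ζ (some (⟨0, h⟩ : Fin q)) x = x := by
  rw [rootMap_some, pow_zero, twist_one_unit]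

theorem branchPair_zero :
    (branchPair (q := q) 0).1 = (some ⟨0, hq.out.pos⟩, none) := by simp [branchPair]

theorem branchPair_one :
    (branchPair (q := q) 1).1 = (some ⟨0, hq.out.pos⟩, some ⟨1, hq.out.one_lt⟩) := by
  simp [branchPair]

theorem branchPair_two :
    (branchPair (q := q) 2).1 = (none, some ⟨0, hq.out.pos⟩) := by simp [branchPair]

theorem charZero_MF (M : ℕ) : CharZero (MF (urField A) M) :=
  charZero_of_injective_algebraMap (algebraMap (urField A) (MF (urField A) M)).injective

/-- Elements of `fracRam` with zero reduction are divisible by `η - 1`. -/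
theorem exists_sRed_div_unif (hA : A.LiesOverPrime q) {η : Qbar} (hη : IsPrimitiveRoot η q)
    {y : LaurentSeries Qbar} (hy : y ∈ fracRam q A) (h : SRed ρA y 0) :
    ∃ z, SRed ρA ((algebraMap Qbar (LaurentSeries Qbar) (η - 1))⁻¹ * y) z := by
  rcases eq_or_ne y 0 with rfl | hy0
  · exact ⟨0, by rw [mul_zero]; exact Semistable.sRed_zero⟩
  obtain ⟨n, w, z, hz, hw, rfl⟩ := exists_lead hA hη hy hy0
  have hη0 : η - 1 ≠ 0 := sub_ne_zero.2 (hη.ne_one hq.out.one_lt)
  set c : A := ⟨η - 1, A.nonunits_subset (sub_one_mem_nonunits hA hη.pow_eq_one)⟩ with hc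
  rcases n with m | m
  · rcases m with _ | m
    · refine absurd ?_ hz
      rw [Int.ofNat_eq_natCast, Nat.cast_zero, zpow_zero, map_one, one_mul] at h
      exact hw.unique h
    · refine ⟨algebraMap kA (LaurentSeries kA) (ρA (c ^ m)) * z, ?_⟩
      convert (Semistable.sRed_algebraMap (π := ρA) (c ^ m)).mul hw using 1
      rw [← map_inv₀, ← mul_assoc, ← map_mul]
      congr 2
      rw [Int.ofNat_eq_natCast, zpow_natCast, _root_.pow_succ', SubmonoidClass.coe_pow, hc,
        inv_mul_cancel_left₀ hη0]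
  · refine absurd ?_ hz
    have h1 := (Semistable.sRed_algebraMap (π := ρA) (c ^ (m + 1))).mul h
    rw [mul_zero, ← mul_assoc, ← map_mul, show ((c ^ (m + 1) : A) : Qbar) *
        (η - 1) ^ (Int.negSucc m) = 1 by
      rw [zpow_negSucc, SubmonoidClass.coe_pow]
      exact mul_inv_cancel₀ (pow_ne_zero _ hη0), map_one, one_mul] at h1
    exact hw.unique h1

variable (hA : A.LiesOverPrime q) (hN : ¬ q ∣ N) {ζ : Qbarˣ} (hζ : IsPrimitiveRoot (ζ : Qbar) q)

theorem embK_algebraMap_urRing (p : RootPair q) (a : urRing A) :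
    embK (A := A) hN hζ p (algebraMap (urRing A) FF a) =
      algebraMap Qbar (LaurentSeries Qbar) ((a : urField A) : Qbar) :=
  embK_algebraMap hN hζ p _

theorem branchRes_eq {b : Fin 3} {z : branchVal hA hN hζ b} {r : LaurentSeries kA}
    (h : SRed ρA (embK (A := A) hN hζ (branchPair b) z) r) : branchRes hA hN hζ b z = r :=
  pairRes_eq hA hN hζ h

include hA in
/-- On the extreme branches inertia fixes the expansions. -/
theorem coeffMap_embK_fixed {p : RootPair q}
    (h1 : p.1.1 = none ∨ p.1.1 = some ⟨0, hq.out.pos⟩)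
    (h2 : p.1.2 = none ∨ p.1.2 = some ⟨0, hq.out.pos⟩) {σ : Γℚ}
    (hσ : σ ∈ A.inertiaSubgroupIn ℚ) (z : FF) :
    coeffMap (σ : Qbar →+* Qbar) (embK (A := A) hN hζ p z) = embK (A := A) hN hζ p z := by
  have hroot : ∀ (o : Option (Fin q)), (o = none ∨ o = some ⟨0, hq.out.pos⟩) → ∀ d : ℕ, ∀ _ : NeZero d,
      coeffMap (σ : Qbar →+* Qbar) (rootMap ζ o (jd Qbar d)) = rootMap ζ o (jd Qbar d) := by
    rintro o (rfl | rfl) d _
    · rw [rootMap_none, coeffMap_qExpand, coeffMap_qExpand, coeffMap_jqModC]
    · rw [rootMap_some_zero, coeffMap_qExpand, coeffMap_jqModC]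
  refine RingHom.congr_fun (ringHom_MF_ext
    (f := (coeffMap (σ : Qbar →+* Qbar)).comp (embK (A := A) hN hζ p))
    (g := embK (A := A) hN hζ p) ?_ ?_ ?_) z
  · intro c
    rw [RingHom.comp_apply, embK_algebraMap, coeffMap_algebraMap,
      show ((σ : Qbar →+* Qbar) (c : Qbar)) = (c : Qbar) from
        (IntermediateField.mem_fixedField_iff _ _).1 c.2 σ hσ]
  · rw [RingHom.comp_apply, embK_jMF, ← jd_one]
    exact hroot _ h1 1 inferInstance
  · rw [RingHom.comp_apply, embK_jd]
    exact hroot _ h2 N inferInstance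

include hA in
/-- Nonunits on an extreme branch are divisible by `q`. -/
theorem exists_mul_of_nonunit {b : Fin 3} (h1 : (branchPair (q := q) b).1.1 = none ∨
      (branchPair (q := q) b).1.1 = some ⟨0, hq.out.pos⟩)
    (h2 : (branchPair (q := q) b).1.2 = none ∨
      (branchPair (q := q) b).1.2 = some ⟨0, hq.out.pos⟩)
    {z : FF} (hz : z ∈ (branchVal hA hN hζ b).nonunits) :
    ∃ w ∈ branchVal hA hN hζ b, z = algebraMap (urRing A) FF (q : urRing A) * w := by
  haveI := charZero_MF (A := A) (q ^ 2 * N)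
  rw [branchVal, mem_nonunits_pairVal] at hz
  obtain ⟨r, hr⟩ := exists_sRed_div hA (embK_mem_fracRam hA hN hζ _ z)
    (fun σ hσ => coeffMap_embK_fixed hA hN hζ h1 h2 hσ z) hz
  refine ⟨(q : FF)⁻¹ * z, (mem_pairVal hA hN hζ).2 ⟨r, by rwa [map_mul, map_inv₀, map_natCast]⟩, ?_⟩
  rw [map_natCast, mul_inv_cancel_left₀ (Nat.cast_ne_zero.2 hq.out.ne_zero)]

variable (B : BaseData (urRing A) (q : urRing A) q (MF (urField A) N) (IsLocalRing.ResidueField A))
  (hB : IsBaseModel B)

include hB in
theorem qFixed_rat {g : chart (urRing A) B.j} (hg : g ∈ B.rat) :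
    QFixed (toSeriesQbar A N (g : FN)) :=
  qFixed_of_coeff (hB.rat_coeff g hg)

include hA hB in
theorem sRed_embK_mid {g : chart (urRing A) B.j} (hg : g ∈ B.rat) (p : RootPair q) :
    SRed ρA (embK (A := A) hN hζ p (levv 1 g)) (B.red g ^ q) := by
  rw [embK_lev_one]
  exact sRed_qExpand_of_qFixed hA (qFixed_rat B hB hg) (hB.red_eq g)

include hA hN hζ hB in
theorem isVert_branchVal (b : Fin 3) :
    IsVert (urRing A) (q : urRing A) (levv 1 B.j) (branchVal hA hN hζ b) := by
  constructor
  · rw [branchVal, mem_nonunits_pairVal, map_natCast, map_natCast]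
    exact sRed_natCast_zero hA
  · intro p hp
    set jc : chart (urRing A) B.j := ⟨B.j, self_mem_chart (urRing A) B.j⟩
    let g : chart (urRing A) B.j := aeval jc p
    have hg : g = aeval jc p := rfl
    have hg0 : B.red g ≠ 0 := by
      intro h0
      rw [hg, aeval_def, hom_eval₂,
        show B.red.comp (algebraMap (urRing A) (chart (urRing A) B.j)) =
          (algebraMap kA (LaurentSeries kA)).comp B.resO from RingHom.ext fun a => by
            rw [RingHom.comp_apply, B.red_algebraMap, RingHom.comp_apply,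
              algebraMap_laurentSeries_eq_single, HahnSeries.C_apply],
        ← eval₂_map, ← aeval_def] at h0
      have h1 := transcendental_iff.1 B.red_j _ h0
      refine hp ((C_dvd_iff_dvd_coeff _ _).2 fun n => (B.resO_eq_zero _).1 ?_)
      rw [← coeff_map, h1, coeff_zero]
    have hval : aeval (levv 1 B.j) p = levv 1 (g : FN) := by
      rw [hg]
      show aeval (((lev (urField A) q N 1).restrictScalars (urRing A)) B.j) p = _
      rw [aeval_algHom_apply]
      show levv 1 (aeval B.j p) = _
      congr 1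
      exact (aeval_algHom_apply (chart (urRing A) B.j).val jc p).trans rfl
    have hs : SRed ρA (embK (A := A) hN hζ (branchPair b) (levv 1 (g : FN)))
        (qExpand kA q (B.red g)) := by
      rw [embK_lev_one]; exact (hB.red_eq g).qExpand q
    rw [hval]
    refine ⟨(mem_pairVal hA hN hζ).2 ⟨_, hs⟩,
      (mem_pairVal hA hN hζ).2 ⟨(qExpand kA q (B.red g))⁻¹, ?_⟩⟩
    rw [map_inv₀]
    exact hs.inv ((map_ne_zero_iff _ (qExpand_injective q)).2 hg0)

include hA hN hζ hB in
theorem exists_sRed_of_mem_chart {z : FF} (hz : z ∈ chart (urRing A) (levv 1 B.j))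
    (p : RootPair q) : ∃ r, SRed ρA (embK (A := A) hN hζ p z) r := by
  haveI := isDiscreteValuationRing_urRing hA
  obtain ⟨b, hb⟩ := pairVal_eq_branchVal hA hN hζ p
  rw [← mem_pairVal hA hN hζ, hb]
  exact ((isVert_branchVal hA hN hζ B hB b).chart_le' (prime_natCast_urRing hA)).1 hz

include hB in
theorem toSeries_base_j : toSeriesQbar A N B.j = jd Qbar 1 := by
  rw [hB.j_eq, toSeriesQbar_jMF, jd_one]

include hN hζ hB in
theorem lev_mem_chart (i : Fin 3) {g : FN} (hg : g ∈ chart (urRing A) B.j) :
    levv i g ∈ chart (urRing A) (levv 1 B.j) := by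
  refine algHom_mem_chart ((lev (urField A) q N i).restrictScalars (urRing A)) ?_ hg
  show levv i B.j ∈ chart (urRing A) (levv 1 B.j)
  fin_cases i
  · exact mem_chart_of_phiRel q (self_mem_chart _ _)
      (phiRel_lev hN hζ 1 _ (toSeries_base_j B hB) 0 (Or.inl rfl))
  · exact self_mem_chart _ _
  · exact mem_chart_of_phiRel q (self_mem_chart _ _)
      (phiRel_lev hN hζ 1 _ (toSeries_base_j B hB) 2 (Or.inr rfl))

include hB in
theorem jd_mem_chart :
    (⟨jd (urField A) N, jd_mem _ dvd_rfl⟩ : FN) ∈ chart (urRing A) B.j := by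
  rw [hB.j_eq]
  exact mem_chart_of_phiRel N (self_mem_chart _ _)
    (Semistable.PhiRel.of_map (MF (urField A) N).val Subtype.val_injective
      (Semistable.phiRel_jqModC N))

include hA hB in
/-- The field is generated by the three copies of the chart. -/
theorem exists_frac (z : FF) :
    ∃ a b : FF,
      a ∈ Algebra.adjoin (urRing A) (⋃ i, (fun g : chart (urRing A) B.j => levv i g) '' Set.univ) ∧
      b ∈ Algebra.adjoin (urRing A) (⋃ i, (fun g : chart (urRing A) B.j => levv i g) '' Set.univ) ∧
      b ≠ 0 ∧ z * b = a := by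
  set R := Algebra.adjoin (urRing A)
    (⋃ i, (fun g : chart (urRing A) B.j => levv i g) '' Set.univ)
  have hgen : ∀ (i : Fin 3) (g : chart (urRing A) B.j), levv i (g : FN) ∈ R := fun i g =>
    Algebra.subset_adjoin (Set.mem_iUnion.2 ⟨i, g, Set.mem_univ _, rfl⟩)
  have hconst : ∀ c : urField A, ∃ a b : FF, a ∈ R ∧ b ∈ R ∧ b ≠ 0 ∧
      algebraMap (urField A) FF c * b = a := by
    intro c
    rcases (urRing A).mem_or_inv_mem c with h | h
    · exact ⟨_, 1, R.algebraMap_mem ⟨c, h⟩, one_mem R, one_ne_zero, mul_one _⟩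
    · rcases eq_or_ne c 0 with rfl | hc
      · exact ⟨0, 1, zero_mem R, one_mem R, one_ne_zero, by rw [map_zero, zero_mul]⟩
      · refine ⟨1, _, one_mem R, R.algebraMap_mem ⟨c⁻¹, h⟩, ?_, ?_⟩
        · show algebraMap (urField A) FF c⁻¹ ≠ 0
          rw [_root_.map_ne_zero]; exact inv_ne_zero hc
        · show algebraMap (urField A) FF c * algebraMap (urField A) FF c⁻¹ = 1
          rw [← map_mul, mul_inv_cancel₀ hc, map_one]
  have hle : MF (urField A) (q ^ 2 * N) ≤ (IntermediateField.adjoin (urField A)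
      ({jMF (urField A) (q ^ 2 * N), ⟨jd (urField A) (q ^ 2 * N), jd_mem _ dvd_rfl⟩} :
        Set FF)).map (MF (urField A) (q ^ 2 * N)).val := by
    conv_lhs => rw [(degreeFacts (urField A)).gen (q ^ 2 * N)]
    refine IntermediateField.adjoin_le_iff.2 ?_
    rintro x (rfl | rfl)
    · exact ⟨jMF (urField A) _, IntermediateField.subset_adjoin _ _ (Set.mem_insert _ _), rfl⟩
    · exact ⟨_, IntermediateField.subset_adjoin _ _ (Set.mem_insert_of_mem _ rfl), rfl⟩
  obtain ⟨y, hy, hyx⟩ := hle z.2
  obtain rfl : y = z := Subtype.ext hyx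
  clear hyx
  induction hy using IntermediateField.adjoin_induction with
  | mem x hx =>
    refine ⟨x, 1, ?_, one_mem R, one_ne_zero, mul_one _⟩
    rcases hx with rfl | rfl
    · rw [jMF_eq_lev_zero, ← hB.j_eq]
      exact hgen 0 ⟨_, self_mem_chart (urRing A) B.j⟩
    · rw [jd_eq_lev_two]
      exact hgen 2 ⟨_, jd_mem_chart B hB⟩
  | algebraMap c => exact hconst c
  | add u v _ _ hu hv =>
    obtain ⟨a, b, ha, hb, hb0, h⟩ := hu
    obtain ⟨a', b', ha', hb', hb0', h'⟩ := hv
    exact ⟨a * b' + a' * b, b * b', add_mem (mul_mem ha hb') (mul_mem ha' hb), mul_mem hb hb',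
      mul_ne_zero hb0 hb0', by rw [← h, ← h']; ring⟩
  | inv u _ hu =>
    obtain ⟨a, b, ha, hb, hb0, h⟩ := hu
    rcases eq_or_ne u 0 with rfl | hu0
    · exact ⟨0, 1, zero_mem R, one_mem R, one_ne_zero, by simp⟩
    · exact ⟨b, a, hb, ha, h ▸ mul_ne_zero hu0 hb0, by rw [← h, inv_mul_cancel_left₀ hu0]⟩
  | mul u v _ _ hu hv =>
    obtain ⟨a, b, ha, hb, hb0, h⟩ := hu
    obtain ⟨a', b', ha', hb', hb0', h'⟩ := hv
    exact ⟨a * a', b * b', mul_mem ha ha', mul_mem hb hb', mul_ne_zero hb0 hb0',
      by rw [← h, ← h']; ring⟩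

include hA hN hζ hB in
/-- `(h (ζ t) - h) / (ζ - 1)` on the middle branch. -/
theorem sRed_middle_diff :
    SRed ρA ((algebraMap Qbar (LaurentSeries Qbar) ((ζ : Qbar) - 1))⁻¹ *
        embK (A := A) hN hζ (branchPair 1) (levv 2 B.h - levv 0 B.h))
      (Genus.euler (B.red B.h)) := by
  rw [map_sub (embK (A := A) hN hζ (branchPair 1)), embK_lev_two, embK_lev_zero, branchPair_one, rootMap_some_zero, rootMap_some,
    pow_one]
  exact sRed_diffQuot hA (hB.red_eq B.h) hζ

include hA hN hζ hB in
theorem middle_sub_ne : levv 2 B.h - levv 0 B.h ≠ (0 : FF) := fun h0 => by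
  have h := sRed_middle_diff hA hN hζ B hB
  rw [h0, map_zero, mul_zero] at h
  exact B.euler_h_ne (h.unique Semistable.sRed_zero)

include hA hN hζ hB in
theorem exists_mul_of_nonunit_one {z : FF} (hz : z ∈ (branchVal hA hN hζ 1).nonunits) :
    ∃ w ∈ branchVal hA hN hζ 1, z = (levv 2 B.h - levv 0 B.h) * w := by
  rw [branchVal, mem_nonunits_pairVal] at hz
  obtain ⟨r, hr⟩ := exists_sRed_div_unif hA hζ (embK_mem_fracRam hA hN hζ _ z) hz
  have he := sRed_middle_diff hA hN hζ B hB
  have hne := middle_sub_ne hA hN hζ B hB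
  refine ⟨(levv 2 B.h - levv 0 B.h)⁻¹ * z,
    (mem_pairVal hA hN hζ).2 ⟨r / Genus.euler (B.red B.h), ?_⟩,
    (mul_inv_cancel_left₀ hne z).symm⟩
  convert hr.div he B.euler_h_ne using 1
  have hπ : algebraMap Qbar (LaurentSeries Qbar) ((ζ : Qbar) - 1) ≠ 0 :=
    (_root_.map_ne_zero _).2 (sub_ne_zero.2 (hζ.ne_one hq.out.one_lt))
  rw [map_mul, map_inv₀]
  field_simp

include hA hN hζ hB in
theorem exists_res_pow :
    ∃ z : branchVal hA hN hζ 1,
      algebraMap (urRing A) FF (q : urRing A) * (z : FF) = (levv 2 B.h - levv 0 B.h) ^ (q - 1) ∧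
      branchRes hA hN hζ 1 z = -B.rho := by
  haveI := charZero_MF (A := A) (q ^ 2 * N)
  obtain ⟨w, hw, hwres⟩ := exists_residue_pow_div hA hζ
  let d : FF := (q : FF)⁻¹ * (levv 2 B.h - levv 0 B.h) ^ (q - 1)
  have hπ : algebraMap Qbar (LaurentSeries Qbar) ((ζ : Qbar) - 1) ≠ 0 :=
    (_root_.map_ne_zero _).2 (sub_ne_zero.2 (hζ.ne_one hq.out.one_lt))
  have hd : SRed ρA (embK (A := A) hN hζ (branchPair 1) d)
      (-Genus.euler (B.red B.h) ^ (q - 1)) := by
    have h := (Semistable.sRed_algebraMap (π := ρA) w).mul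
      ((sRed_middle_diff hA hN hζ B hB).pow (q - 1))
    rw [hwres, map_neg, map_one, neg_one_mul] at h
    convert h using 1
    have hw' := congrArg (algebraMap Qbar (LaurentSeries Qbar)) hw
    rw [map_mul, map_natCast, map_pow] at hw'
    rw [map_mul, map_inv₀, map_natCast, map_pow, mul_pow, inv_pow, ← hw']
    have hq0 := laurent_natCast_ne_zero hq.out.ne_zero
    have hw0 : algebraMap Qbar (LaurentSeries Qbar) (w : Qbar) ≠ 0 := fun h0 =>
      pow_ne_zero (q - 1) hπ (by rw [← hw', h0, mul_zero])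
    field_simp
  refine ⟨⟨d, (mem_pairVal hA hN hζ).2 ⟨_, hd⟩⟩, ?_, branchRes_eq hA hN hζ hd⟩
  rw [map_natCast]
  exact mul_inv_cancel_left₀ (Nat.cast_ne_zero.2 hq.out.ne_zero) _

include hA hN hζ hB in
theorem exists_kronecker {g : chart (urRing A) B.j} (hg : g ∈ B.rat) :
    ∃ δ : LaurentSeries kA,
      Genus.euler δ = Genus.euler (B.red g) ^ q - B.red g ^ (q - 1) * Genus.euler (B.red g) ∧
      ∀ b, ∃ z : branchVal hA hN hζ b,
        algebraMap (urRing A) FF (q : urRing A) * (z : FF) =
          (levv 0 (g : FN) - levv 1 (g : FN) ^ q) * (levv 1 (g : FN) - levv 0 (g : FN) ^ q) ∧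
        branchRes hA hN hζ b z = if b = 2 then ((B.red g - B.red g ^ q ^ 2) * δ) ^ q
          else (B.red g - B.red g ^ q ^ 2) * δ := by
  haveI := charZero_MF (A := A) (q ^ 2 * N)
  haveI := charP_residueField hA
  let G := toSeriesQbar A N (g : FN)
  have hG : G = toSeriesQbar A N (g : FN) := rfl
  let G1 := qExpand Qbar q G
  have hG1 : G1 = qExpand Qbar q G := rfl
  have hfix : QFixed G := qFixed_rat B hB hg
  have hGred : SRed ρA G (B.red g) := hB.red_eq g
  have hG1red : SRed ρA G1 (B.red g ^ q) := sRed_qExpand_of_qFixed hA hfix hGred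
  have hGmem : G ∈ fracRam q A := toSeriesQbar_mem_fracRam A N q _
  let Y0 := G1 - G ^ q
  have hY0 : Y0 = G1 - G ^ q := rfl
  let Y := (q : LaurentSeries Qbar)⁻¹ * Y0
  have hY : Y = (q : LaurentSeries Qbar)⁻¹ * Y0 := rfl
  have hY0fix : QFixed Y0 := (hfix.qExpand q).sub (hfix.pow q)
  obtain ⟨δ, hδ⟩ : ∃ δ, SRed ρA Y δ := exists_sRed_div hA
    (sub_mem (qExpand_mem_fracRam hGmem q) (pow_mem hGmem q)) (fun σ _ => hY0fix σ)
    (by simpa using hG1red.sub (hGred.pow q))
  have hYfix : QFixed Y := (qFixed_natCast q).inv.mul hY0fix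
  have hq0 := laurent_natCast_ne_zero hq.out.ne_zero
  refine ⟨δ, ?_, fun b => ?_⟩
  · have hefix : QFixed (Genus.euler G) := fun σ => by
      rw [← Semistable.euler_coeffMap, hfix σ]
    have hY' : Genus.euler Y = qExpand Qbar q (Genus.euler G) - G ^ (q - 1) * Genus.euler G := by
      refine mul_left_cancel₀ hq0 ?_
      have h1 : Genus.euler ((q : LaurentSeries Qbar) * Y) = (q : LaurentSeries Qbar) * Genus.euler Y := by
        rw [Genus.euler_mul, laurent_natCast_eq, Semistable.euler_algebraMap, zero_mul, zero_add]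
      rw [← h1, hY, mul_inv_cancel_left₀ hq0, hY0, map_sub, hG1, Semistable.euler_qExpand,
        Semistable.euler_pow]
      ring
    have h2 := hδ.euler
    rw [hY'] at h2
    exact h2.unique ((sRed_qExpand_of_qFixed hA hefix hGred.euler).sub
      ((hGred.pow (q - 1)).mul hGred.euler))
  · set d : FF := (q : FF)⁻¹ *
      ((levv 0 (g : FN) - levv 1 (g : FN) ^ q) * (levv 1 (g : FN) - levv 0 (g : FN) ^ q)) with hd
    have hlow : SRed ρA ((G - G1 ^ q) * Y) ((B.red g - B.red g ^ q ^ 2) * δ) := by
      have h := (hGred.sub (hG1red.pow q)).mul hδ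
      rwa [← pow_mul, ← pow_two] at h
    have hval : SRed ρA (embK (A := A) hN hζ (branchPair b) d)
        (if b = 2 then ((B.red g - B.red g ^ q ^ 2) * δ) ^ q
          else (B.red g - B.red g ^ q ^ 2) * δ) := by
      rw [hd]
      simp only [map_mul, map_inv₀, map_natCast, map_sub, map_pow, embK_lev_one, embK_lev_zero,
        ← hG, ← hG1]
      fin_cases b
      · simp only [Fin.zero_eta, branchPair_zero, rootMap_some_zero]
        rw [if_neg (by decide)]
        convert hlow using 1
        rw [hY, hY0]; ring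
      · simp only [Fin.mk_one, branchPair_one, rootMap_some_zero]
        rw [if_neg (by decide)]
        convert hlow using 1
        rw [hY, hY0]; ring
      · simp only [Fin.reduceFinMk, branchPair_two, rootMap_none, if_true]
        have hprod : QFixed ((G - G1 ^ q) * Y) :=
          (hfix.sub ((hfix.qExpand q).pow q)).mul hYfix
        convert sRed_qExpand_of_qFixed hA hprod hlow using 1
        rw [hY, hY0, map_mul, map_mul, map_inv₀, map_natCast, map_sub, map_sub, map_pow, map_pow,
          hG1, qExpand_qExpand]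
        ring
    refine ⟨⟨d, (mem_pairVal hA hN hζ).2 ⟨_, hval⟩⟩, ?_, branchRes_eq hA hN hζ hval⟩
    rw [map_natCast]
    exact mul_inv_cancel_left₀ (Nat.cast_ne_zero.2 hq.out.ne_zero) _

include hB in
theorem red_P_ne_zero : B.red B.P ≠ 0 := by
  rw [hB.red_P]
  refine mul_ne_zero (left_ne_zero_of_mul_eq_one (Igusa.psD_mul_sDinv kA)) ?_
  exact (map_ne_zero_iff _ (qExpand_injective q)).2
    (right_ne_zero_of_mul_eq_one (Igusa.psD_mul_sDinv kA))

include hA hN hζ hB in
/-- Functions of the chart separating the three branches. -/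
theorem exists_separator (b : Fin 3) :
    ∃ e ∈ chart (urRing A) (levv 1 B.j), ∀ p : RootPair q,
      SRed ρA (embK (A := A) hN hζ p e)
        (if pairClass p = (b : ℕ) then B.red B.P ^ q else 0) := by
  obtain ⟨U, U', hU, hU', hs⟩ := exists_sep hA hN hζ
  rw [← hB.j_eq] at hU hU'
  rw [← hB.red_P] at hs
  have hP1 := lev_mem_chart hN hζ B hB 1 B.P.2
  have hPred := fun p => sRed_embK_mid hA hN hζ B hB B.P_mem_rat p
  have hq0 : q ≠ 0 := hq.out.ne_zero
  fin_cases b
  · refine ⟨U', hU', fun p => ?_⟩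
    obtain ⟨-, h2⟩ := hs p
    obtain ⟨⟨x, y⟩, hxy⟩ := p
    rcases x with _ | x <;> rcases y with _ | y <;> simp [pairClass] at hxy h2 ⊢ <;> exact h2
  · refine ⟨U ^ q - U', sub_mem (pow_mem hU q) hU', fun p => ?_⟩
    obtain ⟨h1, h2⟩ := hs p
    rw [map_sub, map_pow]
    have h := (h1.pow q).sub h2
    obtain ⟨⟨x, y⟩, hxy⟩ := p
    rcases x with _ | x <;> rcases y with _ | y <;>
      simp [pairClass, hq0] at hxy h ⊢ <;> exact h
  · refine ⟨levv 1 (B.P : FN) - U ^ q, sub_mem hP1 (pow_mem hU q), fun p => ?_⟩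
    obtain ⟨h1, -⟩ := hs p
    rw [map_sub, map_pow]
    have h := (hPred p).sub (h1.pow q)
    obtain ⟨⟨x, y⟩, hxy⟩ := p
    rcases x with _ | x <;> rcases y with _ | y <;>
      simp [pairClass, hq0] at hxy h ⊢ <;> exact h

include hA hB in
/-- Frobenius of the coefficients is onto on the reduction of the chart. -/
theorem exists_frobenius_red (c : chart (urRing A) B.j) :
    ∃ g, qExpand kA q (B.red c) = B.red g ^ q := by
  haveI := charP_residueField hA
  haveI : ExpChar kA q := ExpChar.prime hq.out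
  haveI : IsAlgClosed kA := WeilPairing.isAlgClosed_residueField A
  haveI : CharP (LaurentSeries kA) q :=
    charP_of_injective_ringHom (f := (HahnSeries.C : kA →+* LaurentSeries kA))
      HahnSeries.C_injective q
  haveI : ExpChar (LaurentSeries kA) q := ExpChar.prime hq.out
  have hc : c ∈ Algebra.adjoin (urRing A) (B.rat : Set (chart (urRing A) B.j)) := by
    rw [B.adjoin_rat]; exact Algebra.mem_top
  induction hc using Algebra.adjoin_induction with
  | mem x hx => exact ⟨x, qExpand_red_of_qFixed hA (qFixed_rat B hB hx) (hB.red_eq x)⟩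
  | algebraMap a =>
    obtain ⟨r, hr⟩ := IsAlgClosed.exists_pow_nat_eq (B.resO a) hq.out.pos
    obtain ⟨a', rfl⟩ := B.resO_surjective r
    refine ⟨algebraMap _ _ a', ?_⟩
    rw [B.red_algebraMap, B.red_algebraMap, ← map_pow, hr, HahnSeries.C_apply, qExpand_single,
      mul_zero]
  | add x y _ _ hx hy =>
    obtain ⟨gx, hgx⟩ := hx
    obtain ⟨gy, hgy⟩ := hy
    exact ⟨gx + gy, by rw [map_add, map_add, map_add, hgx, hgy, add_pow_char (p := q)]⟩
  | mul x y _ _ hx hy =>
    obtain ⟨gx, hgx⟩ := hx
    obtain ⟨gy, hgy⟩ := hy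
    exact ⟨gx * gy, by rw [map_mul, map_mul, map_mul, hgx, hgy, mul_pow]⟩

set_option maxHeartbeats 2400000 in
include hA hN hζ hB in
/-- Residues of functions in the chart. -/
theorem exists_red_eq_res (b : Fin 3) (z : branchVal hA hN hζ b)
    (hz : (z : FF) ∈ chart (urRing A) (levv 1 B.j)) :
    ∃ g d : chart (urRing A) B.j, B.red d ≠ 0 ∧ branchRes hA hN hζ b z * B.red d = B.red g := by
  classical
  haveI := charZero_MF (A := A) (q ^ 2 * N)
  haveI : CharZero (LaurentSeries Qbar) :=
    charZero_of_injective_algebraMap (algebraMap Qbar (LaurentSeries Qbar)).injective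
  haveI := charP_residueField hA
  haveI : CharP (LaurentSeries kA) q :=
    charP_of_injective_ringHom (f := (HahnSeries.C : kA →+* LaurentSeries kA))
      HahnSeries.C_injective q
  haveI : ExpChar (LaurentSeries kA) q := ExpChar.prime hq.out
  obtain ⟨e, he, hes⟩ := exists_separator hA hN hζ B hB b
  set r := branchRes hA hN hζ b z * B.red B.P ^ q with hr
  have hres : ∀ p : RootPair q, SRed ρA (embK (A := A) hN hζ p ((z : FF) * e))
      (if pairClass p = (b : ℕ) then r else 0) := fun p => by
    rw [map_mul]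
    have h := hes p
    by_cases hp : pairClass p = (b : ℕ)
    · rw [if_pos hp] at h ⊢
      exact (sRed_of_class hA hN hζ ((pairClass_branchPair b).trans hp.symm)
        (sRed_gaussRes hA _ (embK_mem_fracRam hA hN hζ (branchPair b)) z)).mul h
    · rw [if_neg hp] at h ⊢
      obtain ⟨s, hs⟩ := exists_sRed_of_mem_chart hA hN hζ B hB hz p
      simpa using hs.mul h
  let gN : FN := ⟨jd (urField A) N, jd_mem _ dvd_rfl⟩
  have hgN := jd_mem_chart B hB
  have hgs : toSeriesQbar A N gN = jd Qbar N := toSeriesQbar_jd A N N dvd_rfl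
  -- separate the conjugates
  obtain ⟨c, hc⟩ : ∃ c : ℕ, Function.Injective fun p : RootPair q =>
      embK (A := A) hN hζ p ((z : FF) * e +
        (q : FF) * ((c : FF) * levv 0 gN + (c : FF) ^ 2 * levv 2 gN)) := by
    let α : RootPair q → LaurentSeries Qbar := fun p => embK (A := A) hN hζ p ((z : FF) * e)
    let β : RootPair q → LaurentSeries Qbar := fun p =>
      (q : LaurentSeries Qbar) * rootMap ζ p.1.1 (jd Qbar N)
    let γ : RootPair q → LaurentSeries Qbar := fun p =>
      (q : LaurentSeries Qbar) * rootMap ζ p.1.2 (jd Qbar N)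
    let T : RootPair q × RootPair q → Polynomial (LaurentSeries Qbar) := fun pp =>
      C (α pp.1 - α pp.2) + C (β pp.1 - β pp.2) * X + C (γ pp.1 - γ pp.2) * X ^ 2
    have hT : ∀ pp : RootPair q × RootPair q, pp.1 ≠ pp.2 → T pp ≠ 0 := by
      intro pp hne h0
      have hq0 := laurent_natCast_ne_zero hq.out.ne_zero
      have h1 := congrArg (fun P => coeff P 1) h0
      have h2 := congrArg (fun P => coeff P 2) h0
      simp only [T, coeff_add, coeff_C_mul, coeff_X_pow, coeff_zero] at h1 h2
      norm_num [coeff_C, coeff_X] at h1 h2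
      refine hne (Subtype.ext (Prod.ext ?_ ?_))
      · exact rootMap_jd_injective hq.out hζ hN (mul_left_cancel₀ hq0 (sub_eq_zero.1 h1))
      · exact rootMap_jd_injective hq.out hζ hN (mul_left_cancel₀ hq0 (sub_eq_zero.1 h2))
    set Q := ∏ pp ∈ Finset.univ.filter (fun pp : RootPair q × RootPair q => pp.1 ≠ pp.2), T pp
    have hQ : Q ≠ 0 := Finset.prod_ne_zero_iff.2 fun pp hpp => hT pp (Finset.mem_filter.1 hpp).2
    obtain ⟨_, ⟨c, rfl⟩, hc⟩ := (Set.infinite_range_of_injective
      (Nat.cast_injective (R := LaurentSeries Qbar))).exists_notMem_finset Q.roots.toFinset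
    refine ⟨c, fun p p' hpp => ?_⟩
    by_contra hne
    refine hc (Multiset.mem_toFinset.2 ((mem_roots hQ).2 ?_))
    rw [IsRoot, eval_prod]
    refine Finset.prod_eq_zero (Finset.mem_filter.2 ⟨Finset.mem_univ (p, p'), hne⟩) ?_
    simp only [map_add, map_mul, map_pow, map_natCast, embK_lev_zero, embK_lev_two, hgs] at hpp
    simp only [T, α, β, γ, eval_add, eval_mul, eval_C, eval_X, eval_pow, map_mul]
    linear_combination hpp
  let w : FF := (z : FF) * e + (q : FF) * ((c : FF) * levv 0 gN + (c : FF) ^ 2 * levv 2 gN)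
  have hw : w = (z : FF) * e + (q : FF) * ((c : FF) * levv 0 gN + (c : FF) ^ 2 * levv 2 gN) := rfl
  have hT : (c : FF) * levv 0 gN + (c : FF) ^ 2 * levv 2 gN ∈ chart (urRing A) (levv 1 B.j) :=
    add_mem (mul_mem (natCast_mem _ c) (lev_mem_chart hN hζ B hB 0 hgN))
      (mul_mem (pow_mem (natCast_mem _ c) 2) (lev_mem_chart hN hζ B hB 2 hgN))
  have hwmem : w ∈ chart (urRing A) (levv 1 B.j) :=
    add_mem (mul_mem hz he) (mul_mem (natCast_mem _ q) hT)
  have hwres : ∀ p : RootPair q, SRed ρA (embK (A := A) hN hζ p w)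
      (if pairClass p = (b : ℕ) then r else 0) := fun p => by
    obtain ⟨s, hs⟩ := exists_sRed_of_mem_chart hA hN hζ B hB hT p
    have h := (hres p).add ((sRed_natCast_zero hA).mul hs)
    rw [zero_mul, add_zero] at h
    rw [hw, map_add, map_mul (embK (A := A) hN hζ p) (q : FF), map_natCast]
    exact h
  -- the class of `b` has `q m` elements
  obtain ⟨m, hm1, hcard, hm⟩ : ∃ m : ℕ, 1 ≤ m ∧
      (Finset.univ.filter fun p : RootPair q => pairClass p = (b : ℕ)).card = q * m ∧
      ((m : LaurentSeries kA) = 1 ∨ (m : LaurentSeries kA) = -1) := by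
    fin_cases b
    · exact ⟨1, le_rfl, by rw [mul_one]; exact card_pairClass_zero, Or.inl Nat.cast_one⟩
    · refine ⟨q - 1, by have := hq.out.two_le; omega, card_pairClass_one, Or.inr ?_⟩
      rw [Nat.cast_sub hq.out.pos, Nat.cast_one, CharP.cast_eq_zero, zero_sub]
    · exact ⟨1, le_rfl, by rw [mul_one]; exact card_pairClass_two, Or.inl Nat.cast_one⟩
  let a := (Finset.univ.filter fun p : RootPair q => ¬ pairClass p = (b : ℕ)).card
  have ha : a = (Finset.univ.filter fun p : RootPair q => ¬ pairClass p = (b : ℕ)).card := rfl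
  letI := (lev (urField A) q N 1).toRingHom.toAlgebra
  let f := minpoly FN w
  have hmap : f.map ((qExpand Qbar q).comp (toSeriesQbar A N)) =
      ∏ p, (X - C (embK (A := A) hN hζ p w)) := by
    rw [minpoly_lev_one_map hN hζ w, Finset.prod_image fun x _ y _ h => hc h]
  let n := (m - 1) * q + a
  let cn : chart (urRing A) B.j := ⟨f.coeff n, coeff_minpoly_lev_one_mem hN hζ hwmem n⟩
  have hprod : (∏ p : RootPair q, (X - C (if pairClass p = (b : ℕ) then r else 0))) =
      (X : (LaurentSeries kA)[X]) ^ a * (X - C r) ^ (q * m) := by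
    rw [Finset.prod_congr rfl fun p _ =>
      show (X - C (if pairClass p = (b : ℕ) then r else 0) : (LaurentSeries kA)[X]) =
        if pairClass p = (b : ℕ) then X - C r else X by split_ifs <;> simp,
      Finset.prod_ite, Finset.prod_const, Finset.prod_const, hcard, mul_comm]
  have h1 := sRed_prod_coeff Finset.univ (fun p _ => hwres p) n
  rw [← hmap, coeff_map, hprod, coeff_pow_frob r a hm1] at h1
  have h2 : qExpand kA q (B.red cn) = -((m : LaurentSeries kA) * r ^ q) :=
    ((hB.red_eq cn).qExpand q).unique h1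
  obtain ⟨g₀, hg₀⟩ := exists_frobenius_red hA B hB (if (m : LaurentSeries kA) = 1 then -cn else cn)
  have hrq : r ^ q = B.red g₀ ^ q := by
    rw [← hg₀]
    rcases hm with h | h
    · rw [if_pos h, map_neg, map_neg, h2, h, one_mul, neg_neg]
    · by_cases h' : (m : LaurentSeries kA) = 1
      · rw [if_pos h', map_neg, map_neg, h2, h', one_mul, neg_neg]
      · rw [if_neg h', h2, h, neg_one_mul, neg_neg]
  refine ⟨g₀, B.P ^ q, by rw [map_pow]; exact pow_ne_zero _ (red_P_ne_zero B hB), ?_⟩
  rw [map_pow, ← hr]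
  exact frobenius_inj (LaurentSeries kA) q hrq

set_option maxHeartbeats 2400000 in
include hA hN hζ hB in
/-- The modular equation of `h`. -/
theorem exists_modular :
    ∃ G : Polynomial (chart (urRing A) B.j), ∀ i, i = (0 : Fin 3) ∨ i = 2 →
      (levv i (B.h : FN) - levv 1 (B.h : FN) ^ q) * (levv i (B.h : FN) ^ q - levv 1 (B.h : FN))
        + algebraMap (urRing A) FF (q : urRing A) *
          G.eval₂ (((lev (urField A) q N 1).restrictScalars (urRing A)).toRingHom.comp
            (chart (urRing A) B.j).val.toRingHom) (levv i (B.h : FN)) = 0 := by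
  classical
  haveI := charP_residueField hA
  haveI : CharP (LaurentSeries kA) q :=
    charP_of_injective_ringHom (f := (HahnSeries.C : kA →+* LaurentSeries kA))
      HahnSeries.C_injective q
  haveI : ExpChar (LaurentSeries kA) q := ExpChar.prime hq.out
  set H := toSeriesQbar A N (B.h : FN) with hH
  have hHred : SRed ρA H (B.red B.h) := hB.red_eq B.h
  have hu := IsPrimitiveRoot.coe_units_iff.1 hζ
  have hpow : ∀ i : Fin q, (ζ ^ (i : ℕ)) ^ q = 1 := fun i => by
    rw [← pow_mul, mul_comm, pow_mul, hu.pow_eq_one, one_pow]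
  have hnone : SRed ρA (rootMap (q := q) ζ none H) (B.red B.h ^ q ^ 2) := by
    rw [rootMap_none, ← qExpand_qExpand, pow_two, pow_mul]
    exact sRed_qExpand_of_qFixed hA ((qFixed_rat B hB B.h_mem_rat).qExpand q)
      (sRed_qExpand_of_qFixed hA (qFixed_rat B hB B.h_mem_rat) hHred)
  have hsome : ∀ i : Fin q, SRed ρA (rootMap ζ (some i) H) (B.red B.h) := fun i =>
    sRed_twist hA hHred (hpow i)
  have hne : ∀ i : Fin q, rootMap (q := q) ζ none H ≠ rootMap ζ (some i) H := fun i h => by
    have h1 := hnone.unique (h ▸ hsome i)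
    refine B.euler_h_ne ?_
    rw [← h1, Semistable.euler_pow, Nat.cast_pow, CharP.cast_eq_zero,
      zero_pow (by norm_num : (2 : ℕ) ≠ 0), zero_mul, zero_mul]
  have hinj : Function.Injective fun o : Option (Fin q) => rootMap ζ o H := by
    rintro (_ | i) (_ | k) h
    · rfl
    · exact absurd h (hne k)
    · exact absurd h.symm (hne i)
    · by_contra hik
      have hik' : i ≠ k := fun h' => hik (h' ▸ rfl)
      set ξ := ζ ^ (i : ℕ) * (ζ ^ (k : ℕ))⁻¹ with hξ
      have hξ1 : ξ ≠ 1 := fun h1 => hik' (Fin.ext (hu.pow_inj i.2 k.2 (mul_inv_eq_one.1 h1)))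
      have hξq : ξ ^ q = 1 := by rw [hξ, mul_pow, inv_pow, hpow, hpow, inv_one, one_mul]
      have hprim : IsPrimitiveRoot (ξ : Qbar) q := by
        rw [IsPrimitiveRoot.coe_units_iff, ← orderOf_eq_prime hξq hξ1]
        exact IsPrimitiveRoot.orderOf _
      have hfix : twist ξ H = H := by
        simp only [rootMap_some] at h
        have h' := congrArg (twist (ζ ^ (k : ℕ))⁻¹) h
        rw [twist_twist, twist_twist, inv_mul_cancel, twist_one_unit] at h'
        rw [hξ, mul_comm]; exact h'
      have h2 := sRed_diffQuot hA hHred hprim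
      rw [hfix, sub_self, mul_zero] at h2
      exact B.euler_h_ne (h2.unique Semistable.sRed_zero)
  letI := (lev (urField A) q N 1).toRingHom.toAlgebra
  have hw : levv 0 (B.h : FN) ∈ chart (urRing A) (levv 1 B.j) := lev_mem_chart hN hζ B hB 0 B.h.2
  set f := minpoly FN (levv 0 (B.h : FN)) with hf
  have hmap : f.map ((qExpand Qbar q).comp (toSeriesQbar A N)) =
      ∏ o : Option (Fin q), (X - C (rootMap ζ o H)) := by
    rw [hf, minpoly_lev_one_map hN hζ]
    have himg : Finset.univ.image (fun p : RootPair q =>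
        embK (A := A) hN hζ p (levv 0 (B.h : FN))) =
        Finset.univ.image (fun o : Option (Fin q) => rootMap ζ o H) := by
      ext x
      simp only [Finset.mem_image, Finset.mem_univ, true_and, embK_lev_zero, ← hH]
      constructor
      · rintro ⟨p, rfl⟩; exact ⟨p.1.1, rfl⟩
      · rintro ⟨o, rfl⟩
        obtain ⟨p, rfl⟩ := exists_pair_fst o
        exact ⟨p, rfl⟩
    rw [himg, Finset.prod_image fun x _ y _ h => hinj h]
  obtain ⟨M, hM⟩ := (mem_lifts _).1 (show f ∈ lifts (chart (urRing A) B.j).val.toRingHom from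
    (lifts_iff_coeff_lifts _).2 fun n => ⟨⟨_, coeff_minpoly_lev_one_mem hN hζ hw n⟩, rfl⟩)
  let φ : chart (urRing A) B.j →+* LaurentSeries kA := (qExpand kA q).comp B.red
  have hφ : φ = (qExpand kA q).comp B.red := rfl
  have hMφ : M.map φ = ∏ o : Option (Fin q),
      (X - C (o.elim (B.red B.h ^ q ^ 2) fun _ => B.red B.h)) := by
    refine Polynomial.ext fun n => ?_
    have h1 := sRed_prod_coeff (A := A) Finset.univ (a := fun o : Option (Fin q) => rootMap ζ o H)
      (r := fun o : Option (Fin q) => o.elim (B.red B.h ^ q ^ 2) fun _ => B.red B.h)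
      (fun o _ => by
        rcases o with _ | i
        · exact hnone
        · exact hsome i) n
    rw [← hmap, ← hM, coeff_map, coeff_map] at h1
    rw [coeff_map]
    exact ((hB.red_eq (M.coeff n)).qExpand q).unique h1
  let E : Polynomial (chart (urRing A) B.j) := (X - C (B.h ^ q)) * (X ^ q - C B.h)
  have hE : E = (X - C (B.h ^ q)) * (X ^ q - C B.h) := rfl
  have hEφ : E.map φ = M.map φ := by
    have hh : φ B.h = B.red B.h ^ q :=
      qExpand_red_of_qFixed hA (qFixed_rat B hB B.h_mem_rat) hHred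
    rw [hE, hMφ]
    exact map_kronecker_shape φ B.h _ hh
  obtain ⟨G, hG⟩ : C (algebraMap (urRing A) (chart (urRing A) B.j) (q : urRing A)) ∣ M - E := by
    rw [C_dvd_iff_dvd_coeff]
    intro n
    rw [← B.red_eq_zero]
    have h1 := congrArg (fun P => coeff P n) hEφ
    simp only [coeff_map] at h1
    rw [coeff_sub, map_sub, sub_eq_zero]
    exact qExpand_injective q h1.symm
  refine ⟨G, fun i hi => ?_⟩
  let η := ((lev (urField A) q N 1).restrictScalars (urRing A)).toRingHom.comp
    (chart (urRing A) B.j).val.toRingHom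
  have hη : η = ((lev (urField A) q N 1).restrictScalars (urRing A)).toRingHom.comp
    (chart (urRing A) B.j).val.toRingHom := rfl
  have hM0 : M.eval₂ η (levv i (B.h : FN)) = 0 := by
    rw [hη, ← eval₂_map, hM]
    refine (embK (A := A) hN hζ (branchPair 0)).injective ?_
    rw [map_zero, hom_eval₂,
      show (embK (A := A) hN hζ (branchPair 0)).comp
          ((lev (urField A) q N 1).restrictScalars (urRing A)).toRingHom =
        (qExpand Qbar q).comp (toSeriesQbar A N) from
        RingHom.ext fun u => embK_lev_one hN hζ _ u,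
      ← eval_map, hmap, eval_prod]
    rcases hi with rfl | rfl
    · refine Finset.prod_eq_zero (Finset.mem_univ (branchPair (q := q) 0).1.1) ?_
      rw [eval_sub, eval_X, eval_C, embK_lev_zero, ← hH, sub_self]
    · refine Finset.prod_eq_zero (Finset.mem_univ (branchPair (q := q) 0).1.2) ?_
      rw [eval_sub, eval_X, eval_C, embK_lev_two, ← hH, sub_self]
  have h5 := congrArg (fun P => P.eval₂ η (levv i (B.h : FN))) hG
  simp only [eval₂_sub, hM0, eval₂_mul, eval₂_C, hE, eval₂_X, eval₂_pow, map_pow] at h5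
  have h2 : η B.h = levv 1 (B.h : FN) := rfl
  have h3 : η (algebraMap (urRing A) (chart (urRing A) B.j) (q : urRing A)) =
      algebraMap (urRing A) FF (q : urRing A) := by simp [map_natCast]
  rw [h2, h3] at h5
  linear_combination -h5

include hA hN hζ hB in
theorem exists_sep_branch :
    ∃ U U' : FF, U ∈ chart (urRing A) (levv 1 B.j) ∧ U' ∈ chart (urRing A) (levv 1 B.j) ∧
      ∀ b : Fin 3, ∃ z z' : branchVal hA hN hζ b,
        (z : FF) = U ∧ (z' : FF) = U' ∧
        branchRes hA hN hζ b z = (if b = 2 then 0 else B.red B.P) ∧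
        branchRes hA hN hζ b z' = (if b = 0 then B.red B.P ^ q else 0) := by
  obtain ⟨U, U', hU, hU', hs⟩ := exists_sep hA hN hζ
  rw [← hB.j_eq] at hU hU'
  rw [← hB.red_P] at hs
  refine ⟨U, U', hU, hU', fun b => ?_⟩
  obtain ⟨h1, h2⟩ := hs (branchPair b)
  let z : branchVal hA hN hζ b := ⟨U, (mem_pairVal hA hN hζ).2 ⟨_, h1⟩⟩
  let z' : branchVal hA hN hζ b := ⟨U', (mem_pairVal hA hN hζ).2 ⟨_, h2⟩⟩
  have e1 := branchRes_eq hA hN hζ (z := z) h1
  have e2 := branchRes_eq hA hN hζ (z := z') h2
  have i1 : (branchPair (q := q) b).1.1 = none ↔ b = 2 := by fin_cases b <;> simp [branchPair]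
  have i2 : (branchPair (q := q) b).1.2 = none ↔ b = 0 := by fin_cases b <;> simp [branchPair]
  refine ⟨z, z', rfl, rfl, ?_, ?_⟩
  · rw [e1]; simp only [i1]
  · rw [e2]; simp only [i2]

set_option maxHeartbeats 2400000 in
include hA hN hB in
/-- The data at level `q ^ 2 N`. -/
theorem exists_sqData
    (hvert : ∀ P, IsVert (urRing A) (q : urRing A) (lev (urField A) q N 1 B.j) P →
      ∃ b, P = branchVal hA hN hζ b) :
    ∃ D : SqData B (MF (urField A) (q ^ 2 * N)),
      ∀ i z, D.ι i z = lev (urField A) q N i z := by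
  obtain ⟨G, hG⟩ := exists_modular hA hN hζ B hB
  have hpow1 : (ζ ^ ((⟨1, hq.out.one_lt⟩ : Fin q) : ℕ)) ^ q = 1 := by
    rw [pow_one, (IsPrimitiveRoot.coe_units_iff.1 hζ).pow_eq_one]
  refine ⟨{
    ι := fun i => (lev (urField A) q N i).restrictScalars (urRing A)
    ι_zero_mem := lev_mem_chart hN hζ B hB 0 (self_mem_chart _ _)
    ι_two_mem := lev_mem_chart hN hζ B hB 2 (self_mem_chart _ _)
    frac := exists_frac hA B hB
    V := branchVal hA hN hζ
    isVert := isVert_branchVal hA hN hζ B hB
    eq_V := hvert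
    res := branchRes hA hN hζ
    res_eq_zero := fun b z => pairRes_eq_zero hA hN hζ _ z
    res_algebraMap := fun b a z hz => by
      refine branchRes_eq hA hN hζ ?_
      rw [hz, embK_algebraMap_urRing, ← coe_urIncl, HahnSeries.C_apply,
        ← algebraMap_laurentSeries_eq_single, hB.resO_eq, urRes_apply]
      exact Semistable.sRed_algebraMap _
    res_mem := fun b z hz => exists_red_eq_res hA hN hζ B hB b z hz
    res_base_zero := fun g z hz => by
      refine branchRes_eq hA hN hζ ?_
      rw [hz]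
      show SRed ρA (embK (A := A) hN hζ _ (levv 0 (g : FN))) _
      rw [embK_lev_zero, branchPair_zero, rootMap_some_zero]
      exact hB.red_eq g
    res_base_one := fun g z hz => by
      refine branchRes_eq hA hN hζ ?_
      rcases hz with hz | hz <;> rw [hz]
      · show SRed ρA (embK (A := A) hN hζ _ (levv 0 (g : FN))) _
        rw [embK_lev_zero, branchPair_one, rootMap_some_zero]
        exact hB.red_eq g
      · show SRed ρA (embK (A := A) hN hζ _ (levv 2 (g : FN))) _
        rw [embK_lev_two, branchPair_one, rootMap_some]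
        exact sRed_twist hA (hB.red_eq g) hpow1
    res_base_two := fun g z hz => by
      refine branchRes_eq hA hN hζ ?_
      rw [hz]
      show SRed ρA (embK (A := A) hN hζ _ (levv 2 (g : FN))) _
      rw [embK_lev_two, branchPair_two, rootMap_some_zero]
      exact hB.red_eq g
    res_mid := fun g hg b z hz => by
      refine branchRes_eq hA hN hζ ?_
      rw [hz]
      exact sRed_embK_mid hA hN hζ B hB hg _
    res_far_zero := fun g hg z hz => by
      refine branchRes_eq hA hN hζ ?_
      rw [hz]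
      show SRed ρA (embK (A := A) hN hζ _ (levv 2 (g : FN))) _
      rw [embK_lev_two, branchPair_zero, rootMap_none, ← qExpand_qExpand, pow_two, pow_mul]
      exact sRed_qExpand_of_qFixed hA ((qFixed_rat B hB hg).qExpand q)
        (sRed_qExpand_of_qFixed hA (qFixed_rat B hB hg) (hB.red_eq g))
    res_far_two := fun g hg z hz => by
      refine branchRes_eq hA hN hζ ?_
      rw [hz]
      show SRed ρA (embK (A := A) hN hζ _ (levv 0 (g : FN))) _
      rw [embK_lev_zero, branchPair_two, rootMap_none, ← qExpand_qExpand, pow_two, pow_mul]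
      exact sRed_qExpand_of_qFixed hA ((qFixed_rat B hB hg).qExpand q)
        (sRed_qExpand_of_qFixed hA (qFixed_rat B hB hg) (hB.red_eq g))
    nonunits_zero := fun z hz => exists_mul_of_nonunit hA hN hζ
      (Or.inr (by rw [branchPair_zero])) (Or.inl (by rw [branchPair_zero])) hz
    nonunits_one := fun z hz => exists_mul_of_nonunit_one hA hN hζ B hB hz
    nonunits_two := fun z hz => exists_mul_of_nonunit hA hN hζ
      (Or.inl (by rw [branchPair_two])) (Or.inr (by rw [branchPair_two])) hz
    sub_ne := middle_sub_ne hA hN hζ B hB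
    res_pow := exists_res_pow hA hN hζ B hB
    kronecker := fun g hg => exists_kronecker hA hN hζ B hB hg
    sep := exists_sep_branch hA hN hζ B hB
    G := G
    modular := hG }, fun i z => rfl⟩

end FLTAgent.LevelSq
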