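import Fermat.Agent.LevelSq.Setting
import Fermat.Agent.Semistable.LevelW
import Mathlib.RingTheory.Polynomial.Cyclotomic.Eval

/-!
# Roots of unity at a place over `q`

Inertia permutes the primitive `q`-th roots of unity transitively and fixes those of order prime to
`q`; `ramRing q A` is a discrete valuation ring with uniformiser `η - 1`, and
`(η - 1) ^ (q - 1) / q` reduces to `-1`.
-/

set_option autoImplicit false
set_option linter.style.haveILetI false
set_option linter.unusedSectionVars false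
set_option synthInstance.maxHeartbeats 100000

noncomputable section

open IntermediateField Polynomial Finset

namespace FLTAgent.LevelSq

local notation "Qbar" => AlgebraicClosure ℚ
local notation "Γℚ" => AlgebraicClosure ℚ ≃ₐ[ℚ] AlgebraicClosure ℚ

open TW.Flat

variable {q : ℕ} [hq : Fact q.Prime] {A : ValuationSubring Qbar} (hA : A.LiesOverPrime q)
include hA

theorem residue_eq_zero_iff' (a : A) :
    IsLocalRing.residue A a = 0 ↔ (a : Qbar) ∈ A.nonunits := by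
  rw [IsLocalRing.residue_eq_zero_iff, ← SetLike.mem_coe (p := A.nonunits),
    ← ValuationSubring.image_maximalIdeal]
  exact ⟨fun h => ⟨a, h, rfl⟩, fun ⟨b, hb, h⟩ => Subtype.ext h ▸ hb⟩

theorem charP_residueField : CharP (IsLocalRing.ResidueField A) q := by
  refine (CharP.charP_iff_prime_eq_zero hq.out).2 ?_
  rw [← map_natCast (IsLocalRing.residue A), residue_eq_zero_iff' hA]
  simpa using natCast_mem_nonunits hA

theorem natCast_residue_ne_zero {m : ℕ} (hm : ¬ q ∣ m) : (m : IsLocalRing.ResidueField A) ≠ 0 := by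
  haveI := charP_residueField hA
  rwa [Ne, CharP.cast_eq_zero_iff (IsLocalRing.ResidueField A) q]

theorem mem_of_pow_eq_one {x : Qbar} {m : ℕ} (hm : m ≠ 0) (hx : x ^ m = 1) : x ∈ A := by
  rcases A.mem_or_inv_mem x with h | h
  · exact h
  · rw [show x = x⁻¹ ^ (m - 1) by
      rw [inv_pow]
      exact eq_inv_of_mul_eq_one_left
        (by rw [← pow_succ', Nat.sub_add_cancel (Nat.pos_of_ne_zero hm), hx])]
    exact pow_mem h _

/-- An `m`-th root of unity congruent to `1` is `1`, for `m` prime to `q`. -/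
theorem eq_one_of_residue_eq_one {z : A} {m : ℕ} (hm : ¬ q ∣ m) (hz : z ^ m = 1)
    (h1 : IsLocalRing.residue A z = 1) : z = 1 := by
  have h := geom_sum_mul z m
  rw [hz, sub_self] at h
  refine sub_eq_zero.1 ((mul_eq_zero.1 h).resolve_left fun h0 => ?_)
  have h2 := congrArg (IsLocalRing.residue A) h0
  simp only [map_sum, map_pow, h1, one_pow, map_zero, Finset.sum_const, Finset.card_range,
    nsmul_eq_mul, mul_one] at h2
  exact natCast_residue_ne_zero hA hm h2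

/-- Inertia fixes the roots of unity of order prime to `q`. -/
theorem inertia_fix_root {σ : Γℚ} (hσ : σ ∈ A.inertiaSubgroupIn ℚ) {x : Qbar} {m : ℕ}
    (hm : ¬ q ∣ m) (hx : x ^ m = 1) : σ x = x := by
  have hm0 : m ≠ 0 := fun h => hm (h ▸ dvd_zero q)
  have hx0 : x ≠ 0 := by
    rintro rfl
    rw [zero_pow hm0] at hx
    exact zero_ne_one hx
  have hxA := mem_of_pow_eq_one hA hm0 hx
  have hiA := mem_of_pow_eq_one hA hm0 (x := x⁻¹) (by rw [inv_pow, hx, inv_one])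
  have hσA := mem_of_pow_eq_one hA hm0 (x := σ x) (by rw [← map_pow, hx, map_one])
  have hd := ((Frobenius.mem_inertiaSubgroupIn_iff).1 hσ).2 x hxA
  set z : A := ⟨σ x, hσA⟩ * ⟨x⁻¹, hiA⟩ with hz
  have h1 : z = 1 := by
    refine eq_one_of_residue_eq_one hA hm (Subtype.ext ?_) ?_
    · show (σ x * x⁻¹) ^ m = 1
      rw [mul_pow, inv_pow, ← map_pow, hx, map_one, inv_one, one_mul]
    · rw [hz, map_mul, show IsLocalRing.residue A (⟨σ x, hσA⟩ : A) =
          IsLocalRing.residue A ⟨x, hxA⟩ from by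
        rw [← sub_eq_zero, ← map_sub, residue_eq_zero_iff' hA]; exact hd, ← map_mul]
      convert map_one (IsLocalRing.residue A)
      exact Subtype.ext (mul_inv_cancel₀ hx0)
  have h2 : σ x * x⁻¹ = 1 := congrArg Subtype.val h1
  rwa [mul_inv_eq_one₀ hx0] at h2

theorem mem_urField_of_pow_eq_one {x : Qbar} {m : ℕ} (hm : ¬ q ∣ m) (hx : x ^ m = 1) :
    x ∈ urField A :=
  (IntermediateField.mem_fixedField_iff _ _).2 fun _ hσ => inertia_fix_root hA hσ hm hx

omit hA in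
theorem exists_eta : ∃ η : Qbarˣ, IsPrimitiveRoot (η : Qbar) q :=
  haveI : NeZero q := ⟨hq.out.ne_zero⟩
  Semistable.exists_primitiveRoot_unit q

omit hA in
theorem mem_ramGroup_of_fix {σ : Γℚ} (hσ : σ ∈ A.inertiaSubgroupIn ℚ) {η : Qbar}
    (hη : IsPrimitiveRoot η q) (h : σ η = η) : σ ∈ ramGroup q A := by
  refine ⟨hσ, (IntermediateField.mem_fixingSubgroup_iff _ σ).2 fun x hx => ?_⟩
  induction hx using IntermediateField.adjoin_induction with
  | mem y hy =>
    haveI : NeZero q := ⟨hq.out.ne_zero⟩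
    obtain ⟨i, -, rfl⟩ := hη.eq_pow_of_pow_eq_one hy
    rw [map_pow, h]
  | algebraMap c => exact σ.commutes c
  | add a b _ _ ha hb => rw [map_add, ha, hb]
  | inv a _ ha => rw [map_inv₀, ha]
  | mul a b _ _ ha hb => rw [map_mul, ha, hb]

omit hA in
theorem root_mem_ramField {x : Qbar} (hx : x ^ q = 1) : x ∈ ramField q A :=
  (IntermediateField.mem_fixedField_iff _ _).2 fun _ hσ =>
    (IntermediateField.mem_fixingSubgroup_iff _ _).1 hσ.2 x
      (IntermediateField.subset_adjoin ℚ _ hx)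

theorem nm_sub_one_eq {𝔓 : LocalPlace q} {η : Qbar} (hη : IsPrimitiveRoot η q) :
    𝔓.nm (η - 1) ^ (q - 1) = (q : ℝ)⁻¹ ∧
      ∀ x : Qbar, IsPrimitiveRoot x q → 𝔓.nm (x - 1) = 𝔓.nm (η - 1) := by
  haveI : NeZero q := ⟨hq.out.ne_zero⟩
  have hle : ∀ x y : Qbar, IsPrimitiveRoot x q → IsPrimitiveRoot y q →
      𝔓.nm (x - 1) ≤ 𝔓.nm (y - 1) := by
    intro x y hx hy
    obtain ⟨i, -, rfl⟩ := hy.eq_pow_of_pow_eq_one hx.pow_eq_one
    rw [← geom_sum_mul y i, map_mul]
    refine mul_le_of_le_one_left (𝔓.nm_nonneg _) (𝔓.nm_sum_le _ _ zero_le_one fun j _ => ?_)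
    rw [map_pow]
    have h1 : 𝔓.nm y ^ q = 1 := by rw [← map_pow, hy.pow_eq_one, map_one]
    exact pow_le_one₀ (𝔓.nm_nonneg _)
      ((pow_le_one_iff_of_nonneg (𝔓.nm_nonneg _) hq.out.ne_zero).1 h1.le)
  have heq : ∀ x : Qbar, IsPrimitiveRoot x q → 𝔓.nm (x - 1) = 𝔓.nm (η - 1) := fun x hx =>
    le_antisymm (hle x η hx hη) (hle η x hη hx)
  refine ⟨?_, heq⟩
  have h := congrArg 𝔓.nm (eval_one_cyclotomic_prime (R := Qbar) (p := q))
  rw [cyclotomic_eq_prod_X_sub_primitiveRoots hη, eval_prod, map_prod, 𝔓.nm_p] at h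
  rw [← h, Finset.prod_congr rfl fun x hx => ?_, Finset.prod_const, hη.card_primitiveRoots,
    Nat.totient_prime hq.out]
  rw [eval_sub, eval_X, eval_C, 𝔓.nm.map_sub, heq x ((mem_primitiveRoots hq.out.pos).1 hx)]

/-- Orbit products of elements of `ramField q A` have norms in `q ^ ℤ`. -/
theorem exists_orbit_zpow {𝔓 : LocalPlace q} (h𝔓 : 𝔓.P = A) {η : Qbar}
    (hη : IsPrimitiveRoot η q) :
    ∃ O : Finset Qbar, 0 < O.card ∧ O ⊆ primitiveRoots q Qbar ∧
      (∀ o, o ∈ O ↔ ∃ σ ∈ A.inertiaSubgroupIn ℚ, σ η = o) ∧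
      ∀ x ∈ ramField q A, x ≠ 0 → ∃ n : ℤ, 𝔓.nm x ^ O.card = (q : ℝ) ^ n := by
  classical
  subst h𝔓
  set O : Finset Qbar := (primitiveRoots q Qbar).filter
    fun o => ∃ σ ∈ 𝔓.I, σ η = o with hO
  have hmem : ∀ o, o ∈ O ↔ ∃ σ ∈ 𝔓.I, σ η = o := by
    intro o
    rw [hO, Finset.mem_filter, mem_primitiveRoots hq.out.pos]
    refine and_iff_right_of_imp ?_
    rintro ⟨σ, -, rfl⟩
    exact hη.map_of_injective σ.injective
  refine ⟨O, Finset.card_pos.2 ⟨η, (hmem η).2 ⟨1, one_mem _, rfl⟩⟩, Finset.filter_subset _ _,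
    hmem, fun x hx hx0 => ?_⟩
  let r : Qbar → Qbar := fun o => if h : ∃ σ ∈ 𝔓.I, σ η = o then h.choose x else 1
  have hr : ∀ σ ∈ 𝔓.I, r (σ η) = σ x := by
    intro σ hσ
    have h : ∃ τ ∈ 𝔓.I, τ η = σ η := ⟨σ, hσ, rfl⟩
    simp only [r, dif_pos h]
    obtain ⟨hτ, hτη⟩ := h.choose_spec
    have hfix := (IntermediateField.mem_fixedField_iff _ _).1 hx _
      (mem_ramGroup_of_fix (mul_mem (inv_mem hσ) hτ) hη (σ := σ⁻¹ * h.choose)
        (by rw [AlgEquiv.mul_apply, hτη]; simp))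
    simpa using congrArg σ hfix
  have hP : ∏ o ∈ O, r o ∈ 𝔓.K₀ := by
    rw [𝔓.mem_K₀]
    intro σ hσ
    rw [map_prod]
    refine Finset.prod_bij' (fun o _ => σ o) (fun o _ => σ⁻¹ o) (fun o ho => ?_) (fun o ho => ?_)
      (fun o _ => by simp) (fun o _ => by simp) fun o ho => ?_
    · obtain ⟨τ, hτ, rfl⟩ := (hmem o).1 ho
      exact (hmem _).2 ⟨σ * τ, mul_mem hσ hτ, rfl⟩
    · obtain ⟨τ, hτ, rfl⟩ := (hmem o).1 ho
      exact (hmem _).2 ⟨σ⁻¹ * τ, mul_mem (inv_mem hσ) hτ, rfl⟩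
    · obtain ⟨τ, hτ, rfl⟩ := (hmem o).1 ho
      rw [hr τ hτ, show σ (τ η) = (σ * τ) η from rfl, hr _ (mul_mem hσ hτ)]
      rfl
  have hP0 : ∏ o ∈ O, r o ≠ 0 := Finset.prod_ne_zero_iff.2 fun o ho => by
    obtain ⟨τ, hτ, rfl⟩ := (hmem o).1 ho
    rw [hr τ hτ]
    exact (map_ne_zero_iff _ τ.injective).2 hx0
  obtain ⟨n, hn⟩ := 𝔓.exists_zpow_of_mem_K₀ hP hP0
  refine ⟨n, ?_⟩
  rw [← hn, map_prod, Finset.prod_congr rfl fun o ho => ?_, Finset.prod_const]
  obtain ⟨τ, hτ, rfl⟩ := (hmem o).1 ho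
  rw [hr τ hτ, 𝔓.nm_apply (𝔓.I_le_D hτ)]

/-- Inertia is transitive on the primitive `q`-th roots of unity. -/
theorem exists_inertia_map {η η' : Qbar} (hη : IsPrimitiveRoot η q)
    (hη' : IsPrimitiveRoot η' q) :
    ∃ σ ∈ A.inertiaSubgroupIn ℚ, σ η = η' := by
  obtain ⟨𝔓, h𝔓, -⟩ := exists_nm hA
  obtain ⟨O, hpos, hsub, hmem, hO⟩ := exists_orbit_zpow hA h𝔓 hη
  have hq1 : (1 : ℝ) < q := mod_cast hq.out.one_lt
  have hx : η - 1 ≠ 0 := sub_ne_zero.2 (hη.ne_one hq.out.one_lt)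
  have hxK : η - 1 ∈ ramField q A :=
    sub_mem (root_mem_ramField hη.pow_eq_one) (one_mem _)
  obtain ⟨n, hn⟩ := hO _ hxK hx
  have h1 := congrArg (· ^ (q - 1)) hn
  simp only [← pow_mul] at h1
  rw [mul_comm, pow_mul, (nm_sub_one_eq hA hη).1, inv_pow, ← zpow_natCast, ← zpow_natCast,
    ← zpow_neg, ← zpow_mul] at h1
  have h2 : -(O.card : ℤ) = n * (q - 1 : ℕ) := zpow_right_injective₀ (by linarith) hq1.ne' h1
  have hle : O.card ≤ q - 1 := by
    have := Finset.card_le_card hsub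
    rwa [hη.card_primitiveRoots, Nat.totient_prime hq.out] at this
  have hdvd : q - 1 ∣ O.card := by
    have : ((q - 1 : ℕ) : ℤ) ∣ (O.card : ℤ) := ⟨-n, by linear_combination -h2⟩
    exact_mod_cast this
  have heq : O = primitiveRoots q Qbar := Finset.eq_of_subset_of_card_le hsub (by
    rw [hη.card_primitiveRoots, Nat.totient_prime hq.out]
    exact Nat.le_of_dvd hpos hdvd)
  exact (hmem η').1 (heq ▸ (mem_primitiveRoots hq.out.pos).2 hη')

/-- The norm group of `ramField q A` is generated by `η - 1`. -/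
theorem exists_nm_zpow {𝔓 : LocalPlace q} (h𝔓 : 𝔓.P = A) {η : Qbar} (hη : IsPrimitiveRoot η q)
    {x : Qbar} (hx : x ∈ ramField q A) (hx0 : x ≠ 0) :
    ∃ n : ℤ, 𝔓.nm x = 𝔓.nm (η - 1) ^ n := by
  obtain ⟨O, -, -, hmem, hO⟩ := exists_orbit_zpow hA h𝔓 hη
  have heq : O = primitiveRoots q Qbar := Finset.ext fun o => by
    rw [hmem, mem_primitiveRoots hq.out.pos]
    exact ⟨fun ⟨σ, _, h⟩ => h ▸ hη.map_of_injective σ.injective, exists_inertia_map hA hη⟩
  obtain ⟨n, hn⟩ := hO x hx hx0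
  rw [heq, hη.card_primitiveRoots, Nat.totient_prime hq.out] at hn
  refine ⟨-n, ?_⟩
  refine (pow_left_inj₀ (𝔓.nm_nonneg _) (zpow_nonneg (𝔓.nm_nonneg _) _)
    (show q - 1 ≠ 0 by have := hq.out.two_le; omega)).1 ?_
  rw [hn, ← zpow_natCast, ← zpow_mul, mul_comm, zpow_mul, zpow_natCast,
    (nm_sub_one_eq hA hη).1, inv_zpow', neg_neg]

/-- Every nonzero element of `ramField q A` is a power of `η - 1` times a unit of `A`. -/
theorem exists_unit_mul_zpow_ram {η : Qbar} (hη : IsPrimitiveRoot η q) {x : Qbar}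
    (hx : x ∈ ramField q A) (hx0 : x ≠ 0) :
    ∃ (n : ℤ) (u : Qbar), u ∈ A ∧ u⁻¹ ∈ A ∧ u ∈ ramField q A ∧ x = u * (η - 1) ^ n := by
  obtain ⟨𝔓, rfl, -⟩ := exists_nm hA
  obtain ⟨n, hn⟩ := exists_nm_zpow hA rfl hη hx hx0
  have hπ : η - 1 ≠ 0 := sub_ne_zero.2 (hη.ne_one hq.out.one_lt)
  refine ⟨n, x / (η - 1) ^ n, ?_, ?_, ?_, (div_mul_cancel₀ _ (zpow_ne_zero _ hπ)).symm⟩
  · rw [𝔓.mem_iff, map_div₀, map_zpow₀, ← hn, div_self (by simpa using hx0)]
  · rw [𝔓.mem_iff, map_inv₀, map_div₀, map_zpow₀, ← hn, div_self (by simpa using hx0), inv_one]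
  · exact div_mem hx (zpow_mem (sub_mem (root_mem_ramField hη.pow_eq_one) (one_mem _)) n)

theorem sub_one_mem_nonunits {η : Qbar} (hη : η ^ q = 1) : η - 1 ∈ A.nonunits := by
  by_cases h : η = 1
  · rw [h, sub_self, A.mem_nonunits_iff]; simp
  obtain ⟨𝔓, rfl, -⟩ := exists_nm hA
  haveI : NeZero q := ⟨hq.out.ne_zero⟩
  have hp : IsPrimitiveRoot η q := by
    rw [← orderOf_eq_prime hη h]; exact IsPrimitiveRoot.orderOf η
  rw [𝔓.mem_nonunits_iff]
  by_contra hle
  push Not at hle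
  have h1 := one_le_pow₀ hle (n := q - 1)
  rw [(nm_sub_one_eq hA hp).1] at h1
  exact absurd h1 (not_le.2 LocalPlace.inv_p_lt_one)

theorem residue_root_eq_one {η : A} (hη : η ^ q = 1) : IsLocalRing.residue A η = 1 := by
  rw [← sub_eq_zero, ← map_one (IsLocalRing.residue A), ← map_sub, residue_eq_zero_iff' hA]
  exact sub_one_mem_nonunits hA (congrArg Subtype.val hη)

/-- `(η - 1) ^ (q - 1) / q` reduces to `-1`. -/
theorem exists_residue_pow_div {η : Qbar} (hη : IsPrimitiveRoot η q) :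
    ∃ w : A, (q : Qbar) * w = (η - 1) ^ (q - 1) ∧ IsLocalRing.residue A w = -1 := by
  classical
  haveI : NeZero q := ⟨hq.out.ne_zero⟩
  haveI := charP_residueField hA
  set ηA : A := ⟨η, mem_of_pow_eq_one hA hq.out.ne_zero hη.pow_eq_one⟩
  have hηA : ηA ^ q = 1 := Subtype.ext hη.pow_eq_one
  set g : ℕ → A := fun i => ∑ j ∈ Finset.range i, ηA ^ j with hg
  have hgres : ∀ i, IsLocalRing.residue A (g i) = (i : IsLocalRing.ResidueField A) := fun i => by
    simp [hg, map_sum, residue_root_eq_one hA hηA]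
  set G : A := ∏ i ∈ Finset.Icc 1 (q - 1), g i
  have hGres : IsLocalRing.residue A G = -1 := by
    rw [map_prod, Finset.prod_congr rfl fun i _ => hgres i, ← Nat.cast_prod,
      ← Finset.Ico_add_one_right_eq_Icc, Finset.prod_Ico_id_eq_factorial]
    haveI : CharP (IsLocalRing.ResidueField A) q := charP_residueField hA
    have hw := congrArg (ZMod.castHom dvd_rfl (IsLocalRing.ResidueField A)) (ZMod.wilsons_lemma q)
    rwa [map_natCast, map_neg, map_one] at hw
  have hset : primitiveRoots q Qbar = (Finset.Icc 1 (q - 1)).image fun i => η ^ i := by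
    ext x
    rw [mem_primitiveRoots hq.out.pos, Finset.mem_image]
    constructor
    · intro hx
      obtain ⟨i, hi, rfl⟩ := hη.eq_pow_of_pow_eq_one hx.pow_eq_one
      refine ⟨i, Finset.mem_Icc.2 ⟨Nat.one_le_iff_ne_zero.2 fun h0 => ?_, by omega⟩, rfl⟩
      rw [h0, pow_zero] at hx
      exact hx.ne_one hq.out.one_lt rfl
    · rintro ⟨i, hi, rfl⟩
      obtain ⟨h1, h2⟩ := Finset.mem_Icc.1 hi
      refine hη.pow_of_coprime i ((Nat.coprime_comm.1 (hq.out.coprime_iff_not_dvd.2 ?_)))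
      exact fun hd => absurd (Nat.le_of_dvd (by omega) hd) (by omega)
  have hprod := eval_one_cyclotomic_prime (R := Qbar) (p := q)
  rw [cyclotomic_eq_prod_X_sub_primitiveRoots hη, eval_prod, hset,
    Finset.prod_image fun i hi j hj h => hη.pow_inj
      (lt_of_le_of_lt (Finset.mem_Icc.1 (Finset.mem_coe.1 hi)).2 (Nat.sub_lt hq.out.pos one_pos))
      (lt_of_le_of_lt (Finset.mem_Icc.1 (Finset.mem_coe.1 hj)).2 (Nat.sub_lt hq.out.pos one_pos))
      h] at hprod
  simp only [eval_sub, eval_X, eval_C] at hprod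
  have hfac : (q : Qbar) = (-1) ^ (q - 1) * ((η - 1) ^ (q - 1) * (G : Qbar)) := by
    rw [← hprod, Finset.prod_congr rfl fun i _ => show (1 : Qbar) - η ^ i =
      -1 * ((η - 1) * ((g i : A) : Qbar)) by
        rw [hg]; push_cast; rw [mul_comm (η - 1), geom_sum_mul]; ring,
      Finset.prod_mul_distrib, Finset.prod_mul_distrib, Finset.prod_const, Finset.prod_const,
      Nat.card_Icc, Nat.add_sub_cancel]
    simp [G]
  have hGu : IsUnit G := by
    rw [← IsLocalRing.residue_ne_zero_iff_isUnit, hGres]; simp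
  obtain ⟨u, hu⟩ := hGu
  refine ⟨((-1 : A)) ^ (q - 1) * (u⁻¹ : Aˣ), ?_, ?_⟩
  · have hGG : (G : Qbar) * ((u⁻¹ : Aˣ) : A) = 1 := by
      rw [← hu]; exact congrArg Subtype.val u.mul_inv
    push_cast
    rw [hfac]
    have hneg : ((-1 : Qbar) ^ (q - 1)) * (-1) ^ (q - 1) = 1 := by
      rw [← mul_pow]; simp
    linear_combination ((η - 1) ^ (q - 1) * ((-1 : Qbar) ^ (q - 1) * (-1) ^ (q - 1))) * hGG +
      ((η - 1) ^ (q - 1)) * hneg
  · have hneg : ((-1 : IsLocalRing.ResidueField A)) ^ (q - 1) = 1 := by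
      rcases hq.out.eq_two_or_odd with h2 | h2
      · subst h2
        rw [CharTwo.neg_eq, one_pow]
      · exact Even.neg_one_pow ⟨(q - 1) / 2, by omega⟩
    have hinv : IsLocalRing.residue A ((u⁻¹ : Aˣ) : A) = -1 := by
      have h := congrArg (IsLocalRing.residue A) u.mul_inv
      rw [map_mul, map_one, hu, hGres] at h
      linear_combination (-1 : IsLocalRing.ResidueField A) * h
    rw [map_mul, map_pow, map_neg, map_one, hneg, hinv, one_mul]

end FLTAgent.LevelSq
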