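import Fermat.Agent.LevelSq.RamRing
import Fermat.Agent.Semistable.Series
import Fermat.Agent.ModPoly.Scale

/-!
# The Gauss valuation on series with bounded denominators over `ramRing q A`

`fracRam q A` is the field of quotients of series with coefficients in `ramRing q A`.  Every
nonzero element is a power of `η - 1` times a series with nonzero reduction, so a homomorphism
into `fracRam q A` pulls back the Gauss valuation to a valuation subring.  A substitution
`t ↦ ξ t` composed with an element of inertia changes leading reductions by constants in `𝔽_q`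
only.
-/

set_option autoImplicit false
set_option linter.style.haveILetI false
set_option linter.unusedSectionVars false
set_option synthInstance.maxHeartbeats 100000

noncomputable section

open ModularCurve
open FLTAgent.ModPoly (twist coeffMap_twist)

namespace FLTAgent.LevelSq

local notation "Qbar" => AlgebraicClosure ℚ
local notation "Γℚ" => AlgebraicClosure ℚ ≃ₐ[ℚ] AlgebraicClosure ℚ

open Semistable (SRed)

variable (q : ℕ) (A : ValuationSubring Qbar)

/-- `ramRing q A → ℚ̄`. -/
def ramToQbar : ramRing q A →+* Qbar :=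
  (algebraMap (ramField q A) Qbar).comp (ramRing q A).subtype

/-- `ramRing q A → A`. -/
def ramToA : ramRing q A →+* A :=
  (ramToQbar q A).codRestrict A.toSubring fun x => x.2

/-- Series over `ramRing q A` as series over `ℚ̄`. -/
def ramSeries : LaurentSeries (ramRing q A) →+* LaurentSeries Qbar := coeffMap (ramToQbar q A)

theorem ramSeries_eq (a : LaurentSeries (ramRing q A)) :
    ramSeries q A a = coeffMap A.subtype (coeffMap (ramToA q A) a) := HahnSeries.ext rfl

theorem ramSeries_injective : Function.Injective (ramSeries q A) := fun _ _ h =>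
  HahnSeries.ext (funext fun n => Subtype.ext (Subtype.ext
    (congrArg (fun s : LaurentSeries Qbar => s.coeff n) h)))

/-- Quotients of series over `ramRing q A`. -/
def fracRam : Subfield (LaurentSeries Qbar) where
  carrier := {y | ∃ a b, b ≠ 0 ∧ y * ramSeries q A b = ramSeries q A a}
  zero_mem' := ⟨0, 1, one_ne_zero, by simp⟩
  one_mem' := ⟨1, 1, one_ne_zero, by simp⟩
  add_mem' := by
    rintro x y ⟨a, b, hb, hx⟩ ⟨c, d, hd, hy⟩
    exact ⟨a * d + c * b, b * d, mul_ne_zero hb hd, by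
      simp only [map_add, map_mul, ← hx, ← hy]; ring⟩
  mul_mem' := by
    rintro x y ⟨a, b, hb, hx⟩ ⟨c, d, hd, hy⟩
    exact ⟨a * c, b * d, mul_ne_zero hb hd, by simp only [map_mul, ← hx, ← hy]; ring⟩
  neg_mem' := by
    rintro x ⟨a, b, hb, hx⟩
    exact ⟨-a, b, hb, by rw [map_neg, ← hx, neg_mul]⟩
  inv_mem' := by
    rintro x ⟨a, b, hb, hx⟩
    rcases eq_or_ne x 0 with rfl | hx0
    · exact ⟨0, 1, one_ne_zero, by simp⟩
    have hb' : ramSeries q A b ≠ 0 := (map_ne_zero_iff _ (ramSeries_injective q A)).2 hb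
    refine ⟨b, a, fun ha => ?_, ?_⟩
    · rw [ha, map_zero] at hx
      exact mul_ne_zero hx0 hb' hx
    · rw [← hx, inv_mul_cancel_left₀ hx0]

variable {q A}

theorem mem_fracRam {y : LaurentSeries Qbar} :
    y ∈ fracRam q A ↔ ∃ a b, b ≠ 0 ∧ y * ramSeries q A b = ramSeries q A a := Iff.rfl

theorem ramSeries_mem (a : LaurentSeries (ramRing q A)) : ramSeries q A a ∈ fracRam q A :=
  ⟨a, 1, one_ne_zero, by simp⟩

theorem algebraMap_mem_fracRam {c : Qbar} (hc : c ∈ ramField q A) :
    algebraMap Qbar (LaurentSeries Qbar) c ∈ fracRam q A := by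
  have key : ∀ x : ramRing q A,
      algebraMap Qbar (LaurentSeries Qbar) (ramToQbar q A x) ∈ fracRam q A := fun x => by
    have h := ramSeries_mem (HahnSeries.single (0 : ℤ) x)
    rwa [ramSeries, coeffMap_single, ← algebraMap_laurentSeries_eq_single] at h
  rcases (ramRing q A).mem_or_inv_mem ⟨c, hc⟩ with h | h
  · exact key ⟨_, h⟩
  · have h2 := inv_mem (key ⟨_, h⟩)
    rw [← map_inv₀] at h2
    simpa [ramToQbar] using h2

theorem coeffMap_intCast_mem_fracRam (x : LaurentSeries ℤ) :
    coeffMap (Int.castRingHom Qbar) x ∈ fracRam q A := by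
  have h := ramSeries_mem (q := q) (A := A) (coeffMap (Int.castRingHom (ramRing q A)) x)
  rwa [ramSeries, show coeffMap (ramToQbar q A) (coeffMap (Int.castRingHom (ramRing q A)) x) =
    coeffMap (Int.castRingHom Qbar) x from HahnSeries.ext (funext fun n => by simp)] at h

theorem jqModC_mem_fracRam : jqModC Qbar ∈ fracRam q A := by
  rw [← coeffMap_jqModC (Int.castRingHom Qbar)]
  exact coeffMap_intCast_mem_fracRam _

theorem qExpand_mem_fracRam {y : LaurentSeries Qbar} (hy : y ∈ fracRam q A) (d : ℕ) [NeZero d] :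
    qExpand Qbar d y ∈ fracRam q A := by
  obtain ⟨a, b, hb, h⟩ := hy
  refine ⟨qExpand _ d a, qExpand _ d b, (map_ne_zero_iff _ (qExpand_injective d)).2 hb, ?_⟩
  simp only [ramSeries, coeffMap_qExpand, ← map_mul]
  exact congrArg _ h

variable [hq : Fact q.Prime] (hA : A.LiesOverPrime q)
include hA

theorem twist_mem_fracRam {y : LaurentSeries Qbar} (hy : y ∈ fracRam q A) {ξ : Qbarˣ}
    (hξ : ξ ^ q = 1) : twist ξ y ∈ fracRam q A := by
  obtain ⟨a, b, hb, h⟩ := hy
  have hξ' : (ξ : Qbar) ^ q = 1 := by rw [← Units.val_pow_eq_pow_val, hξ, Units.val_one]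
  set r : ramRing q A :=
    ⟨⟨ξ, root_mem_ramField hξ'⟩, mem_of_pow_eq_one hA hq.out.ne_zero hξ'⟩ with hr
  have hrq : r ^ q = 1 := Subtype.ext (Subtype.ext hξ')
  set u : (ramRing q A)ˣ := (IsUnit.of_pow_eq_one hrq hq.out.ne_zero).unit
  have hu : Units.map (ramToQbar q A : ramRing q A →* Qbar) u = ξ := Units.ext (by
    show ramToQbar q A ((IsUnit.of_pow_eq_one hrq hq.out.ne_zero).unit : ramRing q A) = ξ
    rw [IsUnit.unit_spec]; rfl)
  refine ⟨twist u a, twist u b, ?_, ?_⟩
  · intro h0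
    apply hb
    have := congrArg (twist u⁻¹) h0
    rwa [ModPoly.twist_twist, inv_mul_cancel, ModPoly.twist_one_unit, map_zero] at this
  · rw [ramSeries, coeffMap_twist, coeffMap_twist, hu, ← map_mul]
    exact congrArg _ h

omit hA in
theorem sRed_ramSeries (a : LaurentSeries (ramRing q A)) :
    SRed (IsLocalRing.residue A) (ramSeries q A a)
      (coeffMap ((IsLocalRing.residue A).comp (ramToA q A)) a) := by
  rw [ramSeries_eq]
  convert Semistable.sRed_coeffMap (π := IsLocalRing.residue A) (coeffMap (ramToA q A) a) using 1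
  exact HahnSeries.ext rfl

theorem residue_ramToA_eq_zero {η : Qbar} (hη : IsPrimitiveRoot η q) (x : ramRing q A) :
    IsLocalRing.residue A (ramToA q A x) = 0 ↔ ramUnif hA η hη.pow_eq_one ∣ x := by
  rw [residue_eq_zero_iff' hA]
  constructor
  · intro h
    rcases eq_or_ne x 0 with rfl | hx
    · exact dvd_zero _
    obtain ⟨n, u, rfl⟩ := exists_unit_mul_pow_ram hA hη hx
    rcases Nat.eq_zero_or_pos n with rfl | hn
    · exact absurd (by simp) (not_isUnit_of_mem_nonunits hA (x := (u : ramRing q A) * _ ^ 0) h)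
    · exact dvd_mul_of_dvd_right (dvd_pow_self _ hn.ne') _
  · rintro ⟨c, rfl⟩
    rw [← residue_eq_zero_iff' hA, map_mul, map_mul,
      (residue_eq_zero_iff' hA _).2 (sub_one_mem_nonunits hA hη.pow_eq_one), zero_mul]

/-- A nonzero series over `ramRing q A` is a power of the uniformiser times a series with nonzero
reduction. -/
theorem exists_series_lead {η : Qbar} (hη : IsPrimitiveRoot η q)
    {a : LaurentSeries (ramRing q A)} (ha : a ≠ 0) :
    ∃ (n : ℕ) (a' : LaurentSeries (ramRing q A)),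
      a = HahnSeries.C (ramUnif hA η hη.pow_eq_one ^ n) * a' ∧
      coeffMap ((IsLocalRing.residue A).comp (ramToA q A)) a' ≠ 0 := by
  classical
  set p := ramUnif hA η hη.pow_eq_one
  obtain ⟨k₀, hk₀⟩ : ∃ k, a.coeff k ≠ 0 := by
    by_contra! h; exact ha (HahnSeries.ext (funext h))
  obtain ⟨e, u, he⟩ := exists_unit_mul_pow_ram hA hη hk₀
  have hex : ∃ n, ∃ k, ¬ p ^ (n + 1) ∣ a.coeff k := ⟨e, k₀, fun hd => by
    rw [he, pow_succ] at hd
    refine (irreducible_ramUnif hA hη).not_isUnit (isUnit_of_dvd_unit ?_ u.isUnit)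
    obtain ⟨c, hc⟩ := hd
    exact ⟨c, mul_right_cancel₀ (pow_ne_zero e (ramUnif_ne_zero hA hη))
      (hc.trans (by ring))⟩⟩
  set n := Nat.find hex
  have hdvd : ∀ k, p ^ n ∣ a.coeff k := fun k => by
    rcases Nat.eq_zero_or_pos n with h0 | h0
    · rw [h0, pow_zero]; exact one_dvd _
    · by_contra hk
      exact Nat.find_min hex (show n - 1 < n by omega) ⟨k, by rwa [Nat.sub_add_cancel h0]⟩
  choose c hc using hdvd
  let a' : LaurentSeries (ramRing q A) :=
    { coeff := c
      isPWO_support' := a.isPWO_support.mono fun k hk h0 => hk ((mul_eq_zero.1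
        ((hc k).symm.trans h0)).resolve_left (pow_ne_zero n (ramUnif_ne_zero hA hη))) }
  refine ⟨n, a', ?_, fun h0 => ?_⟩
  · refine HahnSeries.ext (funext fun k => ?_)
    rw [HahnSeries.C_mul_eq_smul, HahnSeries.coeff_smul, smul_eq_mul]
    exact hc k
  · obtain ⟨k, hk⟩ := Nat.find_spec hex
    refine hk ?_
    have h1 := congrArg (fun s : LaurentSeries (IsLocalRing.ResidueField A) => s.coeff k) h0
    rw [hc k, pow_succ]
    exact mul_dvd_mul_left _ ((residue_ramToA_eq_zero hA hη (c k)).1 h1)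

omit hA in
theorem smul_eq_algebraMap_mul (c : Qbar) (y : LaurentSeries Qbar) :
    c • y = algebraMap Qbar (LaurentSeries Qbar) c * y := Semistable.smul_series c y

/-- Every nonzero element of `fracRam q A` is a power of `η - 1` times an element with nonzero
reduction. -/
theorem exists_lead {η : Qbar} (hη : IsPrimitiveRoot η q) {y : LaurentSeries Qbar}
    (hy : y ∈ fracRam q A) (hy0 : y ≠ 0) :
    ∃ (n : ℤ) (w : LaurentSeries Qbar) (z : LaurentSeries (IsLocalRing.ResidueField A)),
      z ≠ 0 ∧ SRed (IsLocalRing.residue A) w z ∧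
      y = algebraMap Qbar (LaurentSeries Qbar) ((η - 1) ^ n) * w := by
  obtain ⟨a, b, hb, h⟩ := hy
  have hb' : ramSeries q A b ≠ 0 := (map_ne_zero_iff _ (ramSeries_injective q A)).2 hb
  have ha : a ≠ 0 := fun h0 => by
    rw [h0, map_zero] at h
    exact mul_ne_zero hy0 hb' h
  obtain ⟨m, a', rfl, ha'⟩ := exists_series_lead hA hη ha
  obtain ⟨n, b', rfl, hb''⟩ := exists_series_lead hA hη hb
  have hC : ∀ e : ℕ, ramSeries q A (HahnSeries.C (ramUnif hA η hη.pow_eq_one ^ e)) =
      algebraMap Qbar (LaurentSeries Qbar) ((η - 1) ^ (e : ℤ)) := fun e => by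
    rw [ramSeries, HahnSeries.C_apply, coeffMap_single, zpow_natCast,
      algebraMap_laurentSeries_eq_single, map_pow]
    rfl
  have hπ : η - 1 ≠ 0 := sub_ne_zero.2 (hη.ne_one hq.out.one_lt)
  rw [map_mul, map_mul, hC, hC] at h
  refine ⟨(m : ℤ) - n, ramSeries q A a' / ramSeries q A b', _, div_ne_zero ha' hb'',
    (sRed_ramSeries a').div (sRed_ramSeries b') hb'', ?_⟩
  have hb0 : ramSeries q A b' ≠ 0 := (sRed_ramSeries b').ne_zero hb''
  have hp : algebraMap Qbar (LaurentSeries Qbar) ((η - 1) ^ (n : ℤ)) ≠ 0 :=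
    (_root_.map_ne_zero _).2 (zpow_ne_zero _ hπ)
  rw [zpow_sub₀ hπ, map_div₀, div_mul_div_comm, ← h, mul_div_cancel_right₀ _ (mul_ne_zero hp hb0)]

theorem sRed_algebraMap_zero {c : Qbar} (hc : c ∈ A.nonunits) :
    SRed (IsLocalRing.residue A) (algebraMap Qbar (LaurentSeries Qbar) c) 0 := by
  have h := Semistable.sRed_algebraMap (π := IsLocalRing.residue A) ⟨c, A.nonunits_subset hc⟩
  rwa [(residue_eq_zero_iff' hA _).2 hc, map_zero] at h

/-- An element of `fracRam q A` or its inverse has a reduction. -/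
theorem sRed_or_inv {y : LaurentSeries Qbar} (hy : y ∈ fracRam q A) :
    (∃ z, SRed (IsLocalRing.residue A) y z) ∨ ∃ z, SRed (IsLocalRing.residue A) y⁻¹ z := by
  rcases eq_or_ne y 0 with rfl | hy0
  · exact Or.inl ⟨0, Semistable.sRed_zero⟩
  obtain ⟨η, hη⟩ := exists_eta (q := q)
  obtain ⟨n, w, z, hz, hw, rfl⟩ := exists_lead hA hη hy hy0
  have hπ := sRed_algebraMap_zero hA (sub_one_mem_nonunits hA hη.pow_eq_one)
  rcases n with n | n
  · refine Or.inl ⟨0 ^ n * z, ?_⟩
    rw [Int.ofNat_eq_natCast, zpow_natCast, map_pow]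
    exact (SRed.pow hπ n).mul hw
  · refine Or.inr ⟨0 ^ (n + 1) * z⁻¹, ?_⟩
    rw [mul_inv, zpow_negSucc, map_inv₀, inv_inv, map_pow]
    exact (SRed.pow hπ (n + 1)).mul (hw.inv hz)

section Pull

variable {F : Type*} [Field F] (τ : F →+* LaurentSeries Qbar) (hτ : ∀ x, τ x ∈ fracRam q A)

omit hA in
/-- The subring of elements with a reduction. -/
def gaussSubring : Subring F where
  carrier := {x | ∃ z, SRed (IsLocalRing.residue A) (τ x) z}
  zero_mem' := ⟨0, by rw [map_zero]; exact Semistable.sRed_zero⟩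
  one_mem' := ⟨1, by rw [map_one]; exact Semistable.sRed_one⟩
  add_mem' := by
    rintro x y ⟨z, hz⟩ ⟨z', hz'⟩
    exact ⟨z + z', by rw [map_add]; exact hz.add hz'⟩
  mul_mem' := by
    rintro x y ⟨z, hz⟩ ⟨z', hz'⟩
    exact ⟨z * z', by rw [map_mul]; exact hz.mul hz'⟩
  neg_mem' := by
    rintro x ⟨z, hz⟩
    exact ⟨-z, by rw [map_neg]; exact hz.neg⟩

/-- The pull-back of the Gauss valuation. -/
def gaussVal : ValuationSubring F where
  toSubring := gaussSubring (A := A) τ
  mem_or_inv_mem' x := by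
    show (∃ z, SRed _ (τ x) z) ∨ ∃ z, SRed _ (τ x⁻¹) z
    rw [map_inv₀]
    exact sRed_or_inv hA (hτ x)

theorem mem_gaussVal {x : F} :
    x ∈ gaussVal hA τ hτ ↔ ∃ z, SRed (IsLocalRing.residue A) (τ x) z := Iff.rfl

theorem mem_nonunits_gaussVal {x : F} :
    x ∈ (gaussVal hA τ hτ).nonunits ↔ SRed (IsLocalRing.residue A) (τ x) 0 := by
  rw [ValuationSubring.mem_nonunits_iff_or, mem_gaussVal]
  constructor
  · rintro (rfl | h)
    · rw [map_zero]; exact Semistable.sRed_zero
    · rw [map_inv₀] at h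
      rcases sRed_or_inv hA (hτ x) with ⟨z, hz⟩ | h'
      · rcases eq_or_ne z 0 with rfl | hz0
        · exact hz
        · exact absurd ⟨_, hz.inv hz0⟩ h
      · exact absurd h' h
  · intro h
    by_contra hcon
    push Not at hcon
    obtain ⟨hx, z, hz⟩ := hcon
    have h1 := h.mul hz
    rw [← map_mul, mul_inv_cancel₀ hx, map_one, zero_mul] at h1
    exact one_ne_zero (Semistable.sRed_one.unique h1)

/-- The reduction. -/
def gaussRes : gaussVal hA τ hτ →+* LaurentSeries (IsLocalRing.ResidueField A) where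
  toFun x := x.2.choose
  map_zero' := (0 : gaussVal hA τ hτ).2.choose_spec.unique (by
    show SRed _ (τ 0) 0
    rw [map_zero]; exact Semistable.sRed_zero)
  map_one' := (1 : gaussVal hA τ hτ).2.choose_spec.unique (by
    show SRed _ (τ 1) 1
    rw [map_one]; exact Semistable.sRed_one)
  map_add' x y := (x + y).2.choose_spec.unique (by
    show SRed _ (τ ((x : F) + y)) _
    rw [map_add]; exact x.2.choose_spec.add y.2.choose_spec)
  map_mul' x y := (x * y).2.choose_spec.unique (by
    show SRed _ (τ ((x : F) * y)) _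
    rw [map_mul]; exact x.2.choose_spec.mul y.2.choose_spec)

theorem sRed_gaussRes (x : gaussVal hA τ hτ) :
    SRed (IsLocalRing.residue A) (τ x) (gaussRes hA τ hτ x) := x.2.choose_spec

theorem gaussRes_eq {x : gaussVal hA τ hτ} {z : LaurentSeries (IsLocalRing.ResidueField A)}
    (h : SRed (IsLocalRing.residue A) (τ x) z) : gaussRes hA τ hτ x = z :=
  (sRed_gaussRes hA τ hτ x).unique h

theorem gaussRes_eq_zero (x : gaussVal hA τ hτ) :
    gaussRes hA τ hτ x = 0 ↔ (x : F) ∈ (gaussVal hA τ hτ).nonunits := by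
  rw [mem_nonunits_gaussVal]
  exact ⟨fun h => h ▸ sRed_gaussRes hA τ hτ x, gaussRes_eq hA τ hτ⟩

end Pull

/-- The reduction does not see `t ↦ ξ t` for `ξ ^ q = 1`. -/
theorem sRed_twist {y : LaurentSeries Qbar} {z : LaurentSeries (IsLocalRing.ResidueField A)}
    (h : SRed (IsLocalRing.residue A) y z) {ξ : Qbarˣ} (hξ : ξ ^ q = 1) :
    SRed (IsLocalRing.residue A) (twist ξ y) z := by
  have hξ' : (ξ : Qbar) ^ q = 1 := by rw [← Units.val_pow_eq_pow_val, hξ, Units.val_one]
  set r : A := ⟨ξ, mem_of_pow_eq_one hA hq.out.ne_zero hξ'⟩ with hr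
  have hrq : r ^ q = 1 := Subtype.ext hξ'
  set u : Aˣ := (IsUnit.of_pow_eq_one hrq hq.out.ne_zero).unit with hu'
  have hu : Units.map (A.subtype : A →* Qbar) u = ξ := Units.ext (by
    show ((IsUnit.of_pow_eq_one hrq hq.out.ne_zero).unit : A).1 = ξ
    rw [IsUnit.unit_spec])
  have hu1 : Units.map (IsLocalRing.residue A : A →* IsLocalRing.ResidueField A) u = 1 :=
    Units.ext (by
      show IsLocalRing.residue A ((IsUnit.of_pow_eq_one hrq hq.out.ne_zero).unit : A) = 1
      rw [IsUnit.unit_spec]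
      exact residue_root_eq_one hA hrq)
  obtain ⟨a, b, hb, hy, hz⟩ := h
  refine ⟨twist u a, twist u b, ?_, ?_, ?_⟩
  · rwa [coeffMap_twist, hu1, ModPoly.twist_one_unit]
  · rw [coeffMap_twist, coeffMap_twist, hu, ← map_mul, hy]
  · rw [coeffMap_twist, coeffMap_twist, hu1, ModPoly.twist_one_unit, ModPoly.twist_one_unit, hz]

/-- The reduction does not see inertia on the coefficients. -/
theorem sRed_inertia {y : LaurentSeries Qbar} {z : LaurentSeries (IsLocalRing.ResidueField A)}
    (h : SRed (IsLocalRing.residue A) y z) {σ : Γℚ} (hσ : σ ∈ A.inertiaSubgroupIn ℚ) :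
    SRed (IsLocalRing.residue A) (coeffMap (σ : Qbar →+* Qbar) y) z := by
  have hd := (Frobenius.mem_inertiaSubgroupIn_iff.1 hσ).2
  have hmem : ∀ a ∈ A, σ a ∈ A := fun a ha => by
    simpa using A.add_mem _ _ (A.nonunits_subset (hd a ha)) ha
  have h2 := h.map (σ : Qbar →+* Qbar) (RingHom.id _) hmem fun a => by
    rw [RingHom.id_apply, ← sub_eq_zero, ← map_sub, residue_eq_zero_iff' hA]
    exact hd a a.2
  rwa [show coeffMap (RingHom.id (IsLocalRing.ResidueField A)) z = z from HahnSeries.ext rfl] at h2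

/-- A substitution and an element of inertia change an element with a reduction by a nonunit. -/
theorem sRed_sub_transform {y : LaurentSeries Qbar} {z : LaurentSeries (IsLocalRing.ResidueField A)}
    (h : SRed (IsLocalRing.residue A) y z) {ξ : Qbarˣ} (hξ : ξ ^ q = 1) {σ : Γℚ}
    (hσ : σ ∈ A.inertiaSubgroupIn ℚ) :
    SRed (IsLocalRing.residue A) (twist ξ (coeffMap (σ : Qbar →+* Qbar) y) - y) 0 := by
  simpa using (sRed_twist hA (sRed_inertia hA h hσ) hξ).sub h

omit hA in
theorem twist_algebraMap (ξ : Qbarˣ) (c : Qbar) :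
    twist ξ (algebraMap Qbar (LaurentSeries Qbar) c) = algebraMap Qbar (LaurentSeries Qbar) c := by
  rw [algebraMap_laurentSeries_eq_single, ModPoly.twist_single]
  simp

theorem exists_sRed_ratio {η : Qbar} (hη : IsPrimitiveRoot η q) (σ : Γℚ) :
    ∃ c : A, IsLocalRing.residue A c ≠ 0 ∧ IsLocalRing.residue A c ^ (q - 1) = 1 ∧
      σ (η - 1) = (c : Qbar) * (η - 1) := by
  haveI : NeZero q := ⟨hq.out.ne_zero⟩
  haveI := charP_residueField hA
  obtain ⟨d, hdlt, hd⟩ := hη.eq_pow_of_pow_eq_one (ξ := σ η) (by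
    rw [← map_pow, hη.pow_eq_one, map_one])
  have hd0 : d ≠ 0 := fun h0 => (hη.map_of_injective σ.injective).ne_one hq.out.one_lt (by
    rw [← hd, h0, pow_zero])
  set ηA : A := ⟨η, mem_of_pow_eq_one hA hq.out.ne_zero hη.pow_eq_one⟩
  refine ⟨∑ i ∈ Finset.range d, ηA ^ i, ?_, ?_, ?_⟩
  · simp only [map_sum, map_pow, residue_root_eq_one hA (η := ηA) (Subtype.ext hη.pow_eq_one),
      one_pow, Finset.sum_const, Finset.card_range, nsmul_eq_mul, mul_one]
    exact natCast_residue_ne_zero hA fun h => absurd (Nat.le_of_dvd (Nat.pos_of_ne_zero hd0) h)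
      (not_le.2 hdlt)
  · simp only [map_sum, map_pow, residue_root_eq_one hA (η := ηA) (Subtype.ext hη.pow_eq_one),
      one_pow, Finset.sum_const, Finset.card_range, nsmul_eq_mul, mul_one]
    have h1 : (d : ZMod q) ^ (q - 1) = 1 := ZMod.pow_card_sub_one_eq_one (by
      rw [Ne, ZMod.natCast_eq_zero_iff]
      exact fun h => absurd (Nat.le_of_dvd (Nat.pos_of_ne_zero hd0) h) (not_le.2 hdlt))
    simpa using congrArg (ZMod.castHom dvd_rfl (IsLocalRing.ResidueField A)) h1
  · push_cast
    rw [geom_sum_mul, map_sub, map_one, ← hd]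

/-- The `(q - 1)`-th power of the ratio reduces to `1`. -/
theorem sRed_transform_ratio {y : LaurentSeries Qbar} (hy : y ∈ fracRam q A) (hy0 : y ≠ 0)
    {ξ : Qbarˣ} (hξ : ξ ^ q = 1) {σ : Γℚ} (hσ : σ ∈ A.inertiaSubgroupIn ℚ) :
    ∃ z, z ^ (q - 1) = 1 ∧
      SRed (IsLocalRing.residue A) (twist ξ (coeffMap (σ : Qbar →+* Qbar) y) / y) z := by
  obtain ⟨η, hη⟩ := exists_eta (q := q)
  obtain ⟨n, w, z, hz, hw, rfl⟩ := exists_lead hA hη hy hy0
  obtain ⟨c, hc0, hc1, hc⟩ := exists_sRed_ratio hA hη σ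
  have hπ : (η : Qbar) - 1 ≠ 0 := sub_ne_zero.2 (hη.ne_one hq.out.one_lt)
  have hcu : IsUnit c := by rwa [← IsLocalRing.residue_ne_zero_iff_isUnit]
  obtain ⟨u, rfl⟩ := hcu
  have hcn : SRed (IsLocalRing.residue A)
      (algebraMap Qbar (LaurentSeries Qbar) (((u : A) : Qbar) ^ n))
      (algebraMap (IsLocalRing.ResidueField A) _ (IsLocalRing.residue A (u : A) ^ n)) := by
    convert Semistable.sRed_algebraMap (π := IsLocalRing.residue A) ((u ^ n : Aˣ) : A) using 2
    · exact (map_zpow ((Units.coeHom Qbar).comp (Units.map (A.subtype : A →* Qbar))) u n).symm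
    · exact (map_zpow ((Units.coeHom _).comp (Units.map
        (IsLocalRing.residue A : A →* IsLocalRing.ResidueField A))) u n).symm
  refine ⟨algebraMap (IsLocalRing.ResidueField A) _ (IsLocalRing.residue A (u : A) ^ n), ?_, ?_⟩
  · rw [← map_pow, ← zpow_natCast, ← zpow_mul, mul_comm, zpow_mul, zpow_natCast, hc1, one_zpow,
      map_one]
  have h := hcn.mul ((sRed_twist hA (sRed_inertia hA hw hσ) hξ).div hw hz)
  rw [div_self hz, mul_one] at h
  convert h using 1
  have hT : twist ξ (coeffMap (σ : Qbar →+* Qbar)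
      (algebraMap Qbar (LaurentSeries Qbar) ((η - 1) ^ n))) =
      algebraMap Qbar (LaurentSeries Qbar) (((u : A) : Qbar) ^ n) *
        algebraMap Qbar (LaurentSeries Qbar) ((η - 1) ^ n) := by
    have hcm : ∀ x : Qbar, coeffMap (σ : Qbar →+* Qbar) (algebraMap Qbar (LaurentSeries Qbar) x) =
        algebraMap Qbar (LaurentSeries Qbar) (σ x) := fun x => by
      rw [algebraMap_laurentSeries_eq_single, coeffMap_single, algebraMap_laurentSeries_eq_single]
      rfl
    rw [hcm, twist_algebraMap, ← map_mul, ← mul_zpow, ← hc]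
    congr 1
    exact map_zpow₀ σ _ n
  have hp : algebraMap Qbar (LaurentSeries Qbar) ((η - 1) ^ n) ≠ 0 :=
    (_root_.map_ne_zero _).2 (zpow_ne_zero _ hπ)
  rw [map_mul, map_mul, hT]
  field_simp

end FLTAgent.LevelSq
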