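import Fermat.Agent.Hecke.DegMaps
import Fermat.Agent.TW.Flat.InertiaField
import Fermat.Agent.TW.Flat.Kummer

/-!
# The ground fields at a place over `q`

`urField A` is the fixed field of inertia at `A`, `urRing A` its valuation ring, `urRes A` the
reduction.  `ramField q A` is the fixed field of the elements of inertia fixing the `q`-th roots of
unity, `ramRing q A` its valuation ring.
-/

set_option autoImplicit false
set_option linter.style.haveILetI false
set_option linter.unusedSectionVars false
set_option synthInstance.maxHeartbeats 100000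

noncomputable section

open ModularCurve FLTAgent.Hecke IntermediateField

namespace FLTAgent.LevelSq

local notation "Qbar" => AlgebraicClosure ℚ
local notation "Γℚ" => AlgebraicClosure ℚ ≃ₐ[ℚ] AlgebraicClosure ℚ

section Defs

variable (q : ℕ) (A : ValuationSubring Qbar)

/-- The fixed field of inertia. -/
def urField : IntermediateField ℚ Qbar :=
  IntermediateField.fixedField (A.inertiaSubgroupIn ℚ)

/-- The valuation ring of the inertia field. -/
def urRing : ValuationSubring (urField A) :=
  A.comap (algebraMap (urField A) Qbar)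

theorem mem_urRing {x : urField A} : x ∈ urRing A ↔ (x : Qbar) ∈ A := Iff.rfl

/-- The inclusion in the valuation ring of `ℚ̄`. -/
def urIncl : urRing A →+* A :=
  ((algebraMap (urField A) Qbar).comp (urRing A).subtype).codRestrict A.toSubring fun x => x.2

theorem coe_urIncl (a : urRing A) : (urIncl A a : Qbar) = ((a : urField A) : Qbar) := rfl

/-- The reduction of constants. -/
def urRes : urRing A →+* IsLocalRing.ResidueField A := (IsLocalRing.residue A).comp (urIncl A)

theorem urRes_apply (a : urRing A) : urRes A a = IsLocalRing.residue A (urIncl A a) := rfl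

/-- The elements of inertia fixing the `q`-th roots of unity. -/
def ramGroup : Subgroup Γℚ :=
  A.inertiaSubgroupIn ℚ ⊓ (IntermediateField.adjoin ℚ {x : Qbar | x ^ q = 1}).fixingSubgroup

/-- The field `urField A (μ_q)`. -/
def ramField : IntermediateField ℚ Qbar := IntermediateField.fixedField (ramGroup q A)

/-- The valuation ring of `ramField q A`. -/
def ramRing : ValuationSubring (ramField q A) :=
  A.comap (algebraMap (ramField q A) Qbar)

theorem urField_le_ramField : urField A ≤ ramField q A := fun x hx => by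
  rw [ramField, IntermediateField.mem_fixedField_iff]
  exact fun σ hσ => (IntermediateField.mem_fixedField_iff _ _).1 hx σ hσ.1

instance urRamAlgebra : Algebra (urField A) (ramField q A) :=
  (IntermediateField.inclusion (urField_le_ramField q A)).toRingHom.toAlgebra

theorem coe_urRamAlgebraMap (x : urField A) :
    ((algebraMap (urField A) (ramField q A) x : ramField q A) : Qbar) = (x : Qbar) := rfl

instance : IsScalarTower (urField A) (ramField q A) Qbar :=
  IsScalarTower.of_algebraMap_eq fun _ => rfl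

instance urRamIsAlgebraic : Algebra.IsAlgebraic (urField A) (ramField q A) :=
  haveI : Algebra.IsAlgebraic ℚ Qbar := AlgebraicClosure.isAlgebraic ℚ
  haveI : Algebra.IsAlgebraic (urField A) Qbar := Algebra.IsAlgebraic.tower_top (K := ℚ) (urField A)
  ⟨fun x => (isAlgebraic_algHom_iff (IsScalarTower.toAlgHom (urField A) (ramField q A) Qbar)
    Subtype.val_injective).1 (Algebra.IsAlgebraic.isAlgebraic (x : Qbar))⟩

/-- `urRing A → ramRing q A`. -/
def urRamIncl : urRing A →+* ramRing q A :=
  ((algebraMap (urField A) (ramField q A)).comp (urRing A).subtype).codRestrict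
    (ramRing q A).toSubring fun x => x.2

variable (N : ℕ)

instance (priority := 2000) urFieldAlgebraMF : Algebra (urField A) (MF (urField A) N) :=
  SubalgebraClass.toAlgebra (MF (urField A) N)

instance (priority := 2000) urAlgebraMF : Algebra (urRing A) (MF (urField A) N) :=
  ((algebraMap (urField A) (MF (urField A) N)).comp
    (algebraMap (urRing A) (urField A))).toAlgebra

instance (priority := 2000) urTowerMF : IsScalarTower (urRing A) (urField A) (MF (urField A) N) :=
  IsScalarTower.of_algebraMap_eq fun _ => rfl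

/-- A function of level `N` over the inertia field, expanded over `ℚ̄`. -/
def toSeriesQbar : MF (urField A) N →+* LaurentSeries Qbar :=
  (coeffMap (algebraMap (urField A) Qbar)).comp (MF (urField A) N).val.toRingHom

theorem toSeriesQbar_apply (x : MF (urField A) N) :
    toSeriesQbar A N x = coeffMap (algebraMap (urField A) Qbar) (x : LaurentSeries (urField A)) :=
  rfl

theorem toSeriesQbar_injective : Function.Injective (toSeriesQbar A N) :=
  (toSeriesQbar A N).injective

end Defs

section Facts

open TW.Flat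

variable {q : ℕ} [hq : Fact q.Prime] {A : ValuationSubring Qbar} (hA : A.LiesOverPrime q)
include hA

theorem exists_nm :
    ∃ 𝔓 : LocalPlace q, 𝔓.P = A ∧ 𝔓.K₀ = urField A := by
  obtain ⟨𝔓, h⟩ := exists_localPlace (p := q) hA
  exact ⟨𝔓, h, by rw [LocalPlace.K₀, urField, ← h]⟩

theorem natCast_mem_nonunits : (q : Qbar) ∈ A.nonunits := hA

/-- Every element of the inertia field is a power of `q` times a unit. -/
theorem exists_unit_mul_zpow {x : urField A} (hx : x ≠ 0) :
    ∃ (n : ℤ) (u : (urRing A)ˣ), x = ((u : urRing A) : urField A) * (q : urField A) ^ n := by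
  obtain ⟨𝔓, rfl, hK⟩ := exists_nm hA
  have hx' : (x : Qbar) ≠ 0 := fun h => hx (Subtype.ext h)
  obtain ⟨n, hn⟩ := 𝔓.exists_zpow_of_mem_K₀ (by rw [hK]; exact x.2) hx'
  set y : urField 𝔓.P := x * (q : urField 𝔓.P) ^ n with hy
  have hq0 : (q : urField 𝔓.P) ≠ 0 := Nat.cast_ne_zero.2 hq.out.ne_zero
  have hnm : 𝔓.nm (y : Qbar) = 1 := by
    have hcast : ((y : urField 𝔓.P) : Qbar) = (x : Qbar) * (q : Qbar) ^ n := by
      rw [hy]
      push_cast
      rfl
    rw [hcast, map_mul, map_zpow₀, hn, 𝔓.nm_p, inv_zpow,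
      mul_inv_cancel₀ (zpow_ne_zero _ (Nat.cast_ne_zero.2 hq.out.ne_zero))]
  have hy1 : y ∈ urRing 𝔓.P := (𝔓.mem_iff _).2 hnm.le
  have hy2 : y⁻¹ ∈ urRing 𝔓.P := by
    refine (𝔓.mem_iff _).2 ?_
    rw [map_inv₀, map_inv₀]
    exact (inv_eq_one.2 hnm).le
  have hy0 : y ≠ 0 := mul_ne_zero hx (zpow_ne_zero _ hq0)
  refine ⟨-n, ⟨⟨y, hy1⟩, ⟨y⁻¹, hy2⟩, Subtype.ext (mul_inv_cancel₀ hy0),
    Subtype.ext (inv_mul_cancel₀ hy0)⟩, ?_⟩
  show x = y * _
  rw [hy, mul_assoc, ← zpow_add₀ hq0, add_neg_cancel, zpow_zero, mul_one]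

theorem not_isUnit_natCast_urRing : ¬ IsUnit (q : urRing A) := by
  intro h
  have h' := h.map (urIncl A)
  rw [map_natCast] at h'
  obtain ⟨w, hw, hwq⟩ : ∃ w ∈ IsLocalRing.maximalIdeal A, (w : Qbar) = (q : Qbar) := by
    have hq' := natCast_mem_nonunits hA
    rw [← SetLike.mem_coe, ← ValuationSubring.image_maximalIdeal] at hq'
    exact hq'
  exact hw ((show w = (q : A) from Subtype.ext (by simpa using hwq)) ▸ h')

/-- `urRing A` is a discrete valuation ring with uniformiser `q`. -/
theorem exists_unit_mul_pow_ur {a : urRing A} (ha : a ≠ 0) :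
    ∃ (n : ℕ) (u : (urRing A)ˣ), a = u * (q : urRing A) ^ n := by
  obtain ⟨n, u, hu⟩ := exists_unit_mul_zpow hA (x := (a : urField A)) fun h => ha (Subtype.ext h)
  rcases n with n | n
  · exact ⟨n, u, Subtype.ext (by simpa using hu)⟩
  · exfalso
    refine not_isUnit_natCast_urRing hA (isUnit_of_dvd_unit ?_ u.isUnit)
    refine ⟨(q : urRing A) ^ n * a, Subtype.ext ?_⟩
    have hq0 : (q : urField A) ≠ 0 := Nat.cast_ne_zero.2 hq.out.ne_zero
    push_cast
    rw [hu, zpow_negSucc, ← mul_assoc, ← pow_succ']
    field_simp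

theorem irreducible_natCast_urRing : Irreducible (q : urRing A) := by
  refine ⟨not_isUnit_natCast_urRing hA, fun a b hab => ?_⟩
  have hq0 : (q : urRing A) ≠ 0 := fun h => hq.out.ne_zero
    (Nat.cast_eq_zero.1 (show (q : urField A) = 0 by simpa using congrArg Subtype.val h))
  obtain ⟨m, u, rfl⟩ := exists_unit_mul_pow_ur hA (a := a) fun h => hq0 (by rw [hab, h, zero_mul])
  obtain ⟨n, v, rfl⟩ := exists_unit_mul_pow_ur hA (a := b) fun h => hq0 (by rw [hab, h, mul_zero])
  rcases Nat.eq_zero_or_pos m with rfl | hm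
  · exact Or.inl (by simp)
  rcases Nat.eq_zero_or_pos n with rfl | hn
  · exact Or.inr (by simp)
  refine absurd ?_ (not_isUnit_natCast_urRing hA)
  have h2 : (q : urRing A) * ((u * v : (urRing A)ˣ) * (q : urRing A) ^ (m + n - 1)) = q := by
    conv_rhs => rw [hab]
    rw [Units.val_mul, mul_mul_mul_comm, ← pow_add, mul_left_comm, ← pow_succ',
      Nat.sub_add_cancel (by omega)]
  have h3 := mul_left_cancel₀ hq0 (h2.trans (mul_one _).symm)
  exact isUnit_of_dvd_one ⟨(u * v : (urRing A)ˣ) * (q : urRing A) ^ (m + n - 2), by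
    rw [mul_left_comm, ← pow_succ', show m + n - 2 + 1 = m + n - 1 by omega, h3]⟩

theorem isDiscreteValuationRing_urRing : IsDiscreteValuationRing (urRing A) := by
  refine IsDiscreteValuationRing.ofHasUnitMulPowIrreducibleFactorization
    ⟨q, irreducible_natCast_urRing hA, fun {x} hx => ?_⟩
  obtain ⟨n, u, h⟩ := exists_unit_mul_pow_ur hA hx
  exact ⟨n, u, by rw [h, mul_comm]⟩

theorem prime_natCast_urRing : Prime (q : urRing A) :=
  haveI := isDiscreteValuationRing_urRing hA
  (irreducible_natCast_urRing hA).prime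

theorem urRes_eq_zero {a : urRing A} : urRes A a = 0 ↔ (q : urRing A) ∣ a := by
  rw [urRes_apply, IsLocalRing.residue_eq_zero_iff]
  constructor
  · intro h
    rcases eq_or_ne a 0 with rfl | ha
    · exact dvd_zero _
    obtain ⟨n, u, rfl⟩ := exists_unit_mul_pow_ur hA ha
    rcases Nat.eq_zero_or_pos n with rfl | hn
    · exact absurd ((u.isUnit.mul (isUnit_one.pow 0)).map (urIncl A)) (by simpa using h)
    · exact dvd_mul_of_dvd_right (dvd_pow_self _ hn.ne') _
  · rintro ⟨b, rfl⟩
    rw [map_mul, map_natCast]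
    refine Ideal.mul_mem_right _ _ ?_
    have hq' := natCast_mem_nonunits hA
    rw [← SetLike.mem_coe, ← ValuationSubring.image_maximalIdeal] at hq'
    obtain ⟨w, hw, hwq⟩ := hq'
    rwa [show w = (q : A) from Subtype.ext (by simpa using hwq)] at hw

/-- The residue field of the inertia field is the whole residue field. -/
theorem urRes_surjective : Function.Surjective (urRes A) := by
  intro r
  obtain ⟨a, rfl⟩ := IsLocalRing.residue_surjective r
  obtain ⟨𝔓, rfl, hK⟩ := exists_nm hA
  obtain ⟨w, hw, hw1, hlt⟩ := 𝔓.exists_root_mem_K₀ ((𝔓.mem_iff _).1 a.2)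
  have hwK : w ∈ urField 𝔓.P := hK ▸ hw
  have hwp : (⟨w, hwK⟩ : urField 𝔓.P) ^ q ∈ urRing 𝔓.P := by
    refine (𝔓.mem_iff _).2 ?_
    rw [map_pow, map_pow]
    exact pow_le_one₀ (𝔓.nm_nonneg _) hw1
  refine ⟨⟨_, hwp⟩, ?_⟩
  rw [urRes_apply, ← sub_eq_zero, ← map_sub, IsLocalRing.residue_eq_zero_iff]
  have hlt' : 𝔓.nm (w ^ q - (a : Qbar)) < 1 := by
    rwa [← neg_sub, AbsoluteValue.map_neg] at hlt
  rw [← 𝔓.mem_nonunits_iff, ← SetLike.mem_coe, ← ValuationSubring.image_maximalIdeal] at hlt'
  obtain ⟨v, hv, hve⟩ := hlt'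
  convert hv
  exact Subtype.ext hve.symm

end Facts

end FLTAgent.LevelSq
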