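import Fermat.Agent.LevelSq.Charts

/-!
# A Noetherian normal ring is cut out by its primes of height one
-/

set_option autoImplicit false
set_option linter.unusedSectionVars false

noncomputable section

namespace FLTAgent.LevelSq

variable {L : Type*} [Field L] (A : Subring L)

/-- Denominators of `z`. -/
def denoms (z : L) : Ideal A where
  carrier := {a | (a : L) * z ∈ A}
  zero_mem' := by simp
  add_mem' {a b} ha hb := by
    show ((a + b : A) : L) * z ∈ A
    rw [Subring.coe_add, add_mul]; exact add_mem ha hb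
  smul_mem' r a ha := by
    show ((r * a : A) : L) * z ∈ A
    rw [Subring.coe_mul, mul_assoc]; exact mul_mem r.2 ha

theorem mem_denoms {z : L} {a : A} : a ∈ denoms A z ↔ (a : L) * z ∈ A := Iff.rfl

theorem denoms_le_mul (z : L) (s : A) : denoms A z ≤ denoms A ((s : L) * z) := fun a ha => by
  rw [mem_denoms, mul_left_comm]; exact mul_mem s.2 ha

theorem mem_denoms_mul {z : L} {s a : A} : a ∈ denoms A ((s : L) * z) ↔ a * s ∈ denoms A z := by
  rw [mem_denoms, mem_denoms, Subring.coe_mul, mul_assoc]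

variable [IsNoetherianRing A]

/-- An element having all denominators in `n` is not in the local ring of some prime of height one
contained in `n`. -/
theorem exists_prime_notMem (hint : ∀ z : L, IsIntegral A z → z ∈ A) (n : Ideal A) [n.IsPrime]
    {w : L} (hd : ∃ d : A, d ≠ 0 ∧ (d : L) * w ∈ A) (hw : denoms A w ≤ n) :
    ∃ 𝔭 : Ideal A, 𝔭.IsPrime ∧ 𝔭 ≤ n ∧ (∃ x ∈ 𝔭, x ≠ 0) ∧
      (∀ 𝔮 : Ideal A, 𝔮.IsPrime → (∃ x ∈ 𝔮, x ≠ 0) → 𝔮 ≤ 𝔭 → 𝔮 = 𝔭) ∧
      ∀ B : ValuationSubring L, (∀ a : A, (a : L) ∈ B ∧ ((a : L) ∈ B.nonunits ↔ a ∈ 𝔭)) →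
        w ∉ B := by
  classical
  obtain ⟨𝔭, ⟨z, rfl, hzw, hzn⟩, hmax⟩ := set_has_maximal_iff_noetherian.2
    (inferInstance : IsNoetherian A A)
    {I : Ideal A | ∃ z : L, denoms A z = I ∧ denoms A w ≤ I ∧ I ≤ n} ⟨_, w, rfl, le_rfl, hw⟩
  set 𝔭 := denoms A z with h𝔭
  have hmax' : ∀ z', 𝔭 ≤ denoms A z' → denoms A z' ≤ n → denoms A z' = 𝔭 := fun z' h1 h2 =>
    (eq_of_le_of_not_lt h1 (hmax _ ⟨z', rfl, hzw.trans h1, h2⟩)).symm
  have hprime : 𝔭.IsPrime := by
    refine ⟨fun h => (inferInstance : n.IsPrime).ne_top (top_le_iff.1 (h ▸ hzn)),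
      fun {a b} hab => or_iff_not_imp_left.2 fun ha => ?_⟩
    by_cases haz : denoms A ((a : L) * z) ≤ n
    · rw [← hmax' _ (denoms_le_mul A z a) haz, mem_denoms_mul, mul_comm]; exact hab
    · obtain ⟨s, hs, hsn⟩ := SetLike.not_le_iff_exists.1 haz
      rw [mem_denoms_mul, mul_comm, ← mem_denoms_mul] at hs
      refine absurd ((hmax' _ (denoms_le_mul A z s) fun c hc => ?_) ▸ hs) ha
      rw [mem_denoms_mul] at hc
      exact ((inferInstance : n.IsPrime).mem_or_mem (hzn hc)).resolve_right hsn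
  obtain ⟨d, hd0, hdw⟩ := hd
  have h𝔭0 : ∃ x ∈ 𝔭, x ≠ 0 := ⟨d, hzw hdw, hd0⟩
  obtain ⟨π, hπ, hu⟩ : ∃ π, ∃ hπ : π ∈ 𝔭, (⟨(π : L) * z, hπ⟩ : A) ∉ 𝔭 := by
    by_contra! h
    have hz : IsIntegral A z := by
      refine isIntegral_of_smul_mem_submodule (N := Submodule.map (Algebra.linearMap A L) 𝔭) ?_
        (Submodule.FG.map _ (IsNoetherian.noetherian 𝔭)) z ?_
      · obtain ⟨x, hx, hx0⟩ := h𝔭0
        refine (Submodule.ne_bot_iff _).2 ⟨(x : L), ⟨x, hx, rfl⟩, fun hc => hx0 (Subtype.ext hc)⟩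
      · rintro _ ⟨x, hx, rfl⟩
        exact ⟨_, h x hx, mul_comm (x : L) z⟩
    exact hprime.ne_top ((Ideal.eq_top_iff_one _).2 (by
      rw [h𝔭, mem_denoms, OneMemClass.coe_one, one_mul]; exact hint z hz))
  set u : A := ⟨(π : L) * z, hπ⟩
  have hπ0 : π ≠ 0 := fun h => hu (by
    rw [show u = 0 from Subtype.ext (show (π : L) * z = 0 by rw [h, ZeroMemClass.coe_zero, zero_mul])]
    exact zero_mem _)
  have hfac : ∀ a : A, a ≠ 0 → ∃ k, ∃ s t : A, s ∉ 𝔭 ∧ t ∉ 𝔭 ∧ s * a = t * π ^ k := by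
    let J : A → Ideal A := fun a =>
      { carrier := {r | ∃ s, s ∉ 𝔭 ∧ a ∣ s * r}
        zero_mem' := ⟨1, hprime.one_notMem, by simp⟩
        add_mem' := fun {x y} ⟨s, hs, hx⟩ ⟨t, ht, hy⟩ =>
          ⟨s * t, fun h => (hprime.mem_or_mem h).elim hs ht, by
            rw [mul_add]; exact dvd_add (by rw [mul_right_comm]; exact hx.mul_right t)
              (by rw [mul_assoc]; exact hy.mul_left s)⟩
        smul_mem' := fun r x ⟨s, hs, hx⟩ => ⟨s, hs, by
          rw [smul_eq_mul, mul_left_comm]; exact hx.mul_left r⟩ }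
    by_contra! hbad
    obtain ⟨_, ⟨a, ⟨ha0, ha⟩, rfl⟩, hamax⟩ := set_has_maximal_iff_noetherian.2
      (inferInstance : IsNoetherian A A)
      (J '' {a : A | a ≠ 0 ∧ ∀ k, ∀ s t : A, s ∉ 𝔭 → t ∉ 𝔭 → s * a ≠ t * π ^ k}) (by
        obtain ⟨a, ha⟩ := hbad
        exact ⟨_, a, ha, rfl⟩)
    have ha𝔭 : a ∈ 𝔭 := by
      by_contra h
      exact ha 0 1 a hprime.one_notMem h (by simp)
    let a₁ : A := ⟨(a : L) * z, ha𝔭⟩
    have hrel : u * a = a₁ * π := Subtype.ext (by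
      show (π : L) * z * a = (a : L) * z * π
      ring)
    have hu0 : u ≠ 0 := fun h => hu (h ▸ zero_mem _)
    have ha10 : a₁ ≠ 0 := fun h => mul_ne_zero hu0 ha0 (by rw [hrel, h, zero_mul])
    have hbad₁ : ∀ k, ∀ s t : A, s ∉ 𝔭 → t ∉ 𝔭 → s * a₁ ≠ t * π ^ k := fun k s t hs ht h =>
      ha (k + 1) (s * u) t (fun hc => (hprime.mem_or_mem hc).elim hs hu) ht (by
        rw [mul_assoc, hrel, ← mul_assoc, h, pow_succ, mul_assoc])
    refine hamax _ ⟨a₁, ⟨ha10, hbad₁⟩, rfl⟩ (lt_of_le_not_ge ?_ fun hle => ?_)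
    · rintro r ⟨s, hs, c, hc⟩
      exact ⟨s * u, fun h => (hprime.mem_or_mem h).elim hs hu, c * π, by
        rw [mul_right_comm, hc]; linear_combination c * hrel⟩
    · obtain ⟨s, hs, c, hc⟩ := hle (show a₁ ∈ J a₁ from ⟨1, hprime.one_notMem, by simp⟩)
      refine (hprime.mem_or_mem (?_ : s * u ∈ 𝔭)).elim hs hu
      rw [show s * u = c * π from mul_right_cancel₀ ha0 (by linear_combination s * hrel + π * hc)]
      exact Ideal.mul_mem_left _ _ hπ
  refine ⟨𝔭, hprime, hzn, h𝔭0, fun 𝔮 h𝔮 ⟨x, hx, hx0⟩ hle => le_antisymm hle fun y hy => ?_,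
    fun B hB hwB => ?_⟩
  · obtain ⟨k, s, t, hs, ht, hst⟩ := hfac x hx0
    have hπ𝔮 : π ∈ 𝔮 := h𝔮.mem_of_pow_mem k ((h𝔮.mem_or_mem (hst ▸ 𝔮.mul_mem_left s hx :
      t * π ^ k ∈ 𝔮)).resolve_left fun h => ht (hle h))
    have : u * y ∈ 𝔮 := by
      rw [show u * y = ⟨(y : L) * z, hy⟩ * π from Subtype.ext
        (show (π : L) * z * y = (y : L) * z * π by ring)]
      exact 𝔮.mul_mem_left _ hπ𝔮
    exact (h𝔮.mem_or_mem this).resolve_left fun h => hu (hle h)
  · set x : A := ⟨(d : L) * w, hdw⟩ with hx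
    rcases eq_or_ne x 0 with h0 | h0
    · have : w = 0 := (mul_eq_zero.1 (congrArg Subtype.val h0)).resolve_left fun h =>
        hd0 (Subtype.ext h)
      exact (inferInstance : n.IsPrime).ne_top ((Ideal.eq_top_iff_one _).2 (hw (by
        rw [mem_denoms, this, mul_zero]; exact zero_mem A)))
    obtain ⟨k, s, t, hs, ht, hst⟩ := hfac d hd0
    obtain ⟨j, s', t', hs', ht', hst'⟩ := hfac x h0
    have e : (s' : L) * ((t : L) * (π : L) ^ k) * w = (s : L) * ((t' : L) * (π : L) ^ j) := by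
      have h1 := congrArg Subtype.val hst
      have h2 := congrArg Subtype.val hst'
      simp only [Subring.coe_mul, SubmonoidClass.coe_pow, hx] at h1 h2
      rw [← h1, ← h2]; ring
    have hπL : (π : L) ≠ 0 := fun h => hπ0 (Subtype.ext h)
    by_cases hkj : k ≤ j
    · obtain ⟨i, rfl⟩ := Nat.exists_eq_add_of_le hkj
      have hmem : s' * t ∈ 𝔭 := hzw (by
        rw [mem_denoms, show ((s' * t : A) : L) * w = ((s * t' * π ^ i : A) : L) by
          simp only [Subring.coe_mul, SubmonoidClass.coe_pow]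
          refine mul_right_cancel₀ (pow_ne_zero k hπL) ?_
          rw [pow_add] at e
          linear_combination e]
        exact SetLike.coe_mem _)
      exact (hprime.mem_or_mem hmem).elim hs' ht
    · obtain ⟨i, rfl⟩ := Nat.exists_eq_add_of_lt (not_le.1 hkj)
      have hv : (s : L) * (t' : L) = (s' : L) * (t : L) * (π : L) ^ i * (π : L) * w := by
        refine mul_right_cancel₀ (pow_ne_zero j hπL) ?_
        rw [pow_succ, pow_add] at e
        linear_combination -e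
      have hn : (s : L) * (t' : L) ∈ B.nonunits := by
        rw [hv, mul_assoc, mul_comm (π : L)]
        refine B.mem_nonunits_iff.2 ?_
        rw [map_mul, map_mul]
        exact mul_lt_one_of_nonneg_of_lt_one_right
          (B.valuation_le_one_iff _ |>.2 (mul_mem (mul_mem (hB s').1 (hB t).1) (pow_mem (hB π).1 i)))
          zero_le (mul_lt_one_of_nonneg_of_lt_one_right (B.valuation_le_one_iff _ |>.2 hwB) zero_le
            (B.mem_nonunits_iff.1 ((hB π).2.2 hπ)))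
      rcases hprime.mem_or_mem ((hB (s * t')).2.1 (by rw [Subring.coe_mul]; exact hn)) with h | h
      exacts [hs h, ht' h]

end FLTAgent.LevelSq
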