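import Fermat.Agent.LevelSq.Kummer
import Fermat.Agent.LevelSq.Normal

/-!
# Balanced products of conjugates of a function with divisible orders are powers

`f` has orders divisible by `m`, `ι p` are embeddings of `F` over the chart coordinate into `L`,
and `c` has sum zero on every class of embeddings that are residually equal, up to an `e`-th root of
unity, at a vertical valuation. Then `∏ (ι p f) ^ c p` is an `m`-th power in `L`: its residue at a
vertical valuation is an `e`-th root of unity, the same at all branches through one closed point.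
No divisibility of the orders of `f` at the vertical valuations is needed.
-/

set_option autoImplicit false
set_option linter.style.haveILetI false
set_option linter.unusedSectionVars false

noncomputable section

open Polynomial IntermediateField Finset ModularCurve

namespace FLTAgent.LevelSq

section Units

variable {L : Type*} [Field L] (V : ValuationSubring L)

/-- Units of `V`. -/
def IsVUnit (x : L) : Prop := x ≠ 0 ∧ x ∈ V ∧ x⁻¹ ∈ V

/-- One-units of `V`. -/
def IsVOne (x : L) : Prop := IsVUnit V x ∧ x - 1 ∈ V.nonunits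

variable {V}

theorem IsVUnit.one : IsVUnit V (1 : L) := ⟨one_ne_zero, one_mem V, by rw [inv_one]; exact one_mem V⟩

theorem IsVUnit.mul {x y : L} (hx : IsVUnit V x) (hy : IsVUnit V y) : IsVUnit V (x * y) :=
  ⟨mul_ne_zero hx.1 hy.1, mul_mem hx.2.1 hy.2.1, by rw [mul_inv]; exact mul_mem hx.2.2 hy.2.2⟩

theorem IsVUnit.inv {x : L} (hx : IsVUnit V x) : IsVUnit V x⁻¹ :=
  ⟨inv_ne_zero hx.1, hx.2.2, by rw [inv_inv]; exact hx.2.1⟩

theorem IsVUnit.zpow {x : L} (hx : IsVUnit V x) : ∀ k : ℤ, IsVUnit V (x ^ k) := by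
  have hn : ∀ n : ℕ, IsVUnit V (x ^ n) := fun n => by
    induction n with
    | zero => rw [pow_zero]; exact IsVUnit.one
    | succ n ih => rw [pow_succ]; exact ih.mul hx
  intro k
  obtain ⟨n, rfl | rfl⟩ := Int.eq_nat_or_neg k
  · rw [zpow_natCast]; exact hn n
  · rw [zpow_neg, zpow_natCast]; exact (hn n).inv

theorem IsVUnit.pow {x : L} (hx : IsVUnit V x) (n : ℕ) : IsVUnit V (x ^ n) := by
  simpa using hx.zpow (n : ℤ)

theorem IsVUnit.prod {α : Type*} (s : Finset α) {x : α → L} (h : ∀ i ∈ s, IsVUnit V (x i)) :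
    IsVUnit V (∏ i ∈ s, x i) :=
  Finset.prod_induction _ (IsVUnit V) (fun _ _ => IsVUnit.mul) IsVUnit.one h

theorem IsVOne.one : IsVOne V (1 : L) := ⟨IsVUnit.one, by rw [sub_self]; exact V.nonunits.zero_mem⟩

theorem IsVOne.mul {x y : L} (hx : IsVOne V x) (hy : IsVOne V y) : IsVOne V (x * y) := by
  refine ⟨hx.1.mul hy.1, ?_⟩
  rw [show x * y - 1 = x * (y - 1) + (x - 1) by ring]
  exact V.nonunits.add_mem (nonunits_mul hx.1.2.1 hy.2) hx.2

theorem IsVOne.inv {x : L} (hx : IsVOne V x) : IsVOne V x⁻¹ := by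
  refine ⟨hx.1.inv, ?_⟩
  rw [show x⁻¹ - 1 = -x⁻¹ * (x - 1) by have := hx.1.1; field_simp; ring]
  exact nonunits_mul (neg_mem hx.1.2.2) hx.2

theorem IsVOne.zpow {x : L} (hx : IsVOne V x) : ∀ k : ℤ, IsVOne V (x ^ k) := by
  have hn : ∀ n : ℕ, IsVOne V (x ^ n) := fun n => by
    induction n with
    | zero => rw [pow_zero]; exact IsVOne.one
    | succ n ih => rw [pow_succ]; exact ih.mul hx
  intro k
  obtain ⟨n, rfl | rfl⟩ := Int.eq_nat_or_neg k
  · rw [zpow_natCast]; exact hn n
  · rw [zpow_neg, zpow_natCast]; exact (hn n).inv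

theorem IsVOne.prod {α : Type*} (s : Finset α) {x : α → L} (h : ∀ i ∈ s, IsVOne V (x i)) :
    IsVOne V (∏ i ∈ s, x i) :=
  Finset.prod_induction _ (IsVOne V) (fun _ _ => IsVOne.mul) IsVOne.one h

end Units

section Weights

variable {P α L : Type*} [Fintype P] [DecidableEq α] [Field L]

/-- A function of the classes has trivial balanced product. -/
theorem prod_zpow_comp_eq_one (cls : P → α) (c : P → ℤ)
    (hc : ∀ k, ∑ p ∈ univ.filter (fun p => cls p = k), c p = 0) (y : α → L)
    (hy : ∀ p, y (cls p) ≠ 0) : ∏ p, y (cls p) ^ c p = 1 := by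
  classical
  have hsum : ∀ (s : Finset P) {x : L}, x ≠ 0 → ∏ p ∈ s, x ^ c p = x ^ ∑ p ∈ s, c p := by
    intro s x hx
    induction s using Finset.induction_on with
    | empty => simp
    | @insert a t ha ih => rw [prod_insert ha, sum_insert ha, zpow_add₀ hx, ih]
  rw [← prod_fiberwise_of_maps_to (t := univ.image cls) (g := cls)
    fun p hp => mem_image_of_mem cls hp]
  refine prod_eq_one fun k hk => ?_
  obtain ⟨p₀, -, rfl⟩ := mem_image.1 hk
  rw [prod_congr rfl (g := fun p => y (cls p₀) ^ c p) fun p hp => by rw [(mem_filter.1 hp).2],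
    hsum _ (hy p₀), hc, zpow_zero]

end Weights

variable {O K F L : Type*} [CommRing O] [IsDomain O] [IsDiscreteValuationRing O] [Field K]
  [Algebra O K] [IsFractionRing O K] [Field F] [Algebra K F] [Algebra O F] [IsScalarTower O K F]
  [Field L] [Algebra K L] [Algebra O L] [IsScalarTower O K L]
  {q : O} {φ : F} {φL : L} {P : Type*} [Fintype P]

/-- At the vertical valuation `V` the embeddings fall into classes with residually equal members on
which the weights have sum zero. -/
def IsBalancedAt (ι : P → F →ₐ[K] L) (c : P → ℤ) (e : ℕ) (V : ValuationSubring L) : Prop :=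
  ∃ cls : P → ℕ, (∀ k, ∑ p ∈ univ.filter (fun p => cls p = k), c p = 0) ∧
    ∀ p p', cls p = cls p' → ∀ z : F,
      (z ≠ 0 → ι p' z / ι p z ∈ V ∧ (ι p' z / ι p z) ^ e - 1 ∈ V.nonunits) ∧
      (ι p z ∈ V → ι p' z - ι p z ∈ V.nonunits)

section Classes

variable {ι : P → F →ₐ[K] L} {c : P → ℤ} {e : ℕ} {V : ValuationSubring L} {cls : P → ℕ}
  (hsum : ∀ k, ∑ p ∈ univ.filter (fun p => cls p = k), c p = 0)
  (hres : ∀ p p', cls p = cls p' → ∀ z : F,
    (z ≠ 0 → ι p' z / ι p z ∈ V ∧ (ι p' z / ι p z) ^ e - 1 ∈ V.nonunits) ∧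
    (ι p z ∈ V → ι p' z - ι p z ∈ V.nonunits))

include hsum in
theorem prod_eq_prod_ratio (x : P → F) (hx0 : ∀ p, x p ≠ 0)
    (hx : ∀ p p', cls p = cls p' → x p = x p') :
    ∃ r : P → P, (∀ p, cls (r p) = cls p) ∧
      ∏ p, (ι p (x p)) ^ c p = ∏ p, (ι p (x p) / ι (r p) (x p)) ^ c p := by
  classical
  rcases isEmpty_or_nonempty P with hP | hP
  · exact ⟨id, fun _ => rfl, by simp⟩
  refine ⟨fun p => Function.invFun cls (cls p), fun p => Function.invFun_eq ⟨p, rfl⟩, ?_⟩
  have hι0 : ∀ p p', ι p (x p') ≠ 0 := fun p p' => by simpa using hx0 p'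
  have h1 : ∏ p, (ι (Function.invFun cls (cls p)) (x p)) ^ c p = 1 := by
    rw [← prod_zpow_comp_eq_one cls c hsum
      (fun k => ι (Function.invFun cls k) (x (Function.invFun cls k))) fun p => hι0 _ _]
    exact Finset.prod_congr rfl fun p _ => by rw [hx _ _ (Function.invFun_eq ⟨p, rfl⟩)]
  simp only [div_zpow, Finset.prod_div_distrib, h1, div_one]

include hres in
theorem isVUnit_ratio {p p' : P} (h : cls p = cls p') {z : F} (hz : z ≠ 0) :
    IsVUnit V (ι p' z / ι p z) :=
  ⟨div_ne_zero (by simpa using hz) (by simpa using hz), ((hres p p' h z).1 hz).1,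
    by rw [inv_div]; exact ((hres p' p h.symm z).1 hz).1⟩

include hsum hres in
/-- The balanced product of a function of the classes is a unit whose `e`-th power is a one-unit. -/
theorem isVUnit_prod (x : P → F) (hx0 : ∀ p, x p ≠ 0)
    (hx : ∀ p p', cls p = cls p' → x p = x p') :
    IsVUnit V (∏ p, (ι p (x p)) ^ c p) ∧ IsVOne V ((∏ p, (ι p (x p)) ^ c p) ^ e) := by
  obtain ⟨r, hr, h⟩ := prod_eq_prod_ratio hsum (ι := ι) x hx0 hx
  rw [h]
  refine ⟨IsVUnit.prod _ fun p _ => (isVUnit_ratio hres (hr p) (hx0 p)).zpow _, ?_⟩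
  rw [← Finset.prod_pow]
  refine IsVOne.prod _ fun p _ => ?_
  rw [← zpow_natCast, ← zpow_mul, mul_comm, zpow_mul, zpow_natCast]
  exact IsVOne.zpow ⟨(isVUnit_ratio hres (hr p) (hx0 p)).pow e,
    ((hres (r p) p (hr p) (x p)).1 (hx0 p)).2⟩ _

include hsum hres in
/-- For units the balanced product is a one-unit. -/
theorem isVOne_prod (x : P → F) (hxu : ∀ p, IsVUnit V (ι p (x p)))
    (hx : ∀ p p', cls p = cls p' → x p = x p') : IsVOne V (∏ p, (ι p (x p)) ^ c p) := by
  have hx0 : ∀ p, x p ≠ 0 := fun p h => (hxu p).1 (by rw [h, map_zero])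
  obtain ⟨r, hr, h⟩ := prod_eq_prod_ratio hsum (ι := ι) x hx0 hx
  rw [h]
  refine IsVOne.prod _ fun p _ => IsVOne.zpow ⟨isVUnit_ratio hres (hr p) (hx0 p), ?_⟩ _
  have hru : IsVUnit V (ι (r p) (x p)) := by
    rw [hx p (r p) (hr p).symm]; exact hxu (r p)
  rw [div_sub_one hru.1, div_eq_inv_mul]
  exact nonunits_mul hru.2.2 ((hres (r p) p (hr p) (x p)).2 hru.2.1)

end Classes

theorem isMaximal_comap_embChart (i : F →ₐ[K] L) (hi : i φ = φL) (n' : Ideal (chart O φL))
    [n'.IsMaximal] : ∃ (j : chart O φ →ₐ[O] chart O φL),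
      (∀ z, (j z : L) = i (z : F)) ∧ (n'.comap j).IsMaximal := by
  subst hi
  letI : Algebra F L := i.toRingHom.toAlgebra
  haveI : IsScalarTower O F L := IsScalarTower.of_algebraMap_eq fun a => by
    rw [IsScalarTower.algebraMap_apply O K F, IsScalarTower.algebraMap_apply O K L]
    exact (i.commutes _).symm
  exact ⟨chartMap (L := L) φ, fun z => rfl, isMaximal_comap_chartMap (L := L) φ n'⟩

theorem isVert_comap_emb (i : F →ₐ[K] L) (hi : i φ = φL) {V : ValuationSubring L}
    (hV : IsVert O q φL V) : IsVert O q φ (V.comap i.toRingHom) := by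
  subst hi
  letI : Algebra F L := i.toRingHom.toAlgebra
  haveI : IsScalarTower O F L := IsScalarTower.of_algebraMap_eq fun a => by
    rw [IsScalarTower.algebraMap_apply O K F, IsScalarTower.algebraMap_apply O K L]
    exact (i.commutes _).symm
  exact comap_isVert (L := L) hV

theorem isVUnit_comap (i : F →ₐ[K] L) {V : ValuationSubring L} {z : F}
    (hz : IsVUnit (V.comap i.toRingHom) z) : IsVUnit V (i z) :=
  ⟨by simpa using hz.1, hz.2.1, by rw [← map_inv₀]; exact hz.2.2⟩

universe uW uK' uT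

variable {W : Type uW} [CommRing W] [IsDomain W] [IsDiscreteValuationRing W] {K' : Type uK'}
  [Field K'] [Algebra W K'] [Algebra K K'] {m : ℕ} {ζ : O}

/-- An element which is a unit at the verticals and at the horizontal valuations through a closed
point of the chart is a quotient of two elements invertible at the point. -/
theorem exists_mul_eq_of_units [CharZero K] (hq : Prime q) (hφ : Transcendental O φL)
    [FiniteDimensional K⟮φL⟯ L] (n : Ideal (chart O φL)) [n.IsPrime] {w : L} (hw0 : w ≠ 0)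
    (hvert : ∀ V, IsVert O q φL V → (∀ z : chart O φL, (z : L) ∈ V.nonunits → z ∈ n) →
      IsVUnit V w)
    (hhor : ∀ B : ValuationSubring L, (∀ x : K, algebraMap K L x ∈ B) →
      (∀ z : chart O φL, (z : L) ∈ B) → (∀ z : chart O φL, (z : L) ∈ B.nonunits → z ∈ n) →
      IsVUnit B w) :
    ∃ a b : chart O φL, a ∉ n ∧ b ∉ n ∧ (b : L) * w = (a : L) := by
  classical
  haveI : CharZero K⟮φL⟯ :=
    charZero_of_injective_algebraMap (algebraMap K K⟮φL⟯).injective
  haveI : Algebra.IsSeparable K⟮φL⟯ L := Algebra.IsSeparable.of_integral _ _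
  haveI : IsNoetherianRing (chart O φL).toSubring := isNoetherianRing_chart (K := K) hφ
  haveI : n.IsPrime := inferInstance
  let n' : Ideal (chart O φL).toSubring := n
  haveI : n'.IsPrime := ‹n.IsPrime›
  have hint : ∀ z : L, IsIntegral (chart O φL).toSubring z → z ∈ (chart O φL).toSubring :=
    fun z hz => (mem_chart O).2 (isIntegral_trans
      (A := integralClosure (Algebra.adjoin O ({φL} : Set L)) L) z hz)
  have hden : ∀ z : L, ∃ d : (chart O φL).toSubring, d ≠ 0 ∧
      (d : L) * z ∈ (chart O φL).toSubring := by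
    intro z
    set A := Algebra.adjoin O ({φL} : Set L)
    letI : Algebra A K⟮φL⟯ :=
      ((A.val.toRingHom).codRestrict K⟮φL⟯.toSubfield.toSubring fun x =>
        adjoin_le_adjoinField (K := K) x).toAlgebra
    haveI : IsScalarTower A K⟮φL⟯ L := IsScalarTower.of_algebraMap_eq fun _ => rfl
    haveI : FaithfulSMul A K⟮φL⟯ := (faithfulSMul_iff_algebraMap_injective _ _).2 fun x y h =>
      Subtype.ext (congrArg (fun w : K⟮φL⟯ => (w : L)) h)
    haveI : IsFractionRing A K⟮φL⟯ := by
      refine IsFractionRing.of_field A _ fun z => ?_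
      obtain ⟨r, s, h⟩ := exists_eq_div_of_mem_adjoin (O := O) z.2
      exact ⟨⟨_, aeval_mem_adjoin O φL r⟩, ⟨_, aeval_mem_adjoin O φL s⟩, Subtype.ext h⟩
    have halg : IsAlgebraic A z :=
      (IsFractionRing.isAlgebraic_iff A K⟮φL⟯ L).2 (Algebra.IsAlgebraic.isAlgebraic z)
    obtain ⟨y, hy, hyz⟩ := halg.exists_integral_multiple
    exact ⟨⟨(y : L), adjoin_le_chart O φL y.2⟩, fun h => hy (Subtype.ext (congrArg Subtype.val h :)),
      (mem_chart O).2 hyz⟩
  have key : ∀ z : L, (∀ V, IsVert O q φL V → (∀ x : chart O φL, (x : L) ∈ V.nonunits → x ∈ n) →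
      z ∈ V) → (∀ B : ValuationSubring L, (∀ x : K, algebraMap K L x ∈ B) →
      (∀ x : chart O φL, (x : L) ∈ B) → (∀ x : chart O φL, (x : L) ∈ B.nonunits → x ∈ n) →
      z ∈ B) → ¬ denoms (chart O φL).toSubring z ≤ n' := by
    intro z hv hh hle
    obtain ⟨𝔭, h𝔭, h𝔭n, -, hmin, hB⟩ :=
      exists_prime_notMem (chart O φL).toSubring hint n' (hden z) hle
    let 𝔭' : Ideal (chart O φL) := 𝔭
    haveI : 𝔭'.IsPrime := h𝔭
    by_cases hq𝔭 : algebraMap O (chart O φL) q ∈ 𝔭'
    · have hq0 : algebraMap O (chart O φL) q ≠ 0 := fun h => hq.ne_zero (by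
        have h' : algebraMap O L q = 0 := congrArg Subtype.val h
        rw [IsScalarTower.algebraMap_apply O K L, map_eq_zero] at h'
        exact (map_eq_zero_iff _ (IsFractionRing.injective O K)).1 h')
      have hmp : 𝔭' ∈ (Ideal.span {algebraMap O (chart O φL) q}).minimalPrimes :=
        ⟨⟨h𝔭, (Ideal.span_singleton_le_iff_mem _).2 hq𝔭⟩, fun 𝔮 h𝔮 hle' =>
          (hmin 𝔮 h𝔮.1 ⟨_, h𝔮.2 (Ideal.mem_span_singleton_self _), hq0⟩ hle').ge⟩
      obtain ⟨V, hV, hVc⟩ := exists_isVert_of_minimalPrime hq hφ hmp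
      exact hB V hVc (hv V hV fun x hx => h𝔭n ((hVc x).2.1 hx))
    · obtain ⟨B, hBc⟩ := exists_valuationSubring_centre (chart O φL).toSubring 𝔭
      refine hB B hBc (hh B (fun x => ?_) (fun x => (hBc x).1) fun x hx => h𝔭n ((hBc x).2.1 hx))
      obtain ⟨a, b, hb, rfl⟩ := IsFractionRing.div_surjective (A := O) x
      have hb0 : b ≠ 0 := nonZeroDivisors.ne_zero hb
      obtain ⟨k, u, rfl⟩ := IsDiscreteValuationRing.eq_unit_mul_pow_irreducible hb0 hq.irreducible
      have hnot : algebraMap O (chart O φL) ((u : O) * q ^ k) ∉ 𝔭' := by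
        rw [map_mul, map_pow]
        intro h
        rcases (‹𝔭'.IsPrime›).mem_or_mem h with h | h
        · exact (‹𝔭'.IsPrime›).ne_top
            (Ideal.eq_top_of_isUnit_mem _ h (u.isUnit.map (algebraMap O (chart O φL))))
        · exact hq𝔭 ((‹𝔭'.IsPrime›).mem_of_pow_mem _ h)
      rw [map_div₀, ← IsScalarTower.algebraMap_apply, ← IsScalarTower.algebraMap_apply,
        div_eq_mul_inv]
      refine mul_mem (hBc (algebraMap O (chart O φL) a)).1 ?_
      by_contra hc
      exact hnot ((hBc (algebraMap O (chart O φL) _)).2.1 (B.mem_nonunits_iff_or.2 (Or.inr hc)))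
  obtain ⟨b, hb, hbn⟩ := SetLike.not_le_iff_exists.1
    (key w (fun V hV h => (hvert V hV h).2.1) fun B h h' h'' => (hhor B h h' h'').2.1)
  obtain ⟨b', hb', hbn'⟩ := SetLike.not_le_iff_exists.1
    (key w⁻¹ (fun V hV h => (hvert V hV h).2.2) fun B h h' h'' => (hhor B h h' h'').2.2)
  refine ⟨⟨_, hb⟩, b, fun h => ?_, hbn, rfl⟩
  have hmem : (⟨(b : L) * w, hb⟩ : chart O φL) * ⟨(b' : L) * w⁻¹, hb'⟩ ∈ n :=
    n.mul_mem_right _ h
  rw [show (⟨(b : L) * w, hb⟩ : chart O φL) * ⟨(b' : L) * w⁻¹, hb'⟩ = (b * b' : chart O φL) from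
    Subtype.ext (by show (b : L) * w * ((b' : L) * w⁻¹) = (b : L) * (b' : L); field_simp)] at hmem
  exact ((inferInstance : n.IsPrime).mem_or_mem hmem).elim hbn hbn'

/-- An element whose `e`-th power is a one-unit is residually an `e`-th root of unity. -/
theorem exists_residue_root {V : ValuationSubring L} {x : L} {e : ℕ} (he : 0 < e) {η : L}
    (hη : IsPrimitiveRoot η e) (h : x ^ e - 1 ∈ V.nonunits) :
    ∃ i, i < e ∧ x - η ^ i ∈ V.nonunits := by
  have h6 := congrArg (Polynomial.eval x) (X_pow_sub_C_eq_prod hη he (one_pow e : (1 : L) ^ e = 1))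
  simp only [mul_one, eval_prod, eval_sub, eval_pow, eval_X, eval_C] at h6
  rw [h6, V.mem_nonunits_iff, map_prod] at h
  by_contra! hnone
  exact absurd h (not_lt.2 (Finset.one_le_prod' fun i hi => not_lt.1 fun hlt =>
    hnone i (Finset.mem_range.1 hi) (V.mem_nonunits_iff.2 hlt)))

/-- The balanced product of the conjugates of `f` is an `m`-th power. -/
theorem exists_pow_eq_of_balanced [CharZero K] (hq : Prime q) (hm : IsUnit (m : O)) (hm0 : m ≠ 0)
    (hζ : IsPrimitiveRoot ζ m) (hφ : Transcendental O φL) [FiniteDimensional K⟮φL⟯ L]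
    (ι : P → F →ₐ[K] L) (hι : ∀ p, ι p φ = φL) (c : P → ℤ) {e : ℕ} (he : IsUnit (e : O))
    (he0 : e ≠ 0) {ρ : O} (hρ : IsPrimitiveRoot (ρ ^ m) e)
    (hbal : ∀ V, IsVert O q φL V → IsBalancedAt ι c e V)
    {f : F} (hf0 : f ≠ 0)
    (hloc : ∀ n : Ideal (chart O φ), n.IsMaximal → algebraMap O (chart O φ) q ∈ n →
      ∃ g : F, g ≠ 0 ∧
        (∀ U, IsVert O q φ U → (∀ z : chart O φ, (z : F) ∈ U.nonunits → z ∈ n) →
          g ∈ U ∧ g⁻¹ ∈ U) ∧
        ∀ B : ValuationSubring F, (∀ x : K, algebraMap K F x ∈ B) →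
          (∀ z : chart O φ, (z : F) ∈ B) → (∀ z : chart O φ, (z : F) ∈ B.nonunits → z ∈ n) →
          f / g ^ m ∈ B ∧ (f / g ^ m)⁻¹ ∈ B)
    (hdivF : ∀ V : ValuationSubring F, (∀ x : K, algebraMap K F x ∈ V) →
      ∃ y u : F, f = u * y ^ m ∧ u ∈ V ∧ u⁻¹ ∈ V)
    [Algebra.IsAlgebraic K K']
    (Sd : SplitData.{_, _, _, uW, uK', uT} O K W K' φL) (hW : Function.Injective (algebraMap W K'))
    (hβ : ¬ IsUnit (Sd.β q)) (hβ0 : Sd.β q ≠ 0) (hrootW : ∀ u : Wˣ, ∃ c : W, c ^ m = u)
    (halg : ∀ x : Compl q, IsAlgebraic O x → ∃ a : O, algebraMap O (Compl q) a = x) :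
    ∃ h : L, h ^ m = ∏ p, (ι p f) ^ c p := by
  classical
  have hinjO : Function.Injective (algebraMap O L) := by
    rw [IsScalarTower.algebraMap_eq O K L]
    exact (algebraMap K L).injective.comp (IsFractionRing.injective O K)
  have hι0 : ∀ p (z : F), z ≠ 0 → ι p z ≠ 0 := fun p z hz => by simpa using hz
  set fc := ∏ p, (ι p f) ^ c p with hfc_def
  have hfc : fc ≠ 0 := Finset.prod_ne_zero_iff.2 fun p _ => zpow_ne_zero _ (hι0 p f hf0)
  choose cls hsum hres using fun V => fun hV : IsVert O q φL V => hbal V hV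
  have hone : ∀ V (hV : IsVert O q φL V), IsVUnit V fc ∧ IsVOne V (fc ^ e) := fun V hV =>
    isVUnit_prod (hsum V hV) (hres V hV) (fun _ => f) (fun _ => hf0) fun _ _ _ => rfl
  have hres' : ∀ V, IsVert O q φL V →
      ∃ i, i < e ∧ fc - algebraMap O L ((ρ ^ m) ^ i) ∈ V.nonunits := fun V hV => by
    obtain ⟨i, hi, h⟩ := exists_residue_root (Nat.pos_of_ne_zero he0)
      (hρ.map_of_injective hinjO) (hone V hV).2.2
    exact ⟨i, hi, by rwa [map_pow]⟩
  choose! iV hiV hiVres using hres'
  refine exists_pow_eq_of_glued (K := K) (q := q) hq hm hm0 hζ hφ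
    (fun V => algebraMap O L (ρ ^ iV V)) ?_ hfc ?_ Sd hW hβ hβ0 hrootW halg ?_
  · intro V hV
    refine ⟨(hone V hV).1.2.1, (hone V hV).1.2.2, ?_⟩
    rw [← map_pow, pow_right_comm, ← neg_sub]
    exact neg_mem (hiVres V hV)
  · intro n' hn' hqn'
    have hprime := hn'.isPrime
    have hj : ∀ p, ∃ j : chart O φ →ₐ[O] chart O φL, (∀ z, (j z : L) = ι p (z : F)) ∧
        (n'.comap j).IsMaximal := fun p => isMaximal_comap_embChart (ι p) (hι p) n'
    choose j hj hjmax using hj
    have hloc' : ∀ n : {n : Ideal (chart O φ) // n.IsMaximal ∧ algebraMap O (chart O φ) q ∈ n},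
        ∃ g : F, g ≠ 0 ∧
          (∀ U, IsVert O q φ U → (∀ z : chart O φ, (z : F) ∈ U.nonunits → z ∈ n.1) →
            g ∈ U ∧ g⁻¹ ∈ U) ∧
          ∀ B : ValuationSubring F, (∀ x : K, algebraMap K F x ∈ B) →
            (∀ z : chart O φ, (z : F) ∈ B) → (∀ z : chart O φ, (z : F) ∈ B.nonunits → z ∈ n.1) →
            f / g ^ m ∈ B ∧ (f / g ^ m)⁻¹ ∈ B := fun n => hloc n.1 n.2.1 n.2.2
    choose gn hgn hgnv hgnu using hloc'
    let np : P → {n : Ideal (chart O φ) // n.IsMaximal ∧ algebraMap O (chart O φ) q ∈ n} :=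
      fun p => ⟨n'.comap (j p), hjmax p, by rw [Ideal.mem_comap, AlgHom.commutes]; exact hqn'⟩
    set g' : L := ∏ p, (ι p (gn (np p))) ^ c p with hg'
    have hg0 : g' ≠ 0 := Finset.prod_ne_zero_iff.2 fun p _ => zpow_ne_zero _ (hι0 p _ (hgn _))
    have hthru' : ∀ (V : ValuationSubring L), (∀ z : chart O φL, (z : L) ∈ V.nonunits → z ∈ n') →
        ∀ p, ∀ z : chart O φ, (z : F) ∈ (V.comap (ι p).toRingHom).nonunits → z ∈ (np p).1 := by
      intro V hthru p z hz
      refine Ideal.mem_comap.2 (hthru _ ?_)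
      rw [hj p]
      rw [(V.comap _).mem_nonunits_iff_or, ValuationSubring.mem_comap] at hz
      rw [V.mem_nonunits_iff_or]
      rcases hz with hz | hz
      · exact Or.inl (by rw [hz, map_zero])
      · exact Or.inr (by rw [← map_inv₀]; exact hz)
    have hgone : ∀ V, IsVert O q φL V → (∀ z : chart O φL, (z : L) ∈ V.nonunits → z ∈ n') →
        IsVOne V g' := fun V hV hthru =>
      isVOne_prod (hsum V hV) (hres V hV) _ (fun p => isVUnit_comap (ι p)
        ⟨hgn _, hgnv _ _ (isVert_comap_emb (ι p) (hι p) hV) (hthru' V hthru p)⟩)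
        fun p p' h => by
          refine congrArg gn (Subtype.ext ((hjmax p).eq_of_le (hjmax p').ne_top fun z hz => ?_))
          rw [Ideal.mem_comap] at hz ⊢
          have hzV : ι p (z : F) ∈ V := by
            rw [← hj p]; exact (hV.chart_le' hq).1 (j p z).2
          have hd : j p' z - j p z ∈ n' := hthru _ (by
            rw [Subalgebra.coe_sub, hj, hj]; exact (hres V hV p p' h z).2 hzV)
          simpa using add_mem hd hz
    obtain ⟨a, b, ha, hb, hab⟩ := exists_mul_eq_of_units (K := K) hq hφ n'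
      (w := fc / g' ^ m) (div_ne_zero hfc (pow_ne_zero _ hg0))
      (fun V hV hthru => by
        rw [div_eq_mul_inv]
        exact (hone V hV).1.mul (((hgone V hV hthru).1.pow m).inv))
      (fun B hK hB hthru => by
        have heq : fc / g' ^ m = ∏ p, (ι p (f / gn (np p) ^ m)) ^ c p := by
          rw [hfc_def, hg', ← Finset.prod_pow, ← Finset.prod_div_distrib]
          refine Finset.prod_congr rfl fun p _ => ?_
          rw [map_div₀, map_pow, div_zpow, ← zpow_natCast, ← zpow_natCast, ← zpow_mul, ← zpow_mul,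
            mul_comm (c p)]
        rw [heq]
        refine IsVUnit.prod _ fun p _ => IsVUnit.zpow (isVUnit_comap (ι p) ?_) _
        obtain ⟨h1, h2⟩ := hgnu (np p) (B.comap (ι p).toRingHom)
          (fun x => by
            rw [ValuationSubring.mem_comap]
            show ι p (algebraMap K F x) ∈ B
            rw [AlgHom.commutes]; exact hK x)
          (fun z => by
            rw [ValuationSubring.mem_comap]
            show ι p (z : F) ∈ B
            rw [← hj p]; exact hB _)
          (hthru' B hthru p)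
        exact ⟨div_ne_zero hf0 (pow_ne_zero _ (hgn _)), h1, h2⟩)
    have hab' : (b : L) * fc = (a : L) * g' ^ m := by
      rw [← hab, mul_assoc, div_mul_cancel₀ _ (pow_ne_zero _ hg0)]
    -- the residue at a branch through `n'` is the value of `a / b`
    have hval : ∀ V, IsVert O q φL V → (∀ z : chart O φL, (z : L) ∈ V.nonunits → z ∈ n') →
        a - b * algebraMap O (chart O φL) ((ρ ^ m) ^ iV V) ∈ n' := by
      intro V hV hthru
      refine hthru _ ?_
      have hgm : IsVOne V (g' ^ m) := by simpa using (hgone V hV hthru).zpow (m : ℤ)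
      have haV : (a : L) ∈ V := (hV.chart_le' hq).1 a.2
      have hbV : (b : L) ∈ V := (hV.chart_le' hq).1 b.2
      rw [Subalgebra.coe_sub, Subalgebra.coe_mul, Subalgebra.coe_algebraMap,
        show (a : L) - (b : L) * algebraMap O L ((ρ ^ m) ^ iV V)
          = -((a : L) * (g' ^ m - 1)) + (b : L) * (fc - algebraMap O L ((ρ ^ m) ^ iV V)) by
          linear_combination -hab']
      exact V.nonunits.add_mem (neg_mem (nonunits_mul haV hgm.2))
        (nonunits_mul hbV (hiVres V hV))
    by_cases hex : ∃ V, IsVert O q φL V ∧ ∀ z : chart O φL, (z : L) ∈ V.nonunits → z ∈ n'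
    · obtain ⟨V₀, hV₀, hthru₀⟩ := hex
      refine ⟨g', a, b, algebraMap O (chart O φL) (ρ ^ iV V₀), hg0, ha, hb, hab', ?_⟩
      intro V hV hthru
      refine ⟨algebraMap O (chart O φL) (ρ ^ iV V₀), 1,
        fun h => hprime.ne_top ((Ideal.eq_top_iff_one _).2 h), ?_,
        by rw [mul_one, sub_self]; exact zero_mem _⟩
      have hi : iV V = iV V₀ := by
        refine hρ.pow_inj (hiV V hV) (hiV V₀ hV₀) ?_
        by_contra hne
        have hu := (isUnit_sub_of_isPrimitiveRoot hρ he he0 hne).map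
          (algebraMap O (chart O φL))
        have := n'.sub_mem (hval V₀ hV₀ hthru₀) (hval V hV hthru)
        rw [sub_sub_sub_cancel_left, ← mul_sub, ← map_sub] at this
        rcases hprime.mem_or_mem this with h | h
        · exact hb h
        · exact hprime.ne_top (Ideal.eq_top_of_isUnit_mem _ h hu)
      simp only [Subalgebra.coe_one, one_mul, Subalgebra.coe_algebraMap, hi]
      rw [
        show algebraMap O L (ρ ^ iV V₀) / g' - algebraMap O L (ρ ^ iV V₀)
          = algebraMap O L (ρ ^ iV V₀) * (g'⁻¹ - 1) by ring]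
      exact nonunits_mul (hV.algebraMap_mem hq _) (hgone V hV hthru).inv.2
    · exact ⟨g', a, b, 1, hg0, ha, hb, hab', fun V hV hthru => absurd ⟨V, hV, hthru⟩ hex⟩
  · intro V hV
    have h : ∀ p, ∃ y u : F, f = u * y ^ m ∧ ι p u ∈ V ∧ (ι p u)⁻¹ ∈ V := fun p => by
      obtain ⟨y, u, h1, h2, h3⟩ := hdivF (V.comap (ι p).toRingHom) fun x => by
        rw [ValuationSubring.mem_comap]
        show ι p (algebraMap K F x) ∈ V
        rw [AlgHom.commutes]; exact hV x
      exact ⟨y, u, h1, h2, by rw [← map_inv₀]; exact h3⟩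
    choose y u hyu hu hu' using h
    have hU : IsVUnit V (∏ p, (ι p (u p)) ^ c p) := IsVUnit.prod _ fun p _ =>
      IsVUnit.zpow ⟨hι0 p _ fun h0 => hf0 (by rw [hyu p, h0, zero_mul]), hu p, hu' p⟩ _
    refine ⟨∏ p, (ι p (y p)) ^ c p, ∏ p, (ι p (u p)) ^ c p, ?_, hU.2.1, hU.2.2⟩
    rw [← Finset.prod_pow, ← Finset.prod_mul_distrib]
    refine Finset.prod_congr rfl fun p _ => ?_
    rw [hyu p, map_mul, map_pow, mul_zpow, ← zpow_natCast, ← zpow_natCast, ← zpow_mul, ← zpow_mul,
      mul_comm (c p) (m : ℤ)]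

end FLTAgent.LevelSq
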