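import Fermat.Agent.LevelSq.Infinity
import Mathlib.RingTheory.PowerSeries.Inverse
import Mathlib.RingTheory.UniqueFactorizationDomain.Finite
import Mathlib.RingTheory.DiscreteValuationRing.Basic

/-!
# Roots of ratios of power series

A ratio of power series over a discrete valuation ring has an `m`-th root of the same shape as
soon as, for every valuation pulled back from a prime of the power series ring, it is a unit times
an `m`-th power.
-/

set_option autoImplicit false
set_option linter.style.haveILetI false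
set_option linter.unusedSectionVars false

noncomputable section

open Finset ModularCurve

namespace FLTAgent.LevelSq

section PowerSeriesRoot

variable {W : Type*} [CommRing W]

/-- A power series with unit constant term an `m`-th power is an `m`-th power, `m` invertible. -/
theorem exists_pow_eq_powerSeries {m : ℕ} (hm : IsUnit (m : W)) (hm0 : m ≠ 0)
    {u : PowerSeries W} {c : W} (hc : IsUnit c) (hcu : c ^ m = PowerSeries.constantCoeff u) :
    ∃ y : PowerSeries W, y ^ m = u := by
  obtain ⟨v, hv⟩ := (hm.mul (hc.pow (m - 1))).exists_right_inv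
  let step : PowerSeries W → ℕ → PowerSeries W := fun y n =>
    y + PowerSeries.monomial (n + 1) (v * PowerSeries.coeff (n + 1) (u - y ^ m))
  let seq : ℕ → PowerSeries W := fun n => Nat.rec (PowerSeries.C c) (fun k y => step y k) n
  have hsucc : ∀ n, seq (n + 1) = step (seq n) n := fun n => rfl
  have hdvd : ∀ n, PowerSeries.X ^ (n + 1) ∣ u - seq n ^ m ∧
      PowerSeries.constantCoeff (seq n) = c := by
    intro n
    induction n with
    | zero =>
      refine ⟨?_, PowerSeries.constantCoeff_C c⟩
      rw [zero_add, pow_one, PowerSeries.X_dvd_iff, map_sub, map_pow]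
      simp [seq, hcu]
    | succ n ih =>
      set y := seq n
      set e := v * PowerSeries.coeff (n + 1) (u - y ^ m)
      have hmon : PowerSeries.monomial (n + 1) e = PowerSeries.X ^ (n + 1) * PowerSeries.C e := by
        ext i
        simp [PowerSeries.coeff_monomial]
      refine ⟨?_, ?_⟩
      · obtain ⟨w, hw⟩ := ih.1
        rw [hsucc]
        show _ ∣ u - (y + PowerSeries.monomial (n + 1) e) ^ m
        rw [hmon, add_pow, ← Nat.sub_add_cancel (Nat.one_le_iff_ne_zero.2 hm0),
          Finset.sum_range_succ, Finset.sum_range_succ]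
        rw [Nat.sub_add_cancel (Nat.one_le_iff_ne_zero.2 hm0)]
        have h1 : PowerSeries.X ^ (n + 1 + 1) ∣ ∑ i ∈ range (m - 1),
            y ^ i * (PowerSeries.X ^ (n + 1) * PowerSeries.C e) ^ (m - i) * ((m.choose i : ℕ) : PowerSeries W) := by
          refine Finset.dvd_sum fun i hi => Dvd.dvd.mul_right (Dvd.dvd.mul_left ?_ _) _
          rw [mul_pow, ← pow_mul]
          refine (pow_dvd_pow _ ?_).mul_right _
          have : 2 ≤ m - i := by rw [Finset.mem_range] at hi; omega
          nlinarith
        have hlin : PowerSeries.X ^ (n + 1 + 1) ∣ u - y ^ m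
            - y ^ (m - 1) * (PowerSeries.X ^ (n + 1) * PowerSeries.C e) * (m : PowerSeries W) := by
          rw [hw, show PowerSeries.X ^ (n + 1) * w
              - y ^ (m - 1) * (PowerSeries.X ^ (n + 1) * PowerSeries.C e) * (m : PowerSeries W)
              = PowerSeries.X ^ (n + 1) * (w - y ^ (m - 1) * PowerSeries.C e * (m : PowerSeries W))
              by ring, pow_succ _ (n + 1)]
          refine mul_dvd_mul_left _ ?_
          rw [PowerSeries.X_dvd_iff, map_sub, map_mul, map_mul, map_pow, map_natCast, ih.2,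
            PowerSeries.constantCoeff_C]
          have hcoef : PowerSeries.coeff (n + 1) (u - y ^ m) = PowerSeries.constantCoeff w := by
            rw [hw, PowerSeries.coeff_X_pow_mul', if_pos le_rfl, Nat.sub_self,
              PowerSeries.coeff_zero_eq_constantCoeff_apply]
          rw [show e = v * PowerSeries.constantCoeff w by rw [← hcoef]]
          linear_combination (-(PowerSeries.constantCoeff w)) * hv
        rw [show m - (m - 1) = 1 by omega, Nat.sub_self, pow_one, pow_zero, mul_one,
          Nat.choose_self, Nat.cast_one, mul_one,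
          show ((m.choose (m - 1) : ℕ) : PowerSeries W) = (m : PowerSeries W) by
            rw [Nat.choose_symm (Nat.one_le_iff_ne_zero.2 hm0), Nat.choose_one_right]]
        convert dvd_sub hlin h1 using 1
        ring
      · rw [hsucc]
        show PowerSeries.constantCoeff (y + PowerSeries.monomial (n + 1) e) = c
        rw [map_add, ih.2, hmon, map_mul, map_pow, PowerSeries.constantCoeff_X, zero_pow
          (Nat.succ_ne_zero n), zero_mul, add_zero]
  have hstab : ∀ n k, PowerSeries.coeff n (seq (n + k)) = PowerSeries.coeff n (seq n) := by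
    intro n k
    induction k with
    | zero => rfl
    | succ k ih =>
      rw [← Nat.add_assoc, hsucc]
      show PowerSeries.coeff n (_ + PowerSeries.monomial _ _) = _
      rw [map_add, ih, PowerSeries.coeff_monomial, if_neg (by omega), add_zero]
  refine ⟨PowerSeries.mk fun n => PowerSeries.coeff n (seq n), ?_⟩
  refine PowerSeries.ext fun n => ?_
  have hY : PowerSeries.X ^ (n + 1) ∣
      (PowerSeries.mk fun n => PowerSeries.coeff n (seq n)) - seq n := by
    rw [PowerSeries.X_pow_dvd_iff]
    intro i hi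
    obtain ⟨k, rfl⟩ := Nat.exists_eq_add_of_le (Nat.lt_succ_iff.1 hi)
    rw [map_sub, PowerSeries.coeff_mk, hstab, sub_self]
  have h1 := hY.trans (sub_dvd_pow_sub_pow _ _ m)
  have h2 := PowerSeries.X_pow_dvd_iff.1 (dvd_sub h1 (hdvd n).1) n (Nat.lt_succ_self n)
  rw [show ∀ a b c : PowerSeries W, a - b - (c - b) = a - c from fun a b c => by ring, map_sub,
    sub_eq_zero] at h2
  exact h2

end PowerSeriesRoot

section Divisible

variable {R : Type*} [CommRing R] [IsDomain R] [UniqueFactorizationMonoid R]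

open scoped Classical in
/-- The multiplicity of the class of `p`. -/
def primeCount (p x : R) : ℕ :=
  ((UniqueFactorizationMonoid.factors x).map Associates.mk).count (Associates.mk p)

theorem primeCount_mul (p : R) {x y : R} (hx : x ≠ 0) (hy : y ≠ 0) :
    primeCount p (x * y) = primeCount p x + primeCount p y := by
  classical
  rw [primeCount, primeCount, primeCount, ← Multiset.count_add, ← Multiset.map_add]
  congr 1
  exact Multiset.rel_eq.1 (Multiset.rel_map.2
    ((UniqueFactorizationMonoid.factors_mul hx hy).mono fun a _ b _ h =>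
      Associates.mk_eq_mk_iff_associated.2 h))

theorem primeCount_pow (p : R) {x : R} (hx : x ≠ 0) (n : ℕ) :
    primeCount p (x ^ n) = n * primeCount p x := by
  induction n with
  | zero => simp [primeCount, UniqueFactorizationMonoid.factors_one]
  | succ n ih => rw [pow_succ, primeCount_mul p (pow_ne_zero n hx) hx, ih, Nat.succ_mul]

theorem primeCount_eq_zero {p x : R} (h : ¬ p ∣ x) : primeCount p x = 0 := by
  classical
  rcases eq_or_ne x 0 with rfl | hx
  · simp [primeCount]
  rw [primeCount, Multiset.count_eq_zero]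
  intro hmem
  obtain ⟨r, hr, hrp⟩ := Multiset.mem_map.1 hmem
  exact h ((Associates.mk_eq_mk_iff_associated.1 hrp).symm.dvd.trans
    (UniqueFactorizationMonoid.dvd_of_mem_factors hr))

/-- An element whose multiplicities are divisible by `m` is a unit times an `m`-th power. -/
theorem exists_unit_mul_pow {x : R} (hx : x ≠ 0) {m : ℕ}
    (h : ∀ p : R, Prime p → m ∣ primeCount p x) : ∃ (u : Rˣ) (d : R), x = u * d ^ m := by
  classical
  set M := (UniqueFactorizationMonoid.factors x).map Associates.mk with hM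
  obtain ⟨S, hS⟩ := Multiset.exists_smul_of_dvd_count M (k := m) fun a ha => by
    obtain ⟨r, hr, rfl⟩ := Multiset.mem_map.1 ha
    exact h r (UniqueFactorizationMonoid.prime_of_factor r hr)
  obtain ⟨d, hd⟩ := Associates.mk_surjective S.prod
  have hassoc : Associated (d ^ m) x := by
    rw [← Associates.mk_eq_mk_iff_associated, Associates.mk_pow, hd, ← Multiset.prod_nsmul, ← hS,
      hM, Associates.prod_mk]
    exact Associates.mk_eq_mk_iff_associated.2 (UniqueFactorizationMonoid.factors_prod hx)
  obtain ⟨u, hu⟩ := hassoc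
  exact ⟨u, d, by rw [← hu]; ring⟩

end Divisible

section Pullback

variable {W : Type*} [CommRing W] [IsDomain W] [IsDiscreteValuationRing W] {K' : Type*} [Field K']
  [Algebra W K'] {F : Type*} [Field F]

/-- Power series over `W` as Laurent series over `K'`. -/
def seriesIncl : PowerSeries W →+* LaurentSeries K' :=
  (coeffMap (algebraMap W K')).comp (HahnSeries.ofPowerSeries ℤ W)

theorem seriesIncl_injective (hW : Function.Injective (algebraMap W K')) :
    Function.Injective (seriesIncl (W := W) (K' := K')) := by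
  intro a b h
  refine HahnSeries.ofPowerSeries_injective (Γ := ℤ) (HahnSeries.ext (funext fun k => hW ?_))
  simpa [seriesIncl] using congrArg (fun s => s.coeff k) h

variable (hW : Function.Injective (algebraMap W K')) (τ : F →+* LaurentSeries K')
  (hfrac : ∀ z, ∃ a b : PowerSeries W, b ≠ 0 ∧ τ z * seriesIncl b = seriesIncl a)

/-- The pullback of the valuation of a prime of `W[[s]]`. -/
def pullVal {p : PowerSeries W} (hp : Prime p) : ValuationSubring F where
  carrier := {z | ∃ a b : PowerSeries W, ¬ p ∣ b ∧ τ z * seriesIncl b = seriesIncl a}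
  mul_mem' := by
    rintro x y ⟨a, b, hb, h⟩ ⟨a', b', hb', h'⟩
    exact ⟨a * a', b * b', fun hd => (hp.dvd_or_dvd hd).elim hb hb', by
      rw [map_mul, map_mul, map_mul, mul_mul_mul_comm, h, h']⟩
  one_mem' := ⟨1, 1, fun hd => hp.not_isUnit (isUnit_of_dvd_one hd), by simp⟩
  add_mem' := by
    rintro x y ⟨a, b, hb, h⟩ ⟨a', b', hb', h'⟩
    refine ⟨a * b' + a' * b, b * b', fun hd => (hp.dvd_or_dvd hd).elim hb hb', ?_⟩
    simp only [map_add, map_mul]
    linear_combination seriesIncl b' * h + seriesIncl b * h'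
  zero_mem' := ⟨0, 1, fun hd => hp.not_isUnit (isUnit_of_dvd_one hd), by simp⟩
  neg_mem' := by
    rintro x ⟨a, b, hb, h⟩
    exact ⟨-a, b, hb, by rw [map_neg, map_neg, neg_mul, h]⟩
  mem_or_inv_mem' := by
    intro z
    rcases eq_or_ne z 0 with rfl | hz
    · exact Or.inl ⟨0, 1, fun hd => hp.not_isUnit (isUnit_of_dvd_one hd), by simp⟩
    obtain ⟨a, b, hb, h⟩ := hfrac z
    have hτz : τ z ≠ 0 := (_root_.map_ne_zero τ).2 hz
    have hb' : seriesIncl b ≠ (0 : LaurentSeries K') :=
      (map_ne_zero_iff _ (seriesIncl_injective hW)).2 hb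
    have ha : a ≠ 0 := fun h0 => mul_ne_zero hτz hb' (by rw [h, h0, map_zero])
    obtain ⟨i, a₁, ha₁, rfl⟩ := WfDvdMonoid.max_power_factor ha hp.irreducible
    obtain ⟨j, b₁, hb₁, rfl⟩ := WfDvdMonoid.max_power_factor hb hp.irreducible
    have hpne : seriesIncl p ≠ (0 : LaurentSeries K') :=
      (map_ne_zero_iff _ (seriesIncl_injective hW)).2 hp.ne_zero
    rw [map_mul, map_mul, map_pow, map_pow] at h
    rcases le_total j i with hji | hij
    · refine Or.inl ⟨p ^ (i - j) * a₁, b₁, hb₁, ?_⟩
      obtain ⟨k, rfl⟩ := Nat.exists_eq_add_of_le hji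
      rw [Nat.add_sub_cancel_left, map_mul, map_pow]
      refine mul_left_cancel₀ (pow_ne_zero j hpne) ?_
      rw [pow_add] at h
      linear_combination h
    · refine Or.inr ⟨p ^ (j - i) * b₁, a₁, ha₁, ?_⟩
      obtain ⟨k, rfl⟩ := Nat.exists_eq_add_of_le hij
      rw [Nat.add_sub_cancel_left, map_mul, map_pow, map_inv₀]
      refine mul_left_cancel₀ (pow_ne_zero i hpne) ?_
      rw [pow_add] at h
      rw [← mul_assoc, mul_comm _ (τ z)⁻¹, mul_assoc, inv_mul_eq_iff_eq_mul₀ hτz]
      linear_combination -h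

theorem mem_pullVal {p : PowerSeries W} (hp : Prime p) {z : F} :
    z ∈ pullVal hW τ hfrac hp ↔
      ∃ a b : PowerSeries W, ¬ p ∣ b ∧ τ z * seriesIncl b = seriesIncl a := Iff.rfl

include hW hfrac in
/-- The root. -/
theorem exists_series_root {m : ℕ} (hm : IsUnit (m : W)) (hm0 : m ≠ 0)
    (hroot : ∀ u : Wˣ, ∃ c : W, c ^ m = u) {f : F} (hf : f ≠ 0)
    (hdiv : ∀ (p : PowerSeries W) (hp : Prime p), ∃ y u : F, f = u * y ^ m ∧
      u ∈ pullVal hW τ hfrac hp ∧ u⁻¹ ∈ pullVal hW τ hfrac hp) :
    ∃ a b : PowerSeries W, b ≠ 0 ∧ τ f * seriesIncl (b ^ m) = seriesIncl (a ^ m) := by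
  obtain ⟨a, b, hb, hab⟩ := hfrac f
  have hinj := seriesIncl_injective (K' := K') hW
  have hbK : seriesIncl b ≠ (0 : LaurentSeries K') := (map_ne_zero_iff _ hinj).2 hb
  have ha : a ≠ 0 := fun h0 => mul_ne_zero ((_root_.map_ne_zero τ).2 hf) hbK
    (by rw [hab, h0, map_zero])
  set c := a * b ^ (m - 1)
  have hc : c ≠ 0 := mul_ne_zero ha (pow_ne_zero _ hb)
  have hcount : ∀ p : PowerSeries W, Prime p → m ∣ primeCount p c := by
    intro p hp
    obtain ⟨y, u, hfu, ⟨a₁, b₁, hb₁, h₁⟩, ⟨a₂, b₂, hb₂, h₂⟩⟩ := hdiv p hp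
    obtain ⟨a₃, b₃, hb₃, h₃⟩ := hfrac y
    have hu : u ≠ 0 := fun h0 => hf (by rw [hfu, h0, zero_mul])
    have hy : y ≠ 0 := fun h0 => hf (by rw [hfu, h0, zero_pow hm0, mul_zero])
    have hprod : a₁ * a₂ = b₁ * b₂ := hinj (by
      rw [map_mul, map_mul, ← h₁, ← h₂, map_inv₀]
      field_simp [(_root_.map_ne_zero τ).2 hu])
    have ha₁ : ¬ p ∣ a₁ := fun hd => by
      have : p ∣ b₁ * b₂ := hprod ▸ hd.mul_right a₂
      exact (hp.dvd_or_dvd this).elim hb₁ hb₂
    have ha₃ : a₃ ≠ 0 := fun h0 => mul_ne_zero ((_root_.map_ne_zero τ).2 hy)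
      ((map_ne_zero_iff _ hinj).2 hb₃) (by rw [h₃, h0, map_zero])
    have key : a * b₁ * b₃ ^ m = b * a₁ * a₃ ^ m := hinj (by
      simp only [map_mul, map_pow]
      rw [← hab, ← h₁, ← h₃, hfu, map_mul, map_pow, mul_pow]
      ring)
    have hb₁0 : b₁ ≠ 0 := fun h0 => hb₁ (h0 ▸ dvd_zero p)
    have ha₁0 : a₁ ≠ 0 := fun h0 => ha₁ (h0 ▸ dvd_zero p)
    have h := congrArg (primeCount p) key
    rw [primeCount_mul p (mul_ne_zero ha hb₁0) (pow_ne_zero _ hb₃), primeCount_mul p ha hb₁0,
      primeCount_mul p (mul_ne_zero hb ha₁0) (pow_ne_zero _ ha₃), primeCount_mul p hb ha₁0,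
      primeCount_pow p hb₃, primeCount_pow p ha₃, primeCount_eq_zero hb₁,
      primeCount_eq_zero ha₁] at h
    rw [primeCount_mul p ha (pow_ne_zero _ hb), primeCount_pow p hb]
    obtain ⟨k, rfl⟩ := Nat.exists_eq_succ_of_ne_zero hm0
    have e : (primeCount p a + (k + 1 - 1) * primeCount p b) + (k + 1) * primeCount p b₃
        = (k + 1) * (primeCount p b + primeCount p a₃) := by
      simp only [Nat.succ_eq_add_one, Nat.add_sub_cancel, add_zero] at h ⊢
      linarith
    exact (Nat.dvd_add_left (dvd_mul_right _ _)).1 (e ▸ dvd_mul_right _ _)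
  obtain ⟨u, d, hud⟩ := exists_unit_mul_pow hc hcount
  obtain ⟨e, he⟩ := hroot ((u.isUnit.map (PowerSeries.constantCoeff (R := W))).unit)
  rw [IsUnit.unit_spec] at he
  obtain ⟨y, hy⟩ := exists_pow_eq_powerSeries hm hm0
    (isUnit_pow_iff hm0 |>.1 (he ▸ u.isUnit.map PowerSeries.constantCoeff)) he
  refine ⟨y * d, b, hb, ?_⟩
  rw [mul_pow, hy, ← hud, map_mul, map_pow, map_pow, ← hab, mul_assoc, ← pow_succ',
    Nat.sub_add_cancel (Nat.one_le_iff_ne_zero.2 hm0)]

end Pullback

end FLTAgent.LevelSq
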