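import Fermat.Agent.LevelSq.Connected
import Fermat.Agent.LevelSq.SeriesRoot
import Mathlib.FieldTheory.KummerExtension
import Mathlib.RingTheory.RootsOfUnity.PrimitiveRoots

/-!
# Functions with glued `m`-th roots on the special fibre are `m`-th powers

The chart at finite values of `φ` suffices: at infinity only the conjugate expansions are used.
-/

set_option autoImplicit false
set_option linter.style.haveILetI false
set_option linter.unusedSectionVars false

noncomputable section

open Polynomial IntermediateField Finset ModularCurve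

namespace FLTAgent.LevelSq

variable {O K F : Type*} [CommRing O] [IsDomain O] [IsDiscreteValuationRing O] [Field K]
  [Algebra O K] [IsFractionRing O K] [Field F] [Algebra K F] [Algebra O F] [IsScalarTower O K F]

/-- At every closed point over `q` of the chart, `f` is a unit times `g ^ m` and the residual
roots `H V / g` of the branches `V` through the point take one common value `c`. -/
def Glued (q : O) (φ ψ : F) (m : ℕ) (f : F) (H : ValuationSubring F → F) : Prop :=
  ∀ n : Ideal (chart O ψ), n.IsMaximal → algebraMap O (chart O ψ) q ∈ n →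
    ∃ (g : F) (a b c : chart O ψ), g ≠ 0 ∧ a ∉ n ∧ b ∉ n ∧ (b : F) * f = (a : F) * g ^ m ∧
      ∀ V : ValuationSubring F, IsVert O q φ V →
        (∀ z : chart O ψ, (z : F) ∈ V.nonunits → z ∈ n) →
        ∃ a' b' : chart O ψ, b' ∉ n ∧ (b' : F) * (H V / g) - (a' : F) ∈ V.nonunits ∧ a' - c * b' ∈ n

/-- Differences of distinct `m`-th roots of unity are units, `m` being a unit. -/
theorem isUnit_sub_of_isPrimitiveRoot {R : Type*} [CommRing R] [IsDomain R] {ζ : R} {m : ℕ}
    (hζ : IsPrimitiveRoot ζ m) (hm : IsUnit (m : R)) (hm0 : m ≠ 0) {i j : ℕ} (h : ζ ^ i ≠ ζ ^ j) :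
    IsUnit (ζ ^ i - ζ ^ j) := by
  have hζu : IsUnit ζ := hζ.isUnit hm0
  set ω := ζ ^ (i + (m * j - j)) with hω
  have hfac : ζ ^ i - ζ ^ j = ζ ^ j * (ω - 1) := by
    have hjm : ζ ^ j * ω = ζ ^ i := by
      rw [hω, ← pow_add, show j + (i + (m * j - j)) = i + m * j by
        have : j ≤ m * j := Nat.le_mul_of_pos_left j (Nat.pos_of_ne_zero hm0)
        omega, pow_add, pow_mul, hζ.pow_eq_one, one_pow, mul_one]
    rw [mul_sub, hjm, mul_one]
  rw [hfac]
  refine (hζu.pow j).mul (isUnit_of_dvd_unit ?_ hm)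
  have hω1 : ω ≠ 1 := fun h1 => h (sub_eq_zero.1 (by rw [hfac, h1, sub_self, mul_zero]))
  have hωm : ω ^ m = 1 := by rw [hω, ← pow_mul, mul_comm, pow_mul, hζ.pow_eq_one, one_pow]
  have hsum : ∑ k ∈ range m, ω ^ k = 0 := by
    have := geom_sum_mul ω m
    rw [hωm, sub_self] at this
    exact (mul_eq_zero.1 this).resolve_right (sub_ne_zero.2 hω1)
  refine ⟨-∑ k ∈ range m, ∑ l ∈ range k, ω ^ l, ?_⟩
  rw [mul_neg, Finset.mul_sum, eq_neg_iff_add_eq_zero]
  have : ∀ k, (ω - 1) * ∑ l ∈ range k, ω ^ l = ω ^ k - 1 := fun k => by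
    rw [mul_comm]; exact geom_sum_mul ω k
  rw [Finset.sum_congr rfl fun k _ => this k, Finset.sum_sub_distrib, hsum]
  simp

theorem comap_isVert {L : Type*} [Field L] [Algebra O L] [Algebra F L] [IsScalarTower O F L]
    {q : O} {φ : F} {P : ValuationSubring L} (h : IsVert O q (algebraMap F L φ) P) :
    IsVert O q φ (P.comap (algebraMap F L)) := by
  constructor
  · have h1 := h.q_mem
    rw [IsScalarTower.algebraMap_apply O F L, P.mem_nonunits_iff_or] at h1
    rw [(P.comap _).mem_nonunits_iff_or, ValuationSubring.mem_comap, map_inv₀]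
    exact h1.imp_left fun h1 => (algebraMap F L).injective (h1.trans (map_zero _).symm)
  · intro p hp
    have := h.unit_mem p hp
    rw [aeval_algebraMap_apply] at this
    simpa [ValuationSubring.mem_comap] using this

theorem mem_nonunits_comap {L : Type*} [Field L] [Algebra F L] {P : ValuationSubring L} {x : F} :
    x ∈ (P.comap (algebraMap F L)).nonunits ↔ algebraMap F L x ∈ P.nonunits := by
  rw [P.mem_nonunits_iff_or, (P.comap _).mem_nonunits_iff_or, ValuationSubring.mem_comap, map_inv₀,
    map_eq_zero]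

/-- A unit of a valuation ring is not a nonunit. -/
theorem not_mem_nonunits_of_inv_mem {L : Type*} [Field L] {P : ValuationSubring L} {x : L}
    (hx : x ≠ 0) (h : x⁻¹ ∈ P) : x ∉ P.nonunits := by
  rw [P.mem_nonunits_iff_or]
  tauto

/-- The chart of `F` maps to the chart of an extension. -/
def chartMap {L : Type*} [Field L] [Algebra O L] [Algebra F L] [IsScalarTower O F L] (ψ : F) :
    chart O ψ →ₐ[O] chart O (algebraMap F L ψ) :=
  ((IsScalarTower.toAlgHom O F L).comp (chart O ψ).val).codRestrict _ fun z => by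
    obtain ⟨p, hp, hz⟩ := (mem_chart O).1 z.2
    let i : Algebra.adjoin O ({ψ} : Set F) →+* Algebra.adjoin O ({algebraMap F L ψ} : Set L) :=
      (((IsScalarTower.toAlgHom O F L).comp (Algebra.adjoin O ({ψ} : Set F)).val).codRestrict _
        fun x => by
          obtain ⟨r, hr⟩ := exists_aeval_eq O x.2
          show algebraMap F L x ∈ _
          rw [← hr, ← aeval_algebraMap_apply]
          exact aeval_mem_adjoin O _ _).toRingHom
    refine (mem_chart O).2 ⟨p.map i, hp.map i, ?_⟩
    rw [eval₂_map]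
    have := congrArg (algebraMap F L) hz
    rw [hom_eval₂, map_zero] at this
    exact this

theorem coe_chartMap {L : Type*} [Field L] [Algebra O L] [Algebra F L] [IsScalarTower O F L]
    (ψ : F) (z : chart O ψ) : (chartMap (L := L) ψ z : L) = algebraMap F L z := rfl

theorem isMaximal_comap_chartMap {L : Type*} [Field L] [Algebra O L] [Algebra F L]
    [IsScalarTower O F L] (ψ : F) (n' : Ideal (chart O (algebraMap F L ψ))) [n'.IsMaximal] :
    (n'.comap (chartMap (L := L) ψ)).IsMaximal := by
  letI : Algebra (chart O ψ) (chart O (algebraMap F L ψ)) :=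
    (chartMap (L := L) ψ).toRingHom.toAlgebra
  haveI : Algebra.IsIntegral (chart O ψ) (chart O (algebraMap F L ψ)) := by
    refine ⟨fun z => ?_⟩
    obtain ⟨p, hp, hz⟩ := (mem_chart O).1 z.2
    have hsub : ∀ i, ∃ x : chart O ψ, algebraMap F L x = (p.coeff i : L) := fun i => by
      obtain ⟨r, hr⟩ := exists_aeval_eq O (p.coeff i).2
      exact ⟨⟨_, aeval_mem_chart O ψ r⟩, by rw [← hr, aeval_algebraMap_apply]⟩
    choose x hx using hsub
    refine ⟨X ^ p.natDegree + ∑ i : Fin p.natDegree, Polynomial.C (x i) * X ^ (i : ℕ),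
      monic_X_pow_add (degree_sum_fin_lt _), Subtype.ext ?_⟩
    rw [eval₂_eq_sum_range, Finset.sum_range_succ, hp.coeff_natDegree, map_one, one_mul] at hz
    rw [eval₂_add, eval₂_X_pow, eval₂_finsetSum]
    simp only [eval₂_mul, eval₂_C, eval₂_X_pow, RingHom.algebraMap_toAlgebra, Subalgebra.coe_add,
      SubmonoidClass.coe_pow, AlgHom.toRingHom_eq_coe, RingHom.coe_coe,
      AddSubmonoidClass.coe_finsetSum, Subalgebra.coe_mul, coe_chartMap, hx, ZeroMemClass.coe_zero]
    rw [Fin.sum_univ_eq_sum_range (fun i => (p.coeff i : L) * (z : L) ^ i), add_comm]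
    exact hz
  exact Ideal.isMaximal_comap_of_isIntegral_of_isMaximal n'

universe uW uK' uT

variable {q : O} {φ f : F} {m : ℕ} {ζ : O} {W : Type uW} [CommRing W] [IsDomain W]
  [IsDiscreteValuationRing W] {K' : Type uK'} [Field K'] [Algebra W K'] [Algebra K K']

include K in
/-- The contradiction for an extension with a nontrivial automorphism of the root. -/
theorem false_of_rotation (hq : Prime q) (hm : IsUnit (m : O)) (hm0 : m ≠ 0)
    (hζ : IsPrimitiveRoot ζ m) (hφ : Transcendental O φ) (H : ValuationSubring F → F)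
    (hf : ∀ V, IsVert O q φ V → f ∈ V ∧ f⁻¹ ∈ V ∧ H V ^ m - f ∈ V.nonunits) (hf0 : f ≠ 0)
    (h1 : Glued q φ φ m f H) [Algebra.IsAlgebraic K K']
    (halg : ∀ x : Compl q, IsAlgebraic O x → ∃ a : O, algebraMap O (Compl q) a = x)
    {L : Type*} [Field L] [Algebra O L] [Algebra K L] [Algebra F L] [IsScalarTower O F L]
    [IsScalarTower K F L] [IsScalarTower O K L]
    [FiniteDimensional K⟮algebraMap F L φ⟯ L] [Algebra.IsSeparable K⟮algebraMap F L φ⟯ L]
    (Sd : SplitData.{_, _, _, uW, uK', uT} O K W K' (algebraMap F L φ))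
    (hW : Function.Injective (algebraMap W K')) (hβ : ¬ IsUnit (Sd.β q)) (hβ0 : Sd.β q ≠ 0)
    {h : L} (hh : h ^ m = algebraMap F L f) (σ : L ≃ₐ[F] L) {t : ℕ}
    (hσ : σ h = algebraMap O L (ζ ^ t) * h) (ht : ζ ^ t ≠ 1) : False := by
  let φ' : L := algebraMap F L φ
  have hφ' : Transcendental O φ' := fun h' =>
    hφ ((isAlgebraic_algebraMap_iff (algebraMap F L).injective).1 h')
  have hφ0 : φ ≠ 0 := fun h' => hφ (h' ▸ isAlgebraic_zero)
  have hh0 : h ≠ 0 := fun h' => hf0 ((algebraMap F L).injective (by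
    rw [map_zero, ← hh, h', zero_pow hm0]))
  -- units
  have hunit : ∀ P : ValuationSubring L, IsVert O q φ' P → h ∈ P ∧ h⁻¹ ∈ P := by
    intro P hP
    obtain ⟨h3, h4, -⟩ := hf _ (comap_isVert hP)
    rw [ValuationSubring.mem_comap] at h3 h4
    rw [map_inv₀] at h4
    rw [← hh] at h3 h4
    rw [← inv_pow] at h4
    constructor <;> [skip; skip] <;> rw [← P.valuation_le_one_iff] at *
    · exact (pow_le_one_iff hm0).1 (by rw [← map_pow]; exact h3)
    · exact (pow_le_one_iff hm0).1 (by rw [← map_pow]; exact h4)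
  have hOmem : ∀ P : ValuationSubring L, IsVert O q φ' P → ∀ a : O, algebraMap O L a ∈ P :=
    fun P hP a => hP.algebraMap_mem hq a
  have hOunit : ∀ P : ValuationSubring L, IsVert O q φ' P → ∀ a : O, IsUnit a →
      algebraMap O L a ∉ P.nonunits := by
    intro P hP a ha hmem
    obtain ⟨u, rfl⟩ := ha
    refine one_not_mem_nonunits P ?_
    have := nonunits_mul (hOmem P hP ↑u⁻¹) hmem
    rwa [← map_mul, Units.inv_mul, map_one] at this
  -- labels
  have hlabel : ∀ P : ValuationSubring L, IsVert O q φ' P →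
      ∃ i, h - algebraMap O L (ζ ^ i) * algebraMap F L (H (P.comap (algebraMap F L)))
        ∈ P.nonunits := by
    intro P hP
    obtain ⟨-, -, h5⟩ := hf _ (comap_isVert hP)
    rw [mem_nonunits_comap, map_sub, map_pow, ← hh] at h5
    set x := algebraMap F L (H (P.comap (algebraMap F L)))
    have hinjO : Function.Injective (algebraMap O L) := by
      rw [IsScalarTower.algebraMap_eq O K L]
      exact (algebraMap K L).injective.comp (IsFractionRing.injective O K)
    have hprod : h ^ m - x ^ m = ∏ i ∈ range m, (h - algebraMap O L (ζ ^ i) * x) := by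
      have h6 := congrArg (Polynomial.eval h) (X_pow_sub_C_eq_prod
        (hζ.map_of_injective hinjO) (Nat.pos_of_ne_zero hm0) (rfl : x ^ m = x ^ m))
      simpa [eval_prod] using h6
    have hpm : (∏ i ∈ range m, (h - algebraMap O L (ζ ^ i) * x)) ∈ P.nonunits := by
      rw [← hprod, ← neg_sub]; exact neg_mem h5
    rw [P.mem_nonunits_iff, map_prod] at hpm
    by_contra! hnone
    exact absurd hpm (not_lt.2 (Finset.one_le_prod' fun i _ => not_lt.1 fun hlt =>
      hnone i (P.mem_nonunits_iff.2 hlt)))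
  obtain ⟨P₁, hP₁⟩ : ∃ P₁ : ValuationSubring L, IsVert O q φ' P₁ := by
    haveI := isNoetherianRing_chart (K := K) hφ'
    haveI := isIntegrallyClosed_adjoin hφ'
    have hne : Ideal.span {algebraMap O (chart O φ') q} ≠ ⊤ := by
      rw [Ne, Ideal.span_singleton_eq_top]
      intro hu
      obtain ⟨r, hr⟩ := hu.exists_left_inv
      have hrq : (r : L) * algebraMap O L q = 1 := congrArg Subtype.val hr
      set A := Algebra.adjoin O ({φ'} : Set L)
      letI : Algebra A K⟮φ'⟯ :=
        ((A.val.toRingHom).codRestrict K⟮φ'⟯.toSubfield.toSubring fun x =>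
          adjoin_le_adjoinField (K := K) x).toAlgebra
      haveI : IsScalarTower A K⟮φ'⟯ L := IsScalarTower.of_algebraMap_eq fun _ => rfl
      haveI : FaithfulSMul A K⟮φ'⟯ := (faithfulSMul_iff_algebraMap_injective _ _).2 fun x y hxy =>
        Subtype.ext (congrArg (fun w : K⟮φ'⟯ => (w : L)) hxy)
      haveI : IsFractionRing A K⟮φ'⟯ := by
        refine IsFractionRing.of_field A _ fun z => ?_
        obtain ⟨r, s, hz⟩ := exists_eq_div_of_mem_adjoin (O := O) z.2
        exact ⟨⟨_, aeval_mem_adjoin O φ' r⟩, ⟨_, aeval_mem_adjoin O φ' s⟩, Subtype.ext hz⟩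
      have hrK : (r : L) ∈ K⟮φ'⟯ := by
        rw [eq_inv_of_mul_eq_one_left hrq, IsScalarTower.algebraMap_apply O K L]
        exact inv_mem (IntermediateField.algebraMap_mem _ _)
      have hint : IsIntegral A (⟨r, hrK⟩ : K⟮φ'⟯) :=
        (isIntegral_algHom_iff (IsScalarTower.toAlgHom A K⟮φ'⟯ L) Subtype.val_injective).1 r.2
      obtain ⟨w, hw⟩ := IsIntegrallyClosed.isIntegral_iff.1 hint
      obtain ⟨p, hp⟩ := exists_aeval_eq O w.2
      have hwr : aeval φ' p = (r : L) := hp.trans (congrArg Subtype.val hw)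
      have h7 : C q * p = 1 := (transcendental_iff_injective.1 hφ')
        (by rw [map_mul, aeval_C, map_one, hwr, mul_comm]; exact hrq)
      exact hq.not_isUnit (isUnit_C.1 (IsUnit.of_mul_eq_one _ h7))
    obtain ⟨𝔭, h𝔭⟩ := Ideal.nonempty_minimalPrimes hne
    obtain ⟨P, hP, -⟩ := exists_isVert_of_minimalPrime hq hφ' h𝔭
    exact ⟨P, hP⟩
  obtain ⟨i₀, hi₀⟩ := hlabel P₁ hP₁
  set S : ValuationSubring L → Prop := fun P =>
    h - algebraMap O L (ζ ^ i₀) * algebraMap F L (H (P.comap (algebraMap F L))) ∈ P.nonunits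
    with hS
  have hsep : ∀ ψ, ψ = φ → Glued q φ ψ m f H → Separates q φ' (algebraMap F L ψ) S := by
    intro ψ hψ hG n' hn' hqn P P' hP hP' hPn hP'n hSP
    set j := chartMap (O := O) (L := L) ψ
    haveI := hn'
    haveI := isMaximal_comap_chartMap (O := O) (L := L) ψ n'
    have hqn0 : algebraMap O (chart O ψ) q ∈ n'.comap j := by
      rw [Ideal.mem_comap, AlgHom.commutes]; exact hqn
    obtain ⟨g, a, b, c, hg, ha, hb, hab, hbr⟩ := hG _ inferInstance hqn0
    have hgL : algebraMap F L g ≠ 0 := (_root_.map_ne_zero _).2 hg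
    set W := algebraMap F L b * (h / algebraMap F L g) with hWdef
    have hWm : W ^ m = algebraMap F L (a * b ^ (m - 1)) := by
      have hb' : (b : F) ^ m = b * b ^ (m - 1) := by
        rw [← pow_succ', Nat.sub_add_cancel (Nat.one_le_iff_ne_zero.2 hm0)]
      rw [hWdef, mul_pow, div_pow, hh, ← map_pow, ← map_pow, hb', map_mul, map_mul, mul_comm
        (algebraMap F L (b : F)), mul_assoc, ← mul_div_assoc, ← map_mul, hab, map_mul, mul_div_assoc,
        div_self ((_root_.map_ne_zero _).2 (pow_ne_zero m hg)), mul_one, mul_comm]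
    have hWmem : W ∈ chart O (algebraMap F L ψ) := by
      refine (mem_chart O).2 (IsIntegral.of_pow (Nat.pos_of_ne_zero hm0) ?_)
      rw [hWm]
      exact (j (a * b ^ (m - 1))).2
    set W' : chart O (algebraMap F L ψ) := ⟨W, hWmem⟩
    have hW' : W' ∉ n' := by
      intro hmem
      have h8 : j (a * b ^ (m - 1)) ∈ n' := by
        have heq : j (a * b ^ (m - 1)) = W' ^ m := Subtype.ext hWm.symm
        rw [heq]; exact Ideal.pow_mem_of_mem _ hmem m (Nat.pos_of_ne_zero hm0)
      rcases ((inferInstance : (n'.comap j).IsMaximal).isPrime.mem_or_mem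
        (Ideal.mem_comap.2 h8)) with h9 | h9
      · exact ha h9
      · exact hb ((inferInstance : (n'.comap j).IsMaximal).isPrime.mem_of_pow_mem _ h9)
    have hchart : ∀ P : ValuationSubring L, IsVert O q φ' P →
        ∀ z : chart O (algebraMap F L ψ), (z : L) ∈ P := by
      intro P hP z
      subst hψ
      exact (hP.chart_le' hq).1 z.2
    have key : ∀ (P : ValuationSubring L) (i : ℕ), IsVert O q φ' P →
        (∀ z : chart O (algebraMap F L ψ), (z : L) ∈ P.nonunits → z ∈ n') →
        h - algebraMap O L (ζ ^ i) * algebraMap F L (H (P.comap (algebraMap F L))) ∈ P.nonunits →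
        W' - algebraMap O _ (ζ ^ i) * j (b * c) ∈ n' := by
      intro P i hP hPn hPi
      set V := P.comap (algebraMap F L)
      obtain ⟨a', b', hb', hV, hac⟩ := hbr V (comap_isVert hP) (fun z hz =>
        Ideal.mem_comap.2 (hPn (j z) (mem_nonunits_comap.1 hz)))
      rw [mem_nonunits_comap, map_sub, map_mul, map_div₀] at hV
      -- `g` is a unit at `P`
      have hgP : (algebraMap F L g)⁻¹ ∈ P := by
        have hbP : algebraMap F L b ∉ P.nonunits := fun hbn => hb (Ideal.mem_comap.2 (hPn (j b) hbn))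
        have hbinv : (algebraMap F L b)⁻¹ ∈ P := by
          by_contra hc; exact hbP (P.mem_nonunits_iff_or.2 (Or.inr hc))
        have h10 : (h / algebraMap F L g) ∈ P := by
          have hb0 : algebraMap F L b ≠ 0 := fun h' => hbP (h' ▸ zero_mem _)
          have := mul_mem hbinv (hchart P hP W')
          rwa [show (algebraMap F L b)⁻¹ * W = h / algebraMap F L g by
            rw [hWdef, ← mul_assoc, inv_mul_cancel₀ hb0, one_mul]] at this
        have := mul_mem (hunit P hP).2 h10
        rwa [show h⁻¹ * (h / algebraMap F L g) = (algebraMap F L g)⁻¹ by field_simp] at this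
      have hmain : ((j b' * W' - algebraMap O _ (ζ ^ i) * j (b * a') :
          chart O (algebraMap F L ψ)) : L) ∈ P.nonunits := by
        have e : ((j b' * W' - algebraMap O _ (ζ ^ i) * j (b * a') :
            chart O (algebraMap F L ψ)) : L)
            = (algebraMap F L b * algebraMap F L b' * (algebraMap F L g)⁻¹)
              * (h - algebraMap O L (ζ ^ i) * algebraMap F L (H V))
              + (algebraMap O L (ζ ^ i) * algebraMap F L b)
              * (algebraMap F L b' * (algebraMap F L (H V) / algebraMap F L g)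
                - algebraMap F L a') := by
          show algebraMap F L b' * W - algebraMap O L (ζ ^ i) * algebraMap F L (b * a' : F) = _
          rw [map_mul, hWdef]
          ring
        rw [e]
        refine nonunits_add (nonunits_mul ?_ hPi) (nonunits_mul ?_ hV)
        · exact mul_mem (mul_mem (hchart P hP (j b)) (hchart P hP (j b'))) hgP
        · exact mul_mem (hOmem P hP _) (hchart P hP (j b))
      have h11 := hPn _ hmain
      have h12 : j (b * (a' - c * b')) ∈ n' :=
        Ideal.mem_comap.1 ((n'.comap j).mul_mem_left b hac)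
      have h13 : j b' * (W' - algebraMap O _ (ζ ^ i) * j (b * c)) ∈ n' := by
        have : j b' * (W' - algebraMap O _ (ζ ^ i) * j (b * c))
            = (j b' * W' - algebraMap O _ (ζ ^ i) * j (b * a'))
              + algebraMap O _ (ζ ^ i) * j (b * (a' - c * b')) := by
          simp only [map_mul, map_sub]; ring
        rw [this]
        exact n'.add_mem h11 (n'.mul_mem_left _ h12)
      exact (hn'.isPrime.mem_or_mem h13).resolve_left fun h' => hb' (Ideal.mem_comap.2 h')
    obtain ⟨k, hk⟩ := hlabel P' hP'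
    have e1 := key P i₀ hP hPn hSP
    have e2 := key P' k hP' hP'n hk
    by_cases hik : ζ ^ i₀ = ζ ^ k
    · show _ ∈ P'.nonunits
      rw [hik]; exact hk
    exfalso
    have hu := (isUnit_sub_of_isPrimitiveRoot hζ hm hm0 hik).map
      (algebraMap O (chart O (algebraMap F L ψ)))
    have h14 : algebraMap O (chart O (algebraMap F L ψ)) (ζ ^ i₀ - ζ ^ k) * j (b * c) ∈ n' := by
      have := n'.sub_mem e2 e1
      rwa [show W' - algebraMap O _ (ζ ^ k) * j (b * c)
          - (W' - algebraMap O _ (ζ ^ i₀) * j (b * c))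
          = algebraMap O (chart O (algebraMap F L ψ)) (ζ ^ i₀ - ζ ^ k) * j (b * c) by
        rw [map_sub]; ring] at this
    rw [Ideal.unit_mul_mem_iff_mem _ hu] at h14
    refine hW' ?_
    have := n'.add_mem e1 (n'.mul_mem_left (algebraMap O _ (ζ ^ i₀)) h14)
    rwa [sub_add_cancel] at this
  set P₂ := P₁.comap (σ : L →+* L)
  have hmemσ : ∀ x, x ∈ P₂.nonunits ↔ σ x ∈ P₁.nonunits := fun x => by
    rw [P₂.mem_nonunits_iff_or, P₁.mem_nonunits_iff_or, ValuationSubring.mem_comap]
    simp
  have hσO : ∀ x : O, σ (algebraMap O L x) = algebraMap O L x := fun x => by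
    rw [IsScalarTower.algebraMap_apply O F L, AlgEquiv.commutes]
  have hP₂ : IsVert O q φ' P₂ := by
    refine ⟨(hmemσ _).2 (by rw [hσO]; exact hP₁.q_mem), fun p hp => ?_⟩
    obtain ⟨h3, h4⟩ := hP₁.unit_mem p hp
    have he : σ (aeval φ' p) = aeval φ' p := by
      rw [aeval_algebraMap_apply, AlgEquiv.commutes]
    rw [ValuationSubring.mem_comap, ValuationSubring.mem_comap]
    simp only [RingHom.coe_coe, map_inv₀, he]
    exact ⟨h3, h4⟩
  have hcomap : P₂.comap (algebraMap F L) = P₁.comap (algebraMap F L) := by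
    ext x; simp [P₂, ValuationSubring.mem_comap]
  have hS₂ : ¬ S P₂ := by
    intro h'
    simp only [hS, hcomap] at h'
    rw [hmemσ, map_sub, map_mul, hσO, AlgEquiv.commutes, hσ] at h'
    have h15 := _root_.sub_mem h' hi₀
    rw [show algebraMap O L (ζ ^ t) * h - algebraMap O L (ζ ^ i₀)
        * algebraMap F L (H (P₁.comap (algebraMap F L))) - (h - algebraMap O L (ζ ^ i₀)
        * algebraMap F L (H (P₁.comap (algebraMap F L)))) = algebraMap O L (ζ ^ t - 1) * h by
      rw [map_sub, map_one]; ring] at h15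
    have hu : IsUnit (ζ ^ t - 1) := by
      have := isUnit_sub_of_isPrimitiveRoot hζ hm hm0 (i := t) (j := 0) (by simpa using ht)
      simpa using this
    refine hOunit P₁ hP₁ _ hu ?_
    have := nonunits_mul (hunit P₁ hP₁).2 h15
    rwa [show h⁻¹ * (algebraMap O L (ζ ^ t - 1) * h) = algebraMap O L (ζ ^ t - 1) by
      field_simp] at this
  exact false_of_separates (K := K) (S := S) hq hφ' (hsep φ rfl h1) Sd hW hβ hβ0 halg hP₁ hi₀
    hP₂ hS₂

theorem exists_mul_X_pow (x : LaurentSeries W) : ∃ (k : ℕ) (a : PowerSeries W),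
    x * HahnSeries.ofPowerSeries ℤ W (PowerSeries.X ^ k) = HahnSeries.ofPowerSeries ℤ W a := by
  refine ⟨(-x.order).toNat, PowerSeries.X ^ (x.order + (-x.order).toNat).toNat * x.powerSeriesPart,
    ?_⟩
  rw [map_mul, HahnSeries.ofPowerSeries_X_pow, HahnSeries.ofPowerSeries_X_pow]
  conv_lhs => arg 1; rw [← LaurentSeries.single_order_mul_powerSeriesPart x]
  rw [mul_right_comm,
    HahnSeries.single_mul_single, one_mul,
    Int.toNat_of_nonneg (show 0 ≤ x.order + ((-x.order).toNat : ℤ) by omega)]

namespace SplitData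

variable {L : Type*} [Field L] [Algebra O L] [Algebra K L] [IsScalarTower O K L] {ψ : L}
  (Sd : SplitData O K W K' ψ)

theorem exists_frac (t : Sd.T) (z : L) : ∃ a b : PowerSeries W, b ≠ 0 ∧
    Sd.τ t z * seriesIncl b = seriesIncl a := by
  obtain ⟨a, b, hb, h⟩ := Sd.τ_frac t z
  obtain ⟨k, a', ha'⟩ := exists_mul_X_pow a
  obtain ⟨l, b', hb'⟩ := exists_mul_X_pow b
  refine ⟨a' * PowerSeries.X ^ l, b' * PowerSeries.X ^ k,
    mul_ne_zero (fun h0 => ?_) (pow_ne_zero _ PowerSeries.X_ne_zero), ?_⟩
  · rw [h0, map_zero, mul_eq_zero, map_eq_zero_iff _ HahnSeries.ofPowerSeries_injective] at hb'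
    exact hb'.elim hb (pow_ne_zero _ PowerSeries.X_ne_zero)
  · simp only [seriesIncl, RingHom.comp_apply, map_mul]
    rw [← hb', ← ha', map_mul, map_mul]
    linear_combination (coeffMap (algebraMap W K') (HahnSeries.ofPowerSeries ℤ W (PowerSeries.X ^ l))
      * coeffMap (algebraMap W K') (HahnSeries.ofPowerSeries ℤ W (PowerSeries.X ^ k))) * h

theorem β_injective (hq : Prime q) (hβ0 : Sd.β q ≠ 0) : Function.Injective Sd.β := by
  rw [injective_iff_map_eq_zero]
  intro a ha
  by_contra h0
  obtain ⟨i, u, rfl⟩ := IsDiscreteValuationRing.eq_unit_mul_pow_irreducible h0 hq.irreducible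
  rw [map_mul, map_pow] at ha
  exact mul_ne_zero (u.isUnit.map Sd.β).ne_zero (pow_ne_zero i hβ0) ha

theorem τ_algebraMap' (t : Sd.T) (a : O) :
    Sd.τ t (algebraMap O L a) = seriesIncl (PowerSeries.C (Sd.β a)) := by
  rw [Sd.τ_algebraMap, seriesIncl, RingHom.comp_apply, HahnSeries.ofPowerSeries_C]

/-- The valuation pulled back from a prime of the power series ring is vertical or contains the
constants. -/
theorem isVert_or_forall_mem (hq : Prime q) (hW : Function.Injective (algebraMap W K'))
    (hβ : ¬ IsUnit (Sd.β q)) (hβ0 : Sd.β q ≠ 0) (t : Sd.T) {p : PowerSeries W} (hp : Prime p) :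
    IsVert O q ψ (pullVal hW (Sd.τ t) (Sd.exists_frac t) hp) ∨
      ∀ x : K, algebraMap K L x ∈ pullVal hW (Sd.τ t) (Sd.exists_frac t) hp := by
  obtain ⟨π, hπ⟩ := IsDiscreteValuationRing.exists_irreducible W
  set V := pullVal hW (Sd.τ t) (Sd.exists_frac t) hp
  have hinj := seriesIncl_injective (K' := K') hW
  by_cases hd : p ∣ PowerSeries.C π
  · left
    obtain ⟨w, hw⟩ := hd
    have hwu : IsUnit w := by
      have h := congrArg PowerSeries.constantCoeff hw
      rw [PowerSeries.constantCoeff_C, map_mul] at h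
      rw [PowerSeries.isUnit_iff_constantCoeff]
      exact (hπ.isUnit_or_isUnit h).resolve_left fun hu =>
        hp.not_isUnit (PowerSeries.isUnit_iff_constantCoeff.2 hu)
    have hdvd : ∀ {a : PowerSeries W}, p ∣ a → ∀ i, π ∣ PowerSeries.coeff i a := by
      intro a ha i
      obtain ⟨c, hc⟩ := ha
      obtain ⟨v, rfl⟩ := hwu
      refine ⟨PowerSeries.coeff i ((↑v⁻¹ : PowerSeries W) * c), ?_⟩
      rw [← PowerSeries.coeff_C_mul, ← mul_assoc, hw, mul_assoc p, Units.mul_inv, mul_one, hc]
    have hX : ∀ k, ¬ p ∣ PowerSeries.X ^ k := fun k hk => hπ.not_isUnit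
      (isUnit_of_dvd_one (by simpa using hdvd hk k))
    constructor
    · rw [V.mem_nonunits_iff_or]
      refine Or.inr fun hmem => ?_
      obtain ⟨a, b, hb, h⟩ := hmem
      have hq0 : seriesIncl (PowerSeries.C (Sd.β q)) ≠ (0 : LaurentSeries K') :=
        (map_ne_zero_iff _ hinj).2 fun h0 => hβ0 (by simpa using congrArg PowerSeries.constantCoeff h0)
      rw [map_inv₀, Sd.τ_algebraMap', inv_mul_eq_iff_eq_mul₀ hq0, ← map_mul] at h
      refine hb (hinj h ▸ dvd_mul_of_dvd_left ((Dvd.intro w hw.symm).trans ?_) a)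
      refine map_dvd PowerSeries.C ?_
      obtain ⟨e, v, hev⟩ := IsDiscreteValuationRing.eq_unit_mul_pow_irreducible hβ0 hπ
      rcases Nat.eq_zero_or_pos e with rfl | he
      · exact absurd (by rw [hev]; simp) hβ
      · rw [hev]; exact dvd_mul_of_dvd_right (dvd_pow_self π he.ne') _
    · intro r hr
      obtain ⟨j, hj⟩ := not_forall.1 (fun hall : ∀ i, q ∣ r.coeff i => hr ((Polynomial.C_dvd_iff_dvd_coeff q r).2 hall))
      set x := (r.map Sd.β).eval₂ HahnSeries.C Sd.J with hx
      obtain ⟨k, a, ha⟩ := exists_mul_X_pow x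
      have hτ : Sd.τ t (aeval ψ r) * seriesIncl (PowerSeries.X ^ k : PowerSeries W) = seriesIncl a := by
        rw [Sd.τ_aeval, seriesIncl, RingHom.comp_apply, RingHom.comp_apply, ← map_mul, ha]
      have hna : ¬ p ∣ a := by
        intro hpa
        have hxc : ∀ i : ℤ, π ∣ x.coeff i := fun i => by
          have h := congrArg (fun s => s.coeff (i + k)) ha
          rw [HahnSeries.ofPowerSeries_X_pow, HahnSeries.coeff_mul_single_add, mul_one] at h
          rw [h]
          rcases lt_or_ge (i + k) 0 with hn | hn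
          · rw [HahnSeries.ofPowerSeries_apply, HahnSeries.embDomain_of_notMem_range]
            · exact dvd_zero _
            · rintro ⟨n, hn'⟩
              simp at hn'
              omega
          · obtain ⟨n, hn'⟩ := Int.eq_ofNat_of_zero_le hn
            rw [hn', HahnSeries.ofPowerSeries_apply_coeff]
            exact hdvd hpa n
        have h2 := Sd.hJ.dvd_coeff (Polynomial.X * r.map Sd.β) π (B := 0) (fun i _ => by
          rw [eval₂_mul, eval₂_X, mul_comm, HahnSeries.coeff_mul]
          exact Finset.dvd_sum fun ij _ => (hxc ij.1).mul_right _) (j := j + 1)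
          (Nat.mul_pos (Nat.succ_pos j) Sd.hJ.pos)
        rw [coeff_X_mul, coeff_map] at h2
        obtain ⟨c, hc⟩ := h2
        rcases eq_or_ne (r.coeff j) 0 with h0 | h0
        · exact hj (h0 ▸ dvd_zero q)
        obtain ⟨i, u, hiu⟩ := IsDiscreteValuationRing.eq_unit_mul_pow_irreducible h0 hq.irreducible
        rcases Nat.eq_zero_or_pos i with rfl | hi
        · rw [hiu, pow_zero, mul_one] at hc
          exact hπ.not_isUnit (isUnit_of_dvd_unit ⟨c, hc⟩ (u.isUnit.map Sd.β))
        · exact hj (hiu ▸ dvd_mul_of_dvd_right (dvd_pow_self q hi.ne') _)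
      refine ⟨⟨a, _, hX k, hτ⟩, ⟨PowerSeries.X ^ k, a, hna, ?_⟩⟩
      have hX0 : seriesIncl (PowerSeries.X ^ k) ≠ (0 : LaurentSeries K') :=
        (map_ne_zero_iff _ hinj).2 (pow_ne_zero _ PowerSeries.X_ne_zero)
      have hne : Sd.τ t (aeval ψ r) ≠ 0 := fun h0 => hna (by
        rw [h0, zero_mul, eq_comm, map_eq_zero_iff _ hinj] at hτ
        exact hτ ▸ dvd_zero p)
      rw [map_inv₀, inv_mul_eq_iff_eq_mul₀ hne, hτ]
  · refine Or.inr fun z => ?_
    obtain ⟨a, b, hb, rfl⟩ := IsFractionRing.div_surjective (A := O) z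
    have hb0 : b ≠ 0 := nonZeroDivisors.ne_zero hb
    refine ⟨PowerSeries.C (Sd.β a), PowerSeries.C (Sd.β b), fun hdb => hd ?_, ?_⟩
    · obtain ⟨e, v, hev⟩ := IsDiscreteValuationRing.eq_unit_mul_pow_irreducible
        ((map_ne_zero_iff _ (Sd.β_injective hq hβ0)).2 hb0) hπ
      rw [hev, map_mul, map_pow, IsUnit.dvd_mul_left (v.isUnit.map PowerSeries.C)] at hdb
      exact hp.dvd_of_dvd_pow hdb
    · rw [map_div₀, ← IsScalarTower.algebraMap_apply, ← IsScalarTower.algebraMap_apply, map_div₀,
        Sd.τ_algebraMap', Sd.τ_algebraMap', div_mul_cancel₀]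
      exact (map_ne_zero_iff _ hinj).2 fun h0 => (map_ne_zero_iff _ (Sd.β_injective hq hβ0)).2 hb0
        (by simpa using congrArg PowerSeries.constantCoeff h0)

end SplitData

/-- Functions whose residual `m`-th roots glue at the points with finite `φ`, and which are `m`-th
powers up to units at every valuation trivial on constants, are `m`-th powers. -/
theorem exists_pow_eq_of_glued [CharZero K] (hq : Prime q) (hm : IsUnit (m : O)) (hm0 : m ≠ 0)
    (hζ : IsPrimitiveRoot ζ m) (hφ : Transcendental O φ) [FiniteDimensional K⟮φ⟯ F]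
    (H : ValuationSubring F → F)
    (hf : ∀ V, IsVert O q φ V → f ∈ V ∧ f⁻¹ ∈ V ∧ H V ^ m - f ∈ V.nonunits) (hf0 : f ≠ 0)
    (h1 : Glued q φ φ m f H) [Algebra.IsAlgebraic K K']
    (Sd : SplitData.{_, _, _, uW, uK', uT} O K W K' φ) (hW : Function.Injective (algebraMap W K'))
    (hβ : ¬ IsUnit (Sd.β q)) (hβ0 : Sd.β q ≠ 0) (hrootW : ∀ u : Wˣ, ∃ c : W, c ^ m = u)
    (halg : ∀ x : Compl q, IsAlgebraic O x → ∃ a : O, algebraMap O (Compl q) a = x)
    (hdivF : ∀ V : ValuationSubring F, (∀ x : K, algebraMap K F x ∈ V) →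
      ∃ y u : F, f = u * y ^ m ∧ u ∈ V ∧ u⁻¹ ∈ V) : ∃ h : F, h ^ m = f := by
  classical
  by_contra hno
  have hmW : IsUnit (m : W) := by simpa using hm.map Sd.β
  -- roots of the expansions
  have hser : ∀ t, ∃ a b : PowerSeries W, b ≠ 0 ∧
      Sd.τ t f * seriesIncl (b ^ m) = seriesIncl (a ^ m) := by
    intro t
    refine exists_series_root hW (Sd.τ t) (Sd.exists_frac t) hmW hm0 hrootW hf0 fun p hp => ?_
    rcases Sd.isVert_or_forall_mem hq hW hβ hβ0 t hp with hV | hV
    · exact ⟨1, f, by simp, (hf _ hV).1, (hf _ hV).2.1⟩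
    · exact hdivF _ hV
  choose A B hB hAB using hser
  haveI : CharZero F := charZero_of_injective_algebraMap (algebraMap K F).injective
  obtain ⟨α, hα⟩ := IsAlgClosed.exists_pow_nat_eq (algebraMap F (AlgebraicClosure F) f)
    (Nat.pos_of_ne_zero hm0)
  have hint : IsIntegral F α := IsIntegral.of_pow (Nat.pos_of_ne_zero hm0)
    (hα ▸ isIntegral_algebraMap)
  set p := minpoly F α with hp
  haveI : Fact (Irreducible p) := ⟨minpoly.irreducible hint⟩
  let L := AdjoinRoot p
  haveI : FiniteDimensional F L := (AdjoinRoot.powerBasis (minpoly.ne_zero hint)).finite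
  have hdvd : p ∣ Polynomial.X ^ m - Polynomial.C f :=
    minpoly.dvd _ _ (by rw [map_sub, map_pow, aeval_X, aeval_C, hα, sub_self])
  set r : L := AdjoinRoot.root p
  have hr : r ^ m = algebraMap F L f := by
    have h := aeval_eq_zero_of_dvd_aeval_eq_zero hdvd
      (show aeval r p = 0 by rw [AdjoinRoot.aeval_eq, AdjoinRoot.mk_self])
    rwa [map_sub, map_pow, aeval_X, aeval_C, sub_eq_zero] at h
  have hdeg : 1 < p.natDegree := by
    by_contra! hle
    have h1' : p.natDegree = 1 := le_antisymm hle (minpoly.natDegree_pos hint)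
    obtain ⟨x, hx⟩ := minpoly.natDegree_eq_one_iff.1 h1'
    exact hno ⟨x, (algebraMap F (AlgebraicClosure F)).injective (by rw [map_pow, hx, hα])⟩
  have hinjF : Function.Injective (algebraMap O F) := by
    rw [IsScalarTower.algebraMap_eq O K F]
    exact (algebraMap K F).injective.comp (IsFractionRing.injective O K)
  have hinjO : Function.Injective (algebraMap O L) := by
    rw [IsScalarTower.algebraMap_eq O F L]
    exact (algebraMap F L).injective.comp hinjF
  -- another root
  have hX : ((Polynomial.X : L[X]) ^ m - Polynomial.C (algebraMap F L f)).Splits :=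
    X_pow_sub_C_splits_of_isPrimitiveRoot (hζ.map_of_injective hinjO) hr
  have hdvdL := Polynomial.map_dvd (algebraMap F L) hdvd
  simp only [Polynomial.map_sub, Polynomial.map_pow, Polynomial.map_X, Polynomial.map_C] at hdvdL
  have hne : (Polynomial.X : L[X]) ^ m - Polynomial.C (algebraMap F L f) ≠ 0 :=
    (monic_X_pow_sub_C _ hm0).ne_zero
  have hsep : p.Separable := (minpoly.irreducible hint).separable
  obtain ⟨x, hx, hxr⟩ : ∃ x : L, (p.map (algebraMap F L)).eval x = 0 ∧ x ≠ r := by
    by_contra! hall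
    have hcard := card_rootSet_eq_natDegree (K := L) hsep (hX.of_dvd hne hdvdL)
    have hsub : p.rootSet L ⊆ {r} := fun z hz => Set.mem_singleton_iff.2 (hall z (by
      rw [eval_map_algebraMap]; exact (mem_rootSet.1 hz).2))
    have : Fintype.card (p.rootSet L) ≤ 1 := Fintype.card_le_one_iff_subsingleton.2
      ⟨fun u v => Subtype.ext ((Set.mem_singleton_iff.1 (hsub u.2)).trans
        (Set.mem_singleton_iff.1 (hsub v.2)).symm)⟩
    omega
  obtain ⟨i₁, htr⟩ : ∃ i, x = algebraMap O L (ζ ^ i) * r := by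
    have h := congrArg (Polynomial.eval x)
      (X_pow_sub_C_eq_prod (hζ.map_of_injective hinjO) (Nat.pos_of_ne_zero hm0) hr)
    have hz : (Polynomial.X ^ m - Polynomial.C (algebraMap F L f)).eval x = 0 := by
      obtain ⟨c, hc⟩ := hdvdL
      rw [hc, eval_mul, hx, zero_mul]
    rw [hz, eval_prod] at h
    obtain ⟨i, -, hi⟩ := Finset.prod_eq_zero_iff.1 h.symm
    rw [eval_sub, eval_X, eval_C, sub_eq_zero] at hi
    exact ⟨i, by rw [hi, map_pow]⟩
  let σ₀ : L →ₐ[F] L := AdjoinRoot.liftAlgHom p (Algebra.ofId F L) x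
    (by rw [show ((Algebra.ofId F L : F →ₐ[F] L) : F →+* L) = algebraMap F L from rfl,
      ← eval_map]; exact hx)
  let σ : L ≃ₐ[F] L := AlgEquiv.ofBijective σ₀
    ⟨σ₀.toRingHom.injective, LinearMap.injective_iff_surjective.1
      (show Function.Injective σ₀.toLinearMap from σ₀.toRingHom.injective)⟩
  have hσ : σ r = algebraMap O L (ζ ^ i₁) * r := by
    rw [← htr]; show σ₀ r = x; exact AdjoinRoot.liftAlgHom_root p (Algebra.ofId F L) x _
  have ht1 : ζ ^ i₁ ≠ 1 := fun h => hxr (by rw [htr, h, map_one, one_mul])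
  haveI : IsScalarTower O K L := IsScalarTower.of_algebraMap_eq fun x => by
    rw [IsScalarTower.algebraMap_apply O F L, IsScalarTower.algebraMap_apply O K F,
      ← IsScalarTower.algebraMap_apply K F L]
  -- finiteness over `K(φ)`
  letI : Algebra K⟮φ⟯ K⟮algebraMap F L φ⟯ :=
    ((((IsScalarTower.toAlgHom K F L).comp K⟮φ⟯.val).toRingHom).codRestrict
      K⟮algebraMap F L φ⟯.toSubfield.toSubring fun z => by
        obtain ⟨a, b, hz⟩ := (mem_adjoin_simple_iff K (z : F)).1 z.2
        show algebraMap F L (z : F) ∈ _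
        rw [hz, map_div₀, ← aeval_algebraMap_apply, ← aeval_algebraMap_apply]
        exact (mem_adjoin_simple_iff K _).2 ⟨a, b, rfl⟩).toAlgebra
  haveI : IsScalarTower K⟮φ⟯ K⟮algebraMap F L φ⟯ L := IsScalarTower.of_algebraMap_eq fun z => rfl
  haveI : FiniteDimensional K⟮φ⟯ L := Module.Finite.trans F L
  haveI : FiniteDimensional K⟮algebraMap F L φ⟯ L :=
    Module.Finite.of_restrictScalars_finite K⟮φ⟯ _ _
  haveI : CharZero K⟮algebraMap F L φ⟯ :=
    charZero_of_injective_algebraMap (algebraMap K K⟮algebraMap F L φ⟯).injective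
  haveI : Algebra.IsSeparable K⟮algebraMap F L φ⟯ L := Algebra.IsSeparable.of_integral _ _
  have hrank : Module.finrank K⟮algebraMap F L φ⟯ L
      = Module.finrank K⟮φ⟯ F * p.natDegree := by
    have hbij : Function.Bijective (Algebra.linearMap K⟮φ⟯ K⟮algebraMap F L φ⟯) := by
      refine ⟨(algebraMap K⟮φ⟯ K⟮algebraMap F L φ⟯).injective, fun z => ?_⟩
      obtain ⟨a, b, hz⟩ := (mem_adjoin_simple_iff K (z : L)).1 z.2
      refine ⟨⟨aeval φ a / aeval φ b, (mem_adjoin_simple_iff K _).2 ⟨a, b, rfl⟩⟩, Subtype.ext ?_⟩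
      show algebraMap F L (aeval φ a / aeval φ b) = (z : L)
      rw [hz, map_div₀, ← aeval_algebraMap_apply, ← aeval_algebraMap_apply]
    have h1' := Module.finrank_mul_finrank K⟮φ⟯ K⟮algebraMap F L φ⟯ L
    rw [← (LinearEquiv.ofBijective _ hbij).finrank_eq, Module.finrank_self, one_mul,
      ← Module.finrank_mul_finrank K⟮φ⟯ F L] at h1'
    rw [h1', PowerBasis.finrank (AdjoinRoot.powerBasis (minpoly.ne_zero hint)),
      AdjoinRoot.powerBasis_dim]
  -- the expansions of `L`
  set E := coeffMap (algebraMap W K') with hE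
  have hEinj : Function.Injective E := fun u v huv =>
    HahnSeries.ext (funext fun k => hW (by simpa [hE] using congrArg (fun s => s.coeff k) huv))
  have hroots : ∀ t : Sd.T, ∀ y : LaurentSeries K', y ∈ (p.map (Sd.τ t)).roots →
      ∃ a b : LaurentSeries W, b ≠ 0 ∧ y * E b = E a := by
    intro t y hy
    rw [Polynomial.mem_roots (Polynomial.map_ne_zero (minpoly.ne_zero hint)), IsRoot.def] at hy
    have hyz : y ^ m = Sd.τ t f := by
      obtain ⟨c, hc⟩ := Polynomial.map_dvd (Sd.τ t) hdvd
      have h' := congrArg (Polynomial.eval y) hc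
      simp only [Polynomial.map_sub, Polynomial.map_pow, Polynomial.map_X, Polynomial.map_C,
        eval_mul, eval_sub, eval_pow, eval_X, eval_C] at h'
      exact sub_eq_zero.1 (h'.trans (mul_eq_zero_of_left hy _))
    have hb : seriesIncl (B t) ≠ (0 : LaurentSeries K') :=
      (map_ne_zero_iff _ (seriesIncl_injective hW)).2 (hB t)
    have hs : (seriesIncl (A t) / seriesIncl (B t)) ^ m = Sd.τ t f := by
      rw [div_pow, div_eq_iff (pow_ne_zero _ hb), ← map_pow, ← map_pow, hAB]
    have hzero : (Polynomial.X ^ m - Polynomial.C (Sd.τ t f)).eval y = 0 := by simp [hyz]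
    rw [X_pow_sub_C_eq_prod
      (hζ.map_of_injective (f := (Sd.τ t).comp (algebraMap O F)) ((Sd.τ t).injective.comp hinjF))
      (Nat.pos_of_ne_zero hm0) hs, eval_prod] at hzero
    obtain ⟨i, -, hi⟩ := Finset.prod_eq_zero_iff.1 hzero
    rw [eval_sub, eval_X, eval_C, sub_eq_zero] at hi
    refine ⟨HahnSeries.C (Sd.β ζ) ^ i * HahnSeries.ofPowerSeries ℤ W (A t),
      HahnSeries.ofPowerSeries ℤ W (B t), (map_ne_zero_iff _ HahnSeries.ofPowerSeries_injective).2
        (hB t), ?_⟩
    rw [map_mul, map_pow, ← Sd.τ_algebraMap t, hi, RingHom.comp_apply, mul_assoc]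
    congr 1
    exact div_mul_cancel₀ _ hb
  let T' := Σ t : Sd.T, {y : LaurentSeries K' // y ∈ (p.map (Sd.τ t)).roots.toFinset}
  have hlift : ∀ s : T', p.eval₂ (Sd.τ s.1) (s.2 : LaurentSeries K') = 0 := fun s => by
    rw [← eval_map]; exact (Polynomial.mem_roots'.1 (Multiset.mem_toFinset.1 s.2.2)).2
  let τ' : T' → L →+* LaurentSeries K' := fun s => AdjoinRoot.lift (Sd.τ s.1) s.2 (hlift s)
  have hτ'F : ∀ s z, τ' s (algebraMap F L z) = Sd.τ s.1 z := fun s z => AdjoinRoot.lift_of _
  let Sd' : SplitData O K W K' (algebraMap F L φ) :=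
    { β := Sd.β
      β_compat := Sd.β_compat
      J := Sd.J
      r := Sd.r
      u := Sd.u
      hJ := Sd.hJ
      T := T'
      fin := inferInstance
      τ := τ'
      τ_φ := fun s => (hτ'F s φ).trans (Sd.τ_φ _)
      τ_K := fun s z => by rw [IsScalarTower.algebraMap_apply K F L, hτ'F, Sd.τ_K]
      τ_inj := fun s s' h => by
        have h0 : s.1 = s'.1 := Sd.τ_inj (RingHom.ext fun z => by
          rw [← hτ'F s z, ← hτ'F s' z, h])
        obtain ⟨t, y, hy⟩ := s
        obtain ⟨t', y', hy'⟩ := s'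
        subst h0
        have h2 : y = y' := (AdjoinRoot.lift_root (hlift ⟨t, y, hy⟩)).symm.trans
          ((RingHom.congr_fun h r).trans (AdjoinRoot.lift_root (hlift ⟨t, y', hy'⟩)))
        subst h2
        rfl
      card_eq := by
        rw [hrank, ← Sd.card_eq, Nat.card_sigma, Finset.sum_congr rfl
          (g := fun _ => p.natDegree) fun t _ => ?_]
        · simp [Nat.card_eq_fintype_card]
        rw [Nat.card_eq_fintype_card, Fintype.card_coe, Multiset.toFinset_card_of_nodup
          (nodup_roots (hsep.map)), ← Polynomial.natDegree_map (Sd.τ t)]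
        refine (Polynomial.splits_iff_card_roots.1 ?_)
        have hs : (seriesIncl (A t) / seriesIncl (B t)) ^ m = Sd.τ t f := by
          rw [div_pow, div_eq_iff (pow_ne_zero _ ((map_ne_zero_iff _
            (seriesIncl_injective hW)).2 (hB t))), ← map_pow, ← map_pow, hAB]
        have h3 := Polynomial.map_dvd (Sd.τ t) hdvd
        simp only [Polynomial.map_sub, Polynomial.map_pow, Polynomial.map_X, Polynomial.map_C] at h3
        exact (X_pow_sub_C_splits_of_isPrimitiveRoot (hζ.map_of_injective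
          (f := (Sd.τ t).comp (algebraMap O F)) ((Sd.τ t).injective.comp hinjF)) hs).of_dvd
          (monic_X_pow_sub_C _ hm0).ne_zero h3
      τ_frac := fun s z => by
        obtain ⟨g, rfl⟩ := AdjoinRoot.mk_surjective z
        suffices hg : ∃ a b : LaurentSeries W, b ≠ 0 ∧
            g.eval₂ (Sd.τ s.1) (s.2 : LaurentSeries K') * E b = E a from
          (AdjoinRoot.lift_mk (hlift s) g).symm ▸ hg
        induction g using Polynomial.induction_on' with
        | add g g' hg hg' =>
          obtain ⟨a, b, hb, h⟩ := hg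
          obtain ⟨a', b', hb', h'⟩ := hg'
          refine ⟨a * b' + a' * b, b * b', mul_ne_zero hb hb', ?_⟩
          rw [eval₂_add, map_add, map_mul, map_mul, map_mul]
          linear_combination E b' * h + E b * h'
        | monomial n c =>
          obtain ⟨a, b, hb, h⟩ := Sd.τ_frac s.1 c
          obtain ⟨a', b', hb', h'⟩ := hroots s.1 _ (Multiset.mem_toFinset.1 s.2.2)
          refine ⟨a * a' ^ n, b * b' ^ n, mul_ne_zero hb (pow_ne_zero _ hb'), ?_⟩
          rw [eval₂_monomial, map_mul, map_mul, map_pow, map_pow, mul_mul_mul_comm, h, ← mul_pow,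
            h'] }
  exact false_of_rotation (K := K) hq hm hm0 hζ hφ H hf hf0 h1 halg Sd' hW hβ hβ0 hr σ hσ ht1

end FLTAgent.LevelSq
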