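import Fermat.Agent.LevelSq.Crossing
import Fermat.Agent.LevelSq.SeriesRoot
import Mathlib.RingTheory.UniqueFactorizationDomain.GCDMonoid
import Mathlib.RingTheory.Polynomial.RationalRoot

/-!
# The local lemma at level `q ^ 2 * N`

Every closed point of the chart over `q` is either a point of exactly one branch with `P ≠ 0`, or
a crossing of all three branches over a zero of `P`; in both cases the local ring is factorial.
-/

set_option autoImplicit false
set_option maxHeartbeats 400000
set_option linter.style.haveILetI false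
set_option linter.unusedSectionVars false

noncomputable section

open Polynomial

namespace FLTAgent.LevelSq

section Regular

variable {S : Type*} [CommRing S] [IsDomain S] [IsNoetherianRing S] {m : Ideal S} [m.IsPrime]
  {u v : S} {Q : Ideal S} [Q.IsPrime]

theorem maximalIdeal_eq_span_of_sat (hu : u ∈ m) (hv : v ∈ m)
    (h : ∀ s ∈ m, s ∈ satAt m (Ideal.span {u, v})) :
    IsLocalRing.maximalIdeal (Localization.AtPrime m)
      = Ideal.span {algebraMap S _ u, algebraMap S _ v} := by
  rw [← Localization.AtPrime.map_eq_maximalIdeal]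
  refine le_antisymm (Ideal.map_le_iff_le_comap.2 fun s hs => ?_) ?_
  · obtain ⟨d, hd, hds⟩ := h s hs
    rw [Ideal.mem_comap, ← Ideal.unit_mul_mem_iff_mem _
      (IsLocalization.map_units (Localization.AtPrime m) (⟨d, hd⟩ : m.primeCompl)), ← map_mul]
    have h2 := Ideal.mem_map_of_mem (algebraMap S (Localization.AtPrime m)) hds
    rwa [Ideal.map_span, Set.image_pair] at h2
  · rw [Ideal.span_le]
    rintro _ (rfl | rfl) <;> exact Ideal.mem_map_of_mem _ ‹_›

/-- A saturated pair of generators and a prime through the first give factoriality. -/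
theorem ufd_localization (hu0 : u ≠ 0) (hu : u ∈ Q) (hQ : Q ≤ m) (hv : v ∈ m) (hvQ : v ∉ Q)
    (h : ∀ s ∈ m, s ∈ satAt m (Ideal.span {u, v})) :
    UniqueFactorizationMonoid (Localization.AtPrime m) := by
  haveI : IsNoetherianRing (Localization.AtPrime m) :=
    IsLocalization.isNoetherianRing m.primeCompl _ inferInstance
  haveI : IsDomain (Localization.AtPrime m) :=
    IsLocalization.isDomain_localization m.primeCompl_le_nonZeroDivisors
  have hd : Disjoint (m.primeCompl : Set S) (Q : Set S) :=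
    Set.disjoint_left.2 fun x hx hxQ => hx (hQ hxQ)
  haveI := IsLocalization.isPrime_of_isPrime_disjoint m.primeCompl (Localization.AtPrime m) Q
    inferInstance hd
  refine uniqueFactorizationMonoid_of_span_pair (maximalIdeal_eq_span_of_sat (hQ hu) hv h)
    (Q := Q.map (algebraMap S _)) (Ideal.mem_map_of_mem _ hu)
    ((map_ne_zero_iff _ (IsLocalization.injective _ m.primeCompl_le_nonZeroDivisors)).2 hu0)
    fun he => hvQ ?_
  have h2 : algebraMap S (Localization.AtPrime m) v ∈ Q.map (algebraMap S _) := by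
    rw [he, ← Localization.AtPrime.map_eq_maximalIdeal]
    exact Ideal.mem_map_of_mem _ hv
  rw [← Ideal.mem_comap] at h2
  rwa [← IsLocalization.under_map_of_isPrime_disjoint m.primeCompl (Localization.AtPrime m)
    (inferInstance : Q.IsPrime) hd]

variable {F : Type*} [Field F] [Algebra S F] [IsFractionRing S F]

/-- A factorial localisation is normal. -/
theorem exists_mul_mem_range (hufd : UniqueFactorizationMonoid (Localization.AtPrime m)) {w : F}
    (hw : IsIntegral S w) : ∃ d ∉ m, ∃ s, algebraMap S F d * w = algebraMap S F s := by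
  let ψ : Localization.AtPrime m →+* F := IsLocalization.lift (M := m.primeCompl)
    (g := algebraMap S F) fun y =>
      IsUnit.mk0 _ (IsFractionRing.to_map_ne_zero_of_mem_nonZeroDivisors
        (m.primeCompl_le_nonZeroDivisors y.2))
  letI : Algebra (Localization.AtPrime m) F := ψ.toAlgebra
  haveI : IsScalarTower S (Localization.AtPrime m) F :=
    IsScalarTower.of_algebraMap_eq fun s => (IsLocalization.lift_eq _ s).symm
  haveI : IsDomain (Localization.AtPrime m) :=
    IsLocalization.isDomain_localization m.primeCompl_le_nonZeroDivisors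
  haveI : IsFractionRing (Localization.AtPrime m) F :=
    IsFractionRing.isFractionRing_of_isDomain_of_isLocalization m.primeCompl _ _
  haveI : UniqueFactorizationMonoid (Localization.AtPrime m) := hufd
  obtain ⟨z, hz⟩ :=
    (IsIntegrallyClosed.isIntegral_iff (R := Localization.AtPrime m)).1 hw.tower_top
  obtain ⟨⟨s, d⟩, hsd⟩ := IsLocalization.surj m.primeCompl z
  refine ⟨d, d.2, s, ?_⟩
  rw [IsScalarTower.algebraMap_apply S (Localization.AtPrime m) F,
    IsScalarTower.algebraMap_apply S (Localization.AtPrime m) F s, ← hz, ← map_mul, ← hsd, mul_comm]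

end Regular

variable {O : Type} [CommRing O] [IsDomain O] [IsDiscreteValuationRing O] {q : O} {qn : ℕ}
  {FN : Type} [Field FN] [Algebra O FN] {k : Type} [Field k] [IsAlgClosed k]
  {B : BaseData O q qn FN k} {F : Type} [Field F] [Algebra O F]

namespace SqData

variable (D : SqData B F) (hq : Prime q) (hqn : qn.Prime) [IsNoetherianRing D.A]

include hq in
theorem ι_ne_const_zero (a : O) : D.ιA 0 B.h - algebraMap O _ a ∉ D.centre hq 1 := by
  intro h
  rw [centre, RingHom.mem_ker, map_sub, D.resA_algebraMap,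
    show D.resA hq 1 (D.ιA 0 B.h) = B.red B.h from D.resA_base hq 1 B.h, sub_eq_zero] at h
  exact B.euler_h_ne (by rw [h, HahnSeries.C_apply, Genus.euler_single_zero])

include hq in
theorem sub_mem_centre_one : D.ιA 2 B.h - D.ιA 0 B.h ∈ D.centre hq 1 := by
  rw [centre, RingHom.mem_ker, map_sub,
    show D.resA hq 1 (D.ιA 0 B.h) = B.red B.h from D.res_base_one B.h _ (Or.inl rfl),
    show D.resA hq 1 (D.ιA 2 B.h) = B.red B.h from D.res_base_one B.h _ (Or.inr rfl), sub_self]

variable {b : Fin 3} {n : Ideal D.A} [n.IsMaximal]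

theorem isFractionRing_gen : IsFractionRing D.gen F := by
  refine IsFractionRing.of_field D.gen F fun z => ?_
  obtain ⟨u, v, hu, hv, hv0, huv⟩ := D.frac z
  have hlift : ∀ y ∈ Algebra.adjoin O (⋃ i, (fun g : chart O B.j => D.ι i g) '' Set.univ),
      ∃ s : D.gen, algebraMap D.gen F s = y := by
    intro y hy
    induction hy using Algebra.adjoin_induction with
    | mem y hy =>
      obtain ⟨_, ⟨i, rfl⟩, g, -, rfl⟩ := hy
      exact ⟨⟨D.ιA i g, D.ι_mem_gen i g⟩, rfl⟩
    | algebraMap r => exact ⟨algebraMap O D.gen r, rfl⟩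
    | add y y' _ _ h h' =>
      obtain ⟨s, rfl⟩ := h
      obtain ⟨s', rfl⟩ := h'
      exact ⟨s + s', map_add _ _ _⟩
    | mul y y' _ _ h h' =>
      obtain ⟨s, rfl⟩ := h
      obtain ⟨s', rfl⟩ := h'
      exact ⟨s * s', map_mul _ _ _⟩
  obtain ⟨s, rfl⟩ := hlift u hu
  obtain ⟨t, rfl⟩ := hlift v hv
  exact ⟨s, t, by rw [← huv, mul_div_cancel_right₀ _ hv0]⟩

theorem isIntegral_gen (w : D.A) : IsIntegral D.gen (w : F) := by
  have hle : ∀ y : Algebra.adjoin O ({D.ι 1 B.j} : Set F), ∃ s : D.gen, algebraMap D.gen F s = y :=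
    fun y => by
      obtain ⟨r, hr⟩ := exists_aeval_eq O y.2
      refine ⟨aeval (⟨D.ιA 1 ⟨B.j, self_mem_chart O B.j⟩, D.ι_mem_gen 1 _⟩ : D.gen) r, ?_⟩
      rw [← hr]
      exact (aeval_algHom_apply (IsScalarTower.toAlgHom O D.gen F) _ r).symm
  choose f hf using hle
  obtain ⟨p, hp, hpw⟩ := (mem_chart O).1 w.2
  obtain ⟨p', hp', -, hp'm⟩ := Polynomial.lifts_and_natDegree_eq_and_monic (f := algebraMap D.gen F)
    ((lifts_iff_coeff_lifts _).2 fun i => ⟨f (p.coeff i), by rw [coeff_map]; exact hf _⟩)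
    (hp.map (algebraMap _ F))
  exact ⟨p', hp'm, by rw [eval₂_eq_eval_map, hp', eval_map]; exact hpw⟩

include hq hqn in
/-- Near a crossing the chart is the generated ring. -/
theorem exists_mul_mem_gen (hb : D.centre hq b ≤ n) (hP : B.P ∈ n.comap (D.ιA (base b)))
    (w : D.A) : ∃ d ∈ D.gen, d ∉ n ∧ d * w ∈ D.gen := by
  haveI := D.isMaximal_point hq hb
  have hqx := D.q_mem_point hq hb
  obtain ⟨n₁, hn₁, hb₁, hx₁⟩ := D.exists_isMaximal hq 1 _ hqx
  haveI := hn₁
  have hagree : D.genPoint n₁ = D.genPoint n := Ideal.ext fun s =>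
    D.mem_gen_iff hq hqn hP hb₁ hx₁ hb rfl s.2
  obtain ⟨a, ha⟩ := B.resO_surjective (B.ev _ hqx B.h)
  have hsat := D.gen_mem_sat hq hqn hP hb₁ hx₁ ha
  haveI := D.isNoetherianRing_gen
  haveI := D.isFractionRing_gen
  haveI : (D.centre hq 1).comap D.gen.val |>.IsPrime := Ideal.comap_isPrime _ _
  set g0 : D.gen := ⟨D.ιA 0 B.h, D.ι_mem_gen 0 _⟩ with hg0
  set g2 : D.gen := ⟨D.ιA 2 B.h, D.ι_mem_gen 2 _⟩ with hg2
  have e0 : D.gen.val g0 = D.ιA 0 B.h := rfl
  have e2 : D.gen.val g2 = D.ιA 2 B.h := rfl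
  have hu : D.gen.val (g2 - g0) ∈ D.centre hq 1 := by
    rw [map_sub, e0, e2]; exact D.sub_mem_centre_one hq
  have hu0 : g2 - g0 ≠ 0 := fun h => by
    refine D.sub_ne ?_
    have h2 := congrArg D.A.val (congrArg D.gen.val h)
    rw [map_sub, e0, e2, map_sub, map_zero, map_zero] at h2
    exact h2
  have hv : D.gen.val (g0 - algebraMap O D.gen a) = D.ιA 0 B.h - algebraMap O D.A a := by
    rw [map_sub, e0, AlgHom.commutes]
  have hv1 : g0 - algebraMap O D.gen a ∈ D.genPoint n₁ := by
    rw [genPoint, Ideal.mem_comap, hv]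
    refine (D.hasVal_resA hq (hqx := hqx) hb₁ hx₁ _ a).2 ?_
    rw [ha]; exact (BaseData.hasVal_red B.h).congr (D.resA_base hq 1 B.h).symm rfl
  have hvQ : g0 - algebraMap O D.gen a ∉ (D.centre hq 1).comap D.gen.val := by
    rw [Ideal.mem_comap, hv]; exact D.ι_ne_const_zero hq a
  have hsat' : ∀ s ∈ D.genPoint n₁,
      s ∈ satAt (D.genPoint n₁) (Ideal.span {g2 - g0, g0 - algebraMap O D.gen a}) := hsat
  have hufd := ufd_localization (m := D.genPoint n₁) (Q := (D.centre hq 1).comap D.gen.val)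
    hu0 (Ideal.mem_comap.2 hu) (Ideal.comap_mono hb₁) hv1 hvQ hsat'
  have hint := D.isIntegral_gen w
  obtain ⟨d, hd, s, hs⟩ := exists_mul_mem_range hufd hint
  refine ⟨d, d.2, fun h => hd ((D.mem_gen_iff hq hqn hP hb₁ hx₁ hb rfl d.2).2 h), ?_⟩
  have : (d : D.A) * w = s := Subtype.ext hs
  rw [this]
  exact s.2

include hq hqn in
/-- Two points over a zero of `P` with the same image are equal, whatever the branch. -/
theorem eq_of_zero (hb : D.centre hq b ≤ n) (hP : B.P ∈ n.comap (D.ιA (base b))) {b' : Fin 3}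
    {n' : Ideal D.A} [n'.IsMaximal] (hb' : D.centre hq b' ≤ n')
    (hx' : n'.comap (D.ιA (base b')) = n.comap (D.ιA (base b))) : n' = n := by
  haveI := D.isMaximal_point hq hb
  refine ((inferInstance : n'.IsMaximal).eq_of_le Ideal.IsPrime.ne_top' fun w hw => ?_)
  obtain ⟨d, hdg, hd, hdw⟩ := D.exists_mul_mem_gen hq hqn hb hP w
  have h := (D.mem_gen_iff hq hqn hP hb rfl hb' hx' hdw).2 (n'.mul_mem_left d hw)
  exact ((inferInstance : n.IsMaximal).isPrime.mem_or_mem h).resolve_left hd

include hq hqn in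
/-- Over a zero of `P` all branches meet, at the same point of the level `N` curve. -/
theorem all_branches (hb : D.centre hq b ≤ n) (hP : B.P ∈ n.comap (D.ιA (base b))) (b' : Fin 3) :
    D.centre hq b' ≤ n ∧ n.comap (D.ιA (base b')) = n.comap (D.ιA (base b)) := by
  haveI := D.isMaximal_point hq hb
  obtain ⟨n', hn', hb', hx'⟩ := D.exists_isMaximal hq b' _ (D.q_mem_point hq hb)
  haveI := hn'
  obtain rfl := D.eq_of_zero hq hqn hb hP hb' hx'
  exact ⟨hb', hx'⟩

include hq hqn in
/-- The dichotomy: off the zeros of `P` only one branch passes. -/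
theorem branch_unique (hb : D.centre hq b ≤ n) (hP : B.P ∉ n.comap (D.ιA (base b))) {b' : Fin 3}
    (hb' : D.centre hq b' ≤ n) : b' = b := by
  haveI := D.isMaximal_point hq hb
  haveI := D.isMaximal_point hq hb'
  have hP' : B.P ∉ n.comap (D.ιA (base b')) := fun h =>
    hP ((D.all_branches hq hqn hb' h b).2.symm ▸ h)
  obtain ⟨U, U', hU, hU', hsep⟩ := D.sep
  have key : ∀ c, ∀ hc : D.centre hq c ≤ n, B.P ∉ n.comap (D.ιA (base c)) →
      ((⟨U, hU⟩ : D.A) ∈ n ↔ c = 2) ∧ ((⟨U', hU'⟩ : D.A) ∈ n ↔ c ≠ 0) := by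
    intro c hc hPc
    haveI := D.isMaximal_point hq hc
    have hqx := D.q_mem_point hq hc
    obtain ⟨z, z', hz, hz', hr, hr'⟩ := hsep c
    have e : D.resA hq c ⟨U, hU⟩ = if c = 2 then 0 else B.red B.P := by
      rw [← hr, resA_def]; exact congrArg _ (Subtype.ext hz.symm)
    have e' : D.resA hq c ⟨U', hU'⟩ = if c = 0 then B.red B.P ^ qn else 0 := by
      rw [← hr', resA_def]; exact congrArg _ (Subtype.ext hz'.symm)
    have h0 : B.HasVal hqx 0 0 := (BaseData.hasVal_C (B := B) (hqx := hqx) 0).congr (map_zero _) rfl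
    have hne := (B.ev_ne_zero hqx).2 hPc
    rw [D.mem_iff_hasVal hq (hqx := hqx) hc rfl, D.mem_iff_hasVal hq (hqx := hqx) hc rfl, e, e']
    constructor
    · split_ifs with h
      · exact iff_of_true h0 h
      · exact iff_of_false (fun h' => hne ((BaseData.hasVal_red B.P).unique h')) h
    · split_ifs with h
      · exact iff_of_false (fun h' => pow_ne_zero qn hne
          (((BaseData.hasVal_red B.P).pow qn).unique h')) (not_not.2 h)
      · exact iff_of_true h0 h
  obtain ⟨k1, k1'⟩ := key b hb hP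
  obtain ⟨k2, k2'⟩ := key b' hb' hP'
  rw [k1] at k2
  rw [k1'] at k2'
  revert k2 k2'
  fin_cases b <;> fin_cases b' <;> simp

include hq hqn in
/-- A prime element through `n` generating a branch off the zeros of `P`. -/
theorem exists_generator_branch (hb : D.centre hq b ≤ n)
    (hP : B.P ∉ n.comap (D.ιA (base b))) :
    ∃ π : D.A, π ≠ 0 ∧ π ∈ D.centre hq b ∧
      ∀ z ∈ D.centre hq b, z ∈ satAt n (Ideal.span {π}) := by
  haveI := D.isMaximal_point hq hb
  have hqx := D.q_mem_point hq hb
  have honly : ∀ b', D.centre hq b' ≤ n → b' = b := fun b' h => D.branch_unique hq hqn hb hP h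
  have hq0 : algebraMap O F q ≠ 0 := D.algebraMap_ne_zero hq.ne_zero
  by_cases h1 : b = 1
  swap
  · refine ⟨algebraMap O D.A q, fun h => hq0 (congrArg Subtype.val h), D.q_mem_centre hq b,
      fun z hz => ?_⟩
    obtain ⟨w, hw, hzw⟩ : ∃ w ∈ D.V b, (z : F) = algebraMap O F q * w := by
      fin_cases b
      · exact D.nonunits_zero _ ((D.mem_centre hq).1 hz)
      · exact absurd rfl h1
      · exact D.nonunits_two _ ((D.mem_centre hq).1 hz)
    obtain ⟨d, hd, hdw⟩ := D.exists_mul_mem hq n (z := w) (i := 1)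
      (by rw [pow_one, ← hzw]; exact z.2) fun b' h => honly b' h ▸ hw
    refine ⟨d, hd, Ideal.mem_span_singleton'.2 ⟨⟨_, hdw⟩, Subtype.ext ?_⟩⟩
    show (d : F) * w * algebraMap O F q = d * (z : F)
    rw [hzw]; ring
  subst h1
  set π : D.A := D.ιA 2 B.h - D.ιA 0 B.h with hπ
  refine ⟨π, fun h => D.sub_ne (congrArg Subtype.val h), D.sub_mem_centre_one hq, fun z hz => ?_⟩
  obtain ⟨w, hw, hzw⟩ := D.nonunits_one _ ((D.mem_centre hq).1 hz)
  obtain ⟨e, he, hres⟩ := D.res_pow
  obtain ⟨d, hd, hde⟩ := D.exists_mul_mem hq n (z := (e : F)) (i := 1)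
    (by rw [pow_one, he]; exact pow_mem (π.2) _) fun b' h => honly b' h ▸ e.2
  set de : D.A := ⟨_, hde⟩
  have hden : de ∉ n := by
    rw [D.mem_iff_hasVal hq (hqx := hqx) hb rfl]
    intro h
    have hde' : D.resA hq 1 de = D.resA hq 1 d * -B.rho := by
      rw [← hres, resA_def, resA_def, ← map_mul]
      exact congrArg _ (Subtype.ext rfl)
    obtain ⟨c, hc⟩ := D.exists_hasVal hq (hqx := hqx) 1 d
    have hc0 : c ≠ 0 := fun h0 => hd ((D.mem_iff_hasVal hq (hqx := hqx) hb rfl d).2 (h0 ▸ hc))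
    rw [hde', mul_comm] at h
    have h2 := (HasVal_div_zero h hc hc0)
    have h3 := (h2.neg.congr (neg_neg _) neg_zero).pow 6
    have h4 := (h3.mul (BaseData.hasVal_red (hqx := hqx) B.P)).congr B.rho_pow
      (by rw [zero_pow (by norm_num), zero_mul])
    exact pow_ne_zero _ ((B.ev_ne_zero hqx).2 fun hQ =>
      (inferInstance : (n.comap (D.ιA (base 1))).IsMaximal).ne_top
        (Ideal.eq_top_of_isUnit_mem _ hQ B.isUnit_Q)) (((BaseData.hasVal_red B.Q).pow (qn - 1)).unique h4)
  obtain ⟨d', hd', hdw⟩ := D.exists_mul_mem hq n (z := w * (de : F)) (i := 1) (by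
      have key : algebraMap O F q * (w * (de : F)) = (z : F) * d * (π : F) ^ (qn - 2) := by
        have he' : algebraMap O F q * (e : F) = (π : F) ^ (qn - 2) * π := by
          rw [he, ← pow_succ, show qn - 2 + 1 = qn - 1 by have := hqn.two_le; omega]
          rfl
        show algebraMap O F q * (w * ((d : F) * e)) = _
        rw [hzw, ← show (π : F) = D.ι 2 B.h - D.ι 0 B.h from rfl]
        linear_combination (w * (d : F)) * he'
      rw [pow_one, key]
      exact mul_mem (mul_mem z.2 d.2) (pow_mem π.2 _))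
    fun b' h => honly b' h ▸ mul_mem hw (D.mem_V hq 1 de.2)
  refine ⟨d' * de, fun h => ((inferInstance : n.IsMaximal).isPrime.mem_or_mem h).elim hd' hden,
    Ideal.mem_span_singleton'.2 ⟨⟨_, hdw⟩, Subtype.ext ?_⟩⟩
  show (d' : F) * (w * (de : F)) * (π : F) = (d' : F) * de * z
  rw [hzw]
  show _ = (d' : F) * de * ((π : F) * w)
  ring
where
  HasVal_div_zero {z w : LaurentSeries k} {c : k} {x : Ideal (chart O B.j)} [x.IsMaximal]
      {hqx : algebraMap O _ q ∈ x} (h : B.HasVal hqx (z * w) 0) (h' : B.HasVal hqx w c)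
      (hc : c ≠ 0) : B.HasVal hqx z 0 := (h.div h' hc).congr rfl (zero_div c)

include hq hqn in
/-- The local rings of the chart at the closed points over `q` are factorial. -/
theorem ufd_point (n : Ideal D.A) [n.IsMaximal] (hqn' : algebraMap O D.A q ∈ n) :
    UniqueFactorizationMonoid (Localization.AtPrime n) := by
  obtain ⟨b, hb⟩ := D.exists_branch hq hqn'
  haveI := D.isMaximal_point hq hb
  have hqx := D.q_mem_point hq hb
  obtain ⟨a, ha⟩ := B.resO_surjective (B.ev _ hqx B.h)
  by_cases hP : B.P ∈ n.comap (D.ιA (base b))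
  · obtain ⟨hb1, hx1⟩ := D.all_branches hq hqn hb hP 1
    have hsat := D.gen_mem_sat hq hqn hP hb rfl ha
    have hu : D.ιA 2 B.h - D.ιA 0 B.h ∈ n := hb1 (D.sub_mem_centre_one hq)
    refine ufd_localization (u := D.ιA 2 B.h - D.ιA 0 B.h) (v := D.ιA 0 B.h - algebraMap O _ a)
      (fun h => D.sub_ne (congrArg Subtype.val h)) (D.sub_mem_centre_one hq) hb1
      ((D.hasVal_resA hq (hqx := hqx) hb1 hx1 _ a).2 (by
        rw [ha]; exact (BaseData.hasVal_red B.h).congr (D.resA_base hq 1 B.h).symm rfl))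
      (D.ι_ne_const_zero hq a) fun s hs => ?_
    obtain ⟨d, hdg, hd, hds⟩ := D.exists_mul_mem_gen hq hqn hb hP s
    obtain ⟨d', hd', hd's⟩ := hsat ⟨_, hds⟩ (n.mul_mem_left d hs)
    refine ⟨(d' : D.A) * d, fun h =>
      ((inferInstance : n.IsMaximal).isPrime.mem_or_mem h).elim hd' hd, ?_⟩
    have h2 := Ideal.mem_map_of_mem D.gen.val hd's
    rw [ySpan, Ideal.map_span, Set.image_pair] at h2
    rw [mul_assoc]
    exact h2
  · obtain ⟨π, hπ0, hπ, hgen⟩ := D.exists_generator_branch hq hqn hb hP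
    have hv : D.ιA (base b) B.h - algebraMap O _ a ∈ n :=
      (D.hasVal_resA hq (hqx := hqx) hb rfl _ a).2 (by
        rw [ha, D.resA_base]; exact BaseData.hasVal_red B.h)
    have hvQ : D.ιA (base b) B.h - algebraMap O _ a ∉ D.centre hq b := by
      intro h
      rw [centre, RingHom.mem_ker, map_sub, D.resA_base, D.resA_algebraMap, sub_eq_zero] at h
      exact B.euler_h_ne (by rw [h, HahnSeries.C_apply, Genus.euler_single_zero])
    refine ufd_localization (u := π) (v := D.ιA (base b) B.h - algebraMap O _ a) hπ0 hπ hb hv hvQ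
      fun s hs => ?_
    have hval := (D.mem_iff_hasVal hq (hqx := hqx) hb rfl s).1 hs
    obtain ⟨w, c, ⟨g, d, hd, hwd, -⟩, hsw⟩ := hval.exists_eq_mul
    set v := D.ιA (base b) B.h - algebraMap O _ a
    set T := satAt n (Ideal.span {π, v})
    have hres : s * D.ιA (base b) d - v * D.ιA (base b) g ∈ D.centre hq b := by
      rw [centre, RingHom.mem_ker, map_sub, map_mul, map_mul, map_sub, D.resA_base, D.resA_base,
        D.resA_base, D.resA_algebraMap, ha, hsw, BaseData.unifAt, ← hwd]
      ring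
    have h1 : s * D.ιA (base b) d - v * D.ιA (base b) g ∈ T := by
      obtain ⟨e, he, hmem⟩ := hgen _ hres
      exact ⟨e, he, Ideal.span_mono (Set.singleton_subset_iff.2 (Set.mem_insert _ _)) hmem⟩
    have h2 := add_mem h1 (T.mul_mem_right (D.ιA (base b) g) (le_satAt n (Ideal.span {π, v})
      (Ideal.subset_span (Set.mem_insert_of_mem _ rfl))))
    rw [sub_add_cancel, mul_comm] at h2
    exact mem_satAt_of_mul (d := D.ιA (base b) d) hd h2

end SqData

end FLTAgent.LevelSq
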