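import Fermat.Agent.LevelSq.ConjProd
import Fermat.Agent.LevelSq.NormPower
import Fermat.Agent.LevelSq.Rational
import Fermat.Agent.LevelSq.SqDataBuild

/-!
# Averaging over the conjugates

`ι p` are the conjugate expansions of level `q ^ 2 M'`.  A multiple of the exponent vector at one
pair is balanced plus combinations of rows and columns; a row product is a norm to level `q M'`.
So a fixed multiple of a class killed by both pushforwards, of order prime to `q` and fixed by
inertia, is zero.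
-/

set_option autoImplicit false
set_option linter.style.haveILetI false
set_option linter.unusedSectionVars false
set_option synthInstance.maxHeartbeats 100000

noncomputable section

open ModularCurve AlgebraicCurve Finset
open FLTAgent.Hecke FLTAgent.Igusa
open FLTAgent.Semistable (PhiRel)
open FLTAgent.FunctionField (ord_pow)

namespace FLTAgent.LevelSq

local notation "Qbar" => AlgebraicClosure ℚ

variable {q : ℕ} [hq : Fact q.Prime]

local instance : NeZero q := ⟨hq.out.ne_zero⟩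

section Combinatorics

theorem sum_filter_fst {R : Type*} [AddCommGroup R] (g : Option (Fin q) → R) (o : Option (Fin q)) :
    ∑ p ∈ univ.filter (fun p : RootPair q => p.1.1 = o), g p.1.2 = ∑ y, g y - g o := by
  classical
  rw [← Finset.sum_erase_eq_sub (Finset.mem_univ o)]
  refine Finset.sum_bij (fun p _ => p.1.2) (fun p hp => ?_) (fun p hp p' hp' h => ?_)
    (fun y hy => ⟨⟨(o, y), (Finset.ne_of_mem_erase hy).symm⟩, by simp, rfl⟩) fun _ _ => rfl
  · exact Finset.mem_erase.2 ⟨fun h => p.2 ((Finset.mem_filter.1 hp).2.trans h.symm),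
      Finset.mem_univ _⟩
  · exact Subtype.ext (Prod.ext ((Finset.mem_filter.1 hp).2.trans (Finset.mem_filter.1 hp').2.symm) h)

theorem sum_filter_snd {R : Type*} [AddCommGroup R] (g : Option (Fin q) → R) (o : Option (Fin q)) :
    ∑ p ∈ univ.filter (fun p : RootPair q => p.1.2 = o), g p.1.1 = ∑ y, g y - g o := by
  classical
  rw [← Finset.sum_erase_eq_sub (Finset.mem_univ o)]
  refine Finset.sum_bij (fun p _ => p.1.1) (fun p hp => ?_) (fun p hp p' hp' h => ?_)
    (fun y hy => ⟨⟨(y, o), Finset.ne_of_mem_erase hy⟩, by simp, rfl⟩) fun _ _ => rfl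
  · exact Finset.mem_erase.2 ⟨fun h => p.2 (h.trans (Finset.mem_filter.1 hp).2.symm),
      Finset.mem_univ _⟩
  · exact Subtype.ext (Prod.ext h ((Finset.mem_filter.1 hp).2.trans (Finset.mem_filter.1 hp').2.symm))

theorem card_filter_fst (o : Option (Fin q)) :
    (univ.filter (fun p : RootPair q => p.1.1 = o)).card = q := by
  have h := sum_filter_fst (fun _ => (1 : ℤ)) o
  simp at h
  exact_mod_cast h

theorem card_filter_snd (o : Option (Fin q)) :
    (univ.filter (fun p : RootPair q => p.1.2 = o)).card = q := by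
  have h := sum_filter_snd (fun _ => (1 : ℤ)) o
  simp at h
  exact_mod_cast h

/-- A multiple of a point mass minus rows and columns is balanced. -/
theorem exists_balanced_split (p₀ : RootPair q) :
    ∃ (n : ℕ) (a b : Option (Fin q) → ℤ) (c : RootPair q → ℤ), n = 2 * q * (q ^ 2 - 1) ∧
      (∀ o, ∑ p ∈ univ.filter (fun p : RootPair q => p.1.1 = o), c p = 0) ∧
      (∀ o, ∑ p ∈ univ.filter (fun p : RootPair q => p.1.2 = o), c p = 0) ∧
      ∀ p, (if p = p₀ then (n : ℤ) else 0) = c p + a p.1.1 + b p.1.2 := by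
  classical
  have h1 : 1 ≤ q ^ 2 := Nat.one_le_pow _ _ hq.out.pos
  set n := 2 * q * (q ^ 2 - 1) with hn
  let a : Option (Fin q) → ℤ := fun o => (if o = p₀.1.1 then 2 * (q : ℤ) ^ 2 else 0) +
    (if o = p₀.1.2 then 2 * (q : ℤ) else 0) - q - 1
  let b : Option (Fin q) → ℤ := fun o => (if o = p₀.1.2 then 2 * (q : ℤ) ^ 2 else 0) +
    (if o = p₀.1.1 then 2 * (q : ℤ) else 0) - q - 1
  have hsum : ∑ o, a o = (q : ℤ) ^ 2 - 1 ∧ ∑ o, b o = (q : ℤ) ^ 2 - 1 := by
    constructor <;>
      simp [a, b, Finset.sum_add_distrib, Finset.sum_sub_distrib, Finset.sum_ite_eq',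
        Fintype.card_option] <;> ring
  refine ⟨n, a, b, fun p => (if p = p₀ then (n : ℤ) else 0) - a p.1.1 - b p.1.2, rfl, fun o => ?_,
    fun o => ?_, fun p => by ring⟩
  · rw [Finset.sum_sub_distrib, Finset.sum_sub_distrib, sum_filter_fst b o, hsum.2,
      Finset.sum_congr rfl (fun p hp => by rw [(Finset.mem_filter.1 hp).2] :
        ∀ p ∈ univ.filter (fun p : RootPair q => p.1.1 = o), a p.1.1 = a o),
      Finset.sum_const, card_filter_fst, Finset.sum_ite_eq']
    simp only [Finset.mem_filter, Finset.mem_univ, true_and, nsmul_eq_mul, hn]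
    push_cast [Nat.cast_sub h1]
    have hp := p₀.2
    simp only [a, b]
    rcases eq_or_ne o p₀.1.1 with rfl | h3
    · simp [hp, hp.symm]; ring
    · rcases eq_or_ne o p₀.1.2 with rfl | h4
      · simp [hp, hp.symm]; ring
      · simp [h3, h3.symm, h4, h4.symm]; ring
  · rw [Finset.sum_sub_distrib, Finset.sum_sub_distrib, sum_filter_snd a o, hsum.1,
      Finset.sum_congr rfl (fun p hp => by rw [(Finset.mem_filter.1 hp).2] :
        ∀ p ∈ univ.filter (fun p : RootPair q => p.1.2 = o), b p.1.2 = b o),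
      Finset.sum_const, card_filter_snd, Finset.sum_ite_eq']
    simp only [Finset.mem_filter, Finset.mem_univ, true_and, nsmul_eq_mul, hn]
    push_cast [Nat.cast_sub h1]
    have hp := p₀.2
    simp only [a, b]
    rcases eq_or_ne o p₀.1.1 with rfl | h3
    · simp [hp, hp.symm]; ring
    · rcases eq_or_ne o p₀.1.2 with rfl | h4
      · simp [hp, hp.symm]; ring
      · simp [h3, h3.symm, h4, h4.symm]; ring

end Combinatorics

section Conjugates

variable {M' M N : ℕ} [NeZero M'] [NeZero M] [NeZero N] (hM : M = q ^ 2 * M') (hMN : M' ∣ N)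
  (hN : ¬ q ∣ N) {ζ : Qbarˣ} (hζ : IsPrimitiveRoot (ζ : Qbar) q)

include hM hMN in
theorem incl_dvd : M * 1 ∣ q ^ 2 * N := by
  rw [mul_one, hM]; exact Nat.mul_dvd_mul_left _ hMN

/-- The conjugate expansions of level `q ^ 2 M'`. -/
def iotaQ (p : RootPair q) : MF Qbar M →ₐ[Qbar] LaurentSeries Qbar :=
  (emb hq.out hN hζ p).comp (degMap Qbar 1 (incl_dvd hM hMN))

theorem iotaQ_eq_lev (p : RootPair q) (i : Fin 3) {x : MF Qbar M} {u : MF Qbar N}
    (h : (x : LaurentSeries Qbar) = qExpand Qbar (q ^ (i : ℕ)) (u : LaurentSeries Qbar)) :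
    iotaQ hM hMN hN hζ p x = emb hq.out hN hζ p (lev Qbar q N i u) :=
  congrArg (emb hq.out hN hζ p) (Subtype.ext ((coe_degMap Qbar 1 (incl_dvd hM hMN) x).trans
    (by rw [qExpand_one_apply, h, coe_lev])))

theorem iotaQ_jMF (p : RootPair q) :
    iotaQ hM hMN hN hζ p (jMF Qbar M) = rootMap ζ p.1.1 (jqModC Qbar) := by
  rw [iotaQ_eq_lev hM hMN hN hζ p 0 (u := jMF Qbar N) (by
      rw [jMF_coe, jMF_coe, qExpand_congr (show q ^ ((0 : Fin 3) : ℕ) = 1 from rfl),
        qExpand_one_apply]),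
    emb_lev_zero, jMF_coe]

theorem iotaQ_jd (p : RootPair q) :
    iotaQ hM hMN hN hζ p ⟨jd Qbar M, jd_mem Qbar dvd_rfl⟩ = rootMap ζ p.1.2 (jd Qbar M') := by
  rw [iotaQ_eq_lev hM hMN hN hζ p 2 (u := ⟨jd Qbar M', jd_mem Qbar hMN⟩) (by
      show qExpand Qbar M (jqModC Qbar) = qExpand Qbar _ (qExpand Qbar M' (jqModC Qbar))
      rw [qExpand_qExpand]
      exact qExpand_congr (by simp [hM]) _),
    emb_lev_two]

include hN in
theorem not_dvd_level (hMN : M' ∣ N) : ¬ q ∣ M' := fun h => hN (h.trans hMN)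

theorem iotaQ_injective : Function.Injective fun p => (iotaQ hM hMN hN hζ p).toRingHom := by
  intro p p' h
  have h1 := RingHom.congr_fun h (jMF Qbar M)
  have h2 := RingHom.congr_fun h ⟨jd Qbar M, jd_mem Qbar dvd_rfl⟩
  change iotaQ hM hMN hN hζ p _ = iotaQ hM hMN hN hζ p' _ at h1 h2
  rw [iotaQ_jMF, iotaQ_jMF, ← jd_one] at h1
  rw [iotaQ_jd, iotaQ_jd] at h2
  exact Subtype.ext (Prod.ext
    (rootMap_jd_injective hq.out hζ (fun h => hq.out.not_dvd_one h) h1)
    (rootMap_jd_injective hq.out hζ (not_dvd_level hN hMN) h2))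

/-- Along the first map to level `q M'` only the first coordinate matters. -/
theorem iotaQ_degMap_one {L : ℕ} [NeZero L] (hL : L = q * M') (h : L * 1 ∣ M) {p p' : RootPair q}
    (hp : p.1.1 = p'.1.1) (u : MF Qbar L) :
    iotaQ hM hMN hN hζ p (degMap Qbar 1 h u) = iotaQ hM hMN hN hζ p' (degMap Qbar 1 h u) := by
  refine RingHom.congr_fun (ringHom_MF_ext
    (f := ((iotaQ hM hMN hN hζ p).comp (degMap Qbar 1 h)).toRingHom)
    (g := ((iotaQ hM hMN hN hζ p').comp (degMap Qbar 1 h)).toRingHom) (fun c => ?_) ?_ ?_) u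
  · exact (AlgHom.commutes _ c).trans (AlgHom.commutes _ c).symm
  · have hj : degMap Qbar 1 h (jMF Qbar L) = jMF Qbar M :=
      Subtype.ext (by rw [coe_degMap, qExpand_one_apply]; rfl)
    show iotaQ hM hMN hN hζ p (degMap Qbar 1 h _) = iotaQ hM hMN hN hζ p' (degMap Qbar 1 h _)
    rw [hj, iotaQ_jMF, iotaQ_jMF, hp]
  · show iotaQ hM hMN hN hζ p (degMap Qbar 1 h _) = iotaQ hM hMN hN hζ p' (degMap Qbar 1 h _)
    have hu : ∀ r : RootPair q, iotaQ hM hMN hN hζ r (degMap Qbar 1 h ⟨jd Qbar L, jd_mem Qbar dvd_rfl⟩) =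
        qExpand Qbar q (jd Qbar M') := fun r => by
      rw [iotaQ_eq_lev hM hMN hN hζ r 1 (u := ⟨jd Qbar M', jd_mem Qbar hMN⟩) (by
          rw [coe_degMap, qExpand_one_apply]
          show qExpand Qbar L (jqModC Qbar) = qExpand Qbar _ (qExpand Qbar M' (jqModC Qbar))
          rw [qExpand_qExpand]
          exact qExpand_congr (by simp [hL]) _),
        emb_lev_one]
    rw [hu, hu]

/-- Along the second map to level `q M'` only the second coordinate matters. -/
theorem iotaQ_degMap_q {L : ℕ} [NeZero L] (hL : L = q * M') (h : L * q ∣ M) {p p' : RootPair q}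
    (hp : p.1.2 = p'.1.2) (u : MF Qbar L) :
    iotaQ hM hMN hN hζ p (degMap Qbar q h u) = iotaQ hM hMN hN hζ p' (degMap Qbar q h u) := by
  refine RingHom.congr_fun (ringHom_MF_ext
    (f := ((iotaQ hM hMN hN hζ p).comp (degMap Qbar q h)).toRingHom)
    (g := ((iotaQ hM hMN hN hζ p').comp (degMap Qbar q h)).toRingHom) (fun c => ?_) ?_ ?_) u
  · exact (AlgHom.commutes _ c).trans (AlgHom.commutes _ c).symm
  · show iotaQ hM hMN hN hζ p (degMap Qbar q h _) = iotaQ hM hMN hN hζ p' (degMap Qbar q h _)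
    have hu : ∀ r : RootPair q, iotaQ hM hMN hN hζ r (degMap Qbar q h (jMF Qbar L)) =
        qExpand Qbar q (jqModC Qbar) := fun r => by
      rw [iotaQ_eq_lev hM hMN hN hζ r 1 (u := jMF Qbar N) (by
          rw [coe_degMap, jMF_coe, jMF_coe]
          exact qExpand_congr (pow_one q).symm _),
        emb_lev_one, jMF_coe]
    rw [hu, hu]
  · show iotaQ hM hMN hN hζ p (degMap Qbar q h _) = iotaQ hM hMN hN hζ p' (degMap Qbar q h _)
    have hg : degMap Qbar q h ⟨jd Qbar L, jd_mem Qbar dvd_rfl⟩ =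
        (⟨jd Qbar M, jd_mem Qbar dvd_rfl⟩ : MF Qbar M) := Subtype.ext (by
      rw [coe_degMap]
      show qExpand Qbar q (qExpand Qbar L (jqModC Qbar)) = qExpand Qbar M (jqModC Qbar)
      rw [qExpand_qExpand]
      exact qExpand_congr (by rw [hM, hL]; ring) _)
    rw [hg, iotaQ_jd, iotaQ_jd, hp]

/-- The field generated over `ℚ̄` by all conjugates. -/
def bigField (q N : ℕ) [NeZero q] [NeZero N] (ζ : Qbarˣ) :
    IntermediateField Qbar (LaurentSeries Qbar) :=
  IntermediateField.adjoin Qbar (conjGens q N ζ)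

theorem emb_mem_bigField (p : RootPair q) (x : MF Qbar (q ^ 2 * N)) :
    emb hq.out hN hζ p x ∈ bigField q N ζ := by
  have hle : MF Qbar (q ^ 2 * N) ≤ (IntermediateField.adjoin Qbar
      ({jMF Qbar (q ^ 2 * N), ⟨jd Qbar (q ^ 2 * N), jd_mem _ dvd_rfl⟩} :
        Set (MF Qbar (q ^ 2 * N)))).map (MF Qbar (q ^ 2 * N)).val := by
    conv_lhs => rw [(degreeFacts Qbar).gen (q ^ 2 * N)]
    refine IntermediateField.adjoin_le_iff.2 ?_
    rintro z (rfl | rfl)
    · exact ⟨jMF Qbar _, IntermediateField.subset_adjoin _ _ (Set.mem_insert _ _), rfl⟩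
    · exact ⟨_, IntermediateField.subset_adjoin _ _ (Set.mem_insert_of_mem _ rfl), rfl⟩
  obtain ⟨y, hy, hyx⟩ := hle x.2
  obtain rfl : y = x := Subtype.ext hyx
  clear hyx
  induction hy using IntermediateField.adjoin_induction with
  | mem z hz =>
    rcases hz with rfl | rfl
    · rw [show (jMF Qbar (q ^ 2 * N)) = lev Qbar q N 0 (jMF Qbar N) from
        Subtype.ext (by rw [coe_lev_zero]; rfl), emb_lev_zero]
      exact IntermediateField.subset_adjoin _ _ (Or.inl ⟨_, rfl⟩)
    · rw [show (⟨jd Qbar (q ^ 2 * N), jd_mem _ dvd_rfl⟩ : MF Qbar (q ^ 2 * N)) =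
          lev Qbar q N 2 ⟨jd Qbar N, jd_mem _ dvd_rfl⟩ from Subtype.ext (by
            rw [coe_lev_two]
            show qExpand Qbar (q ^ 2 * N) (jqModC Qbar) =
              qExpand Qbar (q * q) (qExpand Qbar N (jqModC Qbar))
            rw [qExpand_qExpand]
            exact qExpand_congr (by ring) _), emb_lev_two]
      exact IntermediateField.subset_adjoin _ _ (Or.inr ⟨_, rfl⟩)
  | algebraMap c => rw [AlgHom.commutes]; exact IntermediateField.algebraMap_mem _ c
  | add a b _ _ ha hb => rw [map_add]; exact add_mem ha hb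
  | inv a _ ha => rw [map_inv₀]; exact inv_mem ha
  | mul a b _ _ ha hb => rw [map_mul]; exact mul_mem ha hb

theorem iotaQ_mem_bigField (p : RootPair q) (x : MF Qbar M) :
    iotaQ hM hMN hN hζ p x ∈ bigField q N ζ := emb_mem_bigField hN hζ p _

theorem fieldL_le_bigField {A : ValuationSubring Qbar} {y : LaurentSeries Qbar}
    (hy : y ∈ fieldL q A N ζ) : y ∈ bigField q N ζ := by
  induction hy using IntermediateField.adjoin_induction with
  | mem z hz => exact IntermediateField.subset_adjoin _ _ hz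
  | algebraMap c => rw [urAlgebraMap_series]; exact IntermediateField.algebraMap_mem _ _
  | add a b _ _ ha hb => exact add_mem ha hb
  | inv a _ ha => exact inv_mem ha
  | mul a b _ _ ha hb => exact mul_mem ha hb

/-- The conjugate expansions inside `bigField`. -/
def iotaBig (p : RootPair q) : MF Qbar M →ₐ[Qbar] bigField q N ζ :=
  (iotaQ hM hMN hN hζ p).codRestrict (bigField q N ζ).toSubalgebra
    (iotaQ_mem_bigField hM hMN hN hζ p)

theorem iotaBig_jd (p : RootPair q) (hqM : q ∣ M) :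
    (iotaBig hM hMN hN hζ p ⟨jd Qbar q, jd_mem Qbar hqM⟩ : LaurentSeries Qbar) = jd Qbar q := by
  show iotaQ hM hMN hN hζ p _ = _
  rw [iotaQ_eq_lev hM hMN hN hζ p 1 (u := jMF Qbar N) (by
      show qExpand Qbar q (jqModC Qbar) = _
      rw [jMF_coe]
      exact qExpand_congr (pow_one q).symm _), emb_lev_one, jMF_coe]

omit hq in
/-- A finitely generated field with integral generators is finite over an embedded subfield. -/
theorem finiteAlong_of_generators {K E F : Type*} [Field K] [Field E] [Field F] [Algebra K E]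
    [Algebra K F] {S : Set E} [Finite S] {Φ : IntermediateField K E}
    (hΦ : Φ = IntermediateField.adjoin K S) (φ : F →ₐ[K] Φ)
    (hint : ∀ z : Φ, (z : E) ∈ S → φ.toRingHom.IsIntegralElem z) : FiniteAlong K φ := by
  letI := algebraAlong φ
  haveI := isScalarTower_along φ
  set T : Set Φ := {z | (z : E) ∈ S}
  haveI : Finite T := Finite.of_injective (fun z : T => (⟨(z.1 : E), z.2⟩ : S))
    fun z z' h => Subtype.ext (Subtype.ext (congrArg (fun w : S => (w : E)) h))
  haveI := IntermediateField.finiteDimensional_adjoin (K := F) (S := T) fun z hz => hint z hz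
  have hmem : ∀ (w : E) (_ : w ∈ IntermediateField.adjoin K S) (hw : w ∈ Φ),
      (⟨w, hw⟩ : Φ) ∈ IntermediateField.adjoin F T := by
    intro w hw'
    induction hw' using IntermediateField.adjoin_induction with
    | mem x hx => exact fun hxΦ => IntermediateField.subset_adjoin F T (show (⟨x, hxΦ⟩ : Φ) ∈ T from hx)
    | algebraMap c =>
      intro hc
      have he : (⟨algebraMap K E c, hc⟩ : Φ) = algebraMap F Φ (algebraMap K F c) :=
        Subtype.ext (congrArg Subtype.val (φ.commutes c)).symm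
      rw [he]
      exact IntermediateField.algebraMap_mem _ _
    | add x y hx hy ihx ihy =>
      intro h
      have hx' : x ∈ Φ := hΦ.symm ▸ hx
      have hy' : y ∈ Φ := hΦ.symm ▸ hy
      exact add_mem (ihx hx') (ihy hy')
    | inv x hx ihx =>
      intro h
      have hx' : x ∈ Φ := hΦ.symm ▸ hx
      exact inv_mem (ihx hx')
    | mul x y hx hy ihx ihy =>
      intro h
      have hx' : x ∈ Φ := hΦ.symm ▸ hx
      have hy' : y ∈ Φ := hΦ.symm ▸ hy
      exact mul_mem (ihx hx') (ihy hy')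
  have htop : IntermediateField.adjoin F T = ⊤ := by
    refine eq_top_iff.2 fun z _ => ?_
    exact hmem (z : E) (hΦ ▸ z.2) z.2
  exact Module.Finite.equiv
    ((IntermediateField.equivOfEq htop).trans IntermediateField.topEquiv).toLinearEquiv

/-- The conjugates are integral over the image of level `q ^ 2 M'`. -/
theorem isIntegralElem_iotaBig (p : RootPair q) (z : bigField q N ζ)
    (hz : (z : LaurentSeries Qbar) ∈ conjGens q N ζ) :
    (iotaBig hM hMN hN hζ p).toRingHom.IsIntegralElem z := by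
  have hqM : q ∣ M := hM ▸ dvd_mul_of_dvd_left (dvd_pow_self q two_ne_zero) M'
  letI := algebraAlong (iotaBig hM hMN hN hζ p)
  haveI := isScalarTower_along (iotaBig hM hMN hN hζ p)
  have hJ : ∀ o (y : bigField q N ζ), (y : LaurentSeries Qbar) = rootMap ζ o (jqModC Qbar) →
      IsIntegral (MF Qbar M) y := fun o y hy => by
    refine isIntegral_of_phiRel (K := Qbar) q (⟨jd Qbar q, jd_mem Qbar hqM⟩ : MF Qbar M)
      (PhiRel.of_map (bigField q N ζ).val Subtype.val_injective ?_)
    show PhiRel (L := Qbar) q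
      (iotaBig hM hMN hN hζ p ⟨jd Qbar q, jd_mem Qbar hqM⟩ : LaurentSeries Qbar)
      (y : LaurentSeries Qbar)
    rw [iotaBig_jd hM hMN hN hζ p hqM, hy]
    exact (phiRel_rootJ_iff' hq.out hζ).2 ⟨o, rootMap_jqModC ζ o⟩
  rcases hz with ⟨o, ho⟩ | ⟨o, ho⟩
  · exact hJ o z ho.symm
  · refine isIntegral_of_phiRel_trans (K := Qbar) N
      (hJ o ⟨_, IntermediateField.subset_adjoin _ _ (Or.inl ⟨o, rfl⟩)⟩ rfl)
      (PhiRel.of_map (bigField q N ζ).val Subtype.val_injective ?_)
    show PhiRel (L := Qbar) N (rootMap ζ o (jqModC Qbar)) (z : LaurentSeries Qbar)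
    rw [← ho]
    exact (Semistable.phiRel_jqModC (L := Qbar) N).map (rootMap ζ o)

/-- `bigField` is finite over the image of level `q ^ 2 M'`. -/
theorem finiteAlong_iotaBig (p : RootPair q) :
    FiniteAlong Qbar (iotaBig hM hMN hN hζ p) := by
  haveI : Finite (conjGens q N ζ) :=
    ((Set.finite_range _).union (Set.finite_range _)).to_subtype
  exact finiteAlong_of_generators rfl _ (isIntegralElem_iotaBig hM hMN hN hζ p)

omit hq in
/-- A fixed multiple of a class is zero when some power of its function is an `m`-th power in a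
finite extension. -/
theorem nsmul_mk_eq_zero_of_pow {K F Φ : Type*} [Field K] [Field F] [Field Φ] [Algebra K F]
    [Algebra K Φ] (φ : F →ₐ[K] Φ) (hfin : FiniteAlong K φ) {n m : ℕ} (hm : m ≠ 0)
    (D : Divisor.degZero (K := K) (F := F)) {f : F} (hf : f ≠ 0)
    (hdiv : ∀ v : Place K F, v.ord f = (m : ℤ) * (D : Divisor K F) v) {g : Φ}
    (hg : g ^ m = φ f ^ n) :
    (n * finrankAlong K φ) • Pic0.mk D = 0 := by
  letI := algebraAlong φ
  haveI : Module.Finite F Φ := hfin
  set H := Algebra.norm F g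
  have h1 := congrArg (Algebra.norm F) hg
  rw [map_pow, ← map_pow φ, show φ (f ^ n) = algebraMap F Φ (f ^ n) from rfl, Algebra.norm_algebraMap,
    ← pow_mul] at h1
  have hH0 : H ≠ 0 := fun h => pow_ne_zero _ hf (h1.symm.trans (by
    show H ^ m = 0
    rw [h, zero_pow hm]))
  refine ((QuotientAddGroup.mk_nsmul _ D _).symm.trans ?_)
  refine (QuotientAddGroup.eq_zero_iff _).2 (AddSubgroup.mem_addSubgroupOf.2 ⟨H, hH0, fun v => ?_⟩)
  have h2 := congrArg v.ord h1
  rw [ord_pow, ord_pow, hdiv] at h2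
  rw [AddSubgroup.coe_nsmul, Finsupp.coe_smul, Pi.smul_apply, nsmul_eq_mul]
  refine mul_left_cancel₀ (Nat.cast_ne_zero.2 hm : (m : ℤ) ≠ 0) ?_
  rw [h2]
  show (m : ℤ) * (((n * Module.finrank F Φ : ℕ) : ℤ) * _) = _
  push_cast
  ring

theorem exists_descent (p₀ : RootPair q) :
    ∃ d : ℕ, d ≠ 0 ∧ ∀ (n m : ℕ), m ≠ 0 → ∀ (D : Divisor.degZero (K := Qbar) (F := MF Qbar M))
      (f : MF Qbar M), f ≠ 0 →
      (∀ v : Place Qbar (MF Qbar M), v.ord f = (m : ℤ) * (D : Divisor Qbar (MF Qbar M)) v) →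
      ∀ g ∈ bigField q N ζ, g ^ m = iotaQ hM hMN hN hζ p₀ f ^ n →
      (n * d) • Pic0.mk D = 0 := by
  have hfin := finiteAlong_iotaBig hM hMN hN hζ p₀
  refine ⟨finrankAlong Qbar (iotaBig hM hMN hN hζ p₀), ?_, fun n m hm D f hf hdiv g hg hgf =>
    nsmul_mk_eq_zero_of_pow (iotaBig hM hMN hN hζ p₀) hfin hm D hf hdiv (g := ⟨g, hg⟩)
      (Subtype.ext hgf)⟩
  letI := algebraAlong (iotaBig hM hMN hN hζ p₀)
  haveI : Module.Finite (MF Qbar M) (bigField q N ζ) := hfin
  exact Module.finrank_pos.ne'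

end Conjugates

section Main

variable {A : ValuationSubring Qbar} (hA : A.LiesOverPrime q) {M' M N : ℕ} [NeZero M'] [NeZero M]
  [NeZero N] (hM : M = q ^ 2 * M') (hMN : M' ∣ N) (hN : ¬ q ∣ N)
include hA hM hMN hN

/-- A fixed multiple of an inertia fixed new class of order prime to `q` is zero. -/
theorem exists_smul_eq_zero_of_baseData [IsAlgClosed (IsLocalRing.ResidueField A)]
    (B : BaseData (urRing A) (q : urRing A) q (MF (urField A) N) (IsLocalRing.ResidueField A))
    (hB : IsBaseModel B) {L : ℕ} [NeZero L] (hL : L = q * M') (h1 : L * 1 ∣ M) (hqd : L * q ∣ M) :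
    ∃ C : ℕ, C ≠ 0 ∧ ∀ m : ℕ, ¬ q ∣ m → ∀ x : JZero M, m • x = 0 →
      (∀ σ ∈ A.inertiaSubgroupIn ℚ, σ • x = x) →
      pushPic 1 h1 x = 0 → pushPic q hqd x = 0 → C • x = 0 := by
  classical
  obtain ⟨ζ, hζ⟩ := Semistable.exists_primitiveRoot_unit (L := Qbar) q
  obtain ⟨D, hD⟩ := exists_sqData hA hN hζ B hB fun P hP =>
    exists_eq_branchVal hA hN hζ (hB.j_eq ▸ hP)
  obtain ⟨p₀, -⟩ := exists_pair_fst (none : Option (Fin q))
  obtain ⟨n, a, b, c, hn, hc1, hc2, hsplit⟩ := exists_balanced_split p₀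
  obtain ⟨d, hd, hdesc⟩ := exists_descent hM hMN hN hζ p₀
  have h4 : 4 ≤ q ^ 2 := by
    calc 4 = 2 ^ 2 := rfl
      _ ≤ q ^ 2 := Nat.pow_le_pow_left hq.out.two_le 2
  have hn0 : n ≠ 0 := hn ▸ mul_ne_zero (mul_ne_zero two_ne_zero hq.out.ne_zero) (by omega)
  refine ⟨n * d, mul_ne_zero hn0 hd, fun m hm x hx hfix hp1 hpq => ?_⟩
  have hm0 : m ≠ 0 := fun h => hm (h ▸ dvd_zero q)
  obtain ⟨Dx, f, f', rfl, hf0, hdiv, hser, hloc⟩ :=
    exists_rational_function hM hMN hN hA hm x hx hfix
  have hf'0 : f' ≠ 0 := fun h0 => hf0 (Subtype.ext (by rw [← hser, h0, map_zero]; rfl))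
  obtain ⟨h, hh⟩ :=
    exists_pow_eq_conjProd_of_sqData hA hN hζ hB D hD hm hf'0 hloc c hc1 hc2
  have hconj : ∀ p, (iotaL (A := A) hN hζ p f' : LaurentSeries Qbar) = iotaQ hM hMN hN hζ p f :=
    fun p => congrArg (emb hq.out hN hζ p) (Subtype.ext (by
      rw [coe_baseEmb, hser]
      exact ((coe_degMap Qbar 1 (incl_dvd hM hMN) f).trans (qExpand_one_apply _)).symm))
  set x' := fun p => iotaQ hM hMN hN hζ p f with hx'
  have hx0 : ∀ p, x' p ≠ 0 := fun p => (map_ne_zero_iff _ (iotaQ hM hMN hN hζ p).injective).2 hf0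
  have hcval : (h : LaurentSeries Qbar) ^ m = ∏ p, x' p ^ c p := by
    rw [← IntermediateField.coe_pow, hh, IntermediateField.coe_prod]
    refine Finset.prod_congr rfl fun p _ => ?_
    rw [show x' p = iotaQ hM hMN hN hζ p f from rfl, ← hconj p]
    exact map_zpow₀ (fieldL q A N ζ).val (iotaL (A := A) hN hζ p f') (c p)
  -- the rows
  have hL' : L = M' * q := by rw [hL, mul_comm]
  have hML : M = L * q := by rw [hM, hL]; ring
  have hrow : ∀ o, ∃ G ∈ bigField q N ζ,
      ∏ p ∈ univ.filter (fun p : RootPair q => p.1.1 = o), x' p = G ^ m := fun o => by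
    obtain ⟨r, hr⟩ := exists_pair_fst o
    obtain ⟨H, hH⟩ := prod_eq_pow_of_pushPic_eq_zero hm0 Dx hf0 hdiv hp1
      ((iotaQ hM hMN hN hζ r).comp (degMap Qbar 1 h1)).toRingHom
      (fun p : {p : RootPair q // p.1.1 = o} => (iotaQ hM hMN hN hζ p.1).toRingHom)
      (fun p u => iotaQ_degMap_one hM hMN hN hζ hL h1 (p.2.trans hr.symm) u)
      ((iotaQ_injective hM hMN hN hζ).comp Subtype.val_injective)
      (by rw [Fintype.card_subtype, card_filter_fst, finrankAlong_top_one hL' hML h1])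
    refine ⟨_, iotaQ_mem_bigField hM hMN hN hζ r (degMap Qbar 1 h1 H), ?_⟩
    refine Eq.trans ?_ hH
    exact Finset.prod_subtype _ (fun p => by simp) fun p => x' p
  have hcol : ∀ o, ∃ G ∈ bigField q N ζ,
      ∏ p ∈ univ.filter (fun p : RootPair q => p.1.2 = o), x' p = G ^ m := fun o => by
    obtain ⟨r, hr⟩ := exists_pair_snd o
    obtain ⟨H, hH⟩ := prod_eq_pow_of_pushPic_eq_zero hm0 Dx hf0 hdiv hpq
      ((iotaQ hM hMN hN hζ r).comp (degMap Qbar q hqd)).toRingHom
      (fun p : {p : RootPair q // p.1.2 = o} => (iotaQ hM hMN hN hζ p.1).toRingHom)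
      (fun p u => iotaQ_degMap_q hM hMN hN hζ hL hqd (p.2.trans hr.symm) u)
      ((iotaQ_injective hM hMN hN hζ).comp Subtype.val_injective)
      (by rw [Fintype.card_subtype, card_filter_snd,
        finrankAlong_top_q (not_dvd_level hN hMN) hL' hML hqd])
    refine ⟨_, iotaQ_mem_bigField hM hMN hN hζ r (degMap Qbar q hqd H), ?_⟩
    refine Eq.trans ?_ hH
    exact Finset.prod_subtype _ (fun p => by simp) fun p => x' p
  choose G1 hG1 hG1e using hrow
  choose G2 hG2 hG2e using hcol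
  refine hdesc n m hm0 Dx f hf0 hdiv
    ((h : LaurentSeries Qbar) * (∏ o, G1 o ^ a o) * ∏ o, G2 o ^ b o)
    (mul_mem (mul_mem (fieldL_le_bigField h.2) (prod_mem fun o _ => zpow_mem (hG1 o) _))
      (prod_mem fun o _ => zpow_mem (hG2 o) _)) ?_
  have hpow : ∀ (G : Option (Fin q) → LaurentSeries Qbar) (e : Option (Fin q) → ℤ),
      (∏ o, G o ^ e o) ^ m = ∏ o, (G o ^ m) ^ e o := fun G e => by
    rw [← Finset.prod_pow]
    refine Finset.prod_congr rfl fun o _ => ?_
    rw [← zpow_natCast, ← zpow_natCast (G o), ← zpow_mul, ← zpow_mul, mul_comm]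
  have hfib1 : ∏ o, (G1 o ^ m) ^ a o = ∏ p, x' p ^ a p.1.1 := by
    rw [← Finset.prod_fiberwise univ (fun p : RootPair q => p.1.1) fun p => x' p ^ a p.1.1]
    refine Finset.prod_congr rfl fun o _ => ?_
    rw [← hG1e, ← Finset.prod_zpow]
    exact Finset.prod_congr rfl fun p hp => by rw [(Finset.mem_filter.1 hp).2]
  have hfib2 : ∏ o, (G2 o ^ m) ^ b o = ∏ p, x' p ^ b p.1.2 := by
    rw [← Finset.prod_fiberwise univ (fun p : RootPair q => p.1.2) fun p => x' p ^ b p.1.2]
    refine Finset.prod_congr rfl fun o _ => ?_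
    rw [← hG2e, ← Finset.prod_zpow]
    exact Finset.prod_congr rfl fun p hp => by rw [(Finset.mem_filter.1 hp).2]
  rw [mul_pow, mul_pow, hcval, hpow, hpow, hfib1, hfib2, ← Finset.prod_mul_distrib,
    ← Finset.prod_mul_distrib]
  rw [Finset.prod_eq_single p₀ (fun p _ hp => ?_) (fun h => absurd (Finset.mem_univ _) h)]
  · rw [← zpow_add₀ (hx0 p₀), ← zpow_add₀ (hx0 p₀), ← hsplit, if_pos rfl, zpow_natCast]
  · rw [← zpow_add₀ (hx0 p), ← zpow_add₀ (hx0 p), ← hsplit, if_neg hp, zpow_zero]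

end Main

end FLTAgent.LevelSq
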