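import Fermat.Agent.Genus.LaurentOps
import Fermat.Agent.Igusa.ModBasis
import Fermat.Agent.Igusa.PrimeEquation
import Fermat.Agent.ModPoly.Roots
import Mathlib.LinearAlgebra.Dual.Lemmas

/-!
# Series modulo `q` for the level `N` data

Independence over polynomials in a series survives an extension of the coefficients; the
supersingular function `Δ / Δ (q τ)` is an integral polynomial in `j` modulo `q`.
-/

set_option autoImplicit false
set_option linter.style.haveILetI false
set_option linter.unusedSectionVars false

noncomputable section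

open Polynomial ModularCurve Finset

namespace FLTAgent.LevelSq

open FLTAgent.Igusa
open FLTAgent.ModPoly (twist twist_one_unit qExpand_eq_pow_zmod)

/-- Independence over polynomials in `x` is kept by an extension of the coefficient field. -/
theorem aeval_indep_baseChange {k₀ k : Type*} [Field k₀] [Field k] [Algebra k₀ k]
    (x : LaurentSeries k₀) {ι : Type*} [Fintype ι] (y : ι → LaurentSeries k₀)
    (h : ∀ P : ι → k₀[X], ∑ i, aeval x (P i) * y i = 0 → P = 0) (P : ι → k[X])
    (hP : ∑ i, aeval (coeffMap (algebraMap k₀ k) x) (P i) * coeffMap (algebraMap k₀ k) (y i) = 0) :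
    P = 0 := by
  classical
  have hQ : ∀ s : k →ₗ[k₀] k₀,
      (fun i => ∑ e ∈ (P i).support, monomial e (s ((P i).coeff e))) = 0 := by
    intro s
    refine h _ (HahnSeries.ext (funext fun m => ?_))
    have hm := congr_arg s (congr_arg (fun z : LaurentSeries k => z.coeff m) hP)
    simp only [HahnSeries.coeff_zero, map_zero, HahnSeries.coeff_sum, map_sum] at hm ⊢
    refine Eq.trans (Finset.sum_congr rfl fun i _ => ?_) hm
    conv_rhs => rw [(P i).as_sum_support]
    simp only [map_sum, Finset.sum_mul, HahnSeries.coeff_sum]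
    refine Finset.sum_congr rfl fun e _ => ?_
    simp only [aeval_monomial, algebraMap_laurentSeries_eq_single, mul_assoc,
      HahnSeries.coeff_single_zero_mul]
    rw [← map_pow, ← map_mul, coeffMap_coeff, mul_comm ((P i).coeff e), ← Algebra.smul_def,
      map_smul, smul_eq_mul, mul_comm]
  funext i
  refine Polynomial.ext fun e => (Module.forall_dual_apply_eq_zero_iff k₀ _).mp fun s => ?_
  have := congr_arg (fun q : k₀[X] => q.coeff e) (congr_fun (hQ s) i)
  simp only [finsetSum_coeff, coeff_monomial, Finset.sum_ite_eq', Pi.zero_apply, coeff_zero,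
    mem_support_iff] at this
  by_cases he : (P i).coeff e = 0
  · simp [he]
  · simpa [he] using this

/-- `θ` on polynomials in a series. -/
theorem euler_aeval_poly {K : Type*} [Field K] (x : LaurentSeries K) (p : K[X]) :
    Genus.euler (aeval x p) = aeval x (derivative p) * Genus.euler x := by
  induction p using Polynomial.induction_on with
  | C a =>
    rw [aeval_C, derivative_C, map_zero, zero_mul, algebraMap_laurentSeries_eq_single,
      Genus.euler_single_zero]
  | add p r hp hr => simp [hp, hr, add_mul]
  | monomial n a ih =>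
    have e : C a * X ^ (n + 1) = C a * X ^ n * (X : K[X]) := by rw [pow_succ, mul_assoc]
    rw [e]
    generalize C a * X ^ n = r at ih ⊢
    rw [derivative_mul, derivative_X, mul_one, map_mul, Genus.euler_mul, ih, map_add, map_mul,
      aeval_X]
    ring

variable (q : ℕ) [hq : Fact q.Prime]

local instance : NeZero q := ⟨hq.out.ne_zero⟩

/-- `(Δ ∘ q)⁻¹ = Δ ^ (-q)` modulo `q`. -/
theorem qExpand_sDinv_eq_pow (k : Type*) [Field k] [CharP k q] :
    qExpand k q (sDinv k) = sDinv k ^ q := by
  letI := ZMod.algebra k q
  rw [← coeffMap_sDinv (algebraMap (ZMod q) k), ← coeffMap_qExpand, qExpand_eq_pow_zmod, map_pow]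

/-- `Δ / Δ (q τ)` is an integral polynomial in `j` modulo `q`. -/
theorem exists_supersingular_poly :
    ∃ G₁ : ℤ[X], ∀ (k : Type) [Field k] [CharP k q],
      -aeval (jqModC k) G₁ = ofZ k psD * qExpand k q (sDinv k) := by
  classical
  obtain ⟨Φ, G, U, -, -, -, hEq⟩ := exists_modularEquations q hq.out
  refine ⟨G.coeff 1, ?_⟩
  obtain ⟨k', _, _, _, ⟨φ⟩⟩ := exists_algClosed_charP q
  haveI : ExpChar k' q := ExpChar.prime hq.out
  have hz : zetaIn q φ = 1 := by
    have h1 : zetaInt q ^ q = 1 := Units.ext (Subtype.ext (by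
      simpa [zetaInt] using (Complex.isPrimitiveRoot_exp q (NeZero.ne q)).pow_eq_one))
    have h2 : zetaIn q φ ^ q = 1 := by rw [zetaIn, ← map_pow, h1, map_one]
    refine Units.ext (frobenius_inj k' q ?_)
    rw [frobenius_def, frobenius_def, ← Units.val_pow_eq_pow_val, h2, Units.val_one, one_pow]
  obtain ⟨-, hG, -⟩ := hEq k' φ
  rw [hz] at hG
  set W := ofZ k' psD * qExpand k' q (sDinv k')
  haveI : CharP (LaurentSeries k') q :=
    charP_of_injective_ringHom (HahnSeries.C_injective (Γ := ℤ) (R := k')) q
  haveI : ExpChar (LaurentSeries k') q := ExpChar.prime hq.out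
  have h0 : ((q : LaurentSeries k')) = 0 := CharP.cast_eq_zero _ q
  have hG' : G.map (evZ q k') =
      (X : (LaurentSeries k')[X]) * (X ^ q - Polynomial.C (W ^ q)) := by
    rw [hG, Fintype.prod_option]
    congr 1
    · simp only [rootW, h0, zero_pow (by norm_num : (12 : ℕ) ≠ 0), zero_mul, map_zero, sub_zero]
    · simp only [rootW, one_pow, twist_one_unit, Finset.prod_const, Finset.card_univ,
        Fintype.card_fin]
      rw [map_pow, sub_pow_char]
  have h1 := congrArg (fun p : (LaurentSeries k')[X] => p.coeff 1) hG'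
  simp only [coeff_map, coeff_X_mul, coeff_sub, coeff_X_pow, coeff_C_zero] at h1
  rw [if_neg (Ne.symm hq.out.ne_zero), zero_sub] at h1
  have hy : qExpand k' q (jqModC k') = jqModC k' ^ q := by
    letI := ZMod.algebra k' q
    rw [← coeffMap_jqModC (algebraMap (ZMod q) k'), ← coeffMap_qExpand, qExpand_eq_pow_zmod,
      map_pow]
  have hev : evZ q k' (G.coeff 1) = aeval (jqModC k') (G.coeff 1) ^ q := by
    rw [evZ, coe_eval₂RingHom, aeval_def, hy, ← frobenius_def (R := LaurentSeries k'),
      ← frobenius_def (R := LaurentSeries k'), hom_eval₂]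
    exact congrArg (fun f => eval₂ f _ _) (RingHom.ext_int _ _)
  rw [hev] at h1
  have hneg : (-W) ^ q = -(W ^ q) := by
    rw [← frobenius_def (R := LaurentSeries k'), map_neg, frobenius_def]
  rw [← hneg] at h1
  have h2 : -aeval (jqModC k') (G.coeff 1) = W := by
    have h := frobenius_inj (LaurentSeries k') q (show frobenius _ q _ = frobenius _ q _ from h1)
    rw [h, neg_neg]
  letI := ZMod.algebra k' q
  have h3 : -aeval (jqModC (ZMod q)) (G.coeff 1) =
      ofZ (ZMod q) psD * qExpand (ZMod q) q (sDinv (ZMod q)) := by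
    refine (coeffMap (algebraMap (ZMod q) k')).injective ?_
    rw [map_neg, map_mul, coeffMap_ofZ, coeffMap_qExpand, coeffMap_sDinv, aeval_def, hom_eval₂,
      coeffMap_jqModC, RingHom.ext_int ((coeffMap (algebraMap (ZMod q) k')).comp _)
        (algebraMap ℤ (LaurentSeries k'))]
    exact h2
  intro k _ _
  letI := ZMod.algebra k q
  have h := congrArg (coeffMap (algebraMap (ZMod q) k)) h3
  rw [map_neg, map_mul, coeffMap_ofZ, coeffMap_qExpand, coeffMap_sDinv, aeval_def, hom_eval₂,
    coeffMap_jqModC, RingHom.ext_int ((coeffMap (algebraMap (ZMod q) k)).comp _)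
      (algebraMap ℤ (LaurentSeries k))] at h
  exact h

end FLTAgent.LevelSq
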