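import Fermat.Agent.LevelSq.RatModel
import Fermat.Agent.LevelSq.BaseSeries
import Fermat.Agent.LevelSq.RamField
import Fermat.Agent.Semistable.Series
import Fermat.Agent.Hecke.LevelField

/-!
# The chart over the inertia field

The rational chart, its frame and its residual basis, transported to `MF (urField A) N` over
`urRing A`, and the reduction of the chart there.
-/

set_option autoImplicit false
set_option linter.style.haveILetI false
set_option linter.unusedSectionVars false
set_option maxSynthPendingDepth 3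
set_option synthInstance.maxHeartbeats 400000
set_option maxHeartbeats 1000000

noncomputable section

open Polynomial ModularCurve ModularCurve.IgusaScheme IntermediateField

namespace FLTAgent.LevelSq

open FLTAgent.Hecke
open FLTAgent.Igusa (resHom gaussRing red red_eq lift reduce intToC coeffMap_intToC intToRat)
open Semistable (SRed)

local notation "Qbar" => AlgebraicClosure ℚ

attribute [local instance] FlatModel.isFractionRing_ratLocalizedAt

/-- The chart of `ψ` is finite over `O [ψ]`. -/
def ChartFinite (O : Type*) {L : Type*} [CommRing O] [Field L] [Algebra O L] (ψ : L) : Prop :=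
  Module.Finite (Algebra.adjoin O ({ψ} : Set L))
    (integralClosure (Algebra.adjoin O ({ψ} : Set L)) L)

/-- A multiplicatively closed span containing generators is everything. -/
theorem top_le_span_of_mul_mem {K L : Type*} [Field K] [Field L] [Algebra K L]
    {K' : IntermediateField K L} {ι : Type*} [Finite ι] {v : ι → L}
    (hmul : ∀ i k, v i * v k ∈ Submodule.span K' (Set.range v))
    (hone : (1 : L) ∈ Submodule.span K' (Set.range v)) {S : Set L}
    (hS : IntermediateField.adjoin K S = ⊤) (hSv : S ⊆ Submodule.span K' (Set.range v)) :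
    ⊤ ≤ Submodule.span K' (Set.range v) := by
  set V := Submodule.span K' (Set.range v)
  have hmul' : ∀ a ∈ V, ∀ b ∈ V, a * b ∈ V := by
    intro a ha b hb
    induction ha using Submodule.span_induction with
    | mem x hx =>
      induction hb using Submodule.span_induction with
      | mem y hy =>
        obtain ⟨i, rfl⟩ := hx
        obtain ⟨k, rfl⟩ := hy
        exact hmul i k
      | zero => simp
      | add y z _ _ hy hz => rw [mul_add]; exact add_mem hy hz
      | smul r y _ hy => rw [mul_smul_comm]; exact V.smul_mem _ hy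
    | zero => simp
    | add y z _ _ hy hz => rw [add_mul]; exact add_mem hy hz
    | smul r y _ hy => rw [smul_mul_assoc]; exact V.smul_mem _ hy
  set T : Subalgebra K' L := V.toSubalgebra hone fun a b ha hb => hmul' a ha b hb
  haveI : Module.Finite K' T := by
    change Module.Finite K' V
    exact Module.Finite.span_of_finite _ (Set.finite_range _)
  set E : IntermediateField K' L := T.toIntermediateField fun x hx =>
    T.inv_mem_of_algebraic (x := ⟨x, hx⟩)
      ((Algebra.IsIntegral.isIntegral (⟨x, hx⟩ : T)).map T.val).isAlgebraic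
  have hle : IntermediateField.adjoin K S ≤ E.restrictScalars K :=
    IntermediateField.adjoin_le_iff.2 hSv
  intro z _
  exact hle (hS.symm ▸ IntermediateField.mem_top)

variable {q : ℕ} [hq : Fact q.Prime] {A : ValuationSubring Qbar} (hA : A.LiesOverPrime q)
  {N : ℕ} [NeZero N]

set_option quotPrecheck false in
/-- `ℤ_(q)`. -/
local notation "Oq" => ↥(GaloisRep.ratLocalizedAt q)

set_option quotPrecheck false in
/-- The function field of level `N` over `ℚ`. -/
local notation "Fℚ" => ↥(modularFunctionFieldFull N)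

set_option quotPrecheck false in
/-- The function field of level `N` over the inertia field. -/
local notation "FL" => ↥(MF (urField A) N)

set_option quotPrecheck false in
/-- The residue field. -/
local notation "kA" => IsLocalRing.ResidueField A

include hA in
theorem natCast_mem_urRing_inv {m : ℕ} (hm : ¬ q ∣ m) : (m : urField A)⁻¹ ∈ urRing A := by
  rw [mem_urRing]
  have h : IsUnit ((m : A)) := by
    by_contra hu
    exact natCast_residue_ne_zero hA hm (by
      rw [← map_natCast (IsLocalRing.residue A), IsLocalRing.residue_eq_zero_iff]; exact hu)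
  obtain ⟨u, hu⟩ := h
  have h1 : ((u : A) : Qbar) * ((↑u⁻¹ : A) : Qbar) = 1 := congrArg Subtype.val u.mul_inv
  rw [hu] at h1
  push_cast at h1
  have e : (((m : urField A)⁻¹ : urField A) : Qbar) = ((↑u⁻¹ : A) : Qbar) := by
    push_cast
    exact inv_eq_of_mul_eq_one_right h1
  rw [e]
  exact (↑u⁻¹ : A).2

/-- `ℤ_(q) → urRing A`. -/
def oIncl : Oq →+* urRing A :=
  ((algebraMap ℚ (urField A)).comp (GaloisRep.ratLocalizedAt q).subtype).codRestrict
    (urRing A).toSubring fun a => by
    show algebraMap ℚ (urField A) (a : ℚ) ∈ urRing A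
    have hd : ¬ q ∣ (a : ℚ).den := (hq.out.coprime_iff_not_dvd).1
      (Nat.Coprime.symm (FlatModel.mem_ratLocalizedAt q |>.1 a.2))
    rw [← Rat.num_div_den (a : ℚ), map_div₀, map_intCast, map_natCast, div_eq_mul_inv]
    exact mul_mem (intCast_mem _ _) (natCast_mem_urRing_inv hA hd)

theorem coe_oIncl (a : Oq) :
    ((oIncl hA a : urRing A) : urField A) = algebraMap ℚ (urField A) (a : ℚ) := rfl

theorem coe_urIncl_oIncl (a : Oq) :
    ((urIncl A (oIncl hA a) : A) : Qbar) = algebraMap ℚ Qbar (a : ℚ) :=
  RingHom.congr_fun (Subsingleton.elim ((algebraMap (urField A) Qbar).comp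
    (algebraMap ℚ (urField A))) (algebraMap ℚ Qbar)) (a : ℚ)

/-- `𝔽_q → k`. -/
def resZ : ZMod q →+* kA :=
  @ZMod.castHom q q dvd_rfl kA _ (charP_residueField hA)

theorem urRes_oIncl (a : Oq) : urRes A (oIncl hA a) = resZ hA (resHom q a) := by
  have h : a * ((a : ℚ).den : Oq) = ((a : ℚ).num : Oq) := Subtype.ext (by
    push_cast; exact Rat.mul_den_eq_num _)
  have h1 := congrArg ((urRes A).comp (oIncl hA)) h
  have h2 := congrArg ((resZ hA).comp (resHom q)) h
  rw [map_mul, map_intCast, map_natCast] at h1 h2
  have hd : ((a : ℚ).den : kA) ≠ 0 := natCast_residue_ne_zero hA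
    ((hq.out.coprime_iff_not_dvd).1 (Nat.Coprime.symm (FlatModel.mem_ratLocalizedAt q |>.1 a.2)))
  exact mul_right_cancel₀ hd (h1.trans h2.symm)

theorem urRes_comp_oIncl : (urRes A).comp (oIncl hA) = (resZ hA).comp (resHom q) :=
  RingHom.ext (urRes_oIncl hA)

variable (A) in
/-- `ℚ`-expansions in the field over the inertia field. -/
def toMF : Fℚ →+* FL :=
  ((coeffEmb (urField A)).comp (algebraMap Fℚ (LaurentSeries ℚ))).codRestrict
    (MF (urField A) N).toSubfield.toSubring
    fun x => coeffEmb_mem_laurentBaseChange (urField A) x.2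

theorem coe_toMF (x : Fℚ) :
    (toMF A x : LaurentSeries (urField A)) = coeffEmb (urField A) (x : LaurentSeries ℚ) := rfl

theorem toSeries_toMF (x : Fℚ) :
    toSeriesQbar A N (toMF A x) = coeffMap (algebraMap ℚ Qbar) (x : LaurentSeries ℚ) := by
  rw [toSeriesQbar_apply, coe_toMF, coeffEmb, coeffMap_coeffMap]
  exact coeffMap_congr (Subsingleton.elim _ _) _

theorem toMF_algebraMap_rat (a : ℚ) :
    toMF A (algebraMap ℚ Fℚ a) = algebraMap (urField A) FL (algebraMap ℚ (urField A) a) :=
  RingHom.congr_fun (Subsingleton.elim ((toMF A).comp (algebraMap ℚ Fℚ))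
    ((algebraMap (urField A) FL).comp (algebraMap ℚ (urField A)))) a

theorem toMF_algebraMap (a : Oq) :
    toMF A (algebraMap Oq Fℚ a) = algebraMap (urRing A) FL (oIncl hA a) := by
  rw [IsScalarTower.algebraMap_apply Oq ℚ Fℚ, toMF_algebraMap_rat]
  rfl

theorem toMF_aeval (x : Fℚ) (p : Oq[X]) :
    toMF A (aeval x p) = aeval (toMF A x) (p.map (oIncl hA)) := by
  rw [aeval_def, hom_eval₂, aeval_def, eval₂_map]
  exact congrArg (fun f => eval₂ f _ p) (RingHom.ext (toMF_algebraMap hA))

theorem toMF_jFull : toMF A (jFull N) = jMF (urField A) N := by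
  refine Subtype.ext ?_
  rw [coe_toMF, coe_jFull, jMF_coe, Hecke.coeffEmb_jq]

set_option quotPrecheck false in
local notation "Cj" => chart (urRing A) (jMF (urField A) N)

include hA in
theorem toMF_mem_chart {z : Fℚ} (hz : z ∈ chartJ q N) : toMF A z ∈ Cj := by
  obtain ⟨p, hp, hpz⟩ := (mem_chart _).1 hz
  set B := Algebra.adjoin (urRing A) ({jMF (urField A) N} : Set FL)
  have hmem : ∀ y : Algebra.adjoin Oq ({jFull N} : Set Fℚ), toMF A (y : Fℚ) ∈ B := by
    intro y
    obtain ⟨r, hr⟩ := exists_aeval_eq Oq y.2
    rw [← hr, toMF_aeval hA, toMF_jFull]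
    exact aeval_mem_adjoin _ _ _
  let f : Algebra.adjoin Oq ({jFull N} : Set Fℚ) →+* B :=
    ((toMF A).comp (Algebra.adjoin Oq ({jFull N} : Set Fℚ)).val.toRingHom).codRestrict
      B.toSubring hmem
  refine (mem_chart _).2 ⟨p.map f, hp.map f, ?_⟩
  rw [eval₂_map]
  have h := congrArg (toMF A) hpz
  rw [map_zero, hom_eval₂] at h
  exact h

include hA in
/-- Rational functions reduce through their expansions. -/
theorem sRed_toMF (z : chartJ q N) :
    SRed (IsLocalRing.residue A) (toSeriesQbar A N (toMF A (z : Fℚ)))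
      (coeffMap (resZ hA) (redJ q N z)) := by
  obtain ⟨a, b, hb, he⟩ := coe_mem_gaussRing_chartJ q z.2
  set f : Oq →+* A := (urIncl A).comp (oIncl hA)
  have hl : ∀ y, coeffMap A.subtype (coeffMap f y) = coeffMap (algebraMap ℚ Qbar) (lift q y) :=
    fun y => by
    show _ = coeffMap _ (coeffMap (GaloisRep.ratLocalizedAt q).subtype y)
    rw [coeffMap_coeffMap, coeffMap_coeffMap]
    exact coeffMap_congr (RingHom.ext fun c => coe_urIncl_oIncl hA c) y
  have hr : ∀ y, coeffMap (IsLocalRing.residue A) (coeffMap f y) =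
      coeffMap (resZ hA) (reduce q y) := fun y => by
    show _ = coeffMap _ (coeffMap (resHom q) y)
    rw [coeffMap_coeffMap, coeffMap_coeffMap]
    exact coeffMap_congr (urRes_comp_oIncl hA) y
  refine ⟨coeffMap f a, coeffMap f b, ?_, ?_, ?_⟩
  · rw [hr]; exact (map_ne_zero_iff _ (coeffMap (resZ hA)).injective).2 hb
  · rw [toSeries_toMF, hl, hl, ← map_mul, he]
  · have hred : redJ q N z = reduce q a / reduce q b :=
      (redJ_apply q z).trans (red_eq q (x := ⟨_, coe_mem_gaussRing_chartJ q z.2⟩) hb he)
    rw [hred, hr, hr, ← map_mul, div_mul_cancel₀ _ hb]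

section Haupt

variable (H : Haupt) (hH : H.lvl ∣ N) (hqN : ¬ q ∣ N)

variable (A) in
/-- The coordinate. -/
def hMF : FL := toMF A (hauptEl H hH)

set_option quotPrecheck false in
local notation "hL" => hMF A H hH
set_option quotPrecheck false in
local notation "SO" => H.denR (urRing A)

include hA in
theorem hMF_equation :
    jMF (urField A) N * aeval hL SO = aeval hL (H.numR (urRing A)) := by
  have h := congrArg (toMF A) (jFull_mul_den q H hH)
  rw [map_mul, toMF_jFull, toMF_aeval hA, toMF_aeval hA, H.map_denR] at h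
  rw [hMF, h, Haupt.numR, Haupt.numR, Polynomial.map_map]
  exact congrArg (fun g => aeval _ ((H.A ^ 3).map g)) (RingHom.ext_int _ _)

theorem coe_hMF : (hL : LaurentSeries (urField A)) = H.serC (urField A) := by
  rw [hMF, coe_toMF, coe_hauptEl, coeffEmb, intToRat, coeffMap_coeffMap, Haupt.serC, intToC]
  exact coeffMap_congr (RingHom.ext_int _ _) _

theorem transcendental_hMF : Transcendental (urField A) hL := by
  rw [← transcendental_algebraMap_iff (A := LaurentSeries (urField A)) Subtype.val_injective]
  show Transcendental (urField A) ((hL : FL) : LaurentSeries (urField A))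
  rw [coe_hMF]
  exact H.transcendental (urField A)

theorem transcendental_hMF_ring : Transcendental (urRing A) hL := fun ⟨p, hp0, hp⟩ =>
  transcendental_hMF H hH (A := A) (N := N)
    ⟨p.map (algebraMap (urRing A) (urField A)),
      by rwa [Ne, Polynomial.map_eq_zero_iff Subtype.val_injective],
      by rwa [aeval_map_algebraMap]⟩

include hA hH hqN in
theorem inv_SO_mem : (aeval hL SO)⁻¹ ∈ Cj := by
  rw [hMF, ← H.map_denR (oIncl hA), ← toMF_aeval hA, ← map_inv₀]
  exact toMF_mem_chart hA (inv_den_mem q H hH hqN)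

include hA in
theorem aeval_hMF_mem (p : (urRing A)[X]) : aeval hL p ∈ Cj := by
  refine chart_coord_le_chart (H.numR_monic _) (H.deg_lt _) (hMF_equation hA H hH) ?_
  exact aeval_mem_chart _ _ p

/-- Polynomials in the coordinate, in the chart. -/
def polC : (urRing A)[X] →+* Cj :=
  (aeval hL).toRingHom.codRestrict (Cj).toSubring (aeval_hMF_mem hA H hH)

set_option quotPrecheck false in
/-- The reduction of the coordinate. -/
local notation "hk" => H.serC kA

include hA in
theorem sRed_hMF : SRed (IsLocalRing.residue A) (toSeriesQbar A N hL) hk := by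
  have h := sRed_toMF hA ⟨hauptEl H hH, hauptEl_mem q H hH⟩
  rwa [redJ_hauptEl, Haupt.serC, coeffMap_intToC] at h

include hA in
theorem sRed_aeval (p : (urRing A)[X]) :
    SRed (IsLocalRing.residue A) (toSeriesQbar A N (aeval hL p))
      (aeval hk (p.map (urRes A))) := by
  induction p using Polynomial.induction_on with
  | C a =>
    rw [aeval_C, Polynomial.map_C, aeval_C]
    have e : toSeriesQbar A N (algebraMap (urRing A) FL a) =
        algebraMap Qbar (LaurentSeries Qbar) ((urIncl A a : A) : Qbar) := by
      rw [algebraMap_laurentSeries_eq_single]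
      show coeffMap _ (algebraMap (urField A) (LaurentSeries (urField A)) (a : urField A)) = _
      rw [algebraMap_laurentSeries_eq_single, coeffMap_single]
      rfl
    rw [e]
    exact Semistable.sRed_algebraMap (π := IsLocalRing.residue A) (urIncl A a)
  | add p r hp hr => simpa [map_add, Polynomial.map_add] using hp.add hr
  | monomial n a ih =>
    have e : C a * X ^ (n + 1) = C a * X ^ n * (X : (urRing A)[X]) := by rw [pow_succ, mul_assoc]
    rw [e]
    generalize C a * X ^ n = r at ih ⊢
    rw [map_mul, map_mul, aeval_X, Polynomial.map_mul, Polynomial.map_X, map_mul, aeval_X]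
    exact ih.mul (sRed_hMF hA H hH)

/-- The lifted basis. -/
def eMF (i : Fin (ratData q H hH hqN).r) : Cj :=
  ⟨toMF A ((ratData q H hH hqN).e i : Fℚ), toMF_mem_chart hA ((ratData q H hH hqN).e i).2⟩

/-- The residual basis. -/
def eRes (i : Fin (ratData q H hH hqN).r) : LaurentSeries kA :=
  coeffMap (resZ hA) (redJ q N ((ratData q H hH hqN).e i))

theorem eRes_indep (P : Fin (ratData q H hH hqN).r → kA[X])
    (hP : ∑ i, aeval hk (P i) * eRes hA H hH hqN i = 0) : P = 0 := by
  letI : Algebra (ZMod q) kA := (resZ hA).toAlgebra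
  refine aeval_indep_baseChange (H.serC (ZMod q))
    (fun i => redJ q N ((ratData q H hH hqN).e i)) (ratData q H hH hqN).indep P ?_
  rw [show coeffMap (algebraMap (ZMod q) kA) (H.serC (ZMod q)) = hk from coeffMap_intToC _ _]
  exact hP

/-- Reduction of a combination of the lifted basis. -/
theorem sRed_sum (p : Fin (ratData q H hH hqN).r → (urRing A)[X]) :
    SRed (IsLocalRing.residue A)
      (toSeriesQbar A N (∑ i, aeval hL (p i) * (eMF hA H hH hqN i : FL)))
      (∑ i, aeval hk ((p i).map (urRes A)) * eRes hA H hH hqN i) := by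
  rw [map_sum]
  refine Semistable.SRed.sum _ fun i _ => ?_
  rw [map_mul]
  exact (sRed_aeval hA H hH (p i)).mul (sRed_toMF hA _)

include hA in
theorem eMF_sum_eq_zero {p : Fin (ratData q H hH hqN).r → (urRing A)[X]}
    (hp : ∑ i, aeval hL (p i) * (eMF hA H hH hqN i : FL) = 0) : p = 0 := by
  haveI := isDiscreteValuationRing_urRing hA
  have step : ∀ (n : ℕ) (p : Fin (ratData q H hH hqN).r → (urRing A)[X]),
      ∑ i, aeval hL (p i) * (eMF hA H hH hqN i : FL) = 0 →
        ∀ i, C ((q : urRing A) ^ n) ∣ p i := by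
    intro n
    induction n with
    | zero => intro p _ i; simp
    | succ n ih =>
      intro p hp i
      have h0 := sRed_sum hA H hH hqN p
      rw [hp, map_zero] at h0
      have hz := eRes_indep hA H hH hqN _ (h0.unique Semistable.sRed_zero)
      have hd : ∀ i, C (q : urRing A) ∣ p i := fun i => by
        rw [C_dvd_iff_dvd_coeff]
        intro m
        rw [← urRes_eq_zero hA, ← coeff_map]
        exact (congrArg (fun r : kA[X] => r.coeff m) (congrFun hz i)).trans (coeff_zero m)
      choose p' hp' using hd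
      have hq0 : algebraMap (urRing A) FL (q : urRing A) ≠ 0 := by
        rw [map_natCast]
        haveI : CharZero FL := charZero_of_injective_algebraMap (algebraMap (urField A) FL).injective
        exact Nat.cast_ne_zero.2 hq.out.ne_zero
      have hp'0 : ∑ i, aeval hL (p' i) * (eMF hA H hH hqN i : FL) = 0 := by
        refine (mul_eq_zero.1 ((?_ : algebraMap (urRing A) FL (q : urRing A) * _ = 0))).resolve_left
          hq0
        rw [← hp, Finset.mul_sum]
        exact Finset.sum_congr rfl fun i _ => by rw [hp' i, map_mul, aeval_C, mul_assoc]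
      rw [hp' i, pow_succ', C_mul]
      exact mul_dvd_mul_left _ (ih p' hp'0 i)
  funext i
  refine Polynomial.ext fun k => ?_
  by_contra hk'
  rw [Pi.zero_apply, coeff_zero] at hk'
  obtain ⟨n, hn⟩ := FiniteMultiplicity.of_prime_left (prime_natCast_urRing hA) hk'
  exact hn (C_dvd_iff_dvd_coeff _ _ |>.1 (step (n + 1) p hp i) k)

set_option quotPrecheck false in
local notation "Kh" => ↥(IntermediateField.adjoin (urField A) ({hMF A H hH} : Set FL))

include hA in
theorem linearIndependent_eMF :
    LinearIndependent Kh fun i => (eMF hA H hH hqN i : FL) := by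
  classical
  haveI := isDiscreteValuationRing_urRing hA
  rw [Fintype.linearIndependent_iff]
  intro a ha i
  choose u v huv using fun i =>
    exists_eq_div_of_mem_adjoin (O := urRing A) (K := urField A) (a i).2
  have hst : ∀ j, ∃ s t : (urRing A)[X], s ≠ 0 ∧ aeval hL s * (a j : FL) = aeval hL t := by
    intro j
    rcases eq_or_ne (aeval hL (v j)) 0 with h0 | h0
    · exact ⟨1, 0, one_ne_zero, by rw [huv j, h0, div_zero, mul_zero, map_zero]⟩
    · exact ⟨v j, u j, fun e => h0 (by rw [e, map_zero]), by rw [huv j, mul_div_cancel₀ _ h0]⟩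
  choose s t hs hst using hst
  have hP := eMF_sum_eq_zero hA H hH hqN (p := fun j => (∏ k ∈ Finset.univ.erase j, s k) * t j) (by
    rw [← mul_zero (aeval hL (∏ k, s k)), ← ha, Finset.mul_sum]
    refine Finset.sum_congr rfl fun j _ => ?_
    rw [Algebra.smul_def, IntermediateField.algebraMap_apply,
      ← Finset.mul_prod_erase _ s (Finset.mem_univ j), map_mul, map_mul, ← hst j]
    ring)
  rcases mul_eq_zero.1 (congrFun hP i) with h0 | h0
  · obtain ⟨k, -, hk'⟩ := Finset.prod_eq_zero_iff.1 h0
    exact absurd hk' (hs k)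
  · have h1 := hst i
    rw [h0, map_zero, mul_eq_zero] at h1
    exact Subtype.ext (h1.resolve_left fun e =>
      hs i (transcendental_iff.1 (transcendental_hMF_ring H hH) _ e))

include hA in
theorem toMF_mem_adjoin_hMF (x : ℚ⟮hauptEl H hH⟯) :
    toMF A (x : Fℚ) ∈ IntermediateField.adjoin (urField A) ({hMF A H hH} : Set FL) := by
  haveI := isDiscreteValuationRing_urRing hA
  obtain ⟨r, s, hrs⟩ := exists_eq_div_of_mem_adjoin (O := Oq) (K := ℚ) x.2
  rw [hrs, map_div₀, toMF_aeval hA, toMF_aeval hA]
  refine div_mem ?_ ?_ <;>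
    exact adjoin_le_adjoinField (K := urField A) ⟨_, aeval_mem_adjoin _ _ _⟩

/-- `ℚ (h) → urField (h)`. -/
def psiH : ℚ⟮hauptEl H hH⟯ →+* Kh :=
  ((toMF A).comp (algebraMap ℚ⟮hauptEl H hH⟯ Fℚ)).codRestrict
    (IntermediateField.adjoin (urField A) ({hMF A H hH} : Set FL)).toSubfield.toSubring
    (toMF_mem_adjoin_hMF hA H hH)

theorem toMF_algebraMap_hauptEl (r : ℚ⟮hauptEl H hH⟯) :
    toMF A (algebraMap ℚ⟮hauptEl H hH⟯ Fℚ r) = algebraMap Kh FL (psiH hA H hH r) := rfl

include hA in
theorem toMF_mem_span (x : Fℚ) :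
    toMF A x ∈ Submodule.span Kh (Set.range fun i => (eMF hA H hH hqN i : FL)) := by
  let b : Module.Basis (Fin (ratData q H hH hqN).r) ℚ⟮hauptEl H hH⟯ Fℚ :=
    (ratData q H hH hqN).basis (K₀ := ℚ)
  have hb : ∀ i, b i = ((ratData q H hH hqN).e i : Fℚ) :=
    fun i => (ratData q H hH hqN).basis_apply i
  have hx := congrArg (toMF A) (b.sum_repr x).symm
  rw [map_sum] at hx
  rw [hx]
  refine Submodule.sum_mem _ fun i _ => ?_
  rw [map_smul_of_compat (psiH hA H hH) (toMF A) (toMF_algebraMap_hauptEl hA H hH), hb]
  exact Submodule.smul_mem _ _ (Submodule.subset_span ⟨i, rfl⟩)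

variable (A) in
theorem adjoin_range_toMF :
    IntermediateField.adjoin (urField A) (Set.range (toMF A (N := N))) = ⊤ := by
  refine eq_top_iff.2 fun z _ => ?_
  have hle : MF (urField A) N ≤ (IntermediateField.adjoin (urField A)
      (Set.range (toMF A (N := N)))).map (MF (urField A) N).val := by
    refine IntermediateField.adjoin_le_iff.2 ?_
    rintro _ ⟨y, hy, rfl⟩
    exact ⟨toMF A ⟨y, hy⟩, IntermediateField.subset_adjoin _ _ ⟨_, rfl⟩, rfl⟩
  obtain ⟨y, hy, hyz⟩ := hle z.2
  exact (Subtype.ext hyz : y = z) ▸ hy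

include hA in
theorem span_eMF : ⊤ ≤ Submodule.span Kh (Set.range fun i => (eMF hA H hH hqN i : FL)) :=
  top_le_span_of_mul_mem (fun i k => by
      show toMF A _ * toMF A _ ∈ _
      rw [← map_mul]
      exact toMF_mem_span hA H hH hqN _)
    (by simpa using toMF_mem_span hA H hH hqN 1) (adjoin_range_toMF A)
    (by rintro _ ⟨x, rfl⟩; exact toMF_mem_span hA H hH hqN x)

/-- The basis over `urField A (h)`. -/
def basisMF : Module.Basis (Fin (ratData q H hH hqN).r) Kh FL :=
  Module.Basis.mk (linearIndependent_eMF hA H hH hqN) (span_eMF hA H hH hqN)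

theorem basisMF_apply (i : Fin (ratData q H hH hqN).r) :
    basisMF hA H hH hqN i = toMF A ((ratData q H hH hqN).basis (K₀ := ℚ) i) := by
  rw [basisMF, Module.Basis.mk_apply, ResData.basis_apply]
  rfl

include hA hH hqN in
theorem finiteDimensional_hMF : FiniteDimensional Kh FL :=
  Module.Finite.of_basis (basisMF hA H hH hqN)

include hA hH hqN in
theorem finiteDimensional_jMF :
    FiniteDimensional (urField A)⟮jMF (urField A) N⟯ FL :=
  haveI : FunctionField.IsFunctionField (urField A) FL :=
    ⟨⟨hMF A H hH, transcendental_hMF H hH, finiteDimensional_hMF hA H hH hqN⟩⟩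
  FunctionField.finiteDimensional_adjoin_of_transcendental (transcendental_jMF (urField A) N)

include hA hH hqN in
theorem finite_chartMF : ChartFinite (urRing A) (jMF (urField A) N) := by
  haveI := isDiscreteValuationRing_urRing hA
  haveI := finiteDimensional_jMF hA H hH hqN
  haveI : CharZero FL := charZero_of_injective_algebraMap (algebraMap (urField A) FL).injective
  haveI : Algebra.IsSeparable (urField A)⟮jMF (urField A) N⟯ FL :=
    Algebra.IsSeparable.of_integral _ _
  exact finite_chart (K := urField A) fun ⟨p, hp0, hp⟩ => transcendental_jMF (urField A) N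
    ⟨p.map (algebraMap (urRing A) (urField A)),
      by rwa [Ne, Polynomial.map_eq_zero_iff Subtype.val_injective],
      by rwa [aeval_map_algebraMap]⟩

include hqN in
/-- Frames carry over. -/
theorem isTraceFrame_toMF {ι : Type*} [Fintype ι] {w : ℚ⟮hauptEl H hH⟯} {a c : ι → Fℚ}
    (h : IsTraceFrame ℚ⟮hauptEl H hH⟯ w a c) :
    IsTraceFrame Kh (psiH hA H hH w) (fun i => toMF A (a i)) fun i => toMF A (c i) :=
  h.map (psiH hA H hH) (toMF A) (toMF_algebraMap_hauptEl hA H hH)
    ((ratData q H hH hqN).basis (K₀ := ℚ)) (basisMF hA H hH hqN) (basisMF_apply hA H hH hqN)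

include hA hH hqN in
/-- Traces of the chart. -/
theorem exists_trace_hMF {z : FL} (hz : z ∈ Cj) :
    ∃ (m : ℕ) (p : (urRing A)[X]),
      aeval hL SO ^ m * algebraMap Kh FL (Algebra.trace Kh FL z) = aeval hL p := by
  haveI := isDiscreteValuationRing_urRing hA
  haveI := finiteDimensional_hMF hA H hH hqN
  have hS0 : aeval hL SO ≠ 0 := fun e => (H.denR_monic (urRing A)).ne_zero
    (transcendental_iff.1 (transcendental_hMF_ring H hH) _ e)
  exact exists_trace_eq_div (K := urField A) (transcendental_hMF_ring H hH)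
    ((mem_chart_iff_inDen (H.numR_monic _) (H.deg_lt _) (hMF_equation hA H hH) hS0
      (inv_SO_mem hA H hH hqN)).1 hz)

end Haupt

end FLTAgent.LevelSq
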