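import Fermat.Agent.LevelSq.BaseRed
import Fermat.Agent.LevelSq.Compat

/-!
# The level `N` model at `q`

For `q ∤ N` and a coordinate of level dividing `N`, the chart of `j` over `urRing A` with the
reduction of expansions, the coordinate and the supersingular function form a base model.
-/

set_option autoImplicit false
set_option linter.style.haveILetI false
set_option linter.unusedSectionVars false
set_option maxSynthPendingDepth 3
set_option synthInstance.maxHeartbeats 400000
set_option maxHeartbeats 1000000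

noncomputable section

open Polynomial ModularCurve ModularCurve.IgusaScheme IntermediateField

namespace FLTAgent.LevelSq

open FLTAgent.Hecke
open FLTAgent.Igusa (sDinv psD psD_mul_sDinv ofZ intToRat)
open Semistable (SRed)

local notation "Qbar" => AlgebraicClosure ℚ

attribute [local instance] FlatModel.isFractionRing_ratLocalizedAt

local instance (priority := high) instAddMonoidHomClassBaseModel {R S : Type*}
    [NonAssocSemiring R] [NonAssocSemiring S] : AddMonoidHomClass (R →+* S) R S :=
  RingHomClass.toAddMonoidHomClass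

local instance (priority := high) instAddHomClassBaseModel {R S : Type*}
    [NonAssocSemiring R] [NonAssocSemiring S] : AddHomClass (R →+* S) R S :=
  AddMonoidHomClass.toAddHomClass

section General

/-- A finite chart over a Noetherian ring is Noetherian. -/
theorem isNoetherianRing_of_chartFinite {O L : Type*} [CommRing O] [IsNoetherianRing O] [Field L]
    [Algebra O L] {ψ : L} (hfin : ChartFinite O ψ) : IsNoetherianRing (chart O ψ) := by
  let B := Algebra.adjoin O ({ψ} : Set L)
  haveI h0 : Module.Finite B (integralClosure B L) := hfin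
  haveI h1 : Algebra.FiniteType O B :=
    (Subalgebra.fg_iff_finiteType _).1
      (Subalgebra.fg_adjoin_finset {ψ} |> fun h => by simpa using h)
  haveI h2 : Algebra.FiniteType B (integralClosure B L) := inferInstance
  haveI : Algebra.FiniteType O (chart O ψ) :=
    (Algebra.FiniteType.trans h1 h2 : Algebra.FiniteType O (integralClosure B L))
  exact Algebra.FiniteType.isNoetherianRing O _

/-- Values at a point reduce polynomials in the coordinate. -/
theorem mk_polynomial_eq {O C : Type*} [CommRing O] [CommRing C] [Algebra O C] (y : Ideal C)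
    (pol : O[X] →+* C) (hpol : ∀ a, pol (Polynomial.C a) = algebraMap O C a) (a : O)
    (hX : pol X - algebraMap O C a ∈ y) (p : O[X]) :
    Ideal.Quotient.mk y (pol p) = Ideal.Quotient.mk y (algebraMap O C (p.eval a)) := by
  refine Ideal.Quotient.eq.2 ?_
  obtain ⟨s, hs⟩ := X_sub_C_dvd_sub_C_eval (a := a) (p := p)
  have h := congrArg pol hs
  rw [map_sub, hpol, map_mul, map_sub, hpol] at h
  rw [h]
  exact y.mul_mem_right _ hX

/-- Frames of weight one make the coordinate a uniformiser at the points over `q`. -/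
theorem exists_unif_of_frame {O C : Type*} [CommRing O] [CommRing C] [IsNoetherianRing C]
    [Algebra O C] (pol : O[X] →+* C) (hpol : ∀ a, pol (Polynomial.C a) = algebraMap O C a)
    (S : O[X]) (w : C) (hw : pol S * w = 1) {n : ℕ} (aF cF : Fin n → C) (T : C → C)
    (hT : ∀ z, ∃ (m : ℕ) (p : O[X]), T z = w ^ m * pol p)
    (hleft : ∀ z, z = ∑ i, T (z * aF i) * cF i) (hright : ∀ z, z = ∑ i, T (z * cF i) * aF i)
    (hcas : ∑ i, aF i * cF i = 1) (q : O) (hq : ∀ r, ¬ q ∣ r → IsUnit r) (x : Ideal C)
    [x.IsMaximal] (hqx : algebraMap O C q ∈ x) (hconst : ∀ g, ∃ a, g - algebraMap O C a ∈ x) :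
    ∃ a : O, pol X - algebraMap O C a ∈ x ∧ ∀ z ∈ x, ∃ d u v : C, d ∉ x ∧
      d * z = u * algebraMap O C q + v * (pol X - algebraMap O C a) := by
  have hqdvd : ∀ r, q ∣ r → algebraMap O C r ∈ x := by
    rintro _ ⟨s, rfl⟩
    rw [map_mul]
    exact x.mul_mem_right _ hqx
  obtain ⟨a, ha⟩ := hconst (pol X)
  refine ⟨a, ha, fun z hz => ?_⟩
  set y : Ideal C := Ideal.span {algebraMap O C q, pol X - algebraMap O C a}
  have hyx : y ≤ x := Ideal.span_le.2 (Set.insert_subset hqx (Set.singleton_subset_iff.2 ha))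
  have hev := mk_polynomial_eq y pol hpol a (Ideal.subset_span (Set.mem_insert_of_mem _ rfl))
  obtain ⟨b, hb⟩ := (hq (S.eval a) fun hdvd => by
    have h2 := hyx (Ideal.Quotient.eq.1 (hev S))
    have h1 : pol S ∈ x := by simpa using x.add_mem h2 (hqdvd _ hdvd)
    exact (inferInstance : x.IsMaximal).ne_top
      (Ideal.eq_top_of_isUnit_mem x h1 (IsUnit.of_mul_eq_one _ hw))).exists_right_inv
  have hinv : Ideal.Quotient.mk y w = Ideal.Quotient.mk y (algebraMap O C b) := by
    refine left_inv_eq_right_inv (a := Ideal.Quotient.mk y (pol S)) ?_ ?_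
    · rw [← map_mul, mul_comm, hw, map_one]
    · rw [hev, ← map_mul, ← map_mul, hb, map_one, map_one]
  have hT' : ∀ v, ∃ r ∈ (algebraMap O C).range, T v - r ∈ y := by
    intro v
    obtain ⟨m, p, hmp⟩ := hT v
    refine ⟨algebraMap O C (b ^ m * p.eval a), ⟨_, rfl⟩, Ideal.Quotient.eq.1 ?_⟩
    rw [hmp, map_mul, map_pow, hinv, hev, ← map_pow, ← map_mul, ← map_pow, ← map_mul]
  have hres : ∀ v, ∃ r ∈ (algebraMap O C).range, v - r ∈ x := by
    intro v
    obtain ⟨r, hr⟩ := hconst v
    exact ⟨_, ⟨r, rfl⟩, hr⟩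
  have hκ : ∀ r ∈ (algebraMap O C).range, r ∈ x → r ∈ y := by
    rintro _ ⟨r, rfl⟩ hrx
    by_cases hdvd : q ∣ r
    · obtain ⟨s, rfl⟩ := hdvd
      rw [map_mul]
      exact y.mul_mem_right _ (Ideal.subset_span (Set.mem_insert _ _))
    · exact absurd (Ideal.eq_top_of_isUnit_mem x hrx ((hq r hdvd).map (algebraMap O C)))
        (inferInstance : x.IsMaximal).ne_top
  obtain ⟨d, hdx, hd⟩ :=
    exists_mul_mem_of_frame aF cF T hleft hright hcas _ hyx hT' hres hκ hz
  obtain ⟨u, v, huv⟩ := Ideal.mem_span_pair.1 hd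
  exact ⟨d, u, v, hdx, huv.symm⟩

/-- `ρ ^ 6 P = Q ^ (q - 1)`. -/
theorem rho_pow_identity {R : Type*} [CommRing R] {θ Qb Δ D : R} {n : ℕ} (hn : 1 ≤ n)
    (hθ : θ ^ 6 = Qb * Δ) (hD : Δ * D = 1) :
    (θ ^ (n - 1)) ^ 6 * (Δ * D ^ n) = Qb ^ (n - 1) := by
  rw [← pow_mul, mul_comm (n - 1) 6, pow_mul, hθ, mul_pow, mul_assoc, ← mul_assoc _ Δ,
    ← pow_succ, Nat.sub_add_cancel hn, ← mul_pow, hD, one_pow, mul_one]

end General

variable {q : ℕ} [hq : Fact q.Prime] {A : ValuationSubring Qbar} (hA : A.LiesOverPrime q)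
  {N : ℕ} [NeZero N] (H : Haupt) (hH : H.lvl ∣ N) (hqN : ¬ q ∣ N)

set_option quotPrecheck false in
/-- The function field of level `N` over the inertia field. -/
local notation "FL" => ↥(MF (urField A) N)

set_option quotPrecheck false in
/-- The residue field. -/
local notation "kA" => IsLocalRing.ResidueField A

set_option quotPrecheck false in
/-- The chart. -/
local notation "Cj" => chart (urRing A) (jMF (urField A) N)

set_option quotPrecheck false in
/-- The constants. -/
local notation "cst" => algebraMap (urRing A) Cj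

set_option quotPrecheck false in
/-- The inverted polynomial. -/
local notation "SO" => H.denR (urRing A)

set_option quotPrecheck false in
/-- The residual coordinate. -/
local notation "hbk" => H.serC kA

local instance (priority := high) instModuleBaseModel {B : ValuationSubring Qbar} :
    Module ↥(urRing B) ↥(MF (urField B) N) := (urAlgebraMF B N).toModule

local instance (priority := high) instIntAlgebraBaseModel {B : ValuationSubring Qbar} :
    Algebra ℤ ↥(chart (urRing B) (jMF (urField B) N)) := inferInstance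

local instance (priority := high) instAlgebraResBaseModel {B : ValuationSubring Qbar} :
    Algebra (IsLocalRing.ResidueField B) (LaurentSeries (IsLocalRing.ResidueField B)) :=
  inferInstance

/-- Elements with rational expansions. -/
def ratC (A : ValuationSubring Qbar) (N : ℕ) [NeZero N] :
    Subring (chart (urRing A) (jMF (urField A) N)) :=
  (coeffMap (algebraMap ℚ Qbar)).range.comap
    ((toSeriesQbar A N).comp (chart (urRing A) (jMF (urField A) N)).val.toRingHom)

theorem mem_ratC_of_eq {z : Cj} (x : ↥(modularFunctionFieldFull N))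
    (h : (z : FL) = toMF A x) : z ∈ ratC A N :=
  ⟨(x : LaurentSeries ℚ), ((congrArg (toSeriesQbar A N) h).trans (toSeries_toMF x)).symm⟩

/-- `j` in the chart. -/
def jC : Cj := ⟨jMF (urField A) N, self_mem_chart _ _⟩

theorem jC_mem_ratC : (jC : Cj) ∈ ratC A N := mem_ratC_of_eq (jFull N) toMF_jFull.symm

theorem polC_X_mem_ratC : polC hA H hH X ∈ ratC A N :=
  mem_ratC_of_eq (hauptEl H hH) ((aeval_X _).trans rfl)

theorem invS_mem_ratC : invS hA H hH hqN ∈ ratC A N :=
  mem_ratC_of_eq (aeval (hauptEl H hH) (H.denR ↥(GaloisRep.ratLocalizedAt q)))⁻¹ (by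
    show (aeval (hMF A H hH) SO)⁻¹ = _
    rw [map_inv₀, toMF_aeval hA, H.map_denR]
    rfl)

theorem polC_mem_adjoin (p : (urRing A)[X]) :
    polC hA H hH p ∈ Algebra.adjoin (urRing A) (ratC A N : Set Cj) := by
  induction p using Polynomial.induction_on with
  | C a => rw [polC_C]; exact Subalgebra.algebraMap_mem _ a
  | add p r hp hr => rw [map_add]; exact add_mem hp hr
  | monomial n a ih =>
    rw [pow_succ, ← mul_assoc, map_mul]
    exact mul_mem ih (Algebra.subset_adjoin (polC_X_mem_ratC hA H hH))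

include hqN in
/-- Traces inside the chart. -/
theorem exists_trace_chart (z : Cj) :
    ∃ (m : ℕ) (p : (urRing A)[X]),
      ((invS hA H hH hqN ^ m * polC hA H hH p : Cj) : FL) =
        algebraMap ↥(IntermediateField.adjoin (urField A) ({hMF A H hH} : Set FL)) FL
          (Algebra.trace ↥(IntermediateField.adjoin (urField A) ({hMF A H hH} : Set FL)) FL
            (z : FL)) := by
  obtain ⟨m, p, hp⟩ := exists_trace_hMF hA H hH hqN z.2
  refine ⟨m, p, ?_⟩
  show (aeval (hMF A H hH) SO)⁻¹ ^ m * aeval (hMF A H hH) p = _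
  rw [← hp, ← mul_assoc, ← mul_pow, inv_mul_cancel₀ (aeval_SO_ne H hH), one_pow, one_mul]

/-- The trace of the chart. -/
def trC (z : Cj) : Cj :=
  invS hA H hH hqN ^ (exists_trace_chart hA H hH hqN z).choose *
    polC hA H hH (exists_trace_chart hA H hH hqN z).choose_spec.choose

theorem coe_trC (z : Cj) :
    (trC hA H hH hqN z : FL) =
      algebraMap ↥(IntermediateField.adjoin (urField A) ({hMF A H hH} : Set FL)) FL
        (Algebra.trace ↥(IntermediateField.adjoin (urField A) ({hMF A H hH} : Set FL)) FL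
          (z : FL)) :=
  (exists_trace_chart hA H hH hqN z).choose_spec.choose_spec

include hA hH hqN in
/-- A frame of weight one with rational members. -/
theorem exists_frame_chart :
    ∃ (n : ℕ) (a c : Fin n → Cj), (∀ i, a i ∈ ratC A N) ∧ (∀ i, c i ∈ ratC A N) ∧
      (∀ z, z = ∑ i, trC hA H hH hqN (z * a i) * c i) ∧
      (∀ z, z = ∑ i, trC hA H hH hqN (z * c i) * a i) ∧ ∑ i, a i * c i = 1 := by
  obtain ⟨L, n, W, a₁, a, c, -, -, hf⟩ := exists_frames hA H hH hqN
  refine ⟨n, fun i => ⟨_, toMF_mem_chart hA (a i).2⟩, fun i => ⟨_, toMF_mem_chart hA (c i).2⟩,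
    fun i => mem_ratC_of_eq _ rfl, fun i => mem_ratC_of_eq _ rfl, fun z => ?_, fun z => ?_, ?_⟩
  · refine Subtype.ext (((one_smul _ (z : FL)).symm.trans (hf.left (z : FL))).trans ?_)
    rw [AddSubmonoidClass.coe_finsetSum]
    refine Finset.sum_congr rfl fun i _ => ?_
    rw [MulMemClass.coe_mul, coe_trC, Algebra.smul_def]
    rfl
  · refine Subtype.ext (((one_smul _ (z : FL)).symm.trans (hf.right (z : FL))).trans ?_)
    rw [AddSubmonoidClass.coe_finsetSum]
    refine Finset.sum_congr rfl fun i _ => ?_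
    rw [MulMemClass.coe_mul, coe_trC, Algebra.smul_def]
    rfl
  · refine Subtype.ext ?_
    rw [AddSubmonoidClass.coe_finsetSum, OneMemClass.coe_one]
    exact hf.casimir.trans (map_one _)

include hA hH hqN in
theorem adjoin_ratC : Algebra.adjoin (urRing A) (ratC A N : Set Cj) = ⊤ := by
  obtain ⟨n, a, c, -, hc, hleft, -, -⟩ := exists_frame_chart hA H hH hqN
  refine eq_top_iff.2 fun z _ => ?_
  rw [hleft z]
  refine Subalgebra.sum_mem _ fun i _ => mul_mem (mul_mem ?_ ?_) (Algebra.subset_adjoin (hc i))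
  · exact pow_mem (Algebra.subset_adjoin (invS_mem_ratC hA H hH hqN)) _
  · exact polC_mem_adjoin hA H hH _

include hA hH hqN in
/-- The chart is etale over the coordinate modulo `q`. -/
theorem unif_chart [IsAlgClosed kA] (x : Ideal Cj) [x.IsMaximal]
    (hqx : cst (q : urRing A) ∈ x) :
    ∃ a : urRing A, polC hA H hH X - cst a ∈ x ∧ ∀ z ∈ x, ∃ d u v : Cj, d ∉ x ∧
      d * z = u * cst (q : urRing A) + v * (polC hA H hH X - cst a) := by
  haveI := isDiscreteValuationRing_urRing hA
  haveI : IsNoetherianRing Cj := isNoetherianRing_of_chartFinite (finite_chartMF hA H hH hqN)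
  obtain ⟨n, aF, cF, -, -, hleft, hright, hcas⟩ := exists_frame_chart hA H hH hqN
  refine exists_unif_of_frame (polC hA H hH) (polC_C hA H hH) SO (invS hA H hH hqN)
    (polC_SO_mul_invS hA H hH hqN) aF cF (trC hA H hH hqN) (fun z => ⟨_, _, rfl⟩) hleft hright hcas
    (q : urRing A) (fun r hr => ?_) x hqx (exists_const_chart hA H hH hqN x hqx)
  have hr0 : r ≠ 0 := fun e => hr (e ▸ dvd_zero _)
  obtain ⟨k, u, rfl⟩ := exists_unit_mul_pow_ur hA hr0
  rcases Nat.eq_zero_or_pos k with rfl | hk
  · simp
  · exact absurd (dvd_mul_of_dvd_right (dvd_pow_self _ hk.ne') _) hr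

/-- The derivation `θ / θh` preserves the reduced chart on the traces. -/
theorem deriv_red_trace (z : Cj) :
    ∃ g : Cj, Genus.euler (redMF hA H hH hqN (trC hA H hH hqN z)) =
      redMF hA H hH hqN g * Genus.euler hbk := by
  set φ := redMF hA H hH hqN
  let D : Submonoid Cj :=
    { carrier := {u | ∃ g, Genus.euler (φ u) = φ g * Genus.euler hbk}
      one_mem' := ⟨0, by
        rw [map_one, map_zero, zero_mul, ← map_one (HahnSeries.C (Γ := ℤ) (R := kA)),
          HahnSeries.C_apply, Genus.euler_single_zero]⟩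
      mul_mem' := by
        rintro u v ⟨g, hg⟩ ⟨g', hg'⟩
        refine ⟨g * v + u * g', ?_⟩
        rw [map_mul, Genus.euler_mul, hg, hg', map_add, map_mul, map_mul]
        ring }
  have hpol : ∀ p, polC hA H hH p ∈ D := fun p => ⟨polC hA H hH (derivative p), by
    rw [redMF_polC, redMF_polC, euler_aeval_poly, derivative_map]⟩
  have hinv : invS hA H hH hqN ∈ D := by
    obtain ⟨g, hg⟩ := hpol SO
    refine ⟨-(invS hA H hH hqN * invS hA H hH hqN * g), ?_⟩
    have h1 : φ (polC hA H hH SO) * φ (invS hA H hH hqN) = 1 := by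
      rw [← map_mul, polC_SO_mul_invS, map_one]
    have h2 := congrArg Genus.euler h1
    rw [Genus.euler_mul, hg, show Genus.euler (1 : LaurentSeries kA) = 0 by
      rw [← map_one (HahnSeries.C (Γ := ℤ) (R := kA)), HahnSeries.C_apply,
        Genus.euler_single_zero]] at h2
    rw [map_neg, map_mul, map_mul]
    linear_combination φ (invS hA H hH hqN) * h2 - Genus.euler (φ (invS hA H hH hqN)) * h1
  exact D.mul_mem (pow_mem hinv _) (hpol _)

/-- The supersingular function. -/
def ssP (G₁ : ℤ[X]) : Cj := -(aeval (jC : Cj) G₁)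

theorem ssP_mem_ratC (G₁ : ℤ[X]) : (ssP G₁ : Cj) ∈ ratC A N := by
  refine neg_mem ?_
  induction G₁ using Polynomial.induction_on with
  | C a => rw [aeval_C, eq_intCast]; exact intCast_mem _ a
  | add p r hp hr => rw [map_add]; exact add_mem hp hr
  | monomial n a ih =>
    rw [pow_succ, ← mul_assoc, map_mul, aeval_X]
    exact mul_mem ih jC_mem_ratC

theorem redMF_jC : redMF hA H hH hqN (jC : Cj) = jqModC kA := by
  have h := Semistable.sRed_coeffMap (π := IsLocalRing.residue A) (jqModC A)
  rw [coeffMap_jqModC, coeffMap_jqModC] at h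
  refine (sRed_redMF hA H hH hqN _).unique ?_
  have e : toSeriesQbar A N ((jC : Cj) : FL) = jqModC Qbar := by
    show coeffMap _ ((jMF (urField A) N : FL) : LaurentSeries (urField A)) = _
    rw [jMF_coe, coeffMap_jqModC]
  rw [e]
  exact h

include hA hH hqN in
theorem isUnit_polC_X : IsUnit (polC hA H hH X) := by
  obtain ⟨d', hd'⟩ := H.X_dvd
  have hfac : polC hA H hH SO = polC hA H hH X *
      polC hA H hH (d'.map (Int.castRingHom (urRing A))) := by
    rw [← map_mul, Haupt.denR, hd', Polynomial.map_mul, Polynomial.map_X]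
  exact isUnit_of_mul_isUnit_left (hfac ▸ isUnit_polC_SO hA H hH hqN)

theorem redMF_polC_X : redMF hA H hH hqN (polC hA H hH X) = hbk := by
  rw [redMF_polC, Polynomial.map_X, aeval_X]

include hA hH hqN in
theorem exists_Q :
    ∃ Q : Cj, IsUnit Q ∧ Genus.euler hbk ^ 6 = redMF hA H hH hqN Q * ofZ kA psD := by
  obtain ⟨u, hu⟩ := (isUnit_polC_X hA H hH hqN).exists_right_inv
  set Q := polC hA H hH SO ^ 5 * u ^ (6 * H.k)
  refine ⟨Q, ((isUnit_polC_SO hA H hH hqN).pow 5).mul
    ((IsUnit.of_mul_eq_one (polC hA H hH X) ((mul_comm u (polC hA H hH X)).trans hu)).pow _), ?_⟩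
  have hQ : Q * polC hA H hH X ^ (6 * H.k) = polC hA H hH SO ^ 5 := by
    simp only [Q, mul_assoc, ← mul_pow, mul_comm u, hu, one_pow, mul_one]
  have hQ' := congrArg (redMF hA H hH hqN) hQ
  rw [map_mul, map_pow, map_pow, redMF_polC_X, redMF_polC, H.map_denR, Haupt.denR,
    H.aeval_serC_map] at hQ'
  refine mul_right_cancel₀ (pow_ne_zero (6 * H.k) fun e => ?_) ((H.theta_pow kA).trans ?_)
  · exact X_ne_zero (transcendental_iff.1 (H.transcendental kA) X (by rw [aeval_X, e]))
  · rw [← hQ']; ring

theorem euler_hbk_ne : Genus.euler hbk ≠ 0 := by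
  intro e
  have h := H.theta_pow kA
  rw [e, zero_pow (by norm_num : (6 : ℕ) ≠ 0), zero_mul, eq_comm, mul_eq_zero] at h
  rcases h with h | h
  · exact H.aeval_ne_zero kA H.den_monic (pow_eq_zero_iff'.1 h).1
  · exact left_ne_zero_of_mul_eq_one (psD_mul_sDinv kA) h

theorem redMF_ssP (G₁ : ℤ[X]) :
    redMF hA H hH hqN (ssP G₁ : Cj) = -aeval (jqModC kA) G₁ := by
  rw [ssP, map_neg, aeval_def, hom_eval₂, redMF_jC, aeval_def]
  exact congrArg (fun f => -eval₂ f _ G₁) (RingHom.ext_int _ _)

include hA hH hqN in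
theorem deriv_red_chart (g : Cj) :
    ∃ g' d : Cj, redMF hA H hH hqN d ≠ 0 ∧
      Genus.euler (redMF hA H hH hqN g) * redMF hA H hH hqN d =
        redMF hA H hH hqN g' * Genus.euler (redMF hA H hH hqN (polC hA H hH X)) := by
  obtain ⟨n, a, c, -, -, hleft, hright, hcas⟩ := exists_frame_chart hA H hH hqN
  choose g' hg' using fun i l => deriv_red_trace hA H hH hqN (g * c i * a l)
  refine ⟨∑ i, ∑ l, a i * c l * g' i l, 1, by rw [map_one]; exact one_ne_zero, ?_⟩
  rw [map_one, mul_one, derivation_eq_of_frame a c (trC hA H hH hqN)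
    (redMF hA H hH hqN) Genus.euler Genus.euler_mul hleft hright hcas g, redMF_polC_X, map_sum,
    Finset.sum_mul]
  refine Finset.sum_congr rfl fun i _ => ?_
  rw [map_sum, Finset.sum_mul]
  refine Finset.sum_congr rfl fun l _ => ?_
  rw [hg', map_mul, map_mul]
  ring

theorem transcendental_jMF_ring : Transcendental (urRing A) (jMF (urField A) N) :=
  fun ⟨p, hp0, hp⟩ => transcendental_jMF (urField A) N
    ⟨p.map (algebraMap (urRing A) (urField A)),
      by rwa [Ne, Polynomial.map_eq_zero_iff Subtype.val_injective],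
      by rwa [aeval_map_algebraMap]⟩

theorem transcendental_redMF_jC : Transcendental kA (redMF hA H hH hqN (jC : Cj)) := by
  rw [redMF_jC]
  exact transcendental_iff_injective.2 (ModPoly.aeval_jqModC_injective kA)

theorem coeff_mem_of_ratC {g : Cj} (hg : g ∈ ratC A N) (k : ℤ) :
    ∃ r : ℚ, (toSeriesQbar A N (g : FL)).coeff k = (r : Qbar) := by
  obtain ⟨x, hx⟩ := hg
  exact ⟨x.coeff k, by
    rw [← eq_ratCast (algebraMap ℚ Qbar), ← coeffMap_coeff, hx]
    rfl⟩

include hA H hH hqN in
/-- The level `N` model with a coordinate of level dividing `N`. -/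
theorem exists_baseModel_haupt [IsAlgClosed kA] :
    ∃ B : BaseData (urRing A) (q : urRing A) q FL kA, IsBaseModel B := by
  obtain ⟨G₁, hG₁⟩ := exists_supersingular_poly q
  haveI := charP_residueField hA
  obtain ⟨Q, hQu, hθ⟩ := exists_Q hA H hH hqN
  have hP : redMF hA H hH hqN (ssP G₁ : Cj) = ofZ kA psD * qExpand kA q (sDinv kA) :=
    (redMF_ssP hA H hH hqN G₁).trans (hG₁ kA)
  have hρ : (Genus.euler (redMF hA H hH hqN (polC hA H hH X)) ^ (q - 1)) ^ 6 *
      redMF hA H hH hqN (ssP G₁ : Cj) = redMF hA H hH hqN Q ^ (q - 1) := by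
    rw [redMF_polC_X, hP, qExpand_sDinv_eq_pow q kA]
    exact rho_pow_identity hq.out.one_le hθ (psD_mul_sDinv kA)
  let B : BaseData (urRing A) (q : urRing A) q FL kA :=
    { resO := urRes A
      resO_surjective := urRes_surjective hA
      resO_eq_zero := fun _ => urRes_eq_zero hA
      q_eq := rfl
      j := jMF (urField A) N
      j_transcendental := transcendental_jMF_ring
      h := polC hA H hH X
      red := redMF hA H hH hqN
      red_algebraMap := redMF_algebraMap hA H hH hqN
      red_eq_zero := redMF_eq_zero hA H hH hqN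
      red_j := transcendental_redMF_jC hA H hH hqN
      rat := ratC A N
      j_mem_rat := jC_mem_ratC
      h_mem_rat := polC_X_mem_ratC hA H hH
      adjoin_rat := adjoin_ratC hA H hH hqN
      finite := finite_chartMF hA H hH hqN
      unif := fun x hx hqx => @unif_chart q _ A hA N _ H hH hqN _ x hx hqx
      euler_h_ne := by rw [redMF_polC_X]; exact euler_hbk_ne H
      deriv_red := deriv_red_chart hA H hH hqN
      P := ssP G₁
      P_mem_rat := ssP_mem_ratC G₁
      Q := Q
      isUnit_Q := hQu
      rho_pow := hρ }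
  exact ⟨B, rfl, rfl, sRed_redMF hA H hH hqN, fun g hg => coeff_mem_of_ratC hg, hP⟩

include hA in
/-- The level `N` model exists at a multiple of every level prime to `q`. -/
theorem exists_baseModel (M : ℕ) (hM : 0 < M) (hqM : ¬ q ∣ M) [IsAlgClosed kA] :
    ∃ (N : ℕ) (_ : NeZero N), M ∣ N ∧ ¬ q ∣ N ∧
      ∃ B : BaseData (urRing A) (q : urRing A) q (MF (urField A) N) kA, IsBaseModel B := by
  by_cases h2 : q = 2
  · refine ⟨M * 9, ⟨by omega⟩, dvd_mul_right _ _, ?_, ?_⟩
    · rw [hq.out.dvd_mul]
      rintro (h | h)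
      · exact hqM h
      · subst h2; omega
    · haveI : NeZero (M * 9) := ⟨by omega⟩
      exact exists_baseModel_haupt hA hauptNineData (dvd_mul_left 9 M) fun h => by
        rcases hq.out.dvd_mul.1 h with h | h
        · exact hqM h
        · subst h2; omega
  · have h4 : ¬ q ∣ 4 := fun h => h2 ((Nat.prime_dvd_prime_iff_eq hq.out Nat.prime_two).1
      (hq.out.dvd_of_dvd_pow (show q ∣ 2 ^ 2 by norm_num [h])))
    have hqN' : ¬ q ∣ M * 4 := fun h => (hq.out.dvd_mul.1 h).elim hqM h4
    haveI : NeZero (M * 4) := ⟨by omega⟩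
    exact ⟨M * 4, inferInstance, dvd_mul_right _ _, hqN',
      exists_baseModel_haupt hA hauptFourData (dvd_mul_left 4 M) hqN'⟩

end FLTAgent.LevelSq
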