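import Fermat.Agent.LevelSq.BaseChange
import Mathlib.RingTheory.Jacobson.Ring
import Mathlib.RingTheory.FiniteType
import Mathlib.FieldTheory.IsAlgClosed.Basic

/-!
# The reduction of the chart over the inertia field

Every element of the chart reduces through its expansion, the kernel is generated by `q`, and the
chart carries a frame of weight one with rational members.
-/

set_option autoImplicit false
set_option linter.style.haveILetI false
set_option linter.unusedSectionVars false
set_option maxSynthPendingDepth 3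
set_option synthInstance.maxHeartbeats 400000
set_option maxHeartbeats 1000000

noncomputable section

open Polynomial ModularCurve ModularCurve.IgusaScheme IntermediateField

namespace FLTAgent.LevelSq

open FLTAgent.Hecke
open Semistable (SRed)

local notation "Qbar" => AlgebraicClosure ℚ

attribute [local instance] FlatModel.isFractionRing_ratLocalizedAt

/-- Reindexing of a frame. -/
theorem IsTraceFrame.reindex {K L ι κ : Type*} [Field K] [Field L] [Algebra K L] [Fintype ι]
    [Fintype κ] {w : K} {a c : ι → L} (h : IsTraceFrame K w a c) (σ : ι ≃ κ) :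
    IsTraceFrame K w (fun i => a (σ.symm i)) fun i => c (σ.symm i) :=
  ⟨fun x => (h.left x).trans
      (Equiv.sum_comp σ.symm (fun i => Algebra.trace K L (x * a i) • c i)).symm,
    fun x => (h.right x).trans
      (Equiv.sum_comp σ.symm (fun i => Algebra.trace K L (x * c i) • a i)).symm,
    (Equiv.sum_comp σ.symm (fun i => a i * c i)).trans h.casimir⟩

/-- Closed points of a finite chart with an algebraically closed residue field are rational. -/
theorem exists_const_of_finite {O L k : Type*} [CommRing O] [Field L] [Algebra O L] [Field k]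
    [IsAlgClosed k] (π : O →+* k) (hπs : Function.Surjective π) (q : O)
    (hπ : ∀ a, π a = 0 ↔ q ∣ a) {ψ : L} (hfin : ChartFinite O ψ) (x : Ideal (chart O ψ))
    [x.IsMaximal] (hqx : algebraMap O _ q ∈ x) (g : chart O ψ) :
    ∃ a : O, g - algebraMap O _ a ∈ x := by
  let B := Algebra.adjoin O ({ψ} : Set L)
  haveI h0 : Module.Finite B (integralClosure B L) := hfin
  haveI h1 : Algebra.FiniteType O B :=
    (Subalgebra.fg_iff_finiteType _).1
      (Subalgebra.fg_adjoin_finset {ψ} |> fun h => by simpa using h)
  haveI h2 : Algebra.FiniteType B (integralClosure B L) := inferInstance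
  haveI : Algebra.FiniteType O (chart O ψ) :=
    (Algebra.FiniteType.trans h1 h2 : Algebra.FiniteType O (integralClosure B L))
  letI : Field (chart O ψ ⧸ x) := Ideal.Quotient.field x
  let e : O →+* chart O ψ ⧸ x := (Ideal.Quotient.mk x).comp (algebraMap _ _)
  let f : k →+* chart O ψ ⧸ x := RingHom.liftOfSurjective π hπs
    ⟨e, fun a ha => by
      obtain ⟨b, rfl⟩ := (hπ a).1 ha
      exact Ideal.Quotient.eq_zero_iff_mem.2 (by rw [map_mul]; exact x.mul_mem_right _ hqx)⟩
  letI : Algebra k (chart O ψ ⧸ x) := f.toAlgebra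
  letI : Algebra O k := π.toAlgebra
  have hfe : ∀ a, f (π a) = e a := fun a =>
    RingHom.liftOfRightInverse_comp_apply π _ _ _ a
  haveI : IsScalarTower O k (chart O ψ ⧸ x) :=
    IsScalarTower.of_algebraMap_eq fun a => (hfe a).symm
  haveI : Algebra.FiniteType O (chart O ψ ⧸ x) :=
    Algebra.FiniteType.of_surjective (Ideal.Quotient.mkₐ O x) Ideal.Quotient.mk_surjective
  haveI := Algebra.FiniteType.of_restrictScalars_finiteType O k (chart O ψ ⧸ x)
  haveI := finite_of_finite_type_of_isJacobsonRing k (chart O ψ ⧸ x)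
  obtain ⟨c, hc⟩ := (IsAlgClosed.algebraMap_bijective_of_isIntegral
    (k := k) (K := chart O ψ ⧸ x)).2 (Ideal.Quotient.mk x g)
  obtain ⟨a, rfl⟩ := hπs c
  refine ⟨a, Ideal.Quotient.eq.1 ?_⟩
  rw [← hc]
  exact hfe a

variable {q : ℕ} [hq : Fact q.Prime] {A : ValuationSubring Qbar} (hA : A.LiesOverPrime q)
  {N : ℕ} [NeZero N] (H : Haupt) (hH : H.lvl ∣ N) (hqN : ¬ q ∣ N)

set_option quotPrecheck false in
/-- The function field of level `N` over the inertia field. -/
local notation "FL" => ↥(MF (urField A) N)

set_option quotPrecheck false in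
/-- The residue field. -/
local notation "kA" => IsLocalRing.ResidueField A

set_option quotPrecheck false in
/-- The chart. -/
local notation "Cj" => chart (urRing A) (jMF (urField A) N)

set_option quotPrecheck false in
/-- The coordinate. -/
local notation "hL" => hMF A H hH

set_option quotPrecheck false in
/-- The inverted polynomial. -/
local notation "SO" => H.denR (urRing A)

set_option quotPrecheck false in
/-- The field of the coordinate. -/
local notation "Kh" => ↥(IntermediateField.adjoin (urField A) ({hMF A H hH} : Set FL))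

set_option quotPrecheck false in
/-- The residual coordinate. -/
local notation "hk" => H.serC kA

/-- `den (h)⁻¹` in the chart. -/
def invS : Cj := ⟨(aeval hL SO)⁻¹, inv_SO_mem hA H hH hqN⟩

theorem aeval_SO_ne : aeval hL SO ≠ 0 := fun e => (H.denR_monic (urRing A)).ne_zero
  (transcendental_iff.1 (transcendental_hMF_ring H hH) _ e)

theorem coe_polC (p : (urRing A)[X]) : ((polC hA H hH p : Cj) : FL) = aeval hL p := rfl

theorem polC_SO_mul_invS : polC hA H hH SO * invS hA H hH hqN = 1 :=
  Subtype.ext (mul_inv_cancel₀ (aeval_SO_ne H hH))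

include hqN in
theorem isUnit_polC_SO : IsUnit (polC hA H hH SO) :=
  IsUnit.of_mul_eq_one _ (polC_SO_mul_invS hA H hH hqN)

theorem aeval_hk_SO_ne : aeval hk ((SO).map (urRes A)) ≠ 0 := by
  rw [H.map_denR]
  exact fun e => (H.denR_monic kA).ne_zero (transcendental_iff.1 (H.transcendental kA) _ e)

/-- A frame whose weight is a power of `den (h)` modulo `q`, on the lifted basis, and a frame of
weight one, with members in the rational chart. -/
theorem exists_frames :
    ∃ (L n : ℕ) (W : (urRing A)[X]) (a₁ : Fin (ratData q H hH hqN).r → Cj)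
      (a c : Fin n → chartJ q N),
      W.map (urRes A) = ((SO).map (urRes A)) ^ L ∧
      (∀ z : FL, aeval hL W * z = ∑ i, algebraMap Kh FL (Algebra.trace Kh FL (z * (a₁ i : FL))) *
        (eMF hA H hH hqN i : FL)) ∧
      IsTraceFrame Kh 1 (fun i => toMF A (a i : ↥(modularFunctionFieldFull N)))
        fun i => toMF A (c i : ↥(modularFunctionFieldFull N)) := by
  haveI := finiteDimensional_hauptEl H hH (N := N)
  set D := ratData q H hH hqN
  obtain ⟨n, β, γ, a0, c0, hac⟩ := exists_rat_frame q H hH hqN
  obtain ⟨L, W, a₁, hW, hf₁, a', c', hf'⟩ := D.exists_chartFrame (K₀ := ℚ) hac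
  have g₁ := isTraceFrame_toMF hA H hH hqN hf₁
  have g' := isTraceFrame_toMF hA H hH hqN hf'
  replace g' : IsTraceFrame Kh 1 (fun i => toMF A (a' i : ↥(modularFunctionFieldFull N)))
      fun i => toMF A (c' i : ↥(modularFunctionFieldFull N)) := (map_one (psiH hA H hH)) ▸ g'
  let σ := finSumFinEquiv (m := D.r) (n := n)
  refine ⟨L, D.r + n, W.map (oIncl hA),
    fun i => ⟨toMF A (a₁ i : ↥(modularFunctionFieldFull N)), toMF_mem_chart hA (a₁ i).2⟩,
    fun i => a' (σ.symm i), fun i => c' (σ.symm i), ?_, fun z => ?_, ?_⟩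
  · have hW' : W.map (Igusa.resHom q) = ((H.denR _).map (Igusa.resHom q)) ^ L := hW
    rw [Polynomial.map_map, urRes_comp_oIncl, ← Polynomial.map_map, hW', Polynomial.map_pow,
      H.map_denR, H.map_denR, H.map_denR]
  · have h := g₁.left z
    rw [Algebra.smul_def] at h
    refine Eq.trans (congrArg (· * z) ?_) (h.trans (Finset.sum_congr rfl fun i _ => ?_))
    · exact (toMF_aeval hA (hauptEl H hH) W).symm
    · rw [Algebra.smul_def]
      rfl
  · exact g'.reindex σ

include hA hqN in
/-- Coordinates in the lifted basis. -/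
theorem exists_expand (z : Cj) :
    ∃ (m L : ℕ) (W : (urRing A)[X]) (t : Fin (ratData q H hH hqN).r → (urRing A)[X]),
      W.map (urRes A) = ((SO).map (urRes A)) ^ L ∧
      aeval hL (SO ^ m * W) * (z : FL) = ∑ i, aeval hL (t i) * (eMF hA H hH hqN i : FL) := by
  obtain ⟨L, n, W, a₁, a, c, hW, hleft, -⟩ := exists_frames hA H hH hqN
  choose m p hp using fun i => exists_trace_hMF hA H hH hqN (mul_mem z.2 (a₁ i).2)
  refine ⟨Finset.univ.sup m, L, W, fun i => SO ^ (Finset.univ.sup m - m i) * p i, hW, ?_⟩
  rw [map_mul, mul_assoc, hleft, Finset.mul_sum]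
  refine Finset.sum_congr rfl fun i _ => ?_
  have e : Finset.univ.sup m = (Finset.univ.sup m - m i) + m i :=
    (Nat.sub_add_cancel (Finset.le_sup (Finset.mem_univ i))).symm
  rw [map_mul (aeval hL), map_pow (aeval hL), map_pow (aeval hL), ← hp i]
  conv_lhs => rw [e, pow_add]
  ring

include hA hH hqN in
theorem exists_sRed_chart (z : Cj) :
    ∃ r : LaurentSeries kA, SRed (IsLocalRing.residue A) (toSeriesQbar A N (z : FL)) r := by
  obtain ⟨m, L, W, t, hW, he⟩ := exists_expand hA H hH hqN z
  have h1 := sRed_aeval hA H hH (SO ^ m * W)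
  have h2 := sRed_sum hA H hH hqN t
  rw [← he, map_mul] at h2
  have hne : aeval hk ((SO ^ m * W).map (urRes A)) ≠ 0 := by
    rw [Polynomial.map_mul, Polynomial.map_pow, hW, ← pow_add, map_pow]
    exact pow_ne_zero _ (aeval_hk_SO_ne H)
  have h3 := h2.div h1 hne
  rw [mul_div_cancel_left₀ _ (h1.ne_zero hne)] at h3
  exact ⟨_, h3⟩

/-- The reduction of the chart. -/
def redMF : Cj →+* LaurentSeries kA where
  toFun z := (exists_sRed_chart hA H hH hqN z).choose
  map_one' := (exists_sRed_chart hA H hH hqN 1).choose_spec.unique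
    (by rw [OneMemClass.coe_one, map_one]; exact Semistable.sRed_one)
  map_mul' z z' := (exists_sRed_chart hA H hH hqN (z * z')).choose_spec.unique (by
    rw [MulMemClass.coe_mul, map_mul]
    exact (exists_sRed_chart hA H hH hqN z).choose_spec.mul
      (exists_sRed_chart hA H hH hqN z').choose_spec)
  map_zero' := (exists_sRed_chart hA H hH hqN 0).choose_spec.unique
    (by rw [ZeroMemClass.coe_zero, map_zero]; exact Semistable.sRed_zero)
  map_add' z z' := (exists_sRed_chart hA H hH hqN (z + z')).choose_spec.unique (by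
    rw [AddMemClass.coe_add, map_add]
    exact (exists_sRed_chart hA H hH hqN z).choose_spec.add
      (exists_sRed_chart hA H hH hqN z').choose_spec)

theorem sRed_redMF (z : Cj) :
    SRed (IsLocalRing.residue A) (toSeriesQbar A N (z : FL)) (redMF hA H hH hqN z) :=
  (exists_sRed_chart hA H hH hqN z).choose_spec

theorem redMF_polC (p : (urRing A)[X]) :
    redMF hA H hH hqN (polC hA H hH p) = aeval hk (p.map (urRes A)) :=
  (sRed_redMF hA H hH hqN _).unique (sRed_aeval hA H hH p)

theorem polC_C (a : urRing A) : polC hA H hH (C a) = algebraMap (urRing A) Cj a :=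
  Subtype.ext (aeval_C _ a)

theorem redMF_algebraMap (a : urRing A) :
    redMF hA H hH hqN (algebraMap (urRing A) Cj a) = HahnSeries.C (urRes A a) := by
  rw [← polC_C hA H hH, redMF_polC, Polynomial.map_C, aeval_C,
    algebraMap_laurentSeries_eq_single, HahnSeries.C_apply]

theorem redMF_q : redMF hA H hH hqN (algebraMap (urRing A) Cj (q : urRing A)) = 0 := by
  rw [redMF_algebraMap, (urRes_eq_zero hA).2 dvd_rfl, map_zero]

/-- The kernel of the reduction. -/
theorem redMF_eq_zero (z : Cj) :
    redMF hA H hH hqN z = 0 ↔ algebraMap (urRing A) Cj (q : urRing A) ∣ z := by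
  refine ⟨fun hz => ?_, ?_⟩
  · obtain ⟨m, L, W, t, hW, he⟩ := exists_expand hA H hH hqN z
    have h2 := sRed_sum hA H hH hqN t
    rw [← he, map_mul] at h2
    have h1 := (sRed_aeval hA H hH (SO ^ m * W)).mul (sRed_redMF hA H hH hqN z)
    have h := h2.unique h1
    rw [hz, mul_zero] at h
    have ht := eRes_indep hA H hH hqN _ h
    have hdvd : ∀ p : (urRing A)[X], p.map (urRes A) = 0 → C (q : urRing A) ∣ p := fun p hp => by
      rw [C_dvd_iff_dvd_coeff]
      intro i
      rw [← urRes_eq_zero hA, ← coeff_map, hp, coeff_zero]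
    choose t' ht' using fun i => hdvd (t i) (congrFun ht i)
    obtain ⟨Δ, hΔ⟩ := hdvd (W - SO ^ L)
      (by rw [Polynomial.map_sub, hW, Polynomial.map_pow, sub_self])
    set π := algebraMap (urRing A) Cj (q : urRing A)
    have e : polC hA H hH (SO ^ m * W) * z =
        π * ∑ i, polC hA H hH (t' i) * eMF hA H hH hqN i := by
      refine Subtype.ext ?_
      rw [MulMemClass.coe_mul, MulMemClass.coe_mul, AddSubmonoidClass.coe_finsetSum, coe_polC, he,
        Finset.mul_sum]
      refine Finset.sum_congr rfl fun i _ => ?_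
      rw [MulMemClass.coe_mul, coe_polC, ht', map_mul, aeval_C, mul_assoc]
      rfl
    have e2 : polC hA H hH SO ^ (m + L) * z = π * (∑ i, polC hA H hH (t' i) *
        eMF hA H hH hqN i - polC hA H hH SO ^ m * polC hA H hH Δ * z) := by
      have hWe : polC hA H hH W = polC hA H hH SO ^ L + π * polC hA H hH Δ := by
        rw [show π = polC hA H hH (C (q : urRing A)) from (polC_C hA H hH _).symm, ← map_pow,
          ← map_mul, ← map_add, ← hΔ, add_sub_cancel]
      rw [map_mul, map_pow, hWe] at e
      rw [mul_sub, ← e, pow_add]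
      ring
    exact ((isUnit_polC_SO hA H hH hqN).pow (m + L)).dvd_mul_left.1 ⟨_, e2⟩
  · rintro ⟨w, rfl⟩
    rw [map_mul, redMF_q, zero_mul]

/-- A rational function reduces to its reduction. -/
theorem redMF_toMF (z : chartJ q N) :
    redMF hA H hH hqN ⟨toMF A (z : ↥(modularFunctionFieldFull N)), toMF_mem_chart hA z.2⟩ =
      coeffMap (resZ hA) (redJ q N z) :=
  (sRed_redMF hA H hH hqN _).unique (sRed_toMF hA z)

include hA hH hqN in
/-- Closed points over `q` are rational. -/
theorem exists_const_chart [IsAlgClosed kA] (x : Ideal Cj) [x.IsMaximal]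
    (hqx : algebraMap (urRing A) Cj (q : urRing A) ∈ x) (g : Cj) :
    ∃ a : urRing A, g - algebraMap (urRing A) Cj a ∈ x :=
  exists_const_of_finite (urRes A) (urRes_surjective hA) (q : urRing A)
    (fun _ => urRes_eq_zero hA) (finite_chartMF hA H hH hqN) x hqx g

end FLTAgent.LevelSq
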