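import Fermat.Agent.LevelSq.Emb
import Fermat.Agent.LevelSq.GaussSeries
import Fermat.Agent.JTors.FieldDescent

/-!
# The conjugate expansions of level `q ^ 2 N` over the inertia field

`embK p` is `emb p` on `MF (urField A) (q ^ 2 N)`.  Its values lie in `fracRam q A`.  Pairs of the
same class (`p.2 = none`, `p.1 = none`, neither) differ by a substitution `t ↦ ξ t` and an element
of inertia, hence agree residually.
-/

set_option autoImplicit false
set_option linter.style.haveILetI false
set_option linter.unusedSectionVars false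
set_option synthInstance.maxHeartbeats 100000

noncomputable section

open ModularCurve AlgebraicCurve
open FLTAgent.Hecke FLTAgent.Igusa
open FLTAgent.ModPoly (twist coeffMap_twist)

namespace FLTAgent.LevelSq

local notation "Qbar" => AlgebraicClosure ℚ
local notation "Γℚ" => AlgebraicClosure ℚ ≃ₐ[ℚ] AlgebraicClosure ℚ

/-- Ring homomorphisms out of `F_M` are determined by their values on constants, `j` and `j_M`. -/
theorem ringHom_MF_ext {L : Type*} [Field L] [Algebra ℚ L] {M : ℕ} [NeZero M] {T : Type*} [Field T]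
    {f g : MF L M →+* T} (hc : ∀ c : L, f (algebraMap L (MF L M) c) = g (algebraMap L (MF L M) c))
    (hj : f (jMF L M) = g (jMF L M))
    (hM : f ⟨jd L M, jd_mem L dvd_rfl⟩ = g ⟨jd L M, jd_mem L dvd_rfl⟩) : f = g := by
  have gen : MF L M = modularFunctionFieldC L M := (degreeFacts L).gen M
  have hle : MF L M ≤ (IntermediateField.adjoin L
      ({jMF L M, ⟨jd L M, jd_mem L dvd_rfl⟩} : Set (MF L M))).map (MF L M).val := by
    conv_lhs => rw [gen]
    refine IntermediateField.adjoin_le_iff.2 ?_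
    rintro x (rfl | rfl)
    · exact ⟨jMF L M, IntermediateField.subset_adjoin L _ (Set.mem_insert _ _), rfl⟩
    · exact ⟨_, IntermediateField.subset_adjoin L _ (Set.mem_insert_of_mem _ rfl), rfl⟩
  refine RingHom.ext fun x => ?_
  obtain ⟨y, hy, hyx⟩ := hle x.2
  obtain rfl : y = x := Subtype.ext hyx
  clear hyx
  induction hy using IntermediateField.adjoin_induction with
  | mem z hz => rcases hz with rfl | rfl; exacts [hj, hM]
  | algebraMap c => exact hc c
  | add a b _ _ ha hb => rw [map_add, map_add, ha, hb]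
  | inv a _ ha => rw [map_inv₀, map_inv₀, ha]
  | mul a b _ _ ha hb => rw [map_mul, map_mul, ha, hb]

section Base

variable (A : ValuationSubring Qbar) (n : ℕ)

/-- Extension of the constants to `ℚ̄`. -/
def baseEmb : MF (urField A) n →+* MF Qbar n :=
  (toSeriesQbar A n).codRestrict (MF Qbar n).toSubfield.toSubring fun x =>
    JTors.coeffMap_mem_laurentBaseChange' _ (algebraMap (urField A) Qbar) x.2

theorem coe_baseEmb (x : MF (urField A) n) :
    (baseEmb A n x : LaurentSeries Qbar) = toSeriesQbar A n x := rfl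

theorem baseEmb_algebraMap (c : urField A) :
    baseEmb A n (algebraMap (urField A) (MF (urField A) n) c) =
      algebraMap Qbar (MF Qbar n) (c : Qbar) := by
  refine Subtype.ext ?_
  show coeffMap (algebraMap (urField A) Qbar)
    (algebraMap (urField A) (LaurentSeries (urField A)) c) = algebraMap Qbar (LaurentSeries Qbar) _
  rw [algebraMap_laurentSeries_eq_single, coeffMap_single, algebraMap_laurentSeries_eq_single]
  rfl

theorem toSeriesQbar_jd (d : ℕ) [NeZero d] (h : d ∣ n) :
    toSeriesQbar A n ⟨jd (urField A) d, jd_mem _ h⟩ = jd Qbar d := by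
  show coeffMap (algebraMap (urField A) Qbar) (qExpand (urField A) d (jqModC (urField A))) = _
  rw [coeffMap_qExpand, coeffMap_jqModC]

theorem baseEmb_lev (q N : ℕ) [NeZero q] (i : Fin 3) (u : MF (urField A) N) :
    baseEmb A (q ^ 2 * N) (lev (urField A) q N i u) = lev Qbar q N i (baseEmb A N u) := by
  refine Subtype.ext ?_
  rw [coe_baseEmb, toSeriesQbar_apply, coe_lev, coe_lev, coe_baseEmb, toSeriesQbar_apply,
    coeffMap_qExpand]

theorem toSeriesQbar_mem_fracRam (q : ℕ) [Fact q.Prime] [NeZero n] (x : MF (urField A) n) :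
    toSeriesQbar A n x ∈ fracRam q A := by
  have gen : MF (urField A) n = modularFunctionFieldC (urField A) n :=
    (degreeFacts (urField A)).gen n
  obtain ⟨y, hy⟩ := x
  show coeffMap (algebraMap (urField A) Qbar) y ∈ fracRam q A
  rw [gen, modularFunctionFieldC] at hy
  induction hy using IntermediateField.adjoin_induction with
  | mem z hz =>
    rcases hz with rfl | rfl
    · rw [coeffMap_jqModC]; exact jqModC_mem_fracRam
    · show coeffMap _ (qExpand (urField A) n (jqModC (urField A))) ∈ _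
      rw [coeffMap_qExpand, coeffMap_jqModC]
      exact qExpand_mem_fracRam jqModC_mem_fracRam n
  | algebraMap c =>
    rw [algebraMap_laurentSeries_eq_single, coeffMap_single, ← algebraMap_laurentSeries_eq_single]
    exact algebraMap_mem_fracRam (urField_le_ramField q A c.2)
  | add a b _ _ ha hb => rw [map_add]; exact add_mem ha hb
  | inv a _ ha => rw [map_inv₀]; exact inv_mem ha
  | mul a b _ _ ha hb => rw [map_mul]; exact mul_mem ha hb

end Base

variable {q : ℕ} [hq : Fact q.Prime] {A : ValuationSubring Qbar} {N : ℕ} [NeZero N]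
  (hA : A.LiesOverPrime q) (hN : ¬ q ∣ N) {ζ : Qbarˣ} (hζ : IsPrimitiveRoot (ζ : Qbar) q)

local instance : NeZero q := ⟨hq.out.ne_zero⟩

/-- The conjugate expansions of level `q ^ 2 N`. -/
def embK (p : RootPair q) : MF (urField A) (q ^ 2 * N) →+* LaurentSeries Qbar :=
  (emb hq.out hN hζ p).toRingHom.comp (baseEmb A (q ^ 2 * N))

theorem embK_algebraMap (p : RootPair q) (c : urField A) :
    embK (A := A) hN hζ p (algebraMap (urField A) _ c) =
      algebraMap Qbar (LaurentSeries Qbar) (c : Qbar) := by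
  show emb hq.out hN hζ p (baseEmb A _ _) = _
  rw [baseEmb_algebraMap]
  exact (emb hq.out hN hζ p).commutes _

theorem embK_lev_one (p : RootPair q) (u : MF (urField A) N) :
    embK (A := A) hN hζ p (lev (urField A) q N 1 u) = qExpand Qbar q (toSeriesQbar A N u) := by
  show emb hq.out hN hζ p (baseEmb A _ _) = _
  rw [baseEmb_lev, emb_lev_one, coe_baseEmb]

theorem embK_lev_zero (p : RootPair q) (u : MF (urField A) N) :
    embK (A := A) hN hζ p (lev (urField A) q N 0 u) = rootMap ζ p.1.1 (toSeriesQbar A N u) := by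
  show emb hq.out hN hζ p (baseEmb A _ _) = _
  rw [baseEmb_lev, emb_lev_zero, coe_baseEmb]

theorem embK_lev_two (p : RootPair q) (u : MF (urField A) N) :
    embK (A := A) hN hζ p (lev (urField A) q N 2 u) = rootMap ζ p.1.2 (toSeriesQbar A N u) := by
  show emb hq.out hN hζ p (baseEmb A _ _) = _
  rw [baseEmb_lev, emb_lev_two, coe_baseEmb]

theorem embK_jMF (p : RootPair q) :
    embK (A := A) hN hζ p (jMF (urField A) (q ^ 2 * N)) = rootMap ζ p.1.1 (jqModC Qbar) := by
  have hj : jMF (urField A) (q ^ 2 * N) = lev (urField A) q N 0 (jMF (urField A) N) :=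
    Subtype.ext (by rw [coe_lev_zero]; rfl)
  rw [hj, embK_lev_zero, toSeriesQbar_apply, jMF_coe, coeffMap_jqModC]

theorem embK_jd (p : RootPair q) :
    embK (A := A) hN hζ p ⟨jd (urField A) (q ^ 2 * N), jd_mem _ dvd_rfl⟩ =
      rootMap ζ p.1.2 (jd Qbar N) := by
  have hj : (⟨jd (urField A) (q ^ 2 * N), jd_mem _ dvd_rfl⟩ : MF (urField A) (q ^ 2 * N)) =
      lev (urField A) q N 2 ⟨jd (urField A) N, jd_mem _ dvd_rfl⟩ := by
    refine Subtype.ext ?_
    rw [coe_lev_two]
    show qExpand (urField A) (q ^ 2 * N) (jqModC (urField A)) =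
      qExpand (urField A) (q * q) (qExpand (urField A) N (jqModC (urField A)))
    rw [qExpand_qExpand]
    exact qExpand_congr (by ring) _
  rw [hj, embK_lev_two, toSeriesQbar_jd A N N dvd_rfl]

include hA hζ in
theorem rootMap_mem_fracRam {y : LaurentSeries Qbar} (hy : y ∈ fracRam q A)
    (o : Option (Fin q)) : rootMap ζ o y ∈ fracRam q A := by
  rcases o with _ | i
  · exact qExpand_mem_fracRam hy _
  · refine twist_mem_fracRam hA hy ?_
    rw [← pow_mul, mul_comm, pow_mul, (IsPrimitiveRoot.coe_units_iff.1 hζ).pow_eq_one, one_pow]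

include hA in
theorem embK_mem_fracRam (p : RootPair q) (x : MF (urField A) (q ^ 2 * N)) :
    embK (A := A) hN hζ p x ∈ fracRam q A := by
  have hle : MF (urField A) (q ^ 2 * N) ≤ (IntermediateField.adjoin (urField A)
      ({jMF (urField A) (q ^ 2 * N), ⟨jd (urField A) (q ^ 2 * N), jd_mem _ dvd_rfl⟩} :
        Set (MF (urField A) (q ^ 2 * N)))).map (MF (urField A) (q ^ 2 * N)).val := by
    conv_lhs => rw [(degreeFacts (urField A)).gen (q ^ 2 * N)]
    refine IntermediateField.adjoin_le_iff.2 ?_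
    rintro z (rfl | rfl)
    · exact ⟨jMF (urField A) _, IntermediateField.subset_adjoin _ _ (Set.mem_insert _ _), rfl⟩
    · exact ⟨_, IntermediateField.subset_adjoin _ _ (Set.mem_insert_of_mem _ rfl), rfl⟩
  obtain ⟨y, hy, hyx⟩ := hle x.2
  obtain rfl : y = x := Subtype.ext hyx
  clear hyx
  induction hy using IntermediateField.adjoin_induction with
  | mem z hz =>
    rcases hz with rfl | rfl
    · rw [embK_jMF]; exact rootMap_mem_fracRam hA hζ jqModC_mem_fracRam _
    · rw [embK_jd]
      exact rootMap_mem_fracRam hA hζ (qExpand_mem_fracRam jqModC_mem_fracRam N) _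
  | algebraMap c =>
    rw [embK_algebraMap]
    exact algebraMap_mem_fracRam (urField_le_ramField q A c.2)
  | add a b _ _ ha hb => rw [map_add]; exact add_mem ha hb
  | inv a _ ha => rw [map_inv₀]; exact inv_mem ha
  | mul a b _ _ ha hb => rw [map_mul]; exact mul_mem ha hb

/-- The class of a pair: the branch of the special fibre it lies on. -/
def pairClass (p : RootPair q) : ℕ :=
  if p.1.2 = none then 0 else if p.1.1 = none then 2 else 1

theorem coeffMap_algebraMap (f : Qbar →+* Qbar) (c : Qbar) :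
    coeffMap f (algebraMap Qbar (LaurentSeries Qbar) c) =
      algebraMap Qbar (LaurentSeries Qbar) (f c) := by
  rw [algebraMap_laurentSeries_eq_single, coeffMap_single, algebraMap_laurentSeries_eq_single]

/-- Coefficientwise action followed by a substitution. -/
def transformHom (ξ : Qbarˣ) (σ : Γℚ) : LaurentSeries Qbar →+* LaurentSeries Qbar :=
  (twist ξ).comp (coeffMap (σ : Qbar →+* Qbar))

theorem transformHom_apply (ξ : Qbarˣ) (σ : Γℚ) (y : LaurentSeries Qbar) :
    transformHom ξ σ y = twist ξ (coeffMap (σ : Qbar →+* Qbar) y) := rfl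

theorem transformHom_rootMap_none {ξ : Qbarˣ} (hξ : ξ ^ q = 1) (σ : Γℚ) (d : ℕ) [NeZero d] :
    transformHom ξ σ (rootMap (q := q) ζ none (jd Qbar d)) = rootMap (q := q) ζ none (jd Qbar d) := by
  rw [transformHom_apply, rootMap_none, coeffMap_qExpand, coeffMap_qExpand, coeffMap_jqModC,
    twist_qExpand_eq_self]
  rw [pow_mul, hξ, one_pow]

theorem transformHom_rootMap_some (ξ : Qbarˣ) (σ : Γℚ) (i i' : Fin q)
    (h : ξ * Units.map (σ : Qbar →* Qbar) (ζ ^ (i : ℕ)) = ζ ^ (i' : ℕ)) (d : ℕ) [NeZero d] :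
    transformHom ξ σ (rootMap ζ (some i) (jd Qbar d)) = rootMap ζ (some i') (jd Qbar d) := by
  rw [transformHom_apply, rootMap_some, rootMap_some, coeffMap_twist, coeffMap_qExpand,
    coeffMap_jqModC, ModPoly.twist_twist]
  exact congrArg (fun u => twist u (qExpand Qbar d (jqModC Qbar))) h

include hA in
/-- Pairs of one class differ by a substitution and an element of inertia. -/
theorem exists_transform {p p' : RootPair q} (h : pairClass p = pairClass p') :
    ∃ (ξ : Qbarˣ) (σ : Γℚ), ξ ^ q = 1 ∧ σ ∈ A.inertiaSubgroupIn ℚ ∧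
      ∀ z, embK (A := A) hN hζ p' z = transformHom ξ σ (embK (A := A) hN hζ p z) := by
  have hu := IsPrimitiveRoot.coe_units_iff.1 hζ
  have hpow : ∀ i : ℕ, (ζ ^ i) ^ q = 1 := fun i => by
    rw [← pow_mul, mul_comm, pow_mul, hu.pow_eq_one, one_pow]
  suffices key : ∃ (ξ : Qbarˣ) (σ : Γℚ), ξ ^ q = 1 ∧ σ ∈ A.inertiaSubgroupIn ℚ ∧
      ∀ (d : ℕ) (_ : NeZero d),
        transformHom ξ σ (rootMap ζ p.1.1 (jd Qbar d)) = rootMap ζ p'.1.1 (jd Qbar d) ∧
        transformHom ξ σ (rootMap ζ p.1.2 (jd Qbar d)) = rootMap ζ p'.1.2 (jd Qbar d) by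
    obtain ⟨ξ, σ, hξ, hσ, hd⟩ := key
    refine ⟨ξ, σ, hξ, hσ, fun z => ?_⟩
    refine RingHom.congr_fun (ringHom_MF_ext (f := embK (A := A) hN hζ p')
      (g := (transformHom ξ σ).comp (embK (A := A) hN hζ p)) ?_ ?_ ?_) z
    · intro c
      rw [RingHom.comp_apply, embK_algebraMap, embK_algebraMap, transformHom_apply,
        coeffMap_algebraMap, twist_algebraMap,
        show ((σ : Qbar →+* Qbar) (c : Qbar)) = (c : Qbar) from
          (IntermediateField.mem_fixedField_iff _ _).1 c.2 σ hσ]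
    · rw [RingHom.comp_apply, embK_jMF, embK_jMF, ← jd_one]
      exact ((hd 1 inferInstance).1).symm
    · rw [RingHom.comp_apply, embK_jd, embK_jd]
      exact ((hd N inferInstance).2).symm
  obtain ⟨⟨x, y⟩, hxy⟩ := p
  obtain ⟨⟨x', y'⟩, hxy'⟩ := p'
  rcases x with _ | i <;> rcases y with _ | k <;> rcases x' with _ | i' <;> rcases y' with _ | k' <;>
    simp [pairClass] at h hxy hxy' ⊢
  · refine ⟨ζ ^ (k' : ℕ) * (ζ ^ (k : ℕ))⁻¹, ?_, 1, one_mem _, fun d hd => ⟨?_, ?_⟩⟩
    · rw [mul_pow, inv_pow, hpow, hpow, inv_one, one_mul]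
    · exact transformHom_rootMap_none (by rw [mul_pow, inv_pow, hpow, hpow, inv_one, one_mul]) 1 d
    · refine transformHom_rootMap_some _ 1 k k' ?_ d
      rw [show Units.map ((1 : Γℚ) : Qbar →* Qbar) (ζ ^ (k : ℕ)) = ζ ^ (k : ℕ) from Units.ext rfl,
        inv_mul_cancel_right]
  · refine ⟨ζ ^ (i' : ℕ) * (ζ ^ (i : ℕ))⁻¹, ?_, 1, one_mem _, fun d hd => ⟨?_, ?_⟩⟩
    · rw [mul_pow, inv_pow, hpow, hpow, inv_one, one_mul]
    · refine transformHom_rootMap_some _ 1 i i' ?_ d
      rw [show Units.map ((1 : Γℚ) : Qbar →* Qbar) (ζ ^ (i : ℕ)) = ζ ^ (i : ℕ) from Units.ext rfl,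
        inv_mul_cancel_right]
    · exact transformHom_rootMap_none (by rw [mul_pow, inv_pow, hpow, hpow, inv_one, one_mul]) 1 d
  · have hprim : ∀ {a b : Fin q}, a ≠ b →
        IsPrimitiveRoot ((ζ ^ (b : ℕ) * (ζ ^ (a : ℕ))⁻¹ : Qbarˣ) : Qbar) q := by
      intro a b hab
      rw [IsPrimitiveRoot.coe_units_iff]
      have hne : ζ ^ (b : ℕ) * (ζ ^ (a : ℕ))⁻¹ ≠ 1 := fun h1 =>
        hab (Fin.ext (hu.pow_inj a.2 b.2 (mul_inv_eq_one.1 h1).symm))
      have ho := orderOf_eq_prime (p := q)
        (show (ζ ^ (b : ℕ) * (ζ ^ (a : ℕ))⁻¹) ^ q = 1 by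
          rw [mul_pow, inv_pow, hpow, hpow, inv_one, one_mul]) hne
      exact (congrArg (IsPrimitiveRoot _) ho).mp (IsPrimitiveRoot.orderOf _)
    obtain ⟨σ, hσ, hσe⟩ := exists_inertia_map hA (hprim hxy) (hprim hxy')
    set a := Units.map (σ : Qbar →* Qbar) (ζ ^ (i : ℕ))
    have hξ : (ζ ^ (i' : ℕ) * a⁻¹) ^ q = 1 := by
      rw [mul_pow, inv_pow, ← map_pow, hpow, hpow, map_one, inv_one, one_mul]
    refine ⟨ζ ^ (i' : ℕ) * a⁻¹, hξ, σ, hσ, fun d hd => ⟨?_, ?_⟩⟩
    · exact transformHom_rootMap_some _ σ i i' (inv_mul_cancel_right _ _) d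
    · refine transformHom_rootMap_some _ σ k k' ?_ d
      have hm : Units.map (σ : Qbar →* Qbar) (ζ ^ (k : ℕ) * (ζ ^ (i : ℕ))⁻¹) =
          ζ ^ (k' : ℕ) * (ζ ^ (i' : ℕ))⁻¹ := Units.ext hσe
      rw [map_mul, map_inv] at hm
      rw [mul_assoc, mul_comm a⁻¹, hm, mul_comm (ζ ^ (k' : ℕ)), mul_inv_cancel_left]

include hA in
/-- The two residual conditions between pairs of one class. -/
theorem residual_of_class {p p' : RootPair q} (h : pairClass p = pairClass p')
    (z : MF (urField A) (q ^ 2 * N)) :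
    (z ≠ 0 → ∃ w, w ^ (q - 1) = 1 ∧ Semistable.SRed (IsLocalRing.residue A)
        (embK (A := A) hN hζ p' z / embK (A := A) hN hζ p z) w) ∧
      ∀ r, Semistable.SRed (IsLocalRing.residue A) (embK (A := A) hN hζ p z) r →
        Semistable.SRed (IsLocalRing.residue A)
          (embK (A := A) hN hζ p' z - embK (A := A) hN hζ p z) 0 := by
  obtain ⟨ξ, σ, hξ, hσ, hz⟩ := exists_transform hA hN hζ h
  refine ⟨fun hz0 => ?_, fun r hr => ?_⟩
  · rw [hz, transformHom_apply]
    exact sRed_transform_ratio hA (embK_mem_fracRam hA hN hζ p z)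
      ((map_ne_zero_iff _ (embK (A := A) hN hζ p).injective).2 hz0) hξ hσ
  · rw [hz, transformHom_apply]
    exact sRed_sub_transform hA hr hξ hσ

end FLTAgent.LevelSq
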