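import Fermat.Agent.LevelSq.Charts
import Fermat.Agent.LevelSq.LevelK
import Fermat.Agent.Igusa.Exports

/-!
# The vertical valuation of level `N`

A valuation subring of `MF (urField A) N` extending the Gauss valuation of `urRing A [j]` is the
Gauss valuation of expansions (`q ∤ N`: the reduction of a basis over `K (j)` stays independent).
-/

set_option autoImplicit false
set_option linter.style.haveILetI false
set_option linter.unusedSectionVars false
set_option synthInstance.maxHeartbeats 100000

noncomputable section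

open ModularCurve AlgebraicCurve Polynomial
open FLTAgent.Hecke FLTAgent.Igusa
open FLTAgent.Semistable (SRed sRed_coeffMap)

namespace FLTAgent.LevelSq

local notation "Qbar" => AlgebraicClosure ℚ

/-- A valuation subring contains the roots of its monic polynomials. -/
theorem mem_of_monic_root {F : Type*} [Field F] (P : ValuationSubring F) {f : Polynomial P}
    (hf : f.Monic) {y : F} (h : f.eval₂ P.subtype y = 0) : y ∈ P := by
  have hint : IsIntegral P y := ⟨f, hf, h⟩
  obtain ⟨w, hw⟩ := IsIntegrallyClosed.isIntegral_iff.1 hint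
  exact hw ▸ w.2

section Base

variable {q : ℕ} [hq : Fact q.Prime] {A : ValuationSubring Qbar} {N : ℕ} [NeZero N]
  (hA : A.LiesOverPrime q) (hN : ¬ q ∣ N)

/-- The expansion over `A` of a polynomial in `j`. -/
def jPoly (A : ValuationSubring Qbar) : (urRing A)[X] →+* LaurentSeries A :=
  eval₂RingHom (HahnSeries.C.comp (urIncl A)) (jqModC A)

theorem toSeriesQbar_aeval_jMF (R : (urRing A)[X]) :
    toSeriesQbar A N (aeval (jMF (urField A) N) R) = coeffMap A.subtype (jPoly A R) := by
  suffices h : (toSeriesQbar A N).comp (aeval (jMF (urField A) N)).toRingHom =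
      (coeffMap A.subtype).comp (jPoly A) from RingHom.congr_fun h R
  refine Polynomial.ringHom_ext (fun a => ?_) ?_
  · simp only [RingHom.comp_apply, AlgHom.toRingHom_eq_coe, RingHom.coe_coe, aeval_C, jPoly,
      coe_eval₂RingHom, eval₂_C, HahnSeries.C_apply, coeffMap_single]
    show coeffMap (algebraMap (urField A) Qbar)
      (algebraMap (urField A) (LaurentSeries (urField A)) (a : urField A)) = _
    rw [algebraMap_laurentSeries_eq_single, coeffMap_single]
    rfl
  · simp only [RingHom.comp_apply, AlgHom.toRingHom_eq_coe, RingHom.coe_coe, aeval_X, jPoly,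
      coe_eval₂RingHom, eval₂_X, coeffMap_jqModC]
    rw [toSeriesQbar_apply, jMF_coe, coeffMap_jqModC]

theorem residue_jPoly (R : (urRing A)[X]) :
    coeffMap (IsLocalRing.residue A) (jPoly A R) =
      aeval (jqModC (IsLocalRing.ResidueField A)) (R.map (urRes A)) := by
  suffices h : (coeffMap (IsLocalRing.residue A)).comp (jPoly A) =
      (aeval (jqModC (IsLocalRing.ResidueField A))).toRingHom.comp (mapRingHom (urRes A)) from
    RingHom.congr_fun h R
  refine Polynomial.ringHom_ext (fun a => ?_) ?_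
  · simp [jPoly, HahnSeries.C_apply, coeffMap_single, algebraMap_laurentSeries_eq_single,
      urRes_apply]
  · simp [jPoly, coeffMap_jqModC]

theorem sRed_aeval_jMF (R : (urRing A)[X]) :
    SRed (IsLocalRing.residue A) (toSeriesQbar A N (aeval (jMF (urField A) N) R))
      (aeval (jqModC (IsLocalRing.ResidueField A)) (R.map (urRes A))) := by
  rw [toSeriesQbar_aeval_jMF, ← residue_jPoly]
  exact sRed_coeffMap _

include hA in
/-- Scaling a family of polynomials to be primitive. -/
theorem exists_primitive_scale {ι : Type*} [Finite ι] (Q : ι → (urField A)[X]) (hQ : Q ≠ 0) :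
    ∃ (c : urField A) (Q' : ι → (urRing A)[X]), c ≠ 0 ∧
      (∀ i, (Q' i).map (urRing A).subtype = C c * Q i) ∧ ∃ i, ¬ C (q : urRing A) ∣ Q' i := by
  classical
  let f : (Σ i, Fin ((Q i).natDegree + 1)) → urField A := fun p => (Q p.1).coeff p.2
  have hf : f ≠ 0 := fun h => hQ (funext fun i => leadingCoeff_eq_zero.1
    (congrFun h ⟨i, ⟨(Q i).natDegree, Nat.lt_succ_self _⟩⟩))
  obtain ⟨j, hj, hjA⟩ := GoodRed.exists_max_valuation (urRing A) f hf
  have hlift : ∀ i, C (f j)⁻¹ * Q i ∈ lifts (urRing A).subtype := fun i =>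
    (lifts_iff_coeff_lifts _).2 fun k => by
      rw [coeff_C_mul]
      by_cases hk : k < (Q i).natDegree + 1
      · exact ⟨⟨_, hjA ⟨i, ⟨k, hk⟩⟩⟩, by simp [f, div_eq_inv_mul]⟩
      · exact ⟨0, by rw [map_zero, coeff_eq_zero_of_natDegree_lt (by omega), mul_zero]⟩
  choose Q' hQ' using fun i => (mem_lifts _).1 (hlift i)
  refine ⟨(f j)⁻¹, Q', inv_ne_zero hj, hQ', j.1, fun hd => ?_⟩
  have h1 : (Q' j.1).coeff j.2 = 1 := Subtype.ext (by
    have := congrArg (fun p => p.coeff (j.2 : ℕ)) (hQ' j.1)
    simp only [coeff_map, coeff_C_mul] at this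
    exact this.trans (inv_mul_cancel₀ hj))
  exact not_isUnit_natCast_urRing hA
    (isUnit_of_dvd_one (h1 ▸ (C_dvd_iff_dvd_coeff _ _).1 hd _))

theorem exists_mem_intToC {P : ValuationSubring (MF (urField A) N)}
    (hj : jMF (urField A) N ∈ P) {x : LaurentSeries ℤ} (hx : x ∈ intModRing N) :
    ∃ w ∈ P, ((w : MF (urField A) N) : LaurentSeries (urField A)) = intToC (urField A) x := by
  induction hx using Subring.closure_induction with
  | mem z hz =>
    obtain ⟨d, hd0, hd, rfl⟩ := hz
    refine ⟨⟨jd (urField A) d, jd_mem _ hd⟩, ?_, ?_⟩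
    · refine mem_of_monic_root P (f := (ModPoly.phiZ d).map
        (eval₂RingHom (Int.castRingHom P) ⟨_, hj⟩)) ((ModPoly.phiZ_monic d).map _) ?_
      refine Subtype.ext ?_
      show (MF (urField A) N).val.toRingHom _ = 0
      rw [eval₂_map, hom_eval₂]
      refine Eq.trans ?_ (ModPoly.ev2_phiK d (urField A))
      rw [ModPoly.ev2_apply, ModPoly.phiK, ModPoly.mapXY, coe_mapRingHom, eval₂_map]
      congr 1
      refine Polynomial.ringHom_ext (fun a => by simp) ?_
      simp [jMF_coe]
    · show jd (urField A) d = _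
      rw [intToC, coeffMap_qExpand, coeffMap_jqModC]
  | zero => exact ⟨0, zero_mem _, by simp⟩
  | one => exact ⟨1, one_mem _, by simp⟩
  | add a b _ _ ha hb =>
    obtain ⟨u, hu, hua⟩ := ha
    obtain ⟨v, hv, hvb⟩ := hb
    exact ⟨u + v, add_mem hu hv, by rw [map_add, ← hua, ← hvb]; rfl⟩
  | neg a _ ha =>
    obtain ⟨u, hu, hua⟩ := ha
    exact ⟨-u, neg_mem hu, by rw [map_neg, ← hua]; rfl⟩
  | mul a b _ _ ha hb =>
    obtain ⟨u, hu, hua⟩ := ha
    obtain ⟨v, hv, hvb⟩ := hb
    exact ⟨u * v, mul_mem hu hv, by rw [map_mul, ← hua, ← hvb]; rfl⟩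

include hA in
/-- The `(q - 1)`-th power of an element reducing to zero is divisible by `q`. -/
theorem exists_sRed_pow_div {y : LaurentSeries Qbar} (hy : y ∈ fracRam q A)
    (h0 : SRed (IsLocalRing.residue A) y 0) :
    ∃ r, SRed (IsLocalRing.residue A)
      (y ^ (q - 1) / algebraMap Qbar (LaurentSeries Qbar) (q : Qbar)) r := by
  rcases eq_or_ne y 0 with rfl | hy0
  · refine ⟨0, ?_⟩
    rw [zero_pow (by have := hq.out.two_le; omega), zero_div]
    exact Semistable.sRed_zero
  obtain ⟨η, hη⟩ := exists_eta (q := q)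
  obtain ⟨n, w, z, hz, hw, rfl⟩ := exists_lead hA hη hy hy0
  have hπ : (η : Qbar) - 1 ≠ 0 := sub_ne_zero.2 (hη.ne_one hq.out.one_lt)
  have hπ0 := sRed_algebraMap_zero hA (sub_one_mem_nonunits hA hη.pow_eq_one)
  set π := algebraMap Qbar (LaurentSeries Qbar) ((η : Qbar) - 1) with hπdef
  have hπn : π ≠ 0 := (_root_.map_ne_zero _).2 hπ
  rw [map_zpow₀, ← hπdef] at h0 hy0 ⊢
  obtain ⟨m, rfl⟩ : ∃ m : ℕ, n = m + 1 := by
    rcases le_or_gt n 0 with hn | hn
    · exfalso
      obtain ⟨m, rfl⟩ : ∃ m : ℕ, n = -(m : ℤ) := ⟨n.natAbs, by omega⟩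
      have h1 : (π ^ (-(m : ℤ)) * w)⁻¹ = π ^ m * w⁻¹ := by
        rw [mul_inv, zpow_neg, inv_inv, zpow_natCast]
      have h2 := h0.mul ((SRed.pow hπ0 m).mul (hw.inv hz))
      rw [← h1, mul_inv_cancel₀ hy0, zero_mul] at h2
      exact one_ne_zero (Semistable.sRed_one.unique h2)
    · exact ⟨n.natAbs - 1, by omega⟩
  obtain ⟨u, hu, -⟩ := exists_residue_pow_div hA hη
  have hkey : (π ^ ((m : ℤ) + 1) * w) ^ (q - 1) / algebraMap Qbar (LaurentSeries Qbar) (q : Qbar) =
      π ^ (m * (q - 1)) * (algebraMap Qbar (LaurentSeries Qbar) (u : Qbar) * w ^ (q - 1)) := by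
    rw [div_eq_iff ((_root_.map_ne_zero _).2 (Nat.cast_ne_zero.2 hq.out.ne_zero)),
      show π ^ ((m : ℤ) + 1) = π ^ m * π by rw [← zpow_natCast π m, zpow_add_one₀ hπn], mul_pow,
      mul_pow, ← pow_mul, show π ^ (q - 1) = algebraMap Qbar (LaurentSeries Qbar) (q : Qbar) *
        algebraMap Qbar (LaurentSeries Qbar) (u : Qbar) by rw [← map_mul, hu, map_pow]]
    ring
  exact ⟨_, hkey ▸ (SRed.pow hπ0 _).mul ((Semistable.sRed_algebraMap u).mul (hw.pow _))⟩

include hN in
/-- The Gauss valuation is the only extension of the Gauss valuation of `urRing A [j]`. -/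
theorem eq_gaussVal_of_isVert {P : ValuationSubring (MF (urField A) N)}
    (hP : IsVert (urRing A) (q : urRing A) (jMF (urField A) N) P) :
    P = gaussVal hA (toSeriesQbar A N) (toSeriesQbar_mem_fracRam A N q) := by
  classical
  haveI := isDiscreteValuationRing_urRing hA
  haveI := charP_residueField hA
  have hq' := prime_natCast_urRing hA
  have hO := hP.algebraMap_mem hq'
  obtain ⟨hj, -⟩ := hP.mem hq'.not_isUnit
  have hjP : ∀ R : (urRing A)[X], aeval (jMF (urField A) N) R ∈ P := fun R =>
    chart_le _ hO hj (aeval_mem_chart _ _ R)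
  set c := modBasis N q hN
  choose w hw hwc using fun i => exists_mem_intToC hj (c i).2
  have hle : ∀ z, z ∈ gaussVal hA (toSeriesQbar A N) (toSeriesQbar_mem_fracRam A N q) → z ∈ P := by
    rintro z ⟨r, hr⟩
    have hfull : (z : LaurentSeries (urField A)) ∈ modularFunctionFieldFullC (urField A) N := by
      rw [modularFunctionFieldFullC_eq _ N (Nat.cast_ne_zero.2 (NeZero.ne N)),
        ← (degreeFacts (urField A)).gen N]
      exact z.2
    obtain ⟨Q, R, hQ, hQR⟩ := (isModBasis_charZero N q hN (urField A)).exists_eq hfull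
    obtain ⟨s, T, hs, hT, i₀, hi₀⟩ := exists_primitive_scale hA
      (fun o : Option _ => o.elim Q R) fun h => hQ (congrFun h none)
    have heq : aeval (jMF (urField A) N) (T none) * z =
        ∑ i, aeval (jMF (urField A) N) (T (some i)) * w i := by
      have hco : ∀ o, ((aeval (jMF (urField A) N) (T o) : MF (urField A) N) :
          LaurentSeries (urField A)) = algebraMap (urField A) (LaurentSeries (urField A)) s *
            aeval (jqModC (urField A)) (o.elim Q R) := fun o => by
        rw [← aeval_map_algebraMap (urField A) (jMF (urField A) N) (T o),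
          show (T o).map (algebraMap (urRing A) (urField A)) = C s * o.elim Q R from hT o,
          map_mul, aeval_C]
        show _ * (MF (urField A) N).val (aeval (jMF (urField A) N) (o.elim Q R)) = _
        rw [← aeval_algHom_apply]
        rfl
      refine Subtype.ext ?_
      rw [IntermediateField.coe_mul, IntermediateField.coe_sum, hco, mul_assoc,
        show Option.elim none Q R = Q from rfl, hQR, Finset.mul_sum]
      refine Finset.sum_congr rfl fun i _ => ?_
      rw [IntermediateField.coe_mul, hco, hwc, mul_assoc]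
      rfl
    by_cases h0 : C (q : urRing A) ∣ T none
    · exfalso
      obtain ⟨i, rfl⟩ : ∃ i, i₀ = some i := by
        cases i₀ with
        | none => exact absurd h0 hi₀
        | some i => exact ⟨i, rfl⟩
      have hred : (T none).map (urRes A) = 0 := by
        obtain ⟨g, hg⟩ := h0
        rw [hg, Polynomial.map_mul, map_C, (urRes_eq_zero hA).2 dvd_rfl, C_0, zero_mul]
      have h1 := (sRed_aeval_jMF (N := N) (T none)).mul hr
      rw [hred, map_zero, zero_mul, ← map_mul, heq, map_sum] at h1
      have h2 : SRed (IsLocalRing.residue A)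
          (∑ k, toSeriesQbar A N (aeval (jMF (urField A) N) (T (some k)) * w k))
          (∑ k, aeval (jqModC (IsLocalRing.ResidueField A)) ((T (some k)).map (urRes A)) *
            intToC (IsLocalRing.ResidueField A) (c k : LaurentSeries ℤ)) := by
        refine SRed.sum _ fun k _ => ?_
        rw [map_mul]
        refine (sRed_aeval_jMF _).mul ?_
        rw [toSeriesQbar_apply, hwc, coeffMap_intToC, ← coeffMap_intToC A.subtype,
          ← coeffMap_intToC (IsLocalRing.residue A)]
        exact sRed_coeffMap _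
      have h3 := congrFun ((isModBasis_charP N q hN (IsLocalRing.ResidueField A)).indep _
        (h2.unique h1)) i
      refine hi₀ ((C_dvd_iff_dvd_coeff _ _).2 fun k => (urRes_eq_zero hA).1 ?_)
      rw [← coeff_map, h3]
      simp
    · have hu := (hP.unit_mem _ h0).2
      have h1 : (∑ i, aeval (jMF (urField A) N) (T (some i)) * w i) ∈ P :=
        sum_mem fun i _ => mul_mem (hjP _) (hw i)
      rw [← heq] at h1
      have hne : aeval (jMF (urField A) N) (T none) ≠ 0 := by
        intro h
        have h2 := sRed_aeval_jMF (N := N) (T none)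
        rw [h, map_zero] at h2
        have h3 := ModPoly.aeval_jqModC_injective (IsLocalRing.ResidueField A)
          ((h2.unique Semistable.sRed_zero).trans (map_zero _).symm)
        refine h0 ((C_dvd_iff_dvd_coeff _ _).2 fun k => (urRes_eq_zero hA).1 ?_)
        rw [← coeff_map, h3, coeff_zero]
      simpa [hne] using mul_mem hu h1
  refine le_antisymm (fun z hz => ?_) hle
  by_contra hzW
  have hz0 : z ≠ 0 := fun h => hzW (h ▸ zero_mem _)
  have hwn : z⁻¹ ∈ (gaussVal hA (toSeriesQbar A N) (toSeriesQbar_mem_fracRam A N q)).nonunits := by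
    rw [ValuationSubring.inv_mem_nonunits_iff]
    exact Or.inr hzW
  obtain ⟨r, hr⟩ := exists_sRed_pow_div hA (toSeriesQbar_mem_fracRam A N q z⁻¹)
    ((mem_nonunits_gaussVal hA _ _).1 hwn)
  have hdiv : z⁻¹ ^ (q - 1) / (q : MF (urField A) N) ∈ P := hle _ ⟨r, by
    rw [map_div₀, map_pow, map_natCast, ← map_natCast (algebraMap Qbar (LaurentSeries Qbar))]
    exact hr⟩
  have hqn : (q : MF (urField A) N) ∈ P.nonunits := by simpa using hP.q_mem
  have h1 : z⁻¹ ^ (q - 1) ∈ P.nonunits := by
    have h2 : z⁻¹ ^ (q - 1) = (q : MF (urField A) N) * (z⁻¹ ^ (q - 1) / (q : MF (urField A) N)) :=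
      (mul_div_cancel₀ _ (Nat.cast_ne_zero.2 hq.out.ne_zero)).symm
    rw [h2, ← SetLike.mem_coe, ← ValuationSubring.image_maximalIdeal]
    rw [← SetLike.mem_coe, ← ValuationSubring.image_maximalIdeal] at hqn
    obtain ⟨u, hu, hue⟩ := hqn
    exact ⟨u * ⟨_, hdiv⟩, Ideal.mul_mem_right _ _ hu, congrArg (· * _) hue⟩
  rw [P.mem_nonunits_iff_or] at h1
  rcases h1 with h | h
  · exact pow_ne_zero _ (inv_ne_zero hz0) h
  · exact h (by rw [inv_pow, inv_inv]; exact pow_mem hz _)

end Base

end FLTAgent.LevelSq
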