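import Fermat.Agent.LevelSq.Charts
import Mathlib.RingTheory.DiscreteValuationRing.TFAE
import Mathlib.RingTheory.Localization.AtPrime.Basic
import Mathlib.RingTheory.Localization.Submodule
import Mathlib.RingTheory.IntegralClosure.IsIntegral.Basic

/-!
# A Noetherian normal domain is the intersection of its localisations at height one primes
-/

set_option autoImplicit false
set_option linter.style.haveILetI false
set_option linter.unusedSectionVars false

noncomputable section

namespace FLTAgent.LevelSq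

variable {L : Type*} [Field L] (R : Subring L)

/-- Elements `d` with `s * d * z ∈ R` for some `s ∉ n`. -/
def locDenom (n : Ideal R) [n.IsPrime] (z : L) : Ideal R where
  carrier := {d | ∃ s : R, s ∉ n ∧ (s : L) * d * z ∈ R}
  zero_mem' := ⟨1, fun h => n.one_notMem h, by simp⟩
  add_mem' := by
    rintro a b ⟨s, hs, ha⟩ ⟨t, ht, hb⟩
    refine ⟨s * t, fun h => (‹n.IsPrime›.mem_or_mem h).elim hs ht, ?_⟩
    have : ((s * t : R) : L) * (a + b : R) * z = t * (s * a * z) + s * (t * b * z) := by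
      push_cast; ring
    rw [this]
    exact R.add_mem (R.mul_mem t.2 ha) (R.mul_mem s.2 hb)
  smul_mem' := by
    rintro c a ⟨s, hs, ha⟩
    refine ⟨s, hs, ?_⟩
    rw [show (s : L) * (c • a : R) * z = c * (s * a * z) by rw [smul_eq_mul]; push_cast; ring]
    exact R.mul_mem c.2 ha

theorem mem_locDenom {n : Ideal R} [n.IsPrime] {z : L} {d : R} :
    d ∈ locDenom R n z ↔ ∃ s : R, s ∉ n ∧ (s : L) * d * z ∈ R := Iff.rfl

theorem le_locDenom_mul {n : Ideal R} [n.IsPrime] (z : L) (r : R) :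
    locDenom R n z ≤ locDenom R n (r * z) := by
  rintro d ⟨s, hs, hd⟩
  refine ⟨s, hs, ?_⟩
  rw [show (s : L) * d * (r * z) = r * (s * d * z) by ring]
  exact R.mul_mem r.2 hd

variable [IsNoetherianRing R]

/-- If `z` has a power of `c` but nothing outside `n` as a denominator, then a prime `P ≤ n`
minimal over `c` is the ideal of denominators of some multiple of `z` and is locally principal. -/
theorem exists_principal_prime (hint : ∀ x : L, IsIntegral R x → x ∈ R) (n : Ideal R) [n.IsPrime]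
    {c : R} (hc : c ≠ 0) {z : L} {i : ℕ} (hzc : (c : L) ^ i * z ∈ R)
    (hno : ∀ d : R, d ∉ n → (d : L) * z ∉ R) :
    ∃ (P : Ideal R) (r p₀ : R), P ∈ (Ideal.span {c}).minimalPrimes ∧ P ≤ n ∧ p₀ ∈ P ∧
      (∀ p ∈ P, ∃ t ∉ P, t * p ∈ Ideal.span {p₀}) ∧
      ∀ d : R, (d : L) * (r * z) ∈ R → d ∈ P := by
  classical
  have h1 : (1 : R) ∉ locDenom R n z := fun ⟨s, hs, hs'⟩ => hno s hs (by simpa using hs')
  obtain ⟨P, ⟨r, rfl, hr1⟩, hmax⟩ := set_has_maximal_iff_noetherian.2 ‹IsNoetherianRing R›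
    {I | ∃ r : R, I = locDenom R n (r * z) ∧ (1 : R) ∉ I}
    ⟨_, 1, rfl, by simpa using h1⟩
  set w : L := r * z
  set P := locDenom R n w
  have hprime : P.IsPrime := by
    refine ⟨fun ht => hr1 (ht ▸ Submodule.mem_top), fun {a b} hab => or_iff_not_imp_left.2 fun ha => ?_⟩
    have hne : (1 : R) ∉ locDenom R n ((a * r : R) * z) := fun ⟨s, hs, hs'⟩ =>
      ha ⟨s, hs, by
        rw [OneMemClass.coe_one, mul_one] at hs'
        convert hs' using 1
        simp only [w]; push_cast; ring⟩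
    have hle : P ≤ locDenom R n ((a * r : R) * z) := by
      have := le_locDenom_mul R (n := n) w a
      rwa [show (a : L) * w = (a * r : R) * z by simp only [w]; push_cast; ring] at this
    rw [eq_of_le_of_not_lt hle (hmax _ ⟨a * r, rfl, hne⟩)]
    obtain ⟨s, hs, hs'⟩ := hab
    refine ⟨s, hs, ?_⟩
    convert hs' using 1
    simp only [w]; push_cast; ring
  have hPn : P ≤ n := by
    intro d hd
    by_contra hdn
    obtain ⟨s, hs, hs'⟩ := hd
    exact hr1 ⟨s * d, fun h' => (‹n.IsPrime›.mem_or_mem h').elim hs hdn, by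
      simpa [mul_assoc] using hs'⟩
  have hciP : c ^ i ∈ P := le_locDenom_mul R z r ⟨1, fun h' => n.one_notMem h', by
    simpa using hzc⟩
  have hcP : c ∈ P := hprime.mem_of_pow_mem _ hciP
  -- `P` is locally principal
  obtain ⟨p₀, hp₀, e, he, heP⟩ : ∃ p₀ ∈ P, ∃ e : R,
      (∃ s : R, s ∉ n ∧ (e : L) = s * p₀ * w) ∧ e ∉ P := by
    by_contra hall
    push Not at hall
    obtain ⟨G, hG⟩ := IsNoetherian.noetherian P
    have hs : ∀ g : {g // g ∈ G}, ∃ s : R, s ∉ n ∧ (s : L) * g * w ∈ R := fun g =>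
      (hG.le (Submodule.subset_span g.2) : (g : R) ∈ P)
    choose s hs hsw using hs
    set σ : R := ∏ g ∈ G.attach, s g with hσ
    have hσn : σ ∉ n := fun h' => by
      obtain ⟨g, -, hg⟩ := (Ideal.IsPrime.prod_mem_iff).1 h'
      exact hs g hg
    have hstab : ∀ g ∈ G, ∃ x ∈ P, (x : L) = σ * g * w := by
      intro g hg
      obtain ⟨t, ht⟩ : s ⟨g, hg⟩ ∣ σ := Finset.dvd_prod_of_mem _ (Finset.mem_attach _ _)
      refine ⟨t * ⟨_, hsw ⟨g, hg⟩⟩, P.mul_mem_left _
        (hall g (hG.le (Submodule.subset_span hg)) _ ⟨_, hs ⟨g, hg⟩, rfl⟩), ?_⟩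
      rw [ht]; push_cast; ring
    let N : Submodule R L := Submodule.map (Algebra.linearMap R L) P
    have hint' : IsIntegral R ((σ : L) * w) := by
      refine isIntegral_of_smul_mem_submodule (M := L) N ?_ ((IsNoetherian.noetherian P).map _)
        ((σ : L) * w) ?_
      · rw [Submodule.ne_bot_iff]
        exact ⟨(c : L), ⟨c, hcP, rfl⟩, fun h0 => hc (Subtype.ext h0)⟩
      · rintro _ ⟨x, hx, rfl⟩
        rw [← hG] at hx
        induction hx using Submodule.span_induction with
        | mem g hg =>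
          obtain ⟨y, hy, hyg⟩ := hstab g hg
          exact ⟨y, hy, by
            rw [Algebra.linearMap_apply, Algebra.linearMap_apply, smul_eq_mul]
            show (y : L) = _ * (g : L)
            rw [hyg]; ring⟩
        | zero => simp
        | add x y _ _ hx hy => rw [map_add, smul_add]; exact N.add_mem hx hy
        | smul a x _ hx => rw [map_smul, smul_comm]; exact N.smul_mem a hx
    exact hr1 ⟨σ, hσn, by simpa using hint _ hint'⟩
  obtain ⟨s₀, hs₀, he⟩ := he
  have hloc : ∀ p ∈ P, ∃ t ∉ P, t * p ∈ Ideal.span {p₀} := by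
    intro p hp
    obtain ⟨s, hs, hsp⟩ := hp
    refine ⟨e * s, fun h' => (hprime.mem_or_mem h').elim heP fun h'' => hs (hPn h''),
      Ideal.mem_span_singleton'.2 ⟨s₀ * ⟨_, hsp⟩, Subtype.ext ?_⟩⟩
    push_cast
    rw [he]; ring
  let RP := Localization.AtPrime P
  haveI : IsNoetherianRing RP := IsLocalization.isNoetherianRing P.primeCompl RP inferInstance
  haveI : IsDomain RP := IsLocalization.isDomain_localization P.primeCompl_le_nonZeroDivisors
  have hmem : ∀ p ∈ P, algebraMap R RP p ∈ Ideal.span {algebraMap R RP p₀} := by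
    intro p hp
    obtain ⟨s, hs, hsp⟩ := hp
    have heq : p * (e * s) = p₀ * (s₀ * ⟨_, hsp⟩) := Subtype.ext (by
      push_cast; rw [he]; ring)
    have hu : e * s ∈ P.primeCompl := fun h' => (hprime.mem_or_mem h').elim heP
      (fun h'' => hs (hPn h''))
    have h2 := congrArg (algebraMap R RP) heq
    rw [map_mul _ p, map_mul _ p₀] at h2
    rw [← Ideal.mul_unit_mem_iff_mem _ (IsLocalization.map_units RP ⟨_, hu⟩), h2]
    exact Ideal.mul_mem_right _ _ (Ideal.mem_span_singleton_self _)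
  have hmaxP : IsLocalRing.maximalIdeal RP = Ideal.span {algebraMap R RP p₀} := by
    refine le_antisymm ?_ ?_
    · rw [← Localization.AtPrime.map_eq_maximalIdeal, Ideal.map_le_iff_le_comap]
      exact fun p hp => hmem p hp
    · rw [Ideal.span_singleton_le_iff_mem, ← Localization.AtPrime.map_eq_maximalIdeal]
      exact Ideal.mem_map_of_mem _ hp₀
  have hmin : P ∈ (Ideal.span {c}).minimalPrimes := by
    refine ⟨⟨hprime, (Ideal.span_singleton_le_iff_mem _).2 hcP⟩, fun Q ⟨hQ, hcQ⟩ hQP => ?_⟩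
    by_contra hPQ
    have hdisj : Disjoint (P.primeCompl : Set R) (Q : Set R) :=
      Set.disjoint_left.2 fun x hx hxQ => hx (hQP hxQ)
    haveI hQ' : (Q.map (algebraMap R RP)).IsPrime :=
      IsLocalization.isPrime_of_isPrime_disjoint P.primeCompl RP Q hQ hdisj
    have hcom := IsLocalization.under_map_of_isPrime_disjoint P.primeCompl RP hQ hdisj
    have hQne : Q.map (algebraMap R RP) ≠ ⊥ := by
      rw [Submodule.ne_bot_iff]
      exact ⟨_, Ideal.mem_map_of_mem _ ((Ideal.span_singleton_le_iff_mem _).1 hcQ), fun h0 => hc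
        ((map_eq_zero_iff _ (IsLocalization.injective RP P.primeCompl_le_nonZeroDivisors)).1 h0)⟩
    haveI : IsPrincipalIdealRing RP :=
      ((tfae_of_isNoetherianRing_of_isLocalRing_of_isDomain RP).out 4 0).1
        (show (IsLocalRing.maximalIdeal RP).IsPrincipal from ⟨⟨_, hmaxP⟩⟩)
    haveI := IsPrime.to_maximal_ideal hQne
    have hQm := IsLocalRing.eq_maximalIdeal (this : (Q.map (algebraMap R RP)).IsMaximal)
    refine hPQ fun p hp => ?_
    rw [← hcom, Ideal.mem_comap, hQm, ← Localization.AtPrime.map_eq_maximalIdeal]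
    exact Ideal.mem_map_of_mem _ hp
  refine ⟨P, r, p₀, hmin, hPn, hp₀, hloc, fun d hd => ⟨1, fun h' => n.one_notMem h', ?_⟩⟩
  rw [OneMemClass.coe_one, one_mul]
  exact hd

/-- The localisation at a prime minimal over a non-zero element is a valuation ring. -/
theorem exists_generator (hint : ∀ x : L, IsIntegral R x → x ∈ R) {c : R} (hc : c ≠ 0)
    {P : Ideal R} (hP : P ∈ (Ideal.span {c}).minimalPrimes) :
    ∃ p₀ ∈ P, ∀ p ∈ P, ∃ t ∉ P, t * p ∈ Ideal.span {p₀} := by
  haveI := hP.isPrime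
  have hcL : (c : L) ≠ 0 := fun h => hc (Subtype.ext h)
  obtain ⟨P', r, p₀, hP', hle, hp₀, hloc, -⟩ := exists_principal_prime R hint P hc
    (z := (c : L)⁻¹) (i := 1) (by rw [pow_one, mul_inv_cancel₀ hcL]; exact R.one_mem) (by
      intro d hd hmem
      refine hd ?_
      have heq : d = (⟨_, hmem⟩ : R) * c := Subtype.ext (by
        push_cast; rw [mul_assoc, inv_mul_cancel₀ hcL, mul_one])
      rw [heq]
      exact P.mul_mem_left _ (hP.1.2 (Ideal.mem_span_singleton_self c)))
  obtain rfl : P' = P := le_antisymm hle (hP.2 hP'.1 hle)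
  exact ⟨p₀, hp₀, hloc⟩

/-- An element of a valuation ring centred at a prime minimal over a non-zero element is a
fraction with denominator outside the prime. -/
theorem exists_mul_mem_of_mem (hint : ∀ x : L, IsIntegral R x → x ∈ R) {c : R} (hc : c ≠ 0)
    {P : Ideal R} (hP : P ∈ (Ideal.span {c}).minimalPrimes) (V : ValuationSubring L)
    (hRV : ∀ r : R, (r : L) ∈ V) (hVP : ∀ r : R, (r : L) ∈ V.nonunits ↔ r ∈ P)
    {z : L} (hz : z ∈ V) {b : R} (hb : b ≠ 0) (hzb : (b : L) * z ∈ R) :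
    ∃ d : R, d ∉ P ∧ (d : L) * z ∈ R := by
  classical
  haveI := hP.isPrime
  obtain ⟨p₀, hp₀, hloc⟩ := exists_generator R hint hc hP
  by_contra hno
  push Not at hno
  let S := {b : R // b ≠ 0 ∧ (b : L) * z ∈ R}
  have step : ∀ b : S, ∃ b' : S, ∃ t ∉ P, t * b.1 = p₀ * b'.1 := by
    rintro ⟨b, hb, hbz⟩
    have hbP : b ∈ P := by
      by_contra h'
      exact hno b h' hbz
    have haP : (⟨_, hbz⟩ : R) ∈ P := (hVP _).1 (by
      show (b : L) * z ∈ V.nonunits
      rw [mul_comm]
      rw [V.mem_nonunits_iff, map_mul]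
      exact (mul_le_of_le_one_left' ((V.valuation_le_one_iff z).2 hz)).trans_lt
        (V.mem_nonunits_iff.1 ((hVP b).2 hbP)))
    obtain ⟨t, ht, htb⟩ := hloc b hbP
    obtain ⟨t', ht', hta⟩ := hloc _ haP
    obtain ⟨y, hy⟩ := Ideal.mem_span_singleton'.1 htb
    obtain ⟨y', hy'⟩ := Ideal.mem_span_singleton'.1 hta
    have htt : t' * t ∉ P := fun h' => (hP.isPrime.mem_or_mem h').elim ht' ht
    have hp₀0 : p₀ ≠ 0 := fun h0 => by
      rw [h0, mul_zero, eq_comm, mul_eq_zero] at hy
      exact hy.elim (fun h' => ht (h' ▸ P.zero_mem)) hb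
    refine ⟨⟨t' * y, mul_ne_zero (fun h' => ht' (h' ▸ P.zero_mem)) (fun h' => ?_), ?_⟩, _, htt,
      by rw [mul_assoc, ← hy]; ring⟩
    · rw [h', zero_mul, eq_comm, mul_eq_zero] at hy
      exact hy.elim (fun h'' => ht (h'' ▸ P.zero_mem)) hb
    · have e1 : (y : L) * p₀ = t * b := congrArg Subtype.val hy
      have e2 : (y' : L) * p₀ = t' * (b * z) := congrArg Subtype.val hy'
      have : ((t' * y : R) : L) * z = ((t * y' : R) : L) := by
        refine mul_right_cancel₀ (fun h' => hp₀0 (Subtype.ext h') : (p₀ : L) ≠ 0) ?_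
        push_cast
        linear_combination ((t' : L) * z) * e1 - (t : L) * e2
      rw [this]
      exact (t * y').2
  choose f τ hτ hf using step
  let seq : ℕ → S := fun n => Nat.rec ⟨b, hb, hzb⟩ (fun _ w => f w) n
  let J : ℕ → Ideal R := fun n =>
    { carrier := {x | ∃ t ∉ P, t * x ∈ Ideal.span {(seq n).1}}
      zero_mem' := ⟨1, P.one_notMem, by simp⟩
      add_mem' := by
        rintro x y ⟨t, ht, hx⟩ ⟨t', ht', hy⟩
        refine ⟨t * t', fun h' => (hP.isPrime.mem_or_mem h').elim ht ht', ?_⟩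
        rw [mul_add, mul_comm t t', mul_assoc t' t x, mul_comm t' t, mul_assoc t t' y]
        exact add_mem (Ideal.mul_mem_left _ _ hx) (Ideal.mul_mem_left _ _ hy)
      smul_mem' := by
        rintro a x ⟨t, ht, hx⟩
        exact ⟨t, ht, by rw [smul_eq_mul, mul_left_comm]; exact Ideal.mul_mem_left _ _ hx⟩ }
  have hmono : Monotone J := by
    refine monotone_nat_of_le_succ fun n => ?_
    rintro x ⟨t, ht, hx⟩
    obtain ⟨y, hy⟩ := Ideal.mem_span_singleton'.1 hx
    refine ⟨τ (seq n) * t, fun h' => (hP.isPrime.mem_or_mem h').elim (hτ _) ht,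
      Ideal.mem_span_singleton'.2 ⟨y * p₀, ?_⟩⟩
    show y * p₀ * (f (seq n)).1 = _
    rw [mul_assoc, ← hf, mul_left_comm, hy]; ring
  obtain ⟨N, hN⟩ := monotone_stabilizes_iff_noetherian.2 ‹IsNoetherianRing R› ⟨J, hmono⟩
  have hmem : (seq (N + 1)).1 ∈ J (N + 1) :=
    ⟨1, P.one_notMem, by rw [one_mul]; exact Ideal.mem_span_singleton_self _⟩
  rw [← show J N = J (N + 1) from hN (N + 1) (Nat.le_succ N)] at hmem
  obtain ⟨t, ht, hx⟩ := hmem
  obtain ⟨y, hy⟩ := Ideal.mem_span_singleton'.1 hx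
  have key : τ (seq N) * t = p₀ * y := by
    refine mul_right_cancel₀ (seq N).2.1 ?_
    calc τ (seq N) * t * (seq N).1 = p₀ * (t * (f (seq N)).1) := by
          rw [mul_right_comm, hf]; ring
      _ = p₀ * y * (seq N).1 := by
          rw [show (f (seq N)).1 = (seq (N + 1)).1 from rfl, ← hy]; ring
  exact (hP.isPrime.mem_or_mem (key ▸ P.mul_mem_right y hp₀)).elim (hτ _) ht

/-- If for every prime `P ≤ n` minimal over `c` a denominator of `z` lies outside `P`, and some
power of `c` is a denominator, then some denominator lies outside `n`. -/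
theorem exists_mul_mem_of_minimalPrimes
    (hint : ∀ x : L, IsIntegral R x → x ∈ R) (n : Ideal R) [n.IsPrime] {c : R} (hc : c ≠ 0)
    {z : L} {i : ℕ} (hzc : (c : L) ^ i * z ∈ R)
    (h : ∀ P ∈ (Ideal.span {c}).minimalPrimes, P ≤ n → ∃ d : R, d ∉ P ∧ (d : L) * z ∈ R) :
    ∃ d : R, d ∉ n ∧ (d : L) * z ∈ R := by
  by_contra hno
  push Not at hno
  obtain ⟨P, r, -, hmin, hPn, -, -, hmem⟩ := exists_principal_prime R hint n hc hzc hno
  obtain ⟨d, hdP, hdz⟩ := h P hmin hPn
  refine hdP (hmem d ?_)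
  rw [mul_left_comm]
  exact R.mul_mem r.2 hdz

end FLTAgent.LevelSq
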