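import Fermat.Agent.LevelSq.Deriv
import Fermat.Agent.LevelSq.Denominators

/-!
# The branches of the special fibre at level `q ^ 2 * N`

Every element of the chart restricts on each branch to a function of the level `N` curve modulo
`q`; a closed point on a branch is a closed point of that curve.
-/

set_option autoImplicit false
set_option linter.style.haveILetI false
set_option linter.unusedSectionVars false

noncomputable section

open Polynomial

namespace FLTAgent.LevelSq

variable {O : Type} [CommRing O] [IsDomain O] [IsDiscreteValuationRing O] {q : O} {qn : ℕ}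
  {FN : Type} [Field FN] [Algebra O FN] {k : Type} [Field k] {B : BaseData O q qn FN k}
  {F : Type} [Field F] [Algebra O F]

theorem mem_of_isIntegral_chart {ψ z : F} (h : IsIntegral (chart O ψ).toSubring z) :
    z ∈ chart O ψ := by
  rw [mem_chart]
  haveI : Algebra.IsIntegral (Algebra.adjoin O ({ψ} : Set F))
      (integralClosure (Algebra.adjoin O ({ψ} : Set F)) F) := inferInstance
  exact isIntegral_trans (A := integralClosure (Algebra.adjoin O ({ψ} : Set F)) F) z h

theorem isIntegral_of_le {ψ ψ' z : F} (hψ : ψ ∈ chart O ψ') (hz : z ∈ chart O ψ) :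
    z ∈ chart O ψ' := by
  refine mem_of_isIntegral_chart ?_
  have hle : Algebra.adjoin O ({ψ} : Set F) ≤ chart O ψ' :=
    Algebra.adjoin_le (Set.singleton_subset_iff.2 hψ)
  letI : Algebra (Algebra.adjoin O ({ψ} : Set F)) (chart O ψ').toSubring :=
    (Subalgebra.inclusion hle).toRingHom.toAlgebra
  haveI : IsScalarTower (Algebra.adjoin O ({ψ} : Set F)) (chart O ψ').toSubring F :=
    IsScalarTower.of_algebraMap_eq fun _ => rfl
  exact ((mem_chart O).1 hz).tower_top

/-- A map of the chart to series which is given on `j` by a power of its reduction has the same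
kernel as the reduction. -/
theorem BaseData.red_eq_zero_of_map_eq_zero (ψ : chart O B.j →+* LaurentSeries k)
    (hψa : ∀ a, ψ (algebraMap O _ a) = HahnSeries.C (B.resO a)) {n : ℕ} (hn : n ≠ 0)
    (hψj : ψ ⟨B.j, self_mem_chart O B.j⟩ = B.red ⟨B.j, self_mem_chart O B.j⟩ ^ n)
    {g : chart O B.j} (hg : ψ g = 0) : B.red g = 0 := by
  classical
  by_contra hne
  obtain ⟨p, hp, hpg⟩ := (mem_chart O).1 g.2
  set jA : chart O B.j := ⟨B.j, self_mem_chart O B.j⟩
  choose r hr using fun i => exists_aeval_eq O (p.coeff i).2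
  set D := p.natDegree
  have hsum : ∑ i ∈ Finset.range (D + 1), aeval jA (r i) * g ^ i = 0 := Subtype.ext (by
    rw [AddSubmonoidClass.coe_finsetSum, Subalgebra.coe_zero, ← hpg,
      eval₂_eq_sum_range]
    refine Finset.sum_congr rfl fun i _ => ?_
    rw [Subalgebra.coe_mul, Subalgebra.coe_pow]
    congr 1
    exact ((aeval_algHom_apply (chart O B.j).val jA (r i)).symm.trans (hr i)))
  have hlead : B.red (aeval jA (r D)) ≠ 0 := by
    have : aeval jA (r D) = 1 := Subtype.ext (by
      rw [Subalgebra.coe_one]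
      refine ((aeval_algHom_apply (chart O B.j).val jA (r D)).symm.trans (hr D)).trans ?_
      rw [hp.coeff_natDegree]; rfl)
    rw [this, map_one]; exact one_ne_zero
  have hex : ∃ i, B.red (aeval jA (r i)) ≠ 0 := ⟨D, hlead⟩
  set i₀ := Nat.find hex
  have hi₀ : B.red (aeval jA (r i₀)) ≠ 0 := Nat.find_spec hex
  have hi₀D : i₀ ≤ D := Nat.find_min' hex hlead
  set E := ∑ i ∈ Finset.Ico i₀ (D + 1), aeval jA (r i) * g ^ (i - i₀)
  have hE : B.red E = 0 := by
    have h := congrArg B.red hsum
    rw [map_zero, map_sum, ← Finset.sum_range_add_sum_Ico _ (show i₀ ≤ D + 1 by omega),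
      Finset.sum_eq_zero (s := Finset.range i₀) (fun i hi => by
        rw [map_mul, not_not.1 (Nat.find_min hex (Finset.mem_range.1 hi)), zero_mul]), zero_add] at h
    have h' : B.red E * B.red g ^ i₀ = 0 := by
      rw [← h, map_sum, Finset.sum_mul]
      refine Finset.sum_congr rfl fun i hi => ?_
      rw [← map_pow, ← map_mul, mul_assoc, ← pow_add,
        Nat.sub_add_cancel (Finset.mem_Ico.1 hi).1]
    exact (mul_eq_zero.1 h').resolve_right (pow_ne_zero _ hne)
  have hψq : ψ (algebraMap O _ q) = 0 := by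
    rw [hψa, (B.resO_eq_zero q).2 dvd_rfl, map_zero]
  have hψE : ψ E = 0 := by
    obtain ⟨c, hc⟩ := (B.red_eq_zero E).1 hE
    rw [hc, map_mul, hψq, zero_mul]
  rw [map_sum, Finset.sum_eq_single_of_mem i₀ (Finset.mem_Ico.2 ⟨le_rfl, by omega⟩)
    (fun i hi hne' => by
      rw [map_mul, map_pow, hg, zero_pow (by have := (Finset.mem_Ico.1 hi).1; omega), mul_zero]),
    Nat.sub_self, pow_zero, mul_one] at hψE
  have hev : ∀ (φ : chart O B.j →+* LaurentSeries k)
      (_ : ∀ a, φ (algebraMap O _ a) = HahnSeries.C (B.resO a)) (s : O[X]),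
      φ (aeval jA s) = aeval (φ jA) (s.map B.resO) := by
    intro φ hφ s
    rw [aeval_def, hom_eval₂, aeval_def, eval₂_map]
    congr 1
    exact RingHom.ext fun a => by rw [RingHom.comp_apply, RingHom.comp_apply, hφ]; exact (HahnSeries.ofPowerSeries_C _).symm
  rw [hev ψ hψa, hψj, ← expand_aeval] at hψE
  rw [hev B.red B.red_algebraMap] at hi₀
  have h0 : expand k n ((r i₀).map B.resO) = 0 :=
    (transcendental_iff_injective.1 B.red_j) (by rw [hψE, map_zero])
  rw [expand_eq_zero (Nat.pos_of_ne_zero hn)] at h0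
  exact hi₀ (by rw [h0, map_zero])

namespace SqData

variable (D : SqData B F)

/-- The chart of `F`. -/
abbrev A : Subalgebra O F := chart O (D.ι 1 B.j)

theorem algebraMap_ne_zero (D : SqData B F) {a : O} (ha : a ≠ 0) : algebraMap O F a ≠ 0 := by
  rw [← (D.ι 0).commutes a]
  refine (map_ne_zero_iff _ (D.ι 0).toRingHom.injective).2 fun h => ?_
  exact B.j_transcendental ⟨C a, by simpa using ha, by rw [aeval_C, h]⟩

theorem transcendental_ι (i : Fin 3) : Transcendental O (D.ι i B.j) := fun h =>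
  B.j_transcendental ((isAlgebraic_algHom_iff (D.ι i) (D.ι i).toRingHom.injective).1 h)

theorem ι_mem (i : Fin 3) (g : chart O B.j) : D.ι i g ∈ D.A := by
  have hj : D.ι i B.j ∈ D.A := by
    fin_cases i
    · exact D.ι_zero_mem
    · exact self_mem_chart O _
    · exact D.ι_two_mem
  refine isIntegral_of_le hj ?_
  obtain ⟨p, hp, hz⟩ := (mem_chart O).1 g.2
  let f : Algebra.adjoin O ({B.j} : Set FN) →+* Algebra.adjoin O ({D.ι i B.j} : Set F) :=
    (((D.ι i).comp (Algebra.adjoin O ({B.j} : Set FN)).val).codRestrict _ fun y => by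
      obtain ⟨r, hr⟩ := exists_aeval_eq O y.2
      show D.ι i y ∈ _
      rw [← hr, ← aeval_algHom_apply]
      exact aeval_mem_adjoin O _ _).toRingHom
  refine (mem_chart O).2 ⟨p.map f, hp.map f, ?_⟩
  rw [eval₂_map]
  have h := congrArg (D.ι i) hz
  rw [map_zero, ← AlgHom.coe_toRingHom, hom_eval₂] at h
  exact h

/-- The degeneracy map on charts. -/
def ιA (i : Fin 3) : chart O B.j →ₐ[O] D.A :=
  ((D.ι i).comp (chart O B.j).val).codRestrict _ (D.ι_mem i)

@[simp]
theorem coe_ιA (i : Fin 3) (g : chart O B.j) : (D.ιA i g : F) = D.ι i g := rfl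

variable (hq : Prime q)

include hq in
theorem mem_V (b : Fin 3) {z : F} (hz : z ∈ D.A) : z ∈ D.V b := ((D.isVert b).chart_le' hq).1 hz

/-- The restriction to a branch. -/
def resA (b : Fin 3) : D.A →+* LaurentSeries k :=
  (D.res b).comp (Subring.inclusion (S := D.A.toSubring) (T := (D.V b).toSubring)
    fun _ hz => D.mem_V hq b hz)

theorem resA_def (b : Fin 3) (z : D.A) : D.resA hq b z = D.res b ⟨z, D.mem_V hq b z.2⟩ := rfl

theorem resA_algebraMap (b : Fin 3) (a : O) :
    D.resA hq b (algebraMap O _ a) = HahnSeries.C (B.resO a) :=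
  D.res_algebraMap b a _ rfl

/-- The degeneracy map which restricts to the identity on a branch. -/
def base (b : Fin 3) : Fin 3 := if b = 2 then 2 else 0

theorem resA_base (b : Fin 3) (g : chart O B.j) : D.resA hq b (D.ιA (base b) g) = B.red g := by
  fin_cases b
  · exact D.res_base_zero g _ rfl
  · exact D.res_base_one g _ (Or.inl rfl)
  · exact D.res_base_two g _ rfl

theorem resA_mid {g : chart O B.j} (hg : g ∈ B.rat) (b : Fin 3) :
    D.resA hq b (D.ιA 1 g) = B.red g ^ qn :=
  D.res_mid g hg b _ rfl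

/-- The prime of a branch. -/
def centre (b : Fin 3) : Ideal D.A := RingHom.ker (D.resA hq b)

theorem mem_centre {b : Fin 3} {z : D.A} : z ∈ D.centre hq b ↔ (z : F) ∈ (D.V b).nonunits :=
  D.res_eq_zero b _

instance isPrime_centre (b : Fin 3) : (D.centre hq b).IsPrime := RingHom.ker_isPrime _

theorem q_mem_centre (b : Fin 3) : algebraMap O D.A q ∈ D.centre hq b := by
  rw [centre, RingHom.mem_ker, resA_algebraMap, (B.resO_eq_zero q).2 dvd_rfl, map_zero]

include hq in
/-- Every prime minimal over `q` is the centre of a branch. -/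
theorem exists_centre_eq {P : Ideal D.A}
    (hP : P ∈ (Ideal.span {algebraMap O D.A q}).minimalPrimes) : ∃ b, D.centre hq b = P := by
  obtain ⟨V, hV, hV'⟩ := exists_isVert_of_minimalPrime hq (D.transcendental_ι 1) hP
  obtain ⟨b, rfl⟩ := D.eq_V V hV
  exact ⟨b, Ideal.ext fun z => (D.mem_centre hq).trans (hV' z).2⟩

include hq in
theorem exists_branch {n : Ideal D.A} [n.IsPrime] (hqn : algebraMap O D.A q ∈ n) :
    ∃ b, D.centre hq b ≤ n := by
  obtain ⟨P, hP, hPn⟩ := Ideal.exists_minimalPrimes_le ((Ideal.span_singleton_le_iff_mem n).2 hqn)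
  obtain ⟨b, rfl⟩ := D.exists_centre_eq hq hP
  exact ⟨b, hPn⟩

include hq in
/-- An element of the branches through `n` with a power of `q` as denominator is integral at
`n`. -/
theorem exists_mul_mem [IsNoetherianRing D.A] (n : Ideal D.A) [n.IsPrime] {z : F} {i : ℕ}
    (hzc : algebraMap O F q ^ i * z ∈ D.A) (hV : ∀ b, D.centre hq b ≤ n → z ∈ D.V b) :
    ∃ d : D.A, d ∉ n ∧ (d : F) * z ∈ D.A := by
  haveI : IsNoetherianRing D.A.toSubring := inferInstanceAs (IsNoetherianRing D.A)
  have hq0 : algebraMap O D.A q ≠ 0 := fun h =>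
    D.algebraMap_ne_zero hq.ne_zero (congrArg Subtype.val h)
  refine exists_mul_mem_of_minimalPrimes D.A.toSubring (fun x hx => mem_of_isIntegral_chart hx) n
    (c := algebraMap O D.A q) hq0 (i := i) hzc fun P hP hPn => ?_
  obtain ⟨b, rfl⟩ := D.exists_centre_eq hq hP
  exact exists_mul_mem_of_mem D.A.toSubring (fun x hx => mem_of_isIntegral_chart hx) hq0 hP
    (D.V b) (fun r => D.mem_V hq b r.2) (fun r => (D.mem_centre hq (z := r)).symm) (hV b hPn)
    (b := algebraMap O D.A q ^ i) (pow_ne_zero i hq0) hzc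

include hq in
theorem mem_A_of_mem_V [IsNoetherianRing D.A] {z : F} {i : ℕ}
    (hzc : algebraMap O F q ^ i * z ∈ D.A) (hV : ∀ b, z ∈ D.V b) : z ∈ D.A := by
  let I : Ideal D.A :=
    { carrier := {d | (d : F) * z ∈ D.A}
      zero_mem' := by simp
      add_mem' := fun {a c} ha hc => by
        show ((a + c : D.A) : F) * z ∈ D.A
        rw [Subalgebra.coe_add, add_mul]
        exact add_mem ha hc
      smul_mem' := fun a c hc => by
        show ((a • c : D.A) : F) * z ∈ D.A
        rw [smul_eq_mul, Subalgebra.coe_mul, mul_assoc]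
        exact mul_mem a.2 hc }
  by_contra hz
  obtain ⟨n, hn, hIn⟩ := Ideal.exists_le_maximal I fun h => hz (by
    simpa [I] using (h ▸ Submodule.mem_top : (1 : D.A) ∈ I))
  obtain ⟨d, hd, hdz⟩ := D.exists_mul_mem hq n hzc fun b _ => hV b
  exact hd (hIn hdz)

section Point

variable [IsAlgClosed k]

/-- On every branch an element of the chart is a function on the level `N` chart modulo `q`. -/
theorem exists_red_eq_resA (b : Fin 3) (z : D.A) : ∃ g, B.red g = D.resA hq b z := by
  refine BaseData.exists_red_eq fun x hx hqx => ?_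
  haveI := hx
  obtain ⟨p, hp, hpz⟩ := (mem_chart O).1 z.2
  let i : Algebra.adjoin O ({D.ι 1 B.j} : Set F) →+* D.A :=
    (Subalgebra.inclusion (adjoin_le_chart O (D.ι 1 B.j))).toRingHom
  refine BaseData.exists_hasVal_of_integral (hqx := hqx)
    (D.res_mem b ⟨z, D.mem_V hq b z.2⟩ z.2) (p.map ((D.resA hq b).comp i)) (hp.map _)
    (fun l => ?_) ?_
  · rw [coeff_map]
    obtain ⟨r, hr⟩ := exists_aeval_eq O (p.coeff l).2
    have e : i (p.coeff l) = aeval (D.ιA 1 ⟨B.j, self_mem_chart O B.j⟩) r := Subtype.ext (by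
      show ((p.coeff l : Algebra.adjoin O ({D.ι 1 B.j} : Set F)) : F) = _
      rw [← hr]
      exact (aeval_algHom_apply D.A.val (D.ιA 1 ⟨B.j, self_mem_chart O B.j⟩) r))
    rw [RingHom.comp_apply, e]
    clear e hr
    induction r using Polynomial.induction_on' with
    | add r s hr hs =>
      obtain ⟨c, hc⟩ := hr
      obtain ⟨e, he⟩ := hs
      exact ⟨c + e, by rw [map_add, map_add]; exact hc.add he⟩
    | monomial l a =>
      refine ⟨B.resO a * (B.ev x hqx ⟨B.j, self_mem_chart O B.j⟩ ^ qn) ^ l, ?_⟩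
      rw [aeval_monomial, map_mul, map_pow, D.resA_algebraMap, D.resA_mid hq B.j_mem_rat]
      exact (BaseData.hasVal_C _).mul (((BaseData.hasVal_red _).pow qn).pow l)
  · rw [eval_map, ← hom_eval₂,
      show p.eval₂ i z = 0 from Subtype.ext (by
        rw [← Subalgebra.coe_val, ← AlgHom.coe_toRingHom, hom_eval₂, map_zero]; exact hpz),
      map_zero]

variable {b : Fin 3} {n : Ideal D.A}

include hq in
theorem exists_sub_mem_centre (b : Fin 3) (z : D.A) :
    ∃ g : chart O B.j, z - D.ιA (base b) g ∈ D.centre hq b := by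
  obtain ⟨g, hg⟩ := D.exists_red_eq_resA hq b z
  exact ⟨g, by rw [centre, RingHom.mem_ker, map_sub, D.resA_base, hg, sub_self]⟩

include hq in
/-- No branch contains another. -/
theorem centre_le (hqn : qn.Prime) {b' : Fin 3} (hle : D.centre hq b' ≤ D.centre hq b) :
    D.centre hq b ≤ D.centre hq b' := by
  intro w hw
  obtain ⟨gw, hgw⟩ := D.exists_sub_mem_centre hq b' w
  have h1 := hle hgw
  rw [centre, RingHom.mem_ker] at hw hgw h1 ⊢
  rw [map_sub, hw, zero_sub, neg_eq_zero] at h1
  rw [map_sub, D.resA_base, sub_eq_zero] at hgw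
  rw [hgw]
  obtain ⟨e, he⟩ : ∃ e, D.resA hq b (D.ιA (base b') ⟨B.j, self_mem_chart O B.j⟩)
      = B.red ⟨B.j, self_mem_chart O B.j⟩ ^ qn ^ e := by
    set jA : chart O B.j := ⟨B.j, self_mem_chart O B.j⟩
    fin_cases b'
    · fin_cases b
      · exact ⟨0, by rw [pow_zero, pow_one]; exact D.res_base_zero jA _ rfl⟩
      · exact ⟨0, by rw [pow_zero, pow_one]; exact D.res_base_one jA _ (Or.inl rfl)⟩
      · exact ⟨2, D.res_far_two jA B.j_mem_rat _ rfl⟩
    · fin_cases b
      · exact ⟨0, by rw [pow_zero, pow_one]; exact D.res_base_zero jA _ rfl⟩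
      · exact ⟨0, by rw [pow_zero, pow_one]; exact D.res_base_one jA _ (Or.inl rfl)⟩
      · exact ⟨2, D.res_far_two jA B.j_mem_rat _ rfl⟩
    · fin_cases b
      · exact ⟨2, D.res_far_zero jA B.j_mem_rat _ rfl⟩
      · exact ⟨0, by rw [pow_zero, pow_one]; exact D.res_base_one jA _ (Or.inr rfl)⟩
      · exact ⟨0, by rw [pow_zero, pow_one]; exact D.res_base_two jA _ rfl⟩
  refine B.red_eq_zero_of_map_eq_zero ((D.resA hq b).comp (D.ιA (base b')).toRingHom)
    (fun a => ?_) (pow_ne_zero e hqn.ne_zero) he h1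
  show D.resA hq b (D.ιA (base b') (algebraMap O _ a)) = _
  rw [AlgHom.commutes, D.resA_algebraMap]

variable [n.IsMaximal]

include hq in
/-- The point of the level `N` curve below a point of a branch. -/
theorem isMaximal_point (hb : D.centre hq b ≤ n) : (n.comap (D.ιA (base b))).IsMaximal := by
  letI : Field (D.A ⧸ n) := Ideal.Quotient.field n
  rw [show n.comap (D.ιA (base b))
      = RingHom.ker ((Ideal.Quotient.mk n).comp (D.ιA (base b)).toRingHom) from
    Ideal.ext fun g => by simp [RingHom.mem_ker, Ideal.Quotient.eq_zero_iff_mem]]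
  refine RingHom.ker_isMaximal_of_surjective _ fun w => ?_
  obtain ⟨z, rfl⟩ := Ideal.Quotient.mk_surjective w
  obtain ⟨g, hg⟩ := D.exists_sub_mem_centre hq b z
  exact ⟨g, (Ideal.Quotient.eq.2 (hb hg)).symm⟩

include hq in
theorem q_mem_point (hb : D.centre hq b ≤ n) :
    algebraMap O (chart O B.j) q ∈ n.comap (D.ιA (base b)) := by
  rw [Ideal.mem_comap, AlgHom.commutes]
  exact hb (D.q_mem_centre hq b)

variable {x : Ideal (chart O B.j)} [x.IsMaximal] {hqx : algebraMap O _ q ∈ x}

/-- Reading membership in `n` on a branch. -/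
theorem hasVal_resA (hb : D.centre hq b ≤ n) (hx : n.comap (D.ιA (base b)) = x) (z : D.A) (a : O) :
    z - algebraMap O _ a ∈ n ↔ B.HasVal hqx (D.resA hq b z) (B.resO a) := by
  obtain ⟨g, hg⟩ := D.exists_sub_mem_centre hq b z
  have hgz : D.resA hq b z = B.red g := by
    rw [centre, RingHom.mem_ker, map_sub, D.resA_base, sub_eq_zero] at hg
    exact hg
  have key : z - algebraMap O _ a ∈ n ↔ g - algebraMap O _ a ∈ x := by
    rw [← hx, Ideal.mem_comap, map_sub, AlgHom.commutes]
    constructor <;> intro h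
    · simpa using n.sub_mem h (hb hg)
    · simpa using n.add_mem h (hb hg)
  rw [key, ← B.ev_eq_zero hqx, map_sub, B.ev_algebraMap, sub_eq_zero, hgz]
  exact ⟨fun h => h ▸ BaseData.hasVal_red g, fun h => (BaseData.hasVal_red g).unique h⟩

theorem mem_iff_hasVal (hb : D.centre hq b ≤ n) (hx : n.comap (D.ιA (base b)) = x) (z : D.A) :
    z ∈ n ↔ B.HasVal hqx (D.resA hq b z) 0 := by
  simpa using D.hasVal_resA hq (hqx := hqx) hb hx z 0

theorem exists_hasVal (b : Fin 3) (z : D.A) :
    ∃ c, B.HasVal hqx (D.resA hq b z) c := by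
  obtain ⟨g, hg⟩ := D.exists_red_eq_resA hq b z
  exact ⟨_, hg ▸ BaseData.hasVal_red g⟩

include hq in
/-- Closed points of the special fibre are rational. -/
theorem exists_sub_algebraMap_mem (hqn' : algebraMap O D.A q ∈ n) (z : D.A) :
    ∃ a : O, z - algebraMap O _ a ∈ n := by
  obtain ⟨b, hb⟩ := D.exists_branch hq hqn'
  haveI := D.isMaximal_point hq hb
  have hqx := D.q_mem_point hq hb
  obtain ⟨c, hc⟩ := D.exists_hasVal hq (hqx := hqx) b z
  obtain ⟨a, rfl⟩ := B.resO_surjective c
  exact ⟨a, (D.hasVal_resA hq (hqx := hqx) hb rfl z a).2 hc⟩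

theorem resO_eq_zero_of_mem (hqn' : algebraMap O D.A q ∈ n) {a : O}
    (ha : algebraMap O D.A a ∈ n) : B.resO a = 0 := by
  by_contra hne
  obtain ⟨e, he⟩ := B.resO_surjective (B.resO a)⁻¹
  obtain ⟨c, hc⟩ := (B.resO_eq_zero (a * e - 1)).1 (by
    rw [map_sub, map_mul, he, mul_inv_cancel₀ hne, map_one, sub_self])
  refine ‹n.IsMaximal›.ne_top ((Ideal.eq_top_iff_one n).2 ?_)
  have h := congrArg (algebraMap O D.A) hc
  rw [map_sub, map_mul, map_mul, map_one] at h
  have h3 := n.sub_mem (n.mul_mem_right (algebraMap O _ e) ha)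
    (n.mul_mem_right (algebraMap O _ c) hqn')
  rwa [← h, sub_sub_cancel] at h3

/-- Every point of the level `N` curve lies on every branch. -/
theorem exists_isMaximal (b : Fin 3) (x : Ideal (chart O B.j)) [x.IsMaximal]
    (hqx : algebraMap O _ q ∈ x) : ∃ n : Ideal D.A, n.IsMaximal ∧ D.centre hq b ≤ n ∧
      n.comap (D.ιA (base b)) = x := by
  choose g hg using D.exists_red_eq_resA hq b
  let f : D.A →+* k :=
    { toFun := fun z => B.ev x hqx (g z)
      map_one' := by rw [← map_one (B.ev x hqx)]; exact B.ev_congr hqx (by rw [hg, map_one, map_one])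
      map_zero' := by
        rw [← map_zero (B.ev x hqx)]; exact B.ev_congr hqx (by rw [hg, map_zero, map_zero])
      map_mul' := fun z w => by
        rw [← map_mul]; exact B.ev_congr hqx (by rw [hg, map_mul, map_mul, hg, hg])
      map_add' := fun z w => by
        rw [← map_add]; exact B.ev_congr hqx (by rw [hg, map_add, map_add, hg, hg]) }
  have hf : ∀ y, f (D.ιA (base b) y) = B.ev x hqx y := fun y =>
    B.ev_congr hqx (by rw [hg, D.resA_base])
  refine ⟨RingHom.ker f, RingHom.ker_isMaximal_of_surjective f fun c => ?_, fun z hz => ?_, ?_⟩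
  · obtain ⟨a, rfl⟩ := B.resO_surjective c
    exact ⟨D.ιA (base b) (algebraMap O _ a), by rw [hf, B.ev_algebraMap]⟩
  · rw [RingHom.mem_ker, ← map_zero (B.ev x hqx)]
    exact B.ev_congr hqx (by rw [hg, map_zero]; exact hz)
  · ext y
    rw [Ideal.mem_comap, RingHom.mem_ker, hf, B.ev_eq_zero]

include hq in
/-- A fraction in the residue field of a branch. -/
theorem exists_res_mul (hqn : qn.Prime) [IsNoetherianRing D.A] (b : Fin 3) (z : D.V b) :
    ∃ g d : chart O B.j, B.red d ≠ 0 ∧ D.res b z * B.red d = B.red g := by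
  haveI : IsNoetherianRing D.A.toSubring := inferInstanceAs (IsNoetherianRing D.A)
  obtain ⟨u, v, hu, hv, hv0, huv⟩ := D.frac z
  have hle : Algebra.adjoin O (⋃ i, (fun g : chart O B.j => D.ι i g) '' Set.univ) ≤ D.A := by
    refine Algebra.adjoin_le ?_
    rintro _ ⟨_, ⟨i, rfl⟩, ⟨g, -, rfl⟩⟩
    exact D.ι_mem i g
  obtain ⟨P, hP, hPle⟩ := Ideal.exists_minimalPrimes_le
    ((Ideal.span_singleton_le_iff_mem _).2 (D.q_mem_centre hq b))
  obtain ⟨b', rfl⟩ := D.exists_centre_eq hq hP
  have hmin : D.centre hq b ∈ (Ideal.span {algebraMap O D.A q}).minimalPrimes :=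
    le_antisymm hPle (D.centre_le hq hqn hPle) ▸ hP
  obtain ⟨d, hd, hdz⟩ := exists_mul_mem_of_mem D.A.toSubring
    (fun x hx => mem_of_isIntegral_chart hx)
    (c := algebraMap O D.A q) (fun h => D.algebraMap_ne_zero hq.ne_zero (congrArg Subtype.val h))
    hmin (D.V b) (fun r => D.mem_V hq b r.2) (fun r => (D.mem_centre hq (z := r)).symm)
    (z := (z : F)) z.2 (b := ⟨v, hle hv⟩) (fun h => hv0 (congrArg Subtype.val h))
    (by show v * (z : F) ∈ D.A; rw [mul_comm, huv]; exact hle hu)
  obtain ⟨gd, hgd⟩ := D.exists_red_eq_resA hq b d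
  obtain ⟨gn, hgn⟩ := D.exists_red_eq_resA hq b ⟨_, hdz⟩
  refine ⟨gn, gd, fun h0 => hd (RingHom.mem_ker.2 (hgd ▸ h0)), ?_⟩
  rw [hgn, hgd, D.resA_def, D.resA_def, mul_comm, ← map_mul]
  exact congrArg _ (Subtype.ext rfl)

end Point

end SqData

end FLTAgent.LevelSq
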