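import Fermat.Agent.Semistable.LevelW
import Fermat.Agent.Igusa.PrimeLevel
import Fermat.Agent.Hecke.PsiMul

/-!
# The `q + 1` conjugates of a function of level `N` over its image of level `q N`

`rootMap ζ o` is the substitution `t ↦ ζ ^ i t` for `o = some i` and `t ↦ t ^ (q ^ 2)` for
`o = none`; it sends `j` to the root `rootJ o` of `Φ_q (j (t ^ q), X)`.  The common root of
`Φ_q (j_N (t ^ q), X)` and `Φ_N (rootJ o, X)` is `rootMap ζ o (j_N)`.
-/

set_option autoImplicit false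
set_option linter.style.haveILetI false
set_option linter.unusedSectionVars false

noncomputable section

open ModularCurve AlgebraicCurve Polynomial

namespace FLTAgent.LevelSq

open FLTAgent.Hecke FLTAgent.ModPoly FLTAgent.Igusa FLTAgent.Semistable

variable {L : Type*} [Field L] [Algebra ℚ L] {q : ℕ} [NeZero q]

/-- `t ↦ η t` as an algebra map. -/
def twistHom (η : Lˣ) : LaurentSeries L →ₐ[L] LaurentSeries L :=
  { twist η with
    commutes' := fun a => by
      show twist η (algebraMap L (LaurentSeries L) a) = algebraMap L (LaurentSeries L) a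
      rw [algebraMap_laurentSeries_eq_single, twist_single]
      simp }

theorem twistHom_apply (η : Lˣ) (x : LaurentSeries L) : twistHom η x = twist η x := rfl

/-- The substitutions producing the conjugates. -/
def rootMap (ζ : Lˣ) : Option (Fin q) → (LaurentSeries L →ₐ[L] LaurentSeries L)
  | none => qExpandAlg L (q * q)
  | some i => twistHom (ζ ^ (i : ℕ))

theorem rootMap_none (ζ : Lˣ) (x : LaurentSeries L) :
    rootMap (q := q) ζ none x = qExpand L (q * q) x := rfl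

theorem rootMap_some (ζ : Lˣ) (i : Fin q) (x : LaurentSeries L) :
    rootMap ζ (some i) x = twist (ζ ^ (i : ℕ)) x := rfl

theorem jd_eq_J (N : ℕ) [NeZero N] : jd L N = J L N 1 := (J_one_unit N).symm

theorem rootMap_jd (ζ : Lˣ) (o : Option (Fin q)) (N : ℕ) [NeZero N] :
    rootMap ζ o (jd L N) =
      o.elim (J L (q * q * N) 1) fun i => J L N (ζ ^ ((i : ℕ) * N)) := by
  rcases o with _ | i
  · rw [rootMap_none, jd_eq_J, qExpand_J]; rfl
  · rw [rootMap_some, jd_eq_J, twist_J, one_mul, ← pow_mul]; rfl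

theorem rootMap_jqModC (ζ : Lˣ) (o : Option (Fin q)) :
    rootMap ζ o (jqModC L) = rootJ L q ζ o := by
  rcases o with _ | i
  · rw [rootMap_none, ← J_one_one, qExpand_J, mul_one]; rfl
  · rw [rootMap_some, ← J_one_one, twist_J, one_mul, pow_one]; rfl

theorem phiRel_qExpand_jd_iff [IsAlgClosed L] (n d : ℕ) [NeZero n] [NeZero d] {ζ : Lˣ}
    (hζ : IsPrimitiveRoot (ζ : L) n) {y : LaurentSeries L} :
    PhiRel (L := L) n (qExpand L d (jd L n)) y ↔
      ∃ p : HIdx n, y = qExpand L d (jqConj L ζ p) := by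
  have hroot : (cyclotomic n L).IsRoot (ζ : L) :=
    hζ.isRoot_cyclotomic (Nat.pos_of_ne_zero (NeZero.ne n))
  have e : ev2 (qExpand L d (jd L n)) y (phiK n L) =
      ((phiRoots n L).map (qExpand L d)).eval y := by
    rw [phiRoots, Polynomial.map_map, eval_map, ev2_apply]
    congr 1
    refine Polynomial.ringHom_ext (fun a => ?_) ?_
    · simp only [RingHom.comp_apply, evalL, RingHom.coe_coe, aeval_C]
      exact ((qExpandAlg L d).commutes a).symm
    · simp only [RingHom.comp_apply, evalL, RingHom.coe_coe, aeval_X]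
  rw [PhiRel, e, phiRoots_eq_conjProd n ζ hroot, conjProd, Polynomial.map_prod, eval_prod,
    Finset.prod_eq_zero_iff]
  simp [sub_eq_zero]

theorem jqConj_eq_J (n : ℕ) [NeZero n] (ζ : Lˣ) (p : HIdx n) :
    jqConj L ζ p = J L ((p : ℕ × ℕ).1 * (p : ℕ × ℕ).1) (ζ ^ ((p : ℕ × ℕ).1 * (p : ℕ × ℕ).2)) := by
  have hp : (p : ℕ × ℕ).1 ≠ 0 := fun h =>
    NeZero.ne n (Nat.eq_zero_of_zero_dvd (h ▸ (mem_hermiteSet.1 p.2).1))
  haveI : NeZero ((p : ℕ × ℕ).1 * (p : ℕ × ℕ).1) := ⟨mul_ne_zero hp hp⟩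
  rw [jqConj_eq, J_def]

theorem exists_rootJ_eq (hq : q.Prime) (ζ : Lˣ) (p : HIdx q) :
    ∃ o : Option (Fin q), jqConj L ζ p = rootJ L q ζ o := by
  obtain ⟨hd, hb, -⟩ := mem_hermiteSet.1 p.2
  rcases hq.eq_one_or_self_of_dvd _ hd with h | h
  · refine ⟨some ⟨(p : ℕ × ℕ).2, by rwa [h, Nat.div_one] at hb⟩, ?_⟩
    show _ = J L 1 (ζ ^ (p : ℕ × ℕ).2)
    rw [jqConj_eq_J, h, one_mul, one_mul]
  · refine ⟨none, ?_⟩
    rw [h, Nat.div_self hq.pos, Nat.lt_one_iff] at hb
    rw [jqConj_eq_J, h, hb, mul_zero, pow_zero]; rfl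

theorem exists_jqConj_eq (hq : q.Prime) (ζ : Lˣ) (o : Option (Fin q)) :
    ∃ p : HIdx q, jqConj L ζ p = rootJ L q ζ o := by
  rcases o with _ | i
  · refine ⟨⟨(q, 0), mem_hermiteSet.2 ⟨dvd_rfl, by simp [Nat.div_self hq.pos],
      by simp [Nat.div_self hq.pos]⟩⟩, ?_⟩
    rw [jqConj_eq_J]; simp only [mul_zero, pow_zero]; rfl
  · refine ⟨⟨(1, (i : ℕ)), mem_hermiteSet.2 ⟨one_dvd _, by simp, by simp⟩⟩, ?_⟩
    rw [jqConj_eq_J]; simp only [one_mul]; rfl

variable [IsAlgClosed L] {ζ : Lˣ} (hq : q.Prime) (hζ : IsPrimitiveRoot (ζ : L) q)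
include hq hζ

/-- The roots of `Φ_q (j (t ^ (q d)), X)`. -/
theorem phiRel_rootJ_iff (d : ℕ) [NeZero d] {y : LaurentSeries L} :
    PhiRel (L := L) q (qExpand L d (jd L q)) y ↔ ∃ o, y = qExpand L d (rootJ L q ζ o) := by
  rw [phiRel_qExpand_jd_iff q d hζ]
  constructor
  · rintro ⟨p, rfl⟩
    obtain ⟨o, ho⟩ := exists_rootJ_eq hq ζ p
    exact ⟨o, by rw [ho]⟩
  · rintro ⟨o, rfl⟩
    obtain ⟨p, hp⟩ := exists_jqConj_eq hq ζ o
    exact ⟨p, by rw [hp]⟩

theorem phiRel_rootJ_iff' {y : LaurentSeries L} :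
    PhiRel (L := L) q (jd L q) y ↔ ∃ o, y = rootJ L q ζ o := by
  simpa [qExpand_one_apply] using phiRel_rootJ_iff hq hζ 1 (y := y)

theorem rootJ_injective : Function.Injective (rootJ L q ζ) := by
  haveI : NeZero (q * q) := ⟨mul_ne_zero hq.ne_zero hq.ne_zero⟩
  have hlt : 1 < q * q := Nat.one_lt_mul_iff.2 ⟨hq.pos, hq.pos, Or.inl hq.one_lt⟩
  rintro (_ | i) (_ | k) h
  · rfl
  · exact absurd (J_inj h).1 hlt.ne'
  · exact absurd (J_inj h).1 hlt.ne
  · exact congrArg some (Fin.ext (IsPrimitiveRoot.coe_units_iff.1 hζ |>.pow_inj i.2 k.2 (J_inj h).2))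

theorem rootMap_jd_injective {N : ℕ} [NeZero N] (hN : ¬ q ∣ N) :
    Function.Injective fun o : Option (Fin q) => rootMap ζ o (jd L N) := by
  haveI : NeZero (q * q * N) := ⟨mul_ne_zero (mul_ne_zero hq.ne_zero hq.ne_zero) (NeZero.ne N)⟩
  have hlt : N < q * q * N := lt_mul_of_one_lt_left (Nat.pos_of_ne_zero (NeZero.ne N))
    (Nat.one_lt_mul_iff.2 ⟨hq.pos, hq.pos, Or.inl hq.one_lt⟩)
  intro o o' h
  simp only [rootMap_jd] at h
  rcases o with _ | i <;> rcases o' with _ | k <;> simp only [Option.elim] at h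
  · rfl
  · exact absurd (J_inj h).1 hlt.ne'
  · exact absurd (J_inj h).1 hlt.ne
  · have hz := IsPrimitiveRoot.coe_units_iff.1 hζ
    have hi := (J_inj h).2
    rw [mul_comm (i : ℕ), mul_comm (k : ℕ), pow_mul, pow_mul] at hi
    exact congrArg some (Fin.ext
      ((hz.pow_of_coprime N ((hq.coprime_iff_not_dvd.2 hN).symm)).pow_inj i.2 k.2 hi))

/-- The conjugates of `j_N` are roots of `Φ_q (j_N (t ^ q), X)`. -/
theorem phiRel_rootMap_jd (N : ℕ) [NeZero N] (o : Option (Fin q)) :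
    PhiRel (L := L) q (qExpand L q (jd L N)) (rootMap ζ o (jd L N)) := by
  rcases o with _ | i
  · rw [rootMap_none]
    have h := phiRel_qExpand (d := q * N) (phiRel_jqModC (L := L) q)
    simp only [jd, qExpand_qExpand] at h ⊢
    rwa [qExpand_congr (show q * N * q = q * q * N by ring)] at h
  · have h := phiRel_qExpand (d := N) ((phiRel_rootJ_iff' hq hζ).2 ⟨some 0, rfl⟩)
    have e : rootJ L q ζ (some (0 : Fin q)) = jqModC L := by
      simp [rootJ, J_one_one]
    rw [e, jd, qExpand_qExpand, qExpand_congr (mul_comm N q), ← qExpand_qExpand] at h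
    have h2 := h.map (twistHom (ζ ^ (i : ℕ)))
    rw [twistHom_apply, twistHom_apply, twist_qExpand_eq_self _ q (by
      rw [← pow_mul, mul_comm, pow_mul, (IsPrimitiveRoot.coe_units_iff.1 hζ).pow_eq_one,
        one_pow])] at h2
    exact h2

omit hq hζ in
theorem qExpand_jd_comm (N : ℕ) [NeZero N] :
    qExpand L q (jd L N) = qExpand L N (jd L q) := by
  rw [jd, jd, qExpand_qExpand, qExpand_qExpand]
  exact qExpand_congr (mul_comm q N) _

/-- The common root. -/
theorem eq_rootMap_jd {N : ℕ} [NeZero N] (hN : ¬ q ∣ N) (o : Option (Fin q))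
    {y : LaurentSeries L} (h₁ : PhiRel (L := L) q (qExpand L q (jd L N)) y)
    (h₂ : PhiRel (L := L) N (rootJ L q ζ o) y) : y = rootMap ζ o (jd L N) := by
  obtain ⟨η, hη⟩ := exists_primitiveRoot_unit (L := L) N
  haveI : NeZero (q * q) := ⟨mul_ne_zero hq.ne_zero hq.ne_zero⟩
  -- reduce to the substituted variable
  suffices key : ∀ (e : ℕ) [NeZero e], e = 1 ∨ e = q * q → ∀ z : LaurentSeries L,
      PhiRel (L := L) q (qExpand L q (jd L N)) z →
      PhiRel (L := L) N (qExpand L e (jqModC L)) z → z = qExpand L e (jd L N) by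
    rcases o with _ | i
    · exact key (q * q) (Or.inr rfl) y h₁ (by rwa [← rootMap_jqModC, rootMap_none] at h₂)
    · set c := ζ ^ (i : ℕ)
      have hc : c ^ q = 1 := by
        rw [← pow_mul, mul_comm, pow_mul, (IsPrimitiveRoot.coe_units_iff.1 hζ).pow_eq_one, one_pow]
      have hz := key 1 (Or.inl rfl) (twist c⁻¹ y) (by
          have := h₁.map (twistHom c⁻¹)
          rwa [twistHom_apply, twistHom_apply, twist_qExpand_eq_self _ q
            (by rw [inv_pow, hc, inv_one])] at this) (by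
          have := h₂.map (twistHom c⁻¹)
          rw [← rootMap_jqModC, rootMap_some, twistHom_apply, twistHom_apply, twist_twist] at this
          simpa [twist_one_unit, qExpand_one_apply, c] using this)
      rw [qExpand_one_apply] at hz
      rw [rootMap_some, ← hz, twist_twist]
      simp [twist_one_unit, c]
  intro e _ he z hz₁ hz₂
  rw [qExpand_jd_comm N] at hz₁
  obtain ⟨o', rfl⟩ := (phiRel_rootJ_iff hq hζ N).1 hz₁
  have h3 := phiRel_qExpand (d := N) hz₂
  rw [qExpand_qExpand, qExpand_congr (mul_comm N e), ← qExpand_qExpand] at h3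
  obtain ⟨r, hr⟩ := (phiRel_qExpand_jd_iff N e hη).1 h3
  obtain ⟨hrd, hrb, -⟩ := mem_hermiteSet.1 r.2
  have hr0 : (r : ℕ × ℕ).1 ≠ 0 := fun h => NeZero.ne N (Nat.eq_zero_of_zero_dvd (h ▸ hrd))
  haveI : NeZero (N * N) := ⟨mul_ne_zero (NeZero.ne N) (NeZero.ne N)⟩
  haveI : NeZero (N * (N * (q * q))) :=
    ⟨mul_ne_zero (NeZero.ne N) (mul_ne_zero (NeZero.ne N) (NeZero.ne _))⟩
  haveI : NeZero (e * ((r : ℕ × ℕ).1 * (r : ℕ × ℕ).1)) :=
    ⟨mul_ne_zero (NeZero.ne e) (mul_ne_zero hr0 hr0)⟩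
  rw [jqConj_eq_J, qExpand_J] at hr
  have hqr : ¬ q ∣ (r : ℕ × ℕ).1 := fun h => hN (h.trans hrd)
  have fin : ∀ a : ℕ, q * q * (a * a) = N * N → False := fun a h =>
    hN ((hq.dvd_mul.1 (⟨q * (a * a), by rw [← h]; ring⟩ : q ∣ N * N)).elim id id)
  rcases o' with _ | i
  · simp only [rootJ, qExpand_J] at hr
    obtain ⟨hexp, -⟩ := J_inj hr
    rcases he with rfl | rfl
    · exfalso
      refine hqr ?_
      rw [one_mul] at hexp
      exact (hq.dvd_mul.1 (⟨q * (N * N), by rw [← hexp]; ring⟩ :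
        q ∣ (r : ℕ × ℕ).1 * (r : ℕ × ℕ).1)).elim id id
    · simp only [jd_eq_J, rootJ, qExpand_J]
      rw [mul_comm N]
  · simp only [rootJ, qExpand_J, mul_one] at hr
    obtain ⟨hexp, hc⟩ := J_inj hr
    rcases he with rfl | rfl
    · rw [one_mul] at hexp
      have ha : (r : ℕ × ℕ).1 = N := (Nat.mul_self_inj.1 hexp).symm
      rw [ha, Nat.div_self (Nat.pos_of_ne_zero (NeZero.ne N)), Nat.lt_one_iff] at hrb
      rw [hrb, mul_zero, pow_zero] at hc
      rw [jd_eq_J, rootJ, qExpand_J, qExpand_J, mul_one, one_mul, hc]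
    · exact (fin _ hexp.symm).elim

end FLTAgent.LevelSq
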