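import Fermat.Agent.LevelSq.Lattice
import Fermat.Prelude.Def_ModularCurve_LaurentCoeff
import Mathlib.RingTheory.LaurentSeries
import Mathlib.RingTheory.PowerSeries.Ideal
import Mathlib.FieldTheory.PrimitiveElement

/-!
# Conjugate expansions at infinity

`SplitData O K W K' φ` records all the conjugate Laurent expansions of `L` over `K(φ)`, with `φ`
going to a series over `W` with a pole and unit leading coefficient.  Elements of the chart expand
with coefficients in `W`, and the trace is the sum of the expansions.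
-/

set_option autoImplicit false
set_option linter.style.haveILetI false
set_option linter.unusedSectionVars false

noncomputable section

open Polynomial IntermediateField Finset ModularCurve

namespace FLTAgent.LevelSq

universe uO uK uL uW uK' uT

section Series

variable {W : Type uW} [CommRing W]

/-- `W((s))` is integrally closed for a discrete valuation ring `W`. -/
theorem isIntegrallyClosed_laurent [IsDomain W] [IsPrincipalIdealRing W] :
    IsIntegrallyClosed (LaurentSeries W) :=
  isIntegrallyClosed_of_isLocalization _ (Submonoid.powers (PowerSeries.X : PowerSeries W))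
    (powers_le_nonZeroDivisors_of_noZeroDivisors PowerSeries.X_ne_zero)

/-- An element of the fraction field of `W((s))` inside a field, integral over `W((s))`, is a
series over `W`. -/
theorem exists_eq_of_isIntegral [IsDomain W] [IsPrincipalIdealRing W] {Ω : Type*} [Field Ω]
    (E : LaurentSeries W →+* Ω) (hE : Function.Injective E) {z : Ω} {p : (LaurentSeries W)[X]}
    (hp : p.Monic) (hz : p.eval₂ E z = 0) {a b : LaurentSeries W} (hb : b ≠ 0)
    (hab : z * E b = E a) : ∃ c, E c = z := by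
  haveI := isIntegrallyClosed_laurent (W := W)
  set Q := FractionRing (LaurentSeries W)
  let θ : Q →+* Ω := IsFractionRing.lift hE
  have hθ : ∀ x, θ (algebraMap (LaurentSeries W) Q x) = E x := IsFractionRing.lift_algebraMap hE
  set z' : Q := algebraMap (LaurentSeries W) Q a / algebraMap (LaurentSeries W) Q b
  have hbE : E b ≠ 0 := (map_ne_zero_iff E hE).2 hb
  have hz' : θ z' = z := by
    rw [map_div₀, hθ, hθ, ← hab, mul_div_assoc, div_self hbE, mul_one]
  have hint : IsIntegral (LaurentSeries W) z' := by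
    refine ⟨p, hp, θ.injective ?_⟩
    rw [hom_eval₂, map_zero, hz',
      show θ.comp (algebraMap (LaurentSeries W) Q) = E from RingHom.ext hθ]
    exact hz
  obtain ⟨c, hc⟩ := IsIntegrallyClosed.isIntegral_iff.1 hint
  exact ⟨c, by rw [← hθ, hc, hz']⟩

/-- A series with a pole of order `r` and unit leading coefficient. -/
structure IsPoleSeries (J : LaurentSeries W) (r : ℕ) (u : PowerSeries W) : Prop where
  pos : 0 < r
  unit : IsUnit (PowerSeries.constantCoeff u)
  eq : J = HahnSeries.single (-(r : ℤ)) 1 * HahnSeries.ofPowerSeries ℤ W u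

theorem IsPoleSeries.coeff_pow {J : LaurentSeries W} {r : ℕ} {u : PowerSeries W}
    (h : IsPoleSeries J r u) (j : ℕ) :
    (J ^ j).coeff (-((j * r : ℕ) : ℤ)) = PowerSeries.constantCoeff u ^ j ∧
      ∀ i : ℤ, i < -((j * r : ℕ) : ℤ) → (J ^ j).coeff i = 0 := by
  have hpow : J ^ j = HahnSeries.single (-((j * r : ℕ) : ℤ)) 1
      * HahnSeries.ofPowerSeries ℤ W (u ^ j) := by
    rw [h.eq, mul_pow, HahnSeries.single_pow, one_pow, map_pow]
    congr 2
    rw [nsmul_eq_mul]; push_cast; ring_nf
  constructor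
  · rw [hpow]
    have h2 := HahnSeries.coeff_single_mul_add (r := (1 : W))
      (x := HahnSeries.ofPowerSeries ℤ W (u ^ j)) (a := (0 : ℤ)) (b := -((j * r : ℕ) : ℤ))
    rw [zero_add, one_mul] at h2
    rw [h2, show (0 : ℤ) = ((0 : ℕ) : ℤ) from rfl, HahnSeries.ofPowerSeries_apply_coeff,
      PowerSeries.coeff_zero_eq_constantCoeff_apply, map_pow]
  · intro i hi
    rw [hpow]
    obtain ⟨k, hk, rfl⟩ : ∃ k : ℤ, k < 0 ∧ i = k + -((j * r : ℕ) : ℤ) :=
      ⟨i + ((j * r : ℕ) : ℤ), by omega, by ring⟩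
    rw [HahnSeries.coeff_single_mul_add, one_mul, HahnSeries.ofPowerSeries_apply,
      HahnSeries.embDomain_of_notMem_range]
    rintro ⟨k', hk'⟩
    simp at hk'
    omega

theorem coeff_C_mul' (c : W) (x : LaurentSeries W) (i : ℤ) :
    (HahnSeries.C c * x).coeff i = c * x.coeff i := by
  rw [HahnSeries.C_apply, HahnSeries.coeff_single_zero_mul]

/-- A polynomial in a pole series with few poles modulo `π` has few coefficients modulo `π`. -/
theorem IsPoleSeries.dvd_coeff {J : LaurentSeries W} {r : ℕ} {u : PowerSeries W}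
    (h : IsPoleSeries J r u) (P : W[X]) (π : W) {B : ℕ}
    (hP : ∀ i : ℤ, i < -(B : ℤ) → π ∣ (P.eval₂ HahnSeries.C J).coeff i) {j : ℕ} (hj : B < j * r) :
    π ∣ P.coeff j := by
  by_contra hne
  classical
  have hex : ∃ l, j ≤ l ∧ ¬ π ∣ P.coeff l ∧ ∀ l', l < l' → π ∣ P.coeff l' := by
    set S := P.support.filter fun l => j ≤ l ∧ ¬ π ∣ P.coeff l
    have hS : S.Nonempty :=
      ⟨j, Finset.mem_filter.2 ⟨mem_support_iff.2 fun h0 => hne (h0 ▸ dvd_zero π), le_rfl, hne⟩⟩
    obtain ⟨hl1, hl2, hl3⟩ := Finset.mem_filter.1 (S.max'_mem hS)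
    refine ⟨S.max' hS, hl2, hl3, fun l' hl' => ?_⟩
    by_contra hc
    have hmem : l' ∈ S :=
      Finset.mem_filter.2 ⟨mem_support_iff.2 fun h0 => hc (h0 ▸ dvd_zero π), by omega, hc⟩
    exact absurd (S.le_max' l' hmem) (not_le.2 hl')
  obtain ⟨l, hjl, hl, hmax⟩ := hex
  have hlr : j * r ≤ l * r := Nat.mul_le_mul_right r hjl
  have h1 := hP (-((l * r : ℕ) : ℤ)) (by omega)
  rw [eval₂_eq_sum_range' (n := P.natDegree + 1) _ (Nat.lt_succ_self _), HahnSeries.coeff_sum] at h1
  have hl0 : P.coeff l ≠ 0 := fun h0 => hl (h0 ▸ dvd_zero π)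
  have hlmem : l ∈ range (P.natDegree + 1) :=
    Finset.mem_range.2 (Nat.lt_succ_of_le (le_natDegree_of_ne_zero hl0))
  rw [← Finset.add_sum_erase _ _ hlmem] at h1
  have h2 : π ∣ ∑ i ∈ (range (P.natDegree + 1)).erase l,
      (HahnSeries.C (P.coeff i) * J ^ i).coeff (-((l * r : ℕ) : ℤ)) := by
    refine Finset.dvd_sum fun i hi => ?_
    rw [coeff_C_mul']
    rcases lt_or_gt_of_ne (Finset.ne_of_mem_erase hi) with hlt | hgt
    · rw [(h.coeff_pow i).2 _ (by
        have : i * r < l * r := Nat.mul_lt_mul_of_pos_right hlt h.pos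
        omega), mul_zero]
      exact dvd_zero π
    · exact (hmax i hgt).mul_right _
  rw [dvd_add_left h2, coeff_C_mul', (h.coeff_pow l).1] at h1
  exact hl ((IsUnit.dvd_mul_right (h.unit.pow l)).1 h1)

end Series

variable (O : Type uO) (K : Type uK) {L : Type uL} [CommRing O] [Field K] [Field L] [Algebra O L]
  [Algebra O K] [Algebra K L] (W : Type uW) [CommRing W] (K' : Type uK') [Field K']
  [Algebra W K'] [Algebra K K']

/-- All conjugate expansions of `L` over `K(φ)` at infinity. -/
structure SplitData (φ : L) where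
  /-- the embedding of the coefficient ring -/
  β : O →+* W
  β_compat : ∀ a, algebraMap W K' (β a) = algebraMap K K' (algebraMap O K a)
  /-- the expansion of `φ` -/
  J : LaurentSeries W
  /-- its pole order -/
  r : ℕ
  /-- its unit part -/
  u : PowerSeries W
  hJ : IsPoleSeries J r u
  /-- index set of the expansions -/
  T : Type uT
  fin : Fintype T
  /-- the expansions -/
  τ : T → L →+* LaurentSeries K'
  τ_φ : ∀ t, τ t φ = coeffMap (algebraMap W K') J
  τ_K : ∀ t x, τ t (algebraMap K L x) = HahnSeries.C (algebraMap K K' x)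
  τ_inj : Function.Injective τ
  card_eq : Nat.card T = Module.finrank K⟮φ⟯ L
  τ_frac : ∀ t z, ∃ a b : LaurentSeries W, b ≠ 0 ∧
    τ t z * coeffMap (algebraMap W K') b = coeffMap (algebraMap W K') a

attribute [instance] SplitData.fin

namespace SplitData

variable {O K W K'} {φ : L} (Sd : SplitData O K W K' φ) [IsScalarTower O K L]

theorem τ_algebraMap (t : Sd.T) (a : O) :
    Sd.τ t (algebraMap O L a) = coeffMap (algebraMap W K') (HahnSeries.C (Sd.β a)) := by
  rw [IsScalarTower.algebraMap_apply O K L, Sd.τ_K, ← Sd.β_compat]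
  ext k
  by_cases hk : k = 0 <;> simp [HahnSeries.C_apply, hk]

theorem τ_aeval (t : Sd.T) (p : O[X]) :
    Sd.τ t (aeval φ p)
      = coeffMap (algebraMap W K') ((p.map Sd.β).eval₂ HahnSeries.C Sd.J) := by
  rw [aeval_def, hom_eval₂, hom_eval₂, eval₂_map, Sd.τ_φ]
  congr 1
  exact RingHom.ext fun a => Sd.τ_algebraMap t a

variable [IsDomain W] [IsPrincipalIdealRing W]

/-- Elements of the chart expand with coefficients in `W`. -/
theorem exists_τ_eq (hW : Function.Injective (algebraMap W K')) (t : Sd.T) {z : L}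
    (hz : z ∈ chart O φ) : ∃ c, coeffMap (algebraMap W K') c = Sd.τ t z := by
  obtain ⟨m, hm, hmz⟩ := (mem_chart O).1 hz
  have hc : ∀ x : Algebra.adjoin O ({φ} : Set L),
      ∃ c, coeffMap (algebraMap W K') c = Sd.τ t (x : L) := fun x => by
    obtain ⟨p, hp⟩ := exists_aeval_eq O x.2
    exact ⟨_, by rw [← hp, Sd.τ_aeval]⟩
  have hinj : Function.Injective (coeffMap (algebraMap W K')) := fun x y hxy =>
    HahnSeries.ext (funext fun k => hW (by simpa using congrArg (fun s => s.coeff k) hxy))
  choose c hc using hc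
  let i : Algebra.adjoin O ({φ} : Set L) →+* LaurentSeries W :=
    { toFun := c
      map_one' := hinj (by rw [hc, map_one]; simp)
      map_mul' := fun x y => hinj (by rw [hc, map_mul, hc, hc]; simp)
      map_zero' := hinj (by rw [hc, map_zero]; simp)
      map_add' := fun x y => hinj (by rw [hc, map_add, hc, hc]; simp) }
  obtain ⟨a, b, hb, hab⟩ := Sd.τ_frac t z
  refine exists_eq_of_isIntegral (coeffMap (algebraMap W K')) hinj (hm.map i) ?_ hb hab
  rw [eval₂_map]
  have h := congrArg (Sd.τ t) hmz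
  rw [hom_eval₂, map_zero] at h
  rw [show (coeffMap (algebraMap W K')).comp i
    = (Sd.τ t).comp (algebraMap (Algebra.adjoin O ({φ} : Set L)) L) from RingHom.ext hc]
  exact h

/-- The trace is the sum of the expansions. -/
theorem sum_τ_eq [FiniteDimensional K⟮φ⟯ L] [Algebra.IsSeparable K⟮φ⟯ L] (x : L) (t₀ : Sd.T) :
    ∑ t, Sd.τ t x = Sd.τ t₀ (Algebra.trace K⟮φ⟯ L x : L) := by
  classical
  set ρ : K⟮φ⟯ →+* LaurentSeries K' := (Sd.τ t₀).comp (algebraMap K⟮φ⟯ L)
  have hagree : ∀ t, (Sd.τ t).comp (algebraMap K⟮φ⟯ L) = ρ := by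
    intro t
    refine RingHom.ext fun z => ?_
    obtain ⟨r, s, hz⟩ := (mem_adjoin_simple_iff K (z : L)).1 z.2
    have hev : ∀ p : K[X], Sd.τ t (aeval φ p) = Sd.τ t₀ (aeval φ p) := fun p => by
      rw [aeval_def, hom_eval₂, hom_eval₂, Sd.τ_φ, Sd.τ_φ]
      congr 1
      exact RingHom.ext fun a => by simp [Sd.τ_K]
    show Sd.τ t (z : L) = Sd.τ t₀ (z : L)
    rw [hz, map_div₀, map_div₀, hev, hev]
  set Ω := AlgebraicClosure (LaurentSeries K')
  set e := algebraMap (LaurentSeries K') Ω
  letI : Algebra K⟮φ⟯ Ω := (e.comp ρ).toAlgebra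
  let f : Sd.T → (L →ₐ[K⟮φ⟯] Ω) := fun t =>
    { toRingHom := e.comp (Sd.τ t)
      commutes' := fun z => congrArg e (RingHom.congr_fun (hagree t) z) }
  have hf : Function.Bijective f := by
    refine (Fintype.bijective_iff_injective_and_card f).2 ⟨fun t t' h => ?_, ?_⟩
    · exact Sd.τ_inj (RingHom.ext fun z => e.injective (AlgHom.congr_fun h z))
    · rw [AlgHom.card, ← Sd.card_eq, Nat.card_eq_fintype_card]
  refine e.injective ?_
  rw [map_sum]
  calc ∑ t, e (Sd.τ t x) = ∑ σ : L →ₐ[K⟮φ⟯] Ω, σ x :=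
        Fintype.sum_bijective f hf _ _ fun t => rfl
    _ = algebraMap K⟮φ⟯ Ω (Algebra.trace K⟮φ⟯ L x) := (trace_eq_sum_embeddings Ω).symm
    _ = e (Sd.τ t₀ (Algebra.trace K⟮φ⟯ L x : L)) := rfl

end SplitData

end FLTAgent.LevelSq
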