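import Fermat.Agent.LevelSq.Idempotent
import Fermat.Agent.LevelSq.Infinity
import Fermat.Agent.LevelSq.Completion
import Fermat.Prelude.Def_ModularCurve_LaurentCoeff

/-!
# Connectedness of the special fibre

For a function field `L / K` with a Laurent series embedding, no set of vertical valuations, other
than the empty and the full one, is separated from its complement on both charts.
-/

set_option autoImplicit false
set_option linter.style.haveILetI false
set_option linter.unusedSectionVars false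

noncomputable section

open Polynomial IntermediateField Finset

namespace FLTAgent.LevelSq

variable {O : Type*} {L : Type*} [CommRing O] [Field L] [Algebra O L]

/-- The product on coordinates given by structure constants. -/
def muC {R : Type*} [CommRing R] {N : ℕ} (f : O →+* R) (M : Fin N → Fin N → Fin N → O[X])
    (p p' : Fin N → R[X]) : Fin N → R[X] :=
  fun t => ∑ i, ∑ j, p i * p' j * (M i j t).map f

theorem muC_map {R R' : Type*} [CommRing R] [CommRing R'] {N : ℕ} (f : O →+* R) (g : R →+* R')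
    (M : Fin N → Fin N → Fin N → O[X]) (p p' : Fin N → R[X]) (t : Fin N) :
    (muC f M p p' t).map g
      = muC (g.comp f) M (fun i => (p i).map g) (fun i => (p' i).map g) t := by
  simp [muC, Polynomial.map_sum, Polynomial.map_map]

/-- Evaluation of coordinates through a ring homomorphism. -/
def combMap {R Ω : Type*} [CommRing R] [CommRing Ω] (g : R →+* Ω) (x : Ω) {N : ℕ}
    (b : Fin N → Ω) (p : Fin N → R[X]) : Ω :=
  ∑ i, (p i).eval₂ g x * b i

theorem combMap_muC {R Ω : Type*} [CommRing R] [CommRing Ω] (f : O →+* R) (g : R →+* Ω) (x : Ω)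
    {N : ℕ} (b : Fin N → Ω) (M : Fin N → Fin N → Fin N → O[X])
    (hM : ∀ i j, b i * b j = ∑ t, (M i j t).eval₂ (g.comp f) x * b t)
    (p p' : Fin N → R[X]) :
    combMap g x b (muC f M p p') = combMap g x b p * combMap g x b p' := by
  simp only [combMap, muC, eval₂_finsetSum, eval₂_mul, eval₂_map]
  rw [Finset.sum_mul_sum]
  simp only [Finset.sum_mul]
  rw [Finset.sum_comm]
  refine Finset.sum_congr rfl fun i _ => ?_
  rw [Finset.sum_comm]
  refine Finset.sum_congr rfl fun j _ => ?_
  rw [mul_mul_mul_comm, hM, Finset.mul_sum]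
  refine Finset.sum_congr rfl fun t _ => ?_
  ring

theorem combMap_algebraMap (φ : L) {N : ℕ} (e : Fin N → L) (p : Fin N → O[X]) :
    combMap (algebraMap O L) φ e p = comb φ e p := rfl

theorem combMap_sub {R Ω : Type*} [CommRing R] [CommRing Ω] (g : R →+* Ω) (x : Ω) {N : ℕ}
    (b : Fin N → Ω) (p p' : Fin N → R[X]) :
    combMap g x b (p - p') = combMap g x b p - combMap g x b p' := by
  simp [combMap, eval₂_sub, sub_mul, Finset.sum_sub_distrib]

theorem mul_comb_eq {φ : L} {N : ℕ} {e : Fin N → L} {M : Fin N → Fin N → Fin N → O[X]}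
    (hM : ∀ i j, e i * e j = comb φ e (M i j)) (p p' : Fin N → O[X]) :
    comb φ e p * comb φ e p' = comb φ e (muC (RingHom.id O) M p p') := by
  rw [← combMap_algebraMap, ← combMap_algebraMap, ← combMap_algebraMap,
    combMap_muC _ _ _ _ _ fun i j => by rw [hM, ← combMap_algebraMap]; rfl]

variable [IsDomain O] [IsDiscreteValuationRing O]
variable {K : Type*} [Field K] [Algebra O K] [IsFractionRing O K] [Algebra K L]
  [IsScalarTower O K L] {q : O} {φ : L} {S : ValuationSubring L → Prop}

universe uW uK' uT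

variable {W : Type uW} [CommRing W] [IsDomain W] [IsDiscreteValuationRing W] {K' : Type uK'}
  [Field K'] [Algebra W K'] [Algebra K K']

theorem pow_dvd_of_pow_dvd_map (β : O →+* W) (hq : Prime q) (hβ : ¬ IsUnit (β q))
    (hβ0 : β q ≠ 0) {n : ℕ} {x : O} (h : β q ^ n ∣ β x) : q ^ n ∣ x := by
  rcases eq_or_ne x 0 with rfl | hx
  · exact dvd_zero _
  obtain ⟨i, u, rfl⟩ := IsDiscreteValuationRing.eq_unit_mul_pow_irreducible hx hq.irreducible
  rw [map_mul, map_pow, IsUnit.dvd_mul_left (u.isUnit.map β), pow_dvd_pow_iff hβ0 hβ] at h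
  exact dvd_mul_of_dvd_right (pow_dvd_pow q h) _

/-- A Laurent series idempotent modulo `c ^ n` is `0` or `1` modulo `c ^ n`. -/
theorem dvd_or_dvd_sub_one {c : W} (hc : ¬ IsUnit c) (hc0 : c ≠ 0) {n : ℕ}
    {x b : LaurentSeries W} (h : x * (x - 1) = HahnSeries.C c ^ n * b) :
    ∃ e : W, (e = 0 ∨ e = 1) ∧ ∀ i, c ^ n ∣ (x - HahnSeries.C e).coeff i := by
  obtain ⟨ϖ, hϖ⟩ := IsDiscreteValuationRing.exists_irreducible W
  obtain ⟨e₀, u, rfl⟩ := IsDiscreteValuationRing.eq_unit_mul_pow_irreducible hc0 hϖ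
  rcases Nat.eq_zero_or_pos n with rfl | hn
  · exact ⟨0, Or.inl rfl, fun i => by simp⟩
  haveI : (Ideal.span {ϖ}).IsPrime := (Ideal.span_singleton_prime hϖ.ne_zero).2 hϖ.prime
  set red := Ideal.Quotient.mk (Ideal.span {ϖ})
  have key : ∀ y : LaurentSeries W, (ModularCurve.coeffMap red) y = 0 →
      ∃ z, y = HahnSeries.C ϖ * z := by
    intro y hy
    have hd : ∀ k, ∃ z, y.coeff k = ϖ * z := fun k => by
      have := congrArg (fun s => s.coeff k) hy
      simp only [ModularCurve.coeffMap, HahnSeries.coeff_zero, RingHom.coe_mk, MonoidHom.coe_mk,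
        OneHom.coe_mk, HahnSeries.map_coeff, red] at this
      exact Ideal.mem_span_singleton'.1 (Ideal.Quotient.eq_zero_iff_mem.1 this) |>.imp
        fun z hz => by rw [← hz]; ring
    choose z hz using hd
    refine ⟨⟨z, ?_⟩, ?_⟩
    · refine y.isPWO_support.mono fun k hk => ?_
      rw [HahnSeries.mem_support, hz]
      exact mul_ne_zero hϖ.ne_zero hk
    · ext k; rw [coeff_C_mul']; exact hz k
  -- a nilpotent idempotent is zero
  have main : ∀ y : LaurentSeries W, ∀ d, y * (1 - y) = HahnSeries.C ((u : W) * ϖ ^ e₀) ^ n * d →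
      (ModularCurve.coeffMap red) y = 0 → ∀ i, ((u : W) * ϖ ^ e₀) ^ n ∣ y.coeff i := by
    intro y d hd hy
    obtain ⟨z, hz⟩ := key y hy
    set N := e₀ * n
    have hyN : y ^ N = HahnSeries.C ((u : W) * ϖ ^ e₀) ^ n
        * (HahnSeries.C ((↑u⁻¹ : W)) ^ n * z ^ N) := by
      rw [hz, mul_pow, ← map_pow, ← map_pow, ← map_pow, ← mul_assoc, ← map_mul, ← mul_pow,
        mul_comm ((u : W)) (ϖ ^ e₀), mul_assoc, Units.mul_inv, mul_one, ← pow_mul]
    have hsum : y = (y * (1 - y)) * (∑ i ∈ range N, y ^ i) + y * y ^ N := by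
      rw [mul_assoc, mul_neg_geom_sum]; ring
    intro i
    rw [hsum, hd, hyN, show HahnSeries.C ((u : W) * ϖ ^ e₀) ^ n * d * (∑ i ∈ range N, y ^ i)
        + y * (HahnSeries.C ((u : W) * ϖ ^ e₀) ^ n * (HahnSeries.C ((↑u⁻¹ : W)) ^ n * z ^ N))
        = HahnSeries.C (((u : W) * ϖ ^ e₀) ^ n) * (d * (∑ i ∈ range N, y ^ i)
          + y * (HahnSeries.C ((↑u⁻¹ : W)) ^ n * z ^ N)) by rw [map_pow]; ring, coeff_C_mul']
    exact dvd_mul_right _ _
  have hred : (ModularCurve.coeffMap red) x * ((ModularCurve.coeffMap red) x - 1) = 0 := by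
    have hc0' : (ModularCurve.coeffMap red) (HahnSeries.C ((u : W) * ϖ ^ e₀)) = 0 := by
      have he : 0 < e₀ := by
        rcases Nat.eq_zero_or_pos e₀ with rfl | he
        · simp at hc
        · exact he
      ext k
      by_cases hk : k = 0
      · subst hk
        simp [red, HahnSeries.C_apply, Ideal.Quotient.eq_zero_iff_mem.2 (Ideal.mem_span_singleton_self ϖ),
          map_pow, zero_pow he.ne']
      · simp [HahnSeries.C_apply, hk]
    have := congrArg (ModularCurve.coeffMap red) h
    rw [map_mul, map_mul, map_pow, hc0', zero_pow hn.ne', zero_mul, map_sub, map_one] at this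
    exact this
  rcases mul_eq_zero.1 hred with h0 | h0
  · exact ⟨0, Or.inl rfl, fun i => by
      simpa using main x (-b) (by rw [mul_neg, ← h]; ring) h0 i⟩
  · refine ⟨1, Or.inr rfl, fun i => ?_⟩
    have := main (1 - x) (-b) (by rw [mul_neg, ← h]; ring)
      (by rw [map_sub, map_one]; linear_combination -h0) i
    rw [map_one, show x - 1 = -(1 - x) by ring, HahnSeries.coeff_neg, dvd_neg]
    exact this

include K in
/-- Coordinates of the approximate idempotent, of bounded degree. -/
theorem exists_coords (hq : Prime q) (hφ : Transcendental O φ) [FiniteDimensional K⟮φ⟯ L]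
    [Algebra.IsSeparable K⟮φ⟯ L] (h1 : Separates q φ φ S) (D : LatticeData O K φ)
    (Sd : SplitData.{_, _, _, uW, uK', uT} O K W K' φ) (hW : Function.Injective (algebraMap W K'))
    (hβ : ¬ IsUnit (Sd.β q)) (hβ0 : Sd.β q ≠ 0) :
    ∃ c : ℕ, ∀ n, ∃ (a : L) (p r : Fin D.N → O[X]), a ∈ chart O φ ∧ IsLabel q φ S a ∧
      (∃ b ∈ chart O φ, a * (a - 1) = algebraMap O L (q ^ n) * b) ∧
      (∀ i, (p i).natDegree ≤ c) ∧
      aeval φ (D.δ * D.D) * a = comb φ D.e p + algebraMap O L (q ^ n) * comb φ D.e r := by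
  classical
  have hφ0 : φ ≠ 0 := fun h => hφ (h ▸ isAlgebraic_zero)
  set E := ModularCurve.coeffMap (algebraMap W K')
  have hE : Function.Injective E := fun x y hxy =>
    HahnSeries.ext (funext fun k => hW (by simpa [E] using congrArg (fun s => s.coeff k) hxy))
  have hδd : ∀ t k, ∃ c, E c = Sd.τ t (aeval φ D.δ * D.d k) := fun t k =>
    Sd.exists_τ_eq hW t (mul_mem (aeval_mem_chart O φ _) (D.d_mem k))
  choose γ hγ using hδd
  set B := univ.sup fun t => univ.sup fun k => (-(γ t k).order).toNat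
  refine ⟨B, fun n => ?_⟩
  obtain ⟨a, ha, hla, b, hb, hab⟩ := exists_idempotent (K := K) hq hφ0 (Or.inl rfl) hφ h1 n
  obtain ⟨p, hp⟩ := D.span a ha
  have hval : ∀ t, ∃ (x : LaurentSeries W) (e : W), E x = Sd.τ t a ∧ (e = 0 ∨ e = 1) ∧
      ∀ i, Sd.β q ^ n ∣ (x - HahnSeries.C e).coeff i := by
    intro t
    obtain ⟨x, hx⟩ := Sd.exists_τ_eq hW t ha
    obtain ⟨y, hy⟩ := Sd.exists_τ_eq hW t hb
    obtain ⟨e, he, hdvd⟩ := dvd_or_dvd_sub_one hβ hβ0 (x := x) (b := y) (n := n) (hE (by
      rw [map_mul, map_sub, map_one, hx, map_mul, hy, ← map_pow HahnSeries.C, ← map_pow Sd.β,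
        ← Sd.τ_algebraMap t]
      simpa using congrArg (Sd.τ t) hab))
    exact ⟨x, e, hx, he, hdvd⟩
  choose x e hx he hdvd using hval
  have hT : Nonempty Sd.T := by
    rw [← not_isEmpty_iff]
    intro hemp
    have := Sd.card_eq
    rw [Nat.card_of_isEmpty] at this
    exact absurd this.symm Module.finrank_pos.ne'
  obtain ⟨t₀⟩ := hT
  have hP : ∀ k, ((D.D * p k).map Sd.β).eval₂ HahnSeries.C Sd.J = ∑ t, x t * γ t k := by
    intro k
    refine hE ?_
    rw [← Sd.τ_aeval t₀, map_sum, map_mul (aeval φ)]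
    simp only [map_mul, hx, hγ, ← mul_assoc]
    have h := Sd.sum_τ_eq (aeval φ D.δ * a * D.d k) t₀
    have htr : (Algebra.trace K⟮φ⟯ L (aeval φ D.δ * a * D.d k) : L)
        = aeval φ (p k) * aeval φ D.D := by
      have hmemD : ∀ r : O[X], aeval φ r ∈ K⟮φ⟯ := fun r =>
        adjoin_le_adjoinField ⟨_, aeval_mem_adjoin O φ r⟩
      rw [hp, comb_apply, Finset.sum_mul, map_sum, AddSubmonoidClass.coe_finsetSum]
      rw [Finset.sum_eq_single k]
      · rw [show aeval φ (p k) * D.e k * D.d k
          = (⟨_, hmemD (p k)⟩ : K⟮φ⟯) • (D.e k * D.d k) by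
            rw [IntermediateField.smul_def, smul_eq_mul]; ring, map_smul]
        simp only [smul_eq_mul, MulMemClass.coe_mul, D.trace_eq, if_true]
      · intro i _ hik
        rw [show aeval φ (p i) * D.e i * D.d k
          = (⟨_, hmemD (p i)⟩ : K⟮φ⟯) • (D.e i * D.d k) by
            rw [IntermediateField.smul_def, smul_eq_mul]; ring, map_smul]
        simp only [smul_eq_mul, MulMemClass.coe_mul, D.trace_eq, if_neg hik, mul_zero]
      · simp
    rw [htr, map_mul] at h
    rw [mul_comm (Sd.τ t₀ (aeval φ D.D)), ← h]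
    refine Finset.sum_congr rfl fun t _ => ?_
    rw [map_mul, map_mul]; ring
  have hdvd' : ∀ k j, B < j → q ^ n ∣ (D.D * p k).coeff j := by
    intro k j hj
    refine pow_dvd_of_pow_dvd_map Sd.β hq hβ hβ0 ?_
    rw [← coeff_map]
    refine Sd.hJ.dvd_coeff _ _ (B := B) (fun i hi => ?_)
      (lt_of_lt_of_le hj (Nat.le_mul_of_pos_right j Sd.hJ.pos))
    rw [hP, HahnSeries.coeff_sum]
    refine Finset.dvd_sum fun t _ => ?_
    have hBt : (γ t k).coeff i = 0 := by
      refine HahnSeries.coeff_eq_zero_of_lt_order ?_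
      have h1' : (-(γ t k).order).toNat ≤ B :=
        (Finset.le_sup (f := fun k => (-(γ t k).order).toNat) (Finset.mem_univ k)).trans
          (Finset.le_sup (f := fun t => univ.sup fun k => (-(γ t k).order).toNat)
            (Finset.mem_univ t))
      omega
    rw [show x t * γ t k = (x t - HahnSeries.C (e t)) * γ t k + HahnSeries.C (e t) * γ t k by ring,
      HahnSeries.coeff_add, coeff_C_mul', hBt, mul_zero, add_zero, HahnSeries.coeff_mul]
    exact Finset.dvd_sum fun ij _ => (hdvd t ij.1).mul_right _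
  set p₀ : Fin D.N → O[X] := fun k => ∑ j ∈ range (B + 1), C ((D.D * p k).coeff j) * X ^ j
  have hdiff : ∀ k, C (q ^ n) ∣ D.D * p k - p₀ k := by
    intro k
    rw [C_dvd_iff_dvd_coeff]
    intro j
    simp only [p₀, coeff_sub, finsetSum_coeff, coeff_C_mul, coeff_X_pow, mul_ite, mul_one,
      mul_zero, Finset.sum_ite_eq, Finset.mem_range]
    split_ifs with hj
    · simp
    · simpa using hdvd' k j (by omega)
  choose r₀ hr₀ using hdiff
  refine ⟨a, p₀, r₀, ha, hla, ⟨b, hb, hab⟩, fun k => ?_, ?_⟩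
  · refine natDegree_sum_le_of_forall_le _ _ fun j hj => ?_
    exact (natDegree_C_mul_X_pow_le _ j).trans (by rw [Finset.mem_range] at hj; omega)
  · rw [mul_comm D.δ, map_mul, mul_assoc, hp, ← comb_mul, show (fun k => D.D * p k)
        = p₀ + (fun k => C (q ^ n) * r₀ k) from funext fun k => by
        rw [Pi.add_apply, ← hr₀ k]; ring, map_add, comb_mul, aeval_C]

include K in
/-- Consecutive approximate idempotents are congruent in coordinates. -/
theorem dvd_coeff_sub (hq : Prime q) (hφ : Transcendental O φ) [FiniteDimensional K⟮φ⟯ L]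
    [Algebra.IsSeparable K⟮φ⟯ L] (D : LatticeData O K φ) (δ : O[X]) (hspan : ∀ z ∈ chart O φ, ∃ p, aeval φ δ * z = comb (O := O) φ D.e p)
    {n n' : ℕ} (hn : n ≤ n') {a a' b b' : L}
    {p p' r r' : Fin D.N → O[X]} (ha : a ∈ chart O φ) (ha' : a' ∈ chart O φ)
    (hla : IsLabel q φ S a) (hla' : IsLabel q φ S a') (hb : b ∈ chart O φ) (hb' : b' ∈ chart O φ)
    (hab : a * (a - 1) = algebraMap O L (q ^ n) * b)
    (hab' : a' * (a' - 1) = algebraMap O L (q ^ n') * b')
    (hp : aeval φ δ * a = comb φ D.e p + algebraMap O L (q ^ n) * comb φ D.e r)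
    (hp' : aeval φ δ * a' = comb φ D.e p' + algebraMap O L (q ^ n') * comb φ D.e r')
    (i : Fin D.N) (j : ℕ) : q ^ n ∣ (p' i).coeff j - (p i).coeff j := by
  have hφ0 : φ ≠ 0 := fun h => hφ (h ▸ isAlgebraic_zero)
  obtain ⟨d, rfl⟩ := Nat.exists_eq_add_of_le hn
  obtain ⟨m, t, ht, hxm⟩ := exists_pow_eq (K := K) (ψ := φ) hq hφ0 (Or.inl rfl) hφ
    (sub_mem ha' ha) (fun P hP => hla'.sub_mem hla hP) n
  obtain ⟨s, hs, hsub⟩ := exists_sub_eq_smul (chart O φ) ha' ha
    (mul_mem ((chart O φ).algebraMap_mem (q ^ d)) hb') hb ht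
    (by rw [hab', pow_add, map_mul]; ring) hab hxm
  obtain ⟨w, hw⟩ := hspan s hs
  have heq : p' - p = fun t => C (q ^ n) * (w t + r t - C (q ^ d) * r' t) := by
    refine D.inj ?_
    rw [map_sub, comb_mul φ D.e (C (q ^ n)) (fun t => w t + r t - C (q ^ d) * r' t),
      show (fun t => w t + r t - C (q ^ d) * r' t) = w + r - (fun t => C (q ^ d) * r' t) from rfl,
      map_sub, map_add, comb_mul φ D.e (C (q ^ d)) r', ← hw, aeval_C, aeval_C]
    rw [pow_add, map_mul] at hp'
    linear_combination hp - hp' + aeval φ δ * hsub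
  have h := congrArg (fun f => (f i).coeff j) heq
  simp only [Pi.sub_apply, coeff_sub, coeff_C_mul] at h
  exact ⟨_, h⟩

set_option maxHeartbeats 800000 in
include K in
/-- No proper non-empty separated set of vertical valuations exists. -/
theorem false_of_separates (hq : Prime q) (hφ : Transcendental O φ) [FiniteDimensional K⟮φ⟯ L]
    [Algebra.IsSeparable K⟮φ⟯ L] (h1 : Separates q φ φ S) [Algebra.IsAlgebraic K K']
    (Sd : SplitData.{_, _, _, uW, uK', uT} O K W K' φ) (hW : Function.Injective (algebraMap W K'))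
    (hβ : ¬ IsUnit (Sd.β q)) (hβ0 : Sd.β q ≠ 0)
    (halg : ∀ x : Compl q, IsAlgebraic O x → ∃ a : O, algebraMap O (Compl q) a = x)
    {P₁ P₂ : ValuationSubring L} (hP₁ : IsVert O q φ P₁)
    (hS₁ : S P₁) (hP₂ : IsVert O q φ P₂) (hS₂ : ¬ S P₂) : False := by
  classical
  obtain ⟨D⟩ := exists_latticeData (O := O) (K := K) hφ
  obtain ⟨c₀, H⟩ := exists_coords (K := K) hq hφ h1 D Sd hW hβ hβ0
  set δ := D.δ * D.D with hδdef
  have hspan : ∀ z ∈ chart O φ, ∃ p, aeval φ δ * z = comb (O := O) φ D.e p := by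
    intro z hz
    obtain ⟨p, hp⟩ := D.span z hz
    exact ⟨fun k => D.D * p k, by rw [comb_mul, ← hp, hδdef, map_mul]; ring⟩
  have hδne : δ ≠ 0 := mul_ne_zero D.δ_ne D.D_ne
  choose a p r ha hla hb hdeg hp using H
  choose b hb hab using hb
  haveI : IsDomain (Compl q) := isDomain_compl hq
  set Ω₀ := FractionRing (Compl q)
  set Ω := AlgebraicClosure Ω₀
  set j : Compl q →+* Ω := (algebraMap Ω₀ Ω).comp (algebraMap (Compl q) Ω₀) with hj
  have hjinj : Function.Injective j :=
    (algebraMap Ω₀ Ω).injective.comp (IsFractionRing.injective (Compl q) Ω₀)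
  set g : O →+* Ω := j.comp (algebraMap O (Compl q)) with hg
  have hginj : Function.Injective g := hjinj.comp (algebraMap_compl_injective hq)
  let ω₀ : K →+* Ω := IsFractionRing.lift hginj
  have hω₀ : ∀ x, ω₀ (algebraMap O K x) = g x := IsFractionRing.lift_algebraMap hginj
  letI : Algebra K Ω := ω₀.toAlgebra
  let ω : K' →ₐ[K] Ω := IsAlgClosed.lift
  have hω : ∀ x, ω (algebraMap K K' (algebraMap O K x)) = g x := fun x =>
    (ω.commutes _).trans (hω₀ x)
  letI : Algebra K' Ω := ω.toRingHom.toAlgebra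
  set T : LaurentSeries K' →+* LaurentSeries Ω := ModularCurve.coeffMap ω.toRingHom
  set G : Compl q →+* LaurentSeries Ω := HahnSeries.C.comp j with hG
  set E := ModularCurve.coeffMap (algebraMap W K')
  set x := T (E Sd.J) with hx
  set e' : Sd.T → Fin D.N → LaurentSeries Ω := fun t i => T (Sd.τ t (D.e i))
  have hcast0 : ∀ (t : Sd.T) (p : O[X]),
      (p.map (algebraMap O (Compl q))).eval₂ G x = T (Sd.τ t (aeval φ p)) := by
    intro t p
    rw [eval₂_map, aeval_def, hom_eval₂, hom_eval₂, Sd.τ_φ]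
    congr 1
    refine RingHom.ext fun c => ?_
    simp only [RingHom.comp_apply, hG]
    rw [IsScalarTower.algebraMap_apply O K L, Sd.τ_K]
    ext k
    by_cases hk : k = 0 <;> simp [T, HahnSeries.C_apply, hk, hω, hg]
  have hcast : ∀ t, ∀ p : Fin D.N → O[X],
      combMap G x (e' t) (fun i => (p i).map (algebraMap O (Compl q)))
        = T (Sd.τ t (comb φ D.e p)) := by
    intro t p
    simp only [combMap, comb_apply, map_sum, map_mul, e', hcast0 t]
  have hmul : ∀ t, ∀ u v : Fin D.N → (Compl q)[X],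
      combMap G x (e' t) (muC (algebraMap O (Compl q)) D.M u v)
        = combMap G x (e' t) u * combMap G x (e' t) v := by
    intro t
    refine combMap_muC _ _ _ _ _ fun i j => ?_
    simp only [e']
    rw [← map_mul, ← map_mul, D.mul, ← hcast]
    simp only [combMap, eval₂_map, e']
  obtain ⟨p1, hp1⟩ := hspan 1 (one_mem _)
  rw [mul_one] at hp1
  -- idempotency in coordinates
  have hQ : ∀ n t, C (q ^ n) ∣ muC (RingHom.id O) D.M (p n) (p n - p1) t := by
    intro n
    obtain ⟨w, hw⟩ := hspan _ (hb n)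
    have heq : muC (RingHom.id O) D.M (p n) (p n - p1)
        = fun t => C (q ^ n) * (δ * w t - muC (RingHom.id O) D.M (p n) (r n) t
          - muC (RingHom.id O) D.M (p n - p1) (r n) t
          - C (q ^ n) * muC (RingHom.id O) D.M (r n) (r n) t) := by
      refine D.inj ?_
      rw [comb_mul φ D.e (C (q ^ n)), ← mul_comb_eq D.mul]
      change _ = _ * comb φ D.e (((fun t => δ * w t) - muC (RingHom.id O) D.M (p n) (r n))
        - muC (RingHom.id O) D.M (p n - p1) (r n)
        - fun t => C (q ^ n) * muC (RingHom.id O) D.M (r n) (r n) t)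
      rw [map_sub (comb φ D.e) _ (fun t => C (q ^ n) * _), map_sub (comb φ D.e) _ (muC _ _ _ _),
        map_sub (comb φ D.e) (fun t => δ * w t), comb_mul φ D.e δ w,
        comb_mul φ D.e (C (q ^ n)), ← mul_comb_eq D.mul, ← mul_comb_eq D.mul, ← mul_comb_eq D.mul,
        map_sub, ← hp1, ← hw, aeval_C]
      have h := hp n
      linear_combination (-(aeval φ δ * a n + comb φ D.e (p n)
        + algebraMap O L (q ^ n) * comb φ D.e (r n) - aeval φ δ)) * h
        + (aeval φ δ) ^ 2 * hab n
    exact fun t => ⟨_, congrFun heq t⟩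
  -- the limit
  have hcauchy : ∀ i j m n : ℕ, m ≤ n → ∀ hi : i < D.N,
      q ^ m ∣ (p n ⟨i, hi⟩).coeff j - (p m ⟨i, hi⟩).coeff j :=
    fun i j m n hmn hi => dvd_coeff_sub (K := K) hq hφ D δ hspan hmn (ha m) (ha n) (hla m) (hla n) (hb m)
      (hb n) (hab m) (hab n) (hp m) (hp n) ⟨i, hi⟩ j
  let f : Fin D.N → ℕ → AdicCompletion.AdicCauchySequence (Ideal.span {q}) O := fun i j =>
    ⟨fun n => (p n i).coeff j, by
      intro m n hmn
      rw [SModEq.sub_mem, smul_eq_mul, Ideal.mul_top, mem_span_pow_iff]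
      exact (dvd_sub_comm.1 (hcauchy i j m n hmn i.2))⟩
  set ph : Fin D.N → (Compl q)[X] := fun i =>
    ∑ j ∈ range (c₀ + 1), C (AdicCompletion.mk _ _ (f i j)) * X ^ j with hph
  have hphev : ∀ n i, (ph i).map (AdicCompletion.evalₐ (Ideal.span {q}) n).toRingHom
      = (p n i).map (Ideal.Quotient.mk _) := by
    intro n i
    conv_rhs => rw [(p n i).as_sum_range' (c₀ + 1) (Nat.lt_succ_of_le (hdeg n i))]
    simp only [hph, Polynomial.map_sum]
    refine Finset.sum_congr rfl fun j _ => ?_
    rw [map_monomial, ← C_mul_X_pow_eq_monomial, Polynomial.map_mul, Polynomial.map_pow,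
      Polynomial.map_X, Polynomial.map_C]
    congr 2
  set p1h : Fin D.N → (Compl q)[X] := fun i => (p1 i).map (algebraMap O (Compl q))
  have hzero : muC (algebraMap O (Compl q)) D.M ph (ph - p1h) = 0 := by
    funext t
    rw [Pi.zero_apply]
    refine Polynomial.ext fun j => AdicCompletion.ext_evalₐ fun n => ?_
    rw [coeff_zero, map_zero]
    set ev := (AdicCompletion.evalₐ (Ideal.span {q}) n).toRingHom
    have hcomp : ev.comp (algebraMap O (Compl q)) = Ideal.Quotient.mk _ := RingHom.ext fun x =>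
      (AdicCompletion.evalₐ (Ideal.span {q}) n).commutes x
    have h2 : (muC (algebraMap O (Compl q)) D.M ph (ph - p1h) t).map ev
        = (muC (RingHom.id O) D.M (p n) (p n - p1) t).map (Ideal.Quotient.mk _) := by
      rw [muC_map, muC_map, hcomp, RingHom.comp_id]
      congr 1
      · exact funext (hphev n)
      · funext i
        simp only [Pi.sub_apply, Polynomial.map_sub, p1h, Polynomial.map_map, hcomp]
        exact congrArg (· - _) (hphev n i)
    have h3 := congrArg (fun P => P.coeff j) h2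
    simp only [coeff_map] at h3
    rw [show (AdicCompletion.evalₐ (Ideal.span {q}) n) _ = _ from h3,
      Ideal.Quotient.eq_zero_iff_mem, mem_span_pow_iff]
    exact (C_dvd_iff_dvd_coeff _ _).1 (hQ n t) j
  -- each expansion of the limit is `0` or `δ`
  have hev : ∀ t, combMap G x (e' t) ph = 0 ∨
      combMap G x (e' t) ph = T (Sd.τ t (aeval φ δ)) := by
    intro t
    have h := congrArg (combMap G x (e' t)) hzero
    rw [hmul, show combMap G x (e' t) (0 : Fin D.N → (Compl q)[X]) = 0 by simp [combMap],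
      combMap_sub, hcast t p1, ← hp1, mul_eq_zero, sub_eq_zero] at h
    exact h
  have hT : Nonempty Sd.T := by
    rw [← not_isEmpty_iff]
    intro hemp
    have := Sd.card_eq
    rw [Nat.card_of_isEmpty] at this
    exact absurd this.symm Module.finrank_pos.ne'
  obtain ⟨t₀⟩ := hT
  -- trace duality makes the coordinates algebraic
  have hlift : ∀ k, ∃ y : LaurentSeries K',
      T y = (D.D.map (algebraMap O (Compl q)) * ph k).eval₂ G x := by
    intro k
    refine ⟨∑ t, (if combMap G x (e' t) ph = 0 then 0 else Sd.τ t (aeval φ δ)) * Sd.τ t (D.d k), ?_⟩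
    have hterm : ∀ t, T ((if combMap G x (e' t) ph = 0 then 0 else Sd.τ t (aeval φ δ))
        * Sd.τ t (D.d k)) = combMap G x (e' t) ph * T (Sd.τ t (D.d k)) := fun t => by
      rw [map_mul]
      split_ifs with h0
      · rw [h0, map_zero]
      · rw [(hev t).resolve_left h0]
    rw [map_sum, Finset.sum_congr rfl fun t _ => hterm t]
    simp only [combMap, Finset.sum_mul, mul_assoc]
    rw [Finset.sum_comm]
    simp only [← Finset.mul_sum, e', ← map_mul, ← map_sum, Sd.sum_τ_eq _ t₀, D.trace_eq,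
      apply_ite (Sd.τ t₀), map_zero, apply_ite T, mul_ite, mul_zero]
    rw [Finset.sum_ite_eq' Finset.univ k, if_pos (Finset.mem_univ _), eval₂_mul, hcast0 t₀,
      mul_comm]
  have hxcoeff : ∀ (P : Ω[X]) (y : LaurentSeries K'), P.eval₂ HahnSeries.C x = T y →
      P ∈ Polynomial.lifts ω.toRingHom := by
    intro P
    induction h : P.natDegree using Nat.strong_induction_on generalizing P with
    | _ d IH =>
      intro y hy
      obtain ⟨hlead, hlow⟩ := Sd.hJ.coeff_pow d
      have hxd : (x ^ d).coeff (-((d * Sd.r : ℕ) : ℤ))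
          = ω (algebraMap W K' (PowerSeries.constantCoeff Sd.u ^ d)) := by
        rw [hx, ← map_pow, ← map_pow, ← hlead]
        rfl
      set lead := algebraMap W K' (PowerSeries.constantCoeff Sd.u ^ d)
      have hlead0 : lead ≠ 0 :=
        (map_ne_zero_iff _ hW).2 (Sd.hJ.unit.pow d).ne_zero
      have hco := congrArg (fun s => s.coeff (-((d * Sd.r : ℕ) : ℤ))) hy
      rw [eval₂_eq_sum_range' (n := d + 1) _ (by omega), HahnSeries.coeff_sum,
        Finset.sum_range_succ, Finset.sum_eq_zero (fun i hi => ?_), zero_add, coeff_C_mul', hxd]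
        at hco
      swap
      · rw [coeff_C_mul', hx, ← map_pow, ← map_pow]
        have h0 : (Sd.J ^ i).coeff (-((d * Sd.r : ℕ) : ℤ)) = 0 := (Sd.hJ.coeff_pow i).2 _ (by
          have : i * Sd.r < d * Sd.r :=
            Nat.mul_lt_mul_of_pos_right (Finset.mem_range.1 hi) Sd.hJ.pos
          omega)
        rw [show ∀ z : LaurentSeries W, (T (E z)).coeff (-((d * Sd.r : ℕ) : ℤ))
          = ω (algebraMap W K' (z.coeff (-((d * Sd.r : ℕ) : ℤ)))) from fun z => rfl, h0]
        simp
      have hcd : P.coeff d = ω (y.coeff (-((d * Sd.r : ℕ) : ℤ)) * lead⁻¹) := by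
        rw [map_mul, map_inv₀, eq_mul_inv_iff_mul_eq₀ ((_root_.map_ne_zero ω).2 hlead0)]
        exact hco
      set c₁ := y.coeff (-((d * Sd.r : ℕ) : ℤ)) * lead⁻¹
      rcases Nat.eq_zero_or_pos d with rfl | hd0
      · rw [eq_C_of_natDegree_eq_zero h, hcd]
        exact (Polynomial.mem_lifts _).2 ⟨C c₁, by simp⟩
      have hrec := IH (P - C (ω c₁) * X ^ d).natDegree (by
        have hle : (P - C (ω c₁) * X ^ d).natDegree ≤ d :=
          (natDegree_sub_le _ _).trans (max_le h.le (natDegree_C_mul_X_pow_le _ _))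
        have hcoef : (P - C (ω c₁) * X ^ d).coeff d = 0 := by
          rw [coeff_sub, coeff_C_mul_X_pow, if_pos rfl, hcd, sub_self]
        rcases hle.lt_or_eq with hlt | heq
        · exact hlt
        · rcases eq_or_ne (P - C (ω c₁) * X ^ d) 0 with h0 | h0
          · rw [h0]; simpa using hd0
          · exact absurd (by rw [leadingCoeff, heq]; exact hcoef) (leadingCoeff_ne_zero.2 h0))
        (P - C (ω c₁) * X ^ d) rfl (y - HahnSeries.C c₁ * E Sd.J ^ d) (by
          have hTC : T (HahnSeries.C c₁) = HahnSeries.C (ω c₁) := by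
            ext k
            by_cases hk : k = 0 <;> simp [T, HahnSeries.C_apply, hk]
          rw [eval₂_sub, eval₂_mul, eval₂_C, eval₂_X_pow, hy, map_sub T, map_mul T, map_pow T,
            hTC])
      rw [show P = (P - C (ω c₁) * X ^ d) + C (ω c₁) * X ^ d by ring]
      exact Subsemiring.add_mem _ hrec ((Polynomial.mem_lifts _).2 ⟨C c₁ * X ^ d, by simp⟩)
  have halg' : ∀ k i, IsAlgebraic O ((ph k).coeff i) := by
    intro k i
    obtain ⟨y, hy⟩ := hlift k
    have hmem : (D.D.map (algebraMap O (Compl q)) * ph k).map j ∈ Polynomial.lifts ω.toRingHom :=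
      hxcoeff _ y (by rw [eval₂_map]; exact hy.symm)
    obtain ⟨P', hP'⟩ := (Polynomial.mem_lifts _).1 hmem
    set D' : K'[X] := D.D.map ((algebraMap K K').comp (algebraMap O K))
    have hD' : D'.map ω.toRingHom = (D.D.map (algebraMap O (Compl q))).map j := by
      rw [Polynomial.map_map, Polynomial.map_map]
      congr 1
      exact RingHom.ext fun a => hω a
    have hD0 : D' ≠ 0 := (Polynomial.map_ne_zero_iff
      (show Function.Injective ((algebraMap K K').comp (algebraMap O K)) by
        rw [RingHom.coe_comp]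
        exact (algebraMap K K').injective.comp (IsFractionRing.injective O K))).2 D.D_ne
    have hphk : (ph k).map j = (P' / D').map ω.toRingHom := by
      have hD'0 : D'.map ω.toRingHom ≠ 0 := Polynomial.map_ne_zero hD0
      rw [Polynomial.map_mul, ← hD'] at hP'
      rw [Polynomial.map_div, hP', mul_div_cancel_left₀ _ hD'0]
    have hc := congrArg (fun P => P.coeff i) hphk
    simp only [coeff_map] at hc
    letI : Algebra O K' := ((algebraMap K K').comp (algebraMap O K)).toAlgebra
    haveI : IsScalarTower O K K' := IsScalarTower.of_algebraMap_eq fun _ => rfl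
    obtain ⟨P₀, hP0, hP₀⟩ := (IsFractionRing.isAlgebraic_iff O K K').2
      (Algebra.IsAlgebraic.isAlgebraic (R := K) ((P' / D').coeff i))
    refine ⟨P₀, hP0, hjinj ?_⟩
    rw [map_zero, aeval_def, hom_eval₂, hc, show j.comp (algebraMap O (Compl q))
      = ω.toRingHom.comp (algebraMap O K') from RingHom.ext fun a => (hω a).symm,
      ← hom_eval₂, ← aeval_def, hP₀, map_zero]
  have hlifts : ∀ k, ∃ P : O[X], P.map (algebraMap O (Compl q)) = ph k := fun k =>
    (Polynomial.mem_lifts _).1 ((Polynomial.lifts_iff_coeff_lifts _).2 fun i =>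
      halg _ (halg' k i))
  choose pinf hpinf using hlifts
  have hmu0 : muC (RingHom.id O) D.M pinf (pinf - p1) = 0 := by
    funext t
    refine Polynomial.map_injective _ (algebraMap_compl_injective hq) ?_
    rw [muC_map, RingHom.comp_id, Pi.zero_apply, Polynomial.map_zero]
    have e1 : (fun i => (pinf i).map (algebraMap O (Compl q))) = ph := funext hpinf
    have e2 : (fun i => ((pinf - p1) i).map (algebraMap O (Compl q))) = ph - p1h := by
      funext i; simp only [Pi.sub_apply, Polynomial.map_sub, hpinf, p1h]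
    rw [e1, e2]
    exact congrFun hzero t
  have hfinal : pinf = 0 ∨ pinf = p1 := by
    have h := congrArg (comb φ D.e) hmu0
    rw [← mul_comb_eq D.mul, map_zero, mul_eq_zero] at h
    rcases h with h | h
    · exact Or.inl (D.inj (h.trans (map_zero _).symm))
    · exact Or.inr (sub_eq_zero.1 (D.inj (h.trans (map_zero _).symm)))
  -- contradiction at a valuation
  obtain ⟨k, δ₀, hδ, hδ₀⟩ : ∃ k δ₀, δ = C q ^ k * δ₀ ∧ ¬ C q ∣ δ₀ := by
    obtain ⟨δ₀, h, hndvd⟩ := (FiniteMultiplicity.of_prime_left (Polynomial.prime_C_iff.2 hq)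
      hδne).exists_eq_pow_mul_and_not_dvd
    exact ⟨_, δ₀, h, hndvd⟩
  have hcon : ∀ P, IsVert O q φ P → ∀ y : L, y ∈ P → y⁻¹ ∈ P → y ≠ 0 →
      ∀ w : Fin D.N → O[X], aeval φ δ * y = algebraMap O L (q ^ (k + 1)) * comb φ D.e w →
      False := by
    intro P hP y hy hy' hy0 w h
    obtain ⟨h3, h4⟩ := hP.unit_mem δ₀ hδ₀
    have hδne : aeval φ δ₀ ≠ 0 := aeval_ne_zero hφ fun h' => hδ₀ (h' ▸ dvd_zero _)
    have hqne : algebraMap O L q ≠ 0 := by
      rw [IsScalarTower.algebraMap_apply O K L]
      exact (_root_.map_ne_zero _).2 fun h' => hq.ne_zero (IsFractionRing.injective O K (h'.trans (map_zero _).symm))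
    rw [hδ, map_mul, map_pow, aeval_C, pow_succ, map_mul, map_pow, mul_assoc, mul_assoc] at h
    have h5 := mul_left_cancel₀ (pow_ne_zero k hqne) h
    have hw : comb φ D.e w ∈ P := by
      rw [comb_apply]
      exact sum_mem fun i _ => mul_mem ((hP.chart_le' hq).1 (aeval_mem_chart O φ _))
        ((hP.chart_le' hq).1 (D.e_mem i))
    refine one_not_mem_nonunits P ?_
    have := nonunits_mul (mul_mem h4 (mul_mem hy' hw)) hP.q_mem
    rwa [show (aeval φ δ₀)⁻¹ * (y⁻¹ * comb φ D.e w) * algebraMap O L q = 1 by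
      calc _ = (aeval φ δ₀)⁻¹ * y⁻¹ * (algebraMap O L q * comb φ D.e w) := by ring
        _ = 1 := by rw [← h5]; field_simp] at this
  have hunit : ∀ (P : ValuationSubring L) (y : L), y - 1 ∈ P.nonunits →
      y ∈ P ∧ y⁻¹ ∈ P ∧ y ≠ 0 := by
    intro P y hy
    have hy0 : y ≠ 0 := by
      rintro rfl
      refine one_not_mem_nonunits P ?_
      simpa using neg_mem hy
    have hymem : y ∈ P := by
      simpa using add_mem (P.nonunits_subset hy) (one_mem P)
    refine ⟨hymem, ?_, hy0⟩
    by_contra hc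
    refine one_not_mem_nonunits P ?_
    simpa using _root_.sub_mem (P.mem_nonunits_iff_or.2 (Or.inr hc) : y ∈ P.nonunits) hy
  rcases hfinal with h0 | h0
  · have hph0 : ph = 0 := funext fun i => by rw [← hpinf, h0]; simp
    have hdvd : ∀ i, C (q ^ (k + 1)) ∣ p (k + 1) i := by
      intro i
      rw [C_dvd_iff_dvd_coeff]
      intro j
      have h := congrArg (fun P => P.coeff j) (hphev (k + 1) i)
      simp only [hph0, Pi.zero_apply, Polynomial.map_zero, coeff_zero, coeff_map] at h
      exact mem_span_pow_iff.1 (Ideal.Quotient.eq_zero_iff_mem.1 h.symm)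
    choose w hw using hdvd
    obtain ⟨h3, h4, h5⟩ := hunit P₁ _ ((hla (k + 1) P₁ hP₁).1 hS₁)
    refine hcon P₁ hP₁ _ h3 h4 h5 (w + r (k + 1)) ?_
    rw [hp, funext hw, comb_mul, aeval_C, map_add, mul_add]
  · have hph1 : ph - p1h = 0 := funext fun i => by
      rw [Pi.sub_apply, ← hpinf, h0]; simp [p1h]
    have hdvd : ∀ i, C (q ^ (k + 1)) ∣ p (k + 1) i - p1 i := by
      intro i
      rw [C_dvd_iff_dvd_coeff]
      intro j
      have h := congrArg (fun P => P.coeff j) (hphev (k + 1) i)
      simp only [sub_eq_zero.1 hph1, p1h, Polynomial.map_map, coeff_map] at h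
      refine mem_span_pow_iff.1 (Ideal.Quotient.eq.1 ?_) |> fun h' => by simpa using h'
      rw [← h]
      exact (AdicCompletion.evalₐ (Ideal.span {q}) (k + 1)).commutes _
    choose w hw using hdvd
    obtain ⟨h3, h4, h5⟩ := hunit P₂ (1 - a (k + 1)) (by simpa using neg_mem ((hla (k + 1) P₂ hP₂).2 hS₂))
    refine hcon P₂ hP₂ _ h3 h4 h5 (-(w + r (k + 1))) ?_
    have hpw : p (k + 1) = p1 + fun i => C (q ^ (k + 1)) * w i := funext fun i => by
      rw [Pi.add_apply, ← hw i]; ring
    rw [mul_sub, mul_one, hp, hpw, map_add, comb_mul, aeval_C, ← hp1, map_neg, map_add]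
    ring

end FLTAgent.LevelSq
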