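import Mathlib.RingTheory.UniqueFactorizationDomain.Kaplansky
import Mathlib.RingTheory.Ideal.KrullsHeightTheorem
import Mathlib.RingTheory.DiscreteValuationRing.TFAE
import Mathlib.RingTheory.Nakayama
import Mathlib.RingTheory.LocalRing.Quotient
import Mathlib.RingTheory.UniqueFactorizationDomain.GCDMonoid
import Mathlib.RingTheory.Polynomial.RationalRoot

/-!
# Two dimensional regular local rings are factorial

A Noetherian local domain whose maximal ideal is generated by two elements `x, y`, and which has
a non-zero prime `Q` with `x ∈ Q` different from the maximal ideal, is a unique factorization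
domain with `Q = (x)`; a quotient by a prime which together with `y` spans the maximal ideal is a
principal ideal ring.
-/

set_option autoImplicit false
set_option linter.style.haveILetI false
set_option linter.unusedSectionVars false

namespace FLTAgent.LevelSq

open IsLocalRing

variable {R : Type*} [CommRing R] [IsDomain R] [IsNoetherianRing R] [IsLocalRing R] {x y : R}

/-- `x` generates every prime containing it other than the maximal ideal. -/
theorem eq_span_of_mem_prime (hm : maximalIdeal R = Ideal.span {x, y}) {Q : Ideal R} [Q.IsPrime]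
    (hx : x ∈ Q) (hQ : Q ≠ maximalIdeal R) : Q = Ideal.span {x} := by
  refine le_antisymm ?_ ((Ideal.span_singleton_le_iff_mem _).2 hx)
  have hy : y ∉ Q := fun hy => hQ (le_antisymm (le_maximalIdeal Ideal.IsPrime.ne_top')
    (hm ▸ Ideal.span_le.2 (by rintro z (rfl | rfl) <;> assumption)))
  refine Submodule.le_of_le_smul_of_le_jacobson_bot (I := maximalIdeal R)
    (IsNoetherian.noetherian _) (by rw [IsLocalRing.jacobson_eq_maximalIdeal _ bot_ne_top]) ?_
  intro z hz
  have hzm : z ∈ Ideal.span {x, y} := hm ▸ le_maximalIdeal Ideal.IsPrime.ne_top' hz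
  obtain ⟨a, b, rfl⟩ := Ideal.mem_span_pair.1 hzm
  have hb : b ∈ Q := (Ideal.IsPrime.mem_or_mem inferInstance
    ((Q.add_mem_iff_right (Q.mul_mem_left a hx)).1 hz)).resolve_right hy
  refine Submodule.add_mem_sup (Ideal.mul_mem_left _ a (Ideal.mem_span_singleton_self x)) ?_
  rw [smul_eq_mul, mul_comm b y]
  exact Ideal.mul_mem_mul (hm ▸ Ideal.subset_span (by simp)) hb

/-- The maximal ideal of the quotient by a prime is principal as soon as one of two generators
lies in the span of the other and the prime. -/
theorem isPrincipalIdealRing_quotient (P : Ideal R) [P.IsPrime]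
    (hm : maximalIdeal R = Ideal.span {y} ⊔ P) : IsPrincipalIdealRing (R ⧸ P) := by
  haveI : IsLocalRing (R ⧸ P) :=
    .of_surjective' (Ideal.Quotient.mk P) Ideal.Quotient.mk_surjective
  refine ((tfae_of_isNoetherianRing_of_isLocalRing_of_isDomain (R ⧸ P)).out 4 0).1 ?_
  have h : (maximalIdeal R).map (Ideal.Quotient.mk P) = maximalIdeal (R ⧸ P) :=
    IsLocalRing.map_maximalIdeal_of_surjective _ Ideal.Quotient.mk_surjective
  rw [← h, hm, Ideal.map_sup, Ideal.map_quotient_self, sup_bot_eq, Ideal.map_span,
    Set.image_singleton]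
  exact ⟨⟨_, rfl⟩⟩

/-- Factoriality. -/
theorem uniqueFactorizationMonoid_of_span_pair (hm : maximalIdeal R = Ideal.span {x, y})
    {Q : Ideal R} [Q.IsPrime] (hx : x ∈ Q) (hx0 : x ≠ 0) (hQ : Q ≠ maximalIdeal R) :
    UniqueFactorizationMonoid R := by
  have hQeq := eq_span_of_mem_prime hm hx hQ
  have hxp : Prime x := (Ideal.span_singleton_prime hx0).1 (hQeq ▸ inferInstance)
  refine UniqueFactorizationMonoid.iff_exists_prime_mem_of_isPrime.2 fun P hP0 hP => ?_
  by_cases hxP : x ∈ P
  · exact ⟨x, hxP, hxp⟩
  haveI : (Ideal.span {x}).IsPrime := hQeq ▸ inferInstance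
  haveI := isPrincipalIdealRing_quotient (y := y) (Ideal.span {x})
    (by rw [hm, Ideal.span_insert, sup_comm])
  obtain ⟨f', hf'⟩ := (IsPrincipalIdealRing.principal (P.map (Ideal.Quotient.mk (Ideal.span {x})))).principal
  obtain ⟨f, hf, hff⟩ := (Ideal.mem_map_iff_of_surjective _ Ideal.Quotient.mk_surjective).1
    (show f' ∈ P.map (Ideal.Quotient.mk (Ideal.span {x})) from
      hf' ▸ Submodule.mem_span_singleton_self f')
  have hPf : P = Ideal.span {f} := by
    refine le_antisymm (Submodule.le_of_le_smul_of_le_jacobson_bot (I := maximalIdeal R)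
      (IsNoetherian.noetherian _) (by rw [IsLocalRing.jacobson_eq_maximalIdeal _ bot_ne_top]) ?_)
      ((Ideal.span_singleton_le_iff_mem _).2 hf)
    intro z hz
    have h1 := Ideal.mem_map_of_mem (Ideal.Quotient.mk (Ideal.span {x})) hz
    rw [hf'] at h1
    obtain ⟨c, hc⟩ := Submodule.mem_span_singleton.1 h1
    obtain ⟨a, rfl⟩ := Ideal.Quotient.mk_surjective c
    rw [← hff, smul_eq_mul, ← map_mul, Ideal.Quotient.eq, Ideal.mem_span_singleton'] at hc
    obtain ⟨b, hb⟩ := hc
    have hbP : b ∈ P := (hP.mem_or_mem (show b * x ∈ P by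
      rw [hb]; exact P.sub_mem (P.mul_mem_left a hf) hz)).resolve_right hxP
    have hzeq : z = a * f + (-b) * x := by linear_combination hb
    rw [hzeq]
    refine Submodule.add_mem_sup (Ideal.mul_mem_left _ a (Ideal.mem_span_singleton_self f)) ?_
    rw [smul_eq_mul, mul_comm (-b) x]
    exact Ideal.mul_mem_mul (hm ▸ Ideal.subset_span (by simp)) (P.neg_mem hbP)
  refine ⟨f, hf, (Ideal.span_singleton_prime fun h => hP0 (by rw [hPf, h]; simp)).1 (hPf ▸ hP)⟩

end FLTAgent.LevelSq
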