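import Fermat.Agent.LevelSq.BranchCentre
import Fermat.Agent.LevelSq.TwoDim
import Mathlib.RingTheory.Localization.FractionRing

/-!
# The crossing points

Over a zero of `P` the three branches meet; there the ring generated by the three copies of the
level `N` chart is regular, its maximal ideal being generated by `h₀ - a` and `h₂ - h₀`.
-/

set_option autoImplicit false
set_option linter.style.haveILetI false
set_option linter.unusedSectionVars false

noncomputable section

open Polynomial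

namespace FLTAgent.LevelSq

variable {O : Type} [CommRing O] [IsDomain O] [IsDiscreteValuationRing O] {q : O} {qn : ℕ}
  {FN : Type} [Field FN] [Algebra O FN] {k : Type} [Field k] [IsAlgClosed k]
  {B : BaseData O q qn FN k} {F : Type} [Field F] [Algebra O F]

/-- Saturation of an ideal at a prime. -/
def satAt {S : Type*} [CommRing S] (m : Ideal S) [m.IsPrime] (J : Ideal S) : Ideal S where
  carrier := {s | ∃ d ∉ m, d * s ∈ J}
  zero_mem' := ⟨1, m.one_notMem, by simp⟩
  add_mem' := by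
    rintro a b ⟨d, hd, ha⟩ ⟨e, he, hb⟩
    refine ⟨d * e, fun h => (‹m.IsPrime›.mem_or_mem h).elim hd he, ?_⟩
    rw [show d * e * (a + b) = e * (d * a) + d * (e * b) by ring]
    exact add_mem (J.mul_mem_left _ ha) (J.mul_mem_left _ hb)
  smul_mem' := by
    rintro c a ⟨d, hd, ha⟩
    exact ⟨d, hd, by rw [smul_eq_mul, mul_left_comm]; exact J.mul_mem_left _ ha⟩

theorem le_satAt {S : Type*} [CommRing S] (m : Ideal S) [m.IsPrime] (J : Ideal S) :
    J ≤ satAt m J :=
  fun s hs => ⟨1, m.one_notMem, by rwa [one_mul]⟩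

theorem mem_satAt_of_mul {S : Type*} [CommRing S] {m : Ideal S} [m.IsPrime] {J : Ideal S}
    {d s : S} (hd : d ∉ m) (h : d * s ∈ satAt m J) : s ∈ satAt m J := by
  obtain ⟨e, he, h⟩ := h
  exact ⟨e * d, fun h' => (‹m.IsPrime›.mem_or_mem h').elim he hd, by rwa [mul_assoc]⟩

namespace SqData

variable (D : SqData B F) (hq : Prime q) (hqn : qn.Prime)

/-- The ring generated by the three copies of the level `N` chart. -/
def gen : Subalgebra O D.A := Algebra.adjoin O (⋃ i, Set.range (D.ιA i))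

theorem ι_mem_gen (i : Fin 3) (g : chart O B.j) : D.ιA i g ∈ D.gen :=
  Algebra.subset_adjoin (Set.mem_iUnion.2 ⟨i, g, rfl⟩)

theorem isNoetherianRing_gen : IsNoetherianRing D.gen := by
  classical
  obtain ⟨s, hs⟩ := B.finiteType.out
  have heq : D.gen = Algebra.adjoin O
      ((Finset.univ.biUnion fun i => s.image (D.ιA i) : Finset D.A) : Set D.A) := by
    refine le_antisymm (Algebra.adjoin_le ?_) (Algebra.adjoin_mono ?_)
    · rintro _ ⟨_, ⟨i, rfl⟩, ⟨g, rfl⟩⟩
      have hg : g ∈ Algebra.adjoin O (s : Set (chart O B.j)) := hs ▸ Algebra.mem_top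
      have h2 : D.ιA i g ∈ (Algebra.adjoin O (s : Set (chart O B.j))).map (D.ιA i) := ⟨g, hg, rfl⟩
      rw [AlgHom.map_adjoin] at h2
      refine Algebra.adjoin_mono ?_ h2
      rintro _ ⟨g', hg', rfl⟩
      simp only [Finset.coe_biUnion, Finset.coe_univ, Finset.coe_image, Set.mem_iUnion]
      exact ⟨i, Set.mem_univ i, g', hg', rfl⟩
    · intro z hz
      simp only [Finset.coe_biUnion, Finset.coe_univ, Finset.coe_image, Set.mem_iUnion] at hz
      obtain ⟨i, -, g, -, rfl⟩ := hz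
      exact Set.mem_iUnion.2 ⟨i, g, rfl⟩
  haveI : Algebra.FiniteType O D.gen :=
    (Subalgebra.fg_iff_finiteType _).1 (heq ▸ Subalgebra.fg_adjoin_finset _)
  exact Algebra.FiniteType.isNoetherianRing O _

variable {x : Ideal (chart O B.j)} [x.IsMaximal] {hqx : algebraMap O _ q ∈ x}

include hq in
theorem exists_delta [IsNoetherianRing D.A] {g : chart O B.j} (hg : g ∈ B.rat) :
    ∃ δ, Genus.euler δ
        = Genus.euler (B.red g) ^ qn - B.red g ^ (qn - 1) * Genus.euler (B.red g) ∧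
      (∃ c, B.HasVal hqx ((B.red g - B.red g ^ qn ^ 2) * δ) c) ∧
      ∃ e : D.A, algebraMap O D.A q * e
          = (D.ιA 0 g - D.ιA 1 g ^ qn) * (D.ιA 1 g - D.ιA 0 g ^ qn) ∧
        ∀ b, D.resA hq b e = if b = 2 then ((B.red g - B.red g ^ qn ^ 2) * δ) ^ qn
          else (B.red g - B.red g ^ qn ^ 2) * δ := by
  obtain ⟨δ, hδ, hb⟩ := D.kronecker g hg
  choose z hz hres using hb
  have hq0 := D.algebraMap_ne_zero hq.ne_zero
  have heq : ∀ b, (z b : F) = z 0 := fun b => mul_left_cancel₀ hq0 ((hz b).trans (hz 0).symm)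
  have hmem : (z 0 : F) ∈ D.A := by
    refine D.mem_A_of_mem_V hq (i := 1) ?_ fun b => heq b ▸ (z b).2
    rw [pow_one, hz 0]
    exact mul_mem (sub_mem (D.ι_mem 0 g) (pow_mem (D.ι_mem 1 g) _))
      (sub_mem (D.ι_mem 1 g) (pow_mem (D.ι_mem 0 g) _))
  have hres' : ∀ b, D.resA hq b ⟨_, hmem⟩ = if b = 2 then ((B.red g - B.red g ^ qn ^ 2) * δ) ^ qn
      else (B.red g - B.red g ^ qn ^ 2) * δ := fun b => by
    rw [← hres b, resA_def]
    exact congrArg _ (Subtype.ext (heq b).symm)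
  refine ⟨δ, hδ, ?_, ⟨_, hmem⟩, Subtype.ext ?_, hres'⟩
  · have h := D.exists_hasVal hq (hqx := hqx) 0 ⟨_, hmem⟩
    rwa [hres' 0, if_neg (by decide)] at h
  · exact hz 0

section Zero

variable (hP : B.P ∈ x) [IsNoetherianRing D.A]

include D hq hqn hP in
theorem ev_frob {g : chart O B.j} (hg : g ∈ B.rat) :
    B.ev x hqx g ^ qn ^ 2 = B.ev x hqx g :=
  BaseData.ev_pow_eq hqn hP (fun g hg => by
    obtain ⟨δ, h1, h2, -⟩ := D.exists_delta hq (hqx := hqx) hg
    exact ⟨δ, h1, h2⟩) hg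

include hq hqn hP in
/-- The value of a generator is the same on all branches. -/
theorem hasVal_ι {g : chart O B.j} (hg : g ∈ B.rat) (i b : Fin 3) :
    B.HasVal hqx (D.resA hq b (D.ιA i g))
      (if i = 1 then B.ev x hqx g ^ qn else B.ev x hqx g) := by
  have h := BaseData.hasVal_red (hqx := hqx) g
  have h2 : B.HasVal hqx (B.red g ^ qn ^ 2) (B.ev x hqx g) :=
    (h.pow _).congr rfl (D.ev_frob hq hqn hP hg)
  fin_cases i <;> fin_cases b
  · exact h.congr (D.res_base_zero g _ rfl).symm rfl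
  · exact h.congr (D.res_base_one g _ (Or.inl rfl)).symm rfl
  · exact h2.congr (D.res_far_two g hg _ rfl).symm rfl
  · exact (h.pow qn).congr (D.res_mid g hg _ _ rfl).symm rfl
  · exact (h.pow qn).congr (D.res_mid g hg _ _ rfl).symm rfl
  · exact (h.pow qn).congr (D.res_mid g hg _ _ rfl).symm rfl
  · exact h2.congr (D.res_far_zero g hg _ rfl).symm rfl
  · exact h.congr (D.res_base_one g _ (Or.inr rfl)).symm rfl
  · exact h.congr (D.res_base_two g _ rfl).symm rfl

include hq hqn hP in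
theorem exists_common_val {s : D.A} (hs : s ∈ D.gen) :
    ∃ c, ∀ b, B.HasVal hqx (D.resA hq b s) c := by
  induction hs using Algebra.adjoin_induction with
  | mem s hs =>
    obtain ⟨i, g, rfl⟩ := Set.mem_iUnion.1 hs
    clear hs
    have hg : g ∈ Algebra.adjoin O (B.rat : Set (chart O B.j)) := B.adjoin_rat ▸ Algebra.mem_top
    induction hg using Algebra.adjoin_induction with
    | mem g hg => exact ⟨_, fun b => D.hasVal_ι hq hqn hP hg i b⟩
    | algebraMap a =>
      exact ⟨B.resO a, fun b => by rw [AlgHom.commutes, D.resA_algebraMap]; exact BaseData.hasVal_C _⟩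
    | add g g' _ _ h h' =>
      obtain ⟨c, hc⟩ := h
      obtain ⟨c', hc'⟩ := h'
      exact ⟨c + c', fun b => by rw [map_add, map_add]; exact (hc b).add (hc' b)⟩
    | mul g g' _ _ h h' =>
      obtain ⟨c, hc⟩ := h
      obtain ⟨c', hc'⟩ := h'
      exact ⟨c * c', fun b => by rw [map_mul, map_mul]; exact (hc b).mul (hc' b)⟩
  | algebraMap a => exact ⟨B.resO a, fun b => by rw [D.resA_algebraMap]; exact BaseData.hasVal_C _⟩
  | add g g' _ _ h h' =>
    obtain ⟨c, hc⟩ := h
    obtain ⟨c', hc'⟩ := h'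
    exact ⟨c + c', fun b => by rw [map_add]; exact (hc b).add (hc' b)⟩
  | mul g g' _ _ h h' =>
    obtain ⟨c, hc⟩ := h
    obtain ⟨c', hc'⟩ := h'
    exact ⟨c * c', fun b => by rw [map_mul]; exact (hc b).mul (hc' b)⟩

variable {b : Fin 3} {n : Ideal D.A} [n.IsMaximal]
  (hb : D.centre hq b ≤ n) (hx : n.comap (D.ιA (base b)) = x)

include hq hqn hP hb hx in
/-- Points over `x` on two branches agree on the generated ring. -/
theorem mem_gen_iff {b' : Fin 3} {n' : Ideal D.A} [n'.IsMaximal] (hb' : D.centre hq b' ≤ n')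
    (hx' : n'.comap (D.ιA (base b')) = x) {s : D.A} (hs : s ∈ D.gen) : s ∈ n ↔ s ∈ n' := by
  have hqx : algebraMap O _ q ∈ x := hx ▸ D.q_mem_point hq hb
  obtain ⟨c, hc⟩ := D.exists_common_val hq hqn (hqx := hqx) hP hs
  rw [D.mem_iff_hasVal hq (hqx := hqx) hb hx, D.mem_iff_hasVal hq (hqx := hqx) hb' hx']
  exact ⟨fun h => (hc b').congr rfl ((hc b).unique h), fun h => (hc b).congr rfl ((hc b').unique h)⟩

/-- The maximal ideal of the generated ring below `n`. -/
def genPoint (n : Ideal D.A) : Ideal D.gen := n.comap D.gen.val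

theorem mem_genPoint {n : Ideal D.A} {s : D.gen} : s ∈ D.genPoint n ↔ (s : D.A) ∈ n := Iff.rfl

instance isPrime_genPoint (n : Ideal D.A) [n.IsPrime] : (D.genPoint n).IsPrime :=
  Ideal.comap_isPrime _ _

/-- The two generators `h₀ - a` and `h₂ - h₀`. -/
def ySpan (a : O) : Ideal D.gen :=
  Ideal.span {⟨D.ιA 2 B.h, D.ι_mem_gen 2 _⟩ - ⟨D.ιA 0 B.h, D.ι_mem_gen 0 _⟩,
    ⟨D.ιA 0 B.h, D.ι_mem_gen 0 _⟩ - algebraMap O D.gen a}

include hq hqn hP hb hx in
theorem gen_mem_sat {a : O} (ha : B.resO a = B.ev x hqx B.h) :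
    ∀ s ∈ D.genPoint n, s ∈ satAt (D.genPoint n) (D.ySpan a) := by
  classical
  set m := D.genPoint n
  set h0 : D.gen := ⟨D.ιA 0 B.h, D.ι_mem_gen 0 _⟩ with hh0
  set h1 : D.gen := ⟨D.ιA 1 B.h, D.ι_mem_gen 1 _⟩ with hh1
  set h2 : D.gen := ⟨D.ιA 2 B.h, D.ι_mem_gen 2 _⟩ with hh2
  set J := D.ySpan a with hJ
  set J₀ : Ideal D.gen := J ⊔ Ideal.span {algebraMap O D.gen q} with hJ₀
  haveI := BaseData.charP_residue hqn B
  have hy0 : h0 - algebraMap O D.gen a ∈ J :=
    Ideal.subset_span (Set.mem_insert_of_mem _ rfl)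
  have hy2 : h2 - h0 ∈ J := Ideal.subset_span (Set.mem_insert _ _)
  have hqm : algebraMap O D.gen q ∈ m := hb (D.q_mem_centre hq b)
  have hval : ∀ (i : Fin 3) (e : O), B.resO e = (if i = 1 then B.ev x hqx B.h ^ qn
      else B.ev x hqx B.h) → ⟨D.ιA i B.h, D.ι_mem_gen i _⟩ - algebraMap O D.gen e ∈ m := by
    intro i e he
    refine (D.hasVal_resA hq (hqx := hqx) hb hx _ e).2 ?_
    rw [he]
    exact D.hasVal_ι hq hqn hP B.h_mem_rat i b
  have ha0 := hval 0 a (by rw [ha, if_neg (by decide)])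
  have ha2 := hval 2 a (by rw [ha, if_neg (by decide)])
  have hJm : J ≤ m := by
    rw [hJ, ySpan, Ideal.span_le]
    rintro z (rfl | rfl)
    · simpa using m.sub_mem ha2 ha0
    · exact ha0
  have hJ₀m : J₀ ≤ m := sup_le hJm ((Ideal.span_singleton_le_iff_mem m).2 hqm)
  have hqJ₀ : algebraMap O D.gen q ∈ J₀ := Ideal.mem_sup_right (Ideal.mem_span_singleton_self _)
  let toGen : chart O B.j →+* D.gen :=
    ((D.ιA 1).toRingHom.codRestrict D.gen.toSubring fun g => D.ι_mem_gen 1 g)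
  let v : D.gen →+* F := D.A.val.toRingHom.comp D.gen.val.toRingHom
  have hG : ∀ i, i = (0 : Fin 3) ∨ i = 2 → ∀ y : D.gen, y = ⟨D.ιA i B.h, D.ι_mem_gen i _⟩ →
      (y - h1 ^ qn) * (y ^ qn - h1) + algebraMap O D.gen q * (D.G.map toGen).eval y = 0 := by
    rintro i hi _ rfl
    refine Subtype.ext (Subtype.ext ?_)
    show v (_ + algebraMap O D.gen q * (D.G.map toGen).eval _) = 0
    rw [map_add, map_mul, map_mul, map_sub, map_sub, map_pow, map_pow, eval_map, hom_eval₂]
    exact D.modular i hi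
  obtain ⟨G₀, hG₀⟩ : ∃ G₀, G₀ = (D.G.map toGen).eval h0 := ⟨_, rfl⟩
  have E0 := hG 0 (Or.inl rfl) h0 rfl
  have E2 := hG 2 (Or.inr rfl) h2 rfl
  rw [← hG₀] at E0
  obtain ⟨c, hc⟩ := Polynomial.sub_dvd_eval_sub h2 h0 (D.G.map toGen)
  rw [← hG₀] at hc
  -- the divided difference
  have hne : h2 - h0 ≠ 0 := fun h => D.sub_ne (congrArg (fun z : D.gen => ((z : D.A) : F)) h)
  have hdiv : (∑ i ∈ Finset.range (qn + 1), h2 ^ i * h0 ^ (qn + 1 - 1 - i)) - h1
      - h1 ^ qn * (∑ i ∈ Finset.range qn, h2 ^ i * h0 ^ (qn - 1 - i))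
      + algebraMap O D.gen q * c = 0 := by
    refine (mul_eq_zero.1 ?_).resolve_left hne
    have g1 := geom_sum₂_mul h2 h0 (qn + 1)
    have g0 := geom_sum₂_mul h2 h0 qn
    linear_combination E2 - E0 + g1 - h1 ^ qn * g0 - algebraMap O D.gen q * hc
  set π := Ideal.Quotient.mk J₀
  have hπq : π (algebraMap O D.gen q) = 0 := Ideal.Quotient.eq_zero_iff_mem.2 hqJ₀
  have hπn : ((qn : ℕ) : D.gen ⧸ J₀) = 0 := by
    rw [← map_natCast π, ← map_natCast (algebraMap O D.gen), ← B.q_eq]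
    exact hπq
  have hπ0 : π h0 = π (algebraMap O D.gen a) :=
    Ideal.Quotient.eq.2 (Ideal.mem_sup_left hy0)
  have hπ2 : π h2 = π (algebraMap O D.gen a) :=
    (Ideal.Quotient.eq.2 (Ideal.mem_sup_left hy2)).trans hπ0
  have hπ1 : π h1 = π (algebraMap O D.gen a) ^ qn := by
    have h := congrArg π hdiv
    simp only [map_add, map_sub, map_mul, map_sum, map_pow, map_zero, hπq, hπ0, hπ2, zero_mul,
      add_zero, geom_sum₂_self] at h
    rw [Nat.cast_succ, hπn, zero_add, one_mul, zero_mul, mul_zero, sub_zero, Nat.add_sub_cancel,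
      sub_eq_zero] at h
    exact h.symm
  have he1 : h0 - h1 ^ qn ∈ J₀ := by
    obtain ⟨r, hr⟩ := (B.resO_eq_zero (a - a ^ qn ^ 2)).1 (by
      rw [map_sub, map_pow, ha, D.ev_frob hq hqn hP B.h_mem_rat, sub_self])
    refine Ideal.Quotient.eq_zero_iff_mem.1 ?_
    show π (h0 - h1 ^ qn) = 0
    rw [map_sub, map_pow, hπ0, hπ1, ← pow_mul, ← sq, ← map_pow, ← map_sub, ← map_pow, ← map_sub,
      hr, map_mul, map_mul, hπq, zero_mul]
  have he2 : h1 - h0 ^ qn ∈ J₀ := by
    refine Ideal.Quotient.eq_zero_iff_mem.1 ?_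
    show π (h1 - h0 ^ qn) = 0
    rw [map_sub, map_pow, hπ0, hπ1, sub_self]
  have hG₀m : G₀ ∉ m := by
    obtain ⟨δ, hδ, ⟨c₁, hc₁⟩, e, he, hres⟩ := D.exists_delta hq (hqx := hqx) B.h_mem_rat
    have heq : (G₀ : D.A) = e := by
      refine mul_left_cancel₀ (a := algebraMap O D.A q)
        (fun h => D.algebraMap_ne_zero hq.ne_zero (congrArg Subtype.val h)) ?_
      rw [he]
      have h := congrArg (fun z : D.gen => (z : D.A)) E0
      simp only [Subalgebra.coe_add, Subalgebra.coe_mul, Subalgebra.coe_sub, Subalgebra.coe_pow,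
        Subalgebra.coe_algebraMap, Subalgebra.coe_zero, hh0, hh1] at h
      linear_combination h
    have hc0 := BaseData.ne_zero_of_delta hqn hP hδ (D.ev_frob hq hqn hP B.h_mem_rat) hc₁
    intro hmem
    have h0' := (D.mem_iff_hasVal hq (hqx := hqx) hb hx e).1 (heq ▸ hmem)
    rw [hres b] at h0'
    split at h0'
    · exact pow_ne_zero qn hc0 ((hc₁.pow qn).unique h0')
    · exact hc0 (hc₁.unique h0')
  obtain ⟨w, hw, uq, huq, hsum⟩ := Submodule.mem_sup.1 he1
  obtain ⟨u, rfl⟩ := Ideal.mem_span_singleton'.1 huq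
  have hqs : algebraMap O D.gen q ∈ satAt m J := by
    refine ⟨G₀ - u * (h1 - h0 ^ qn), fun h => hG₀m ?_, ?_⟩
    · simpa using m.add_mem h (m.mul_mem_left u (hJ₀m he2))
    · rw [show (G₀ - u * (h1 - h0 ^ qn)) * algebraMap O D.gen q = (h1 - h0 ^ qn) * w by
        linear_combination E0 - (h1 - h0 ^ qn) * hsum]
      exact J.mul_mem_left _ hw
  have hJ₀s : J₀ ≤ satAt m J :=
    sup_le (le_satAt m J) ((Ideal.span_singleton_le_iff_mem _).2 hqs)
  have hsm : satAt m J ≤ m := by
    rintro s ⟨d, hd, hs⟩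
    exact ((inferInstance : m.IsPrime).mem_or_mem (hJm hs)).resolve_left hd
  have hconst : ∀ r : O, algebraMap O D.gen r ∈ m → algebraMap O D.gen r ∈ satAt m J := by
    intro r hr
    obtain ⟨e, rfl⟩ := (B.resO_eq_zero r).1
      (D.resO_eq_zero_of_mem (n := n) (hb (D.q_mem_centre hq b)) hr)
    rw [map_mul]
    exact Ideal.mul_mem_right _ _ hqs
  -- the maximal ideals of the three copies
  have hcopy : ∀ i (g : chart O B.j), D.ιA i g ∈ n →
      (⟨D.ιA i g, D.ι_mem_gen i g⟩ : D.gen) ∈ satAt m J := by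
    intro i g hg
    have hmax : (n.comap (D.ιA i)).IsMaximal := by
      rw [show n.comap (D.ιA i)
          = RingHom.ker ((Ideal.Quotient.mk n).comp (D.ιA i).toRingHom) from
        Ideal.ext fun g => by simp [RingHom.mem_ker, Ideal.Quotient.eq_zero_iff_mem]]
      letI : Field (D.A ⧸ n) := Ideal.Quotient.field n
      refine RingHom.ker_isMaximal_of_surjective _ fun w => ?_
      obtain ⟨z, rfl⟩ := Ideal.Quotient.mk_surjective w
      obtain ⟨r, hr⟩ := D.exists_sub_algebraMap_mem hq (hb (D.q_mem_centre hq b)) z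
      exact ⟨algebraMap O _ r, (Ideal.Quotient.eq.2 (by
        show z - D.ιA i (algebraMap O _ r) ∈ n
        rwa [AlgHom.commutes])).symm⟩
    obtain ⟨a', ha', hgen⟩ := B.unif _ hmax (by
      rw [Ideal.mem_comap, AlgHom.commutes]; exact hb (D.q_mem_centre hq b))
    obtain ⟨d, u', v', hd, heq⟩ := hgen g hg
    let ιG : chart O B.j →ₐ[O] D.gen := (D.ιA i).codRestrict D.gen (D.ι_mem_gen i)
    have hh : ιG (B.h - algebraMap O _ a') ∈ satAt m J := by
      obtain ⟨ai, hai, haim⟩ : ∃ ai : O, ιG B.h - algebraMap O D.gen ai ∈ satAt m J ∧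
          ιG B.h - algebraMap O D.gen ai ∈ m := by
        fin_cases i
        · exact ⟨a, le_satAt m J hy0, ha0⟩
        · refine ⟨a ^ qn, ?_, ?_⟩
          · refine hJ₀s (Ideal.Quotient.eq.1 ?_)
            show π h1 = π (algebraMap O D.gen (a ^ qn))
            rw [hπ1, map_pow, map_pow]
          · exact hval 1 (a ^ qn) (by rw [map_pow, ha, if_pos rfl])
        · refine ⟨a, ?_, ha2⟩
          have := add_mem (le_satAt m J hy2) (le_satAt m J hy0)
          rwa [sub_add_sub_cancel] at this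
      have h1' : ιG (B.h - algebraMap O _ a') ∈ m := ha'
      rw [map_sub, AlgHom.commutes] at h1' ⊢
      have h2' := m.sub_mem h1' haim
      rw [sub_sub_sub_cancel_left, ← map_sub] at h2'
      have h3 := add_mem hai (hconst _ h2')
      rwa [map_sub, sub_add_sub_cancel] at h3
    refine mem_satAt_of_mul (d := ιG d) hd ?_
    have e : ιG d * ιG g
        = ιG u' * algebraMap O D.gen q + ιG v' * ιG (B.h - algebraMap O _ a') := by
      rw [← map_mul, heq, map_add, map_mul, map_mul, AlgHom.commutes]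
    show ιG d * ιG g ∈ satAt m J
    rw [e]
    exact add_mem (Ideal.mul_mem_left _ _ hqs) (Ideal.mul_mem_left _ _ hh)
  have hall : ∀ s : D.gen, ∃ r : O, s - algebraMap O D.gen r ∈ satAt m J := by
    rintro ⟨s, hs⟩
    induction hs using Algebra.adjoin_induction with
    | mem s hs =>
      obtain ⟨i, g, rfl⟩ := Set.mem_iUnion.1 hs
      obtain ⟨r, hr⟩ := D.exists_sub_algebraMap_mem hq (hb (D.q_mem_centre hq b)) (D.ιA i g)
      refine ⟨r, ?_⟩
      have h := hcopy i (g - algebraMap O _ r) (by rwa [map_sub, AlgHom.commutes])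
      convert h using 1
      refine Subtype.ext (Eq.trans ?_ (map_sub (D.ιA i) g (algebraMap O _ r)).symm)
      rw [AlgHom.commutes]; rfl
    | algebraMap r =>
      exact ⟨r, by
        convert (satAt m J).zero_mem using 1
        exact sub_eq_zero.2 (Subtype.ext rfl)⟩
    | add s t hs ht ihs iht =>
      obtain ⟨r, hr⟩ := ihs
      obtain ⟨r', hr'⟩ := iht
      refine ⟨r + r', ?_⟩
      convert add_mem hr hr' using 1
      rw [map_add, sub_add_sub_comm]; rfl
    | mul s t hs ht ihs iht =>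
      obtain ⟨r, hr⟩ := ihs
      obtain ⟨r', hr'⟩ := iht
      refine ⟨r * r', ?_⟩
      convert add_mem ((satAt m J).mul_mem_left ⟨s, hs⟩ hr')
        ((satAt m J).mul_mem_left (algebraMap O D.gen r') hr) using 1
      rw [map_mul, show (⟨s * t, _⟩ : D.gen) = ⟨s, hs⟩ * ⟨t, ht⟩ from rfl]
      ring
  intro s hs
  obtain ⟨r, hr⟩ := hall s
  have hrm : algebraMap O D.gen r ∈ m := by simpa using m.sub_mem hs (hsm hr)
  simpa using add_mem hr (hconst r hrm)

end Zero

end SqData

end FLTAgent.LevelSq
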