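import Fermat.Agent.LevelSq.Charts
import Mathlib.RingTheory.Polynomial.ScaleRoots
import Mathlib.RingTheory.Trace.Basic

/-!
# The chart of a rational function of a coordinate

For `j S (h) = P (h)` with `P` monic of degree larger than that of `S` and `S (h)` invertible in the
chart of `j`, the chart of `j` is the chart of `h` with `S (h)` inverted, and the traces over
`K (h)` of its elements are polynomials in `h` divided by powers of `S (h)`.
-/

set_option autoImplicit false
set_option linter.style.haveILetI false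
set_option linter.unusedSectionVars false

noncomputable section

open Polynomial IntermediateField

namespace FLTAgent.LevelSq

variable {O L : Type*} [CommRing O] [Field L] [Algebra O L]

/-- Integrality over `O[ψ]` passes to a subalgebra containing `ψ`. -/
theorem mem_chart_of_isIntegral {ψ z : L} {A : Subalgebra O L} (hA : ∀ x ∈ A, x ∈ chart O ψ)
    (hz : IsIntegral A z) : z ∈ chart O ψ := by
  letI : Algebra A (integralClosure (Algebra.adjoin O ({ψ} : Set L)) L) :=
    ((A.val.toRingHom).codRestrict (integralClosure (Algebra.adjoin O ({ψ} : Set L)) L).toSubring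
      fun x => hA x x.2).toAlgebra
  haveI : IsScalarTower A (integralClosure (Algebra.adjoin O ({ψ} : Set L)) L) L :=
    IsScalarTower.of_algebraMap_eq fun _ => rfl
  exact isIntegral_trans (R := Algebra.adjoin O ({ψ} : Set L))
    (A := integralClosure (Algebra.adjoin O ({ψ} : Set L)) L) z hz.tower_top

variable (O) in
/-- `z` lies in the chart of `h` with `S (h)` inverted. -/
def InDen (h : L) (S : O[X]) (z : L) : Prop := ∃ m : ℕ, aeval h S ^ m * z ∈ chart O h

variable {h j : L} {P S : O[X]}

/-- Homogenisation of a polynomial in `j = P (h) / S (h)`. -/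
theorem exists_homogenize (hj : j * aeval h S = aeval h P) (p : O[X]) {d : ℕ}
    (hd : p.natDegree ≤ d) : ∃ r : O[X], aeval h S ^ d * aeval j p = aeval h r := by
  refine ⟨∑ i ∈ Finset.range (d + 1), C (p.coeff i) * P ^ i * S ^ (d - i), ?_⟩
  rw [aeval_eq_sum_range' (Nat.lt_succ_of_le hd), map_sum, Finset.mul_sum]
  refine Finset.sum_congr rfl fun i hi => ?_
  have hi' : d = (d - i) + i := (Nat.sub_add_cancel (Nat.lt_succ_iff.1 (Finset.mem_range.1 hi))).symm
  rw [map_mul, map_mul, map_pow, map_pow, ← hj, aeval_C, Algebra.smul_def]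
  conv_lhs => arg 1; rw [hi', pow_add]
  rw [mul_pow]; ring

section Data

variable (hPm : P.Monic) (hdeg : S.natDegree < P.natDegree) (hj : j * aeval h S = aeval h P)

include hPm hdeg hj

theorem coord_mem_chart : h ∈ chart O j := by
  rcases subsingleton_or_nontrivial O with _ | _
  · exact absurd (congrArg (algebraMap O L) (Subsingleton.elim (0 : O) 1)) (by simp)
  rw [mem_chart]
  set A := Algebra.adjoin O ({j} : Set L)
  set jA : A := ⟨j, Algebra.subset_adjoin rfl⟩
  refine ⟨P.map (algebraMap O A) - C jA * S.map (algebraMap O A), ?_, ?_⟩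
  · refine (hPm.map _).sub_of_left ?_
    refine lt_of_le_of_lt (degree_mul_le _ _) (lt_of_le_of_lt (add_le_add degree_C_le le_rfl) ?_)
    rw [zero_add, hPm.degree_map]
    exact lt_of_le_of_lt degree_map_le (degree_lt_degree hdeg)
  · rw [eval₂_sub, eval₂_mul, eval₂_C, eval₂_map, eval₂_map, ← IsScalarTower.algebraMap_eq,
      ← aeval_def, ← aeval_def]
    show aeval h P - j * aeval h S = 0
    rw [hj, sub_self]

theorem adjoin_coord_le_chart : Algebra.adjoin O ({h} : Set L) ≤ chart O j :=
  Algebra.adjoin_le (Set.singleton_subset_iff.2 (coord_mem_chart hPm hdeg hj))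

theorem chart_coord_le_chart {z : L} (hz : z ∈ chart O h) : z ∈ chart O j :=
  mem_chart_of_isIntegral (fun _ hx => adjoin_coord_le_chart hPm hdeg hj hx) hz

omit hPm hdeg in
theorem inDen_of_mem_chart {z : L} (hz : z ∈ chart O j) : InDen O h S z := by
  obtain ⟨p, hp, hpz⟩ := (mem_chart O).1 hz
  choose c hc using fun i => exists_aeval_eq O (p.coeff i).2
  set n := p.natDegree
  set d := Finset.sum (Finset.range n) fun i => (c i).natDegree
  set A := Algebra.adjoin O ({h} : Set L)
  have hcoef : ∀ i < n, ∃ r : O[X],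
      aeval h S ^ (d * (n - i)) * aeval j (c i) = aeval h r := fun i hi =>
    exists_homogenize hj (c i) (le_trans (Finset.single_le_sum
      (f := fun i => (c i).natDegree) (fun _ _ => Nat.zero_le _) (Finset.mem_range.2 hi))
      (Nat.le_mul_of_pos_right d (by omega)))
  choose r hr using hcoef
  refine ⟨d, (mem_chart O).2 ?_⟩
  refine ⟨X ^ n + ∑ i : Fin n, C (⟨_, aeval_mem_adjoin O h (r i i.2)⟩ : A) * X ^ (i : ℕ),
    monic_X_pow_add (degree_sum_fin_lt _), ?_⟩
  rw [eval₂_add, eval₂_X_pow, eval₂_finsetSum]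
  simp only [eval₂_mul, eval₂_C, eval₂_X_pow]
  have h0 : z ^ n + ∑ i : Fin n, aeval j (c i) * z ^ (i : ℕ) = 0 := by
    rw [← hpz, eval₂_eq_sum_range, Finset.sum_range_succ, hp.coeff_natDegree, map_one, one_mul,
      ← Finset.sum_range (fun i => aeval j (c i) * z ^ i), add_comm]
    simp only [hc]
    rfl
  have h1 := congrArg (fun y => aeval h S ^ (d * n) * y) h0
  simp only [mul_zero, mul_add, Finset.mul_sum] at h1
  rw [← h1]
  congr 1
  · rw [mul_pow, pow_mul]
  · refine Finset.sum_congr rfl fun i _ => ?_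
    show aeval h (r i i.2) * _ = _
    rw [← hr i i.2, mul_pow]
    have e : d * n = d * (n - i) + d * i := by
      rw [← mul_add, Nat.sub_add_cancel i.2.le]
    rw [e, pow_add, ← pow_mul]
    ring

theorem mem_chart_iff_inDen (hS0 : aeval h S ≠ 0) (hu : (aeval h S)⁻¹ ∈ chart O j) {z : L} :
    z ∈ chart O j ↔ InDen O h S z := by
  refine ⟨inDen_of_mem_chart hj, fun ⟨m, hm⟩ => ?_⟩
  have := mul_mem (pow_mem hu m) (chart_coord_le_chart hPm hdeg hj hm)
  rwa [← mul_assoc, ← mul_pow, inv_mul_cancel₀ hS0, one_pow, one_mul] at this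

end Data

variable [IsDomain O] [IsDiscreteValuationRing O] {K : Type*} [Field K] [Algebra O K]
  [IsFractionRing O K] [Algebra K L] [IsScalarTower O K L]

/-- Traces of the chart of `h` are polynomials in `h`. -/
theorem exists_trace_eq_aeval (hh : Transcendental O h) [FiniteDimensional K⟮h⟯ L] {z : L}
    (hz : z ∈ chart O h) :
    ∃ p : O[X], algebraMap K⟮h⟯ L (Algebra.trace K⟮h⟯ L z) = aeval h p := by
  set A := Algebra.adjoin O ({h} : Set L)
  haveI := isIntegrallyClosed_adjoin hh
  letI : Algebra A K⟮h⟯ :=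
    ((A.val.toRingHom).codRestrict K⟮h⟯.toSubfield.toSubring fun x =>
      adjoin_le_adjoinField (K := K) x).toAlgebra
  haveI : IsScalarTower A K⟮h⟯ L := IsScalarTower.of_algebraMap_eq fun _ => rfl
  haveI : FaithfulSMul A K⟮h⟯ := (faithfulSMul_iff_algebraMap_injective _ _).2 fun x y e =>
    Subtype.ext (congrArg (fun w : K⟮h⟯ => (w : L)) e)
  haveI : IsFractionRing A K⟮h⟯ := by
    refine IsFractionRing.of_field A _ fun z => ?_
    obtain ⟨r, s, e⟩ := exists_eq_div_of_mem_adjoin (O := O) z.2
    exact ⟨⟨_, aeval_mem_adjoin O h r⟩, ⟨_, aeval_mem_adjoin O h s⟩, Subtype.ext e⟩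
  obtain ⟨a, ha⟩ := IsIntegrallyClosed.isIntegral_iff.1
    (Algebra.isIntegral_trace (R := A) (L := K⟮h⟯) (F := L) hz)
  obtain ⟨p, hp⟩ := exists_aeval_eq O a.2
  exact ⟨p, by rw [hp, ← ha]; rfl⟩

/-- Traces of the chart of `h` with `S (h)` inverted. -/
theorem exists_trace_eq_div (hh : Transcendental O h) [FiniteDimensional K⟮h⟯ L] {z : L}
    (hz : InDen O h S z) :
    ∃ (m : ℕ) (p : O[X]),
      aeval h S ^ m * algebraMap K⟮h⟯ L (Algebra.trace K⟮h⟯ L z) = aeval h p := by
  obtain ⟨m, hm⟩ := hz
  obtain ⟨p, hp⟩ := exists_trace_eq_aeval (K := K) hh hm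
  refine ⟨m, p, ?_⟩
  rw [← hp]
  have hS : aeval h S ^ m ∈ K⟮h⟯ := pow_mem (adjoin_le_adjoinField (K := K)
    ⟨_, aeval_mem_adjoin O h S⟩) m
  rw [show aeval h S ^ m * z = (⟨_, hS⟩ : K⟮h⟯) • z from rfl, map_smul, smul_eq_mul, map_mul]
  rfl

end FLTAgent.LevelSq
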