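import Fermat.Agent.LevelSq.Residual

/-!
# Derivatives on the level `N` curve modulo `q`, and the zeros of `P`

`θ / θh` preserves regularity at every closed point. At a zero of `P` the function `ρ` has a pole,
hence so has `δ` for `h`, and rational functions take values in the field with `q ^ 2` elements.
-/

set_option autoImplicit false
set_option linter.style.haveILetI false
set_option linter.unusedSectionVars false

noncomputable section

open Polynomial

namespace FLTAgent.LevelSq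

variable {O : Type} [CommRing O] [IsDomain O] [IsDiscreteValuationRing O] {q : O} {qn : ℕ}
  {FN : Type} [Field FN] [Algebra O FN] {k : Type} [Field k] [IsAlgClosed k]

namespace BaseData

variable {B : BaseData O q qn FN k}

theorem HasVal.congr {x : Ideal (chart O B.j)} [x.IsMaximal] {hqx : algebraMap O _ q ∈ x}
    {z z' : LaurentSeries k} {c c' : k} (h : B.HasVal hqx z c) (hz : z = z') (hc : c = c') :
    B.HasVal hqx z' c' := hz ▸ hc ▸ h

theorem charP_residue (hqn : qn.Prime) (B : BaseData O q qn FN k) : CharP k qn := by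
  have h : (qn : k) = 0 := by
    rw [← map_natCast B.resO, B.resO_eq_zero, ← B.q_eq]
  obtain ⟨p, hp⟩ := CharP.exists k
  rcases (Nat.dvd_prime hqn).1 ((CharP.cast_eq_zero_iff k p qn).1 h) with h1 | h1
  · subst h1
    haveI := hp; exact absurd rfl (CharP.char_ne_one k 1)
  · exact h1 ▸ hp

/-- A fraction regular at every closed point over `q` lies in the residual chart. -/
theorem exists_red_eq {z : LaurentSeries k}
    (h : ∀ (x : Ideal (chart O B.j)) (_ : x.IsMaximal) (hqx : algebraMap O _ q ∈ x),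
      ∃ c, B.HasVal hqx z c) : ∃ g, B.red g = z := by
  let I : Ideal (chart O B.j) :=
    { carrier := {d | ∃ g, z * B.red d = B.red g}
      zero_mem' := ⟨0, by simp⟩
      add_mem' := by
        rintro d d' ⟨g, hg⟩ ⟨g', hg'⟩
        exact ⟨g + g', by rw [map_add, map_add, mul_add, hg, hg']⟩
      smul_mem' := by
        rintro a d ⟨g, hg⟩
        exact ⟨a * g, by rw [smul_eq_mul, map_mul, map_mul, ← hg]; ring⟩ }
  have hI : I = ⊤ := by
    by_contra hne
    obtain ⟨x, hx, hIx⟩ := Ideal.exists_le_maximal _ hne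
    have hqx : algebraMap O (chart O B.j) q ∈ x := hIx ⟨0, by rw [B.red_q, mul_zero, map_zero]⟩
    obtain ⟨c, g, d, hd, hgd, -⟩ := h x hx hqx
    exact hd (hIx ⟨g, hgd⟩)
  obtain ⟨g, hg⟩ : (1 : chart O B.j) ∈ I := hI ▸ Submodule.mem_top
  exact ⟨g, by rw [← hg, map_one, mul_one]⟩

variable {x : Ideal (chart O B.j)} [x.IsMaximal] {hqx : algebraMap O _ q ∈ x}

/-- A fraction has bounded pole order at `x`. -/
theorem exists_hasVal_pow_mul {z : LaurentSeries k}
    (hz : ∃ g d : chart O B.j, B.red d ≠ 0 ∧ z * B.red d = B.red g) :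
    ∃ (n : ℕ) (c : k), B.HasVal hqx (B.unifAt hqx ^ n * z) c := by
  obtain ⟨g, d, hd, hgd⟩ := hz
  obtain ⟨n, u, e, he, hu, hdn⟩ := (hasVal_red (hqx := hqx) d).exists_pow hd
  refine ⟨n, _, HasVal.div (w := u) (c := B.ev x hqx g) ?_ hu he⟩
  rw [mul_right_comm, ← hdn, mul_comm, hgd]
  exact hasVal_red g

theorem hasVal_pow_mono {z : LaurentSeries k} {n m : ℕ} (hnm : n ≤ m) {c : k}
    (h : B.HasVal hqx (B.unifAt hqx ^ n * z) c) :
    ∃ c, B.HasVal hqx (B.unifAt hqx ^ m * z) c := by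
  obtain ⟨l, rfl⟩ := Nat.exists_eq_add_of_le hnm
  exact ⟨_, ((hasVal_unifAt.pow l).mul h).congr
    (by rw [← mul_assoc, ← pow_add, add_comm l n]) rfl⟩

theorem exists_deriv_bound : ∃ N : ℕ, ∀ g : chart O B.j, ∃ (w : LaurentSeries k) (c : k),
    Genus.euler (B.red g) = w * Genus.euler (B.red B.h) ∧
      B.HasVal hqx (B.unifAt hqx ^ N * w) c := by
  classical
  obtain ⟨s, hs⟩ := B.finiteType.out
  have hw : ∀ g : chart O B.j, ∃ (w : LaurentSeries k) (n : ℕ) (c : k),
      Genus.euler (B.red g) = w * Genus.euler (B.red B.h) ∧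
      B.HasVal hqx (B.unifAt hqx ^ n * w) c := by
    intro g
    obtain ⟨g', d, hd, h⟩ := B.deriv_red g
    obtain ⟨n, c, hc⟩ := exists_hasVal_pow_mul (hqx := hqx)
      (z := B.red g' / B.red d) ⟨g', d, hd, div_mul_cancel₀ _ hd⟩
    exact ⟨_, n, c, by rw [div_mul_eq_mul_div, eq_div_iff hd, h], hc⟩
  choose W n C hW hC using hw
  refine ⟨s.sup n, fun g => ?_⟩
  have hg : g ∈ Algebra.adjoin O (s : Set (chart O B.j)) := hs ▸ Algebra.mem_top
  induction hg using Algebra.adjoin_induction with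
  | mem a ha =>
    obtain ⟨c, hc⟩ := hasVal_pow_mono (Finset.le_sup (f := n) ha) (hC a)
    exact ⟨W a, c, hW a, hc⟩
  | algebraMap r =>
    refine ⟨0, 0, ?_, by simpa using hasVal_C (B := B) (hqx := hqx) 0⟩
    rw [B.red_algebraMap, HahnSeries.C_apply, Genus.euler_single_zero, zero_mul]
  | add a b _ _ ha hb =>
    obtain ⟨w, c, h1, h2⟩ := ha
    obtain ⟨w', c', h1', h2'⟩ := hb
    exact ⟨w + w', c + c', by rw [map_add, map_add, h1, h1', add_mul], by
      rw [mul_add]; exact h2.add h2'⟩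
  | mul a b _ _ ha hb =>
    obtain ⟨w, c, h1, h2⟩ := ha
    obtain ⟨w', c', h1', h2'⟩ := hb
    refine ⟨w * B.red b + B.red a * w', c * B.ev x hqx b + B.ev x hqx a * c', ?_, ?_⟩
    · rw [map_mul, Genus.euler_mul, h1, h1']; ring
    · exact ((h2.mul (hasVal_red b)).add ((hasVal_red a).mul h2')).congr (by ring) rfl

/-- `θ / θh` preserves regularity. -/
theorem HasVal.exists_deriv {z : LaurentSeries k} {c : k} (h : B.HasVal hqx z c) :
    ∃ w e, B.HasVal hqx w e ∧ Genus.euler z = w * Genus.euler (B.red B.h) := by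
  obtain ⟨N, hN⟩ := exists_deriv_bound (B := B) (hqx := hqx)
  suffices H : ∀ z c, B.HasVal hqx z c → ∃ w e,
      B.HasVal hqx (B.unifAt hqx ^ 0 * w) e ∧ Genus.euler z = w * Genus.euler (B.red B.h) by
    simpa using H z c h
  suffices H : ∀ i, i ≤ N → ∀ z c, B.HasVal hqx z c → ∃ w e,
      B.HasVal hqx (B.unifAt hqx ^ (N - i) * w) e ∧
        Genus.euler z = w * Genus.euler (B.red B.h) by
    simpa using H N le_rfl
  intro i
  induction i with
  | zero =>
    rintro - z c ⟨g, d, hd, hz, -⟩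
    obtain ⟨wg, cg, hg1, hg2⟩ := hN g
    obtain ⟨wd, cd, hd1, hd2⟩ := hN d
    have hev := (B.ev_ne_zero hqx).2 hd
    have hzv : B.HasVal hqx z (B.ev x hqx g / B.ev x hqx d) :=
      HasVal.div (hz ▸ hasVal_red g) (hasVal_red d) hev
    have hd0 := B.red_ne_zero hqx hd
    have hval : B.HasVal hqx (B.unifAt hqx ^ (N - 0) * ((wg - z * wd) / B.red d) * B.red d)
        (cg - B.ev x hqx g / B.ev x hqx d * cd) :=
      (hg2.sub (hzv.mul hd2)).congr (by rw [Nat.sub_zero]; field_simp) rfl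
    refine ⟨(wg - z * wd) / B.red d, _, hval.div (hasVal_red d) hev, ?_⟩
    · have h3 := congrArg Genus.euler hz
      rw [Genus.euler_mul, hg1, hd1] at h3
      rw [div_mul_eq_mul_div, eq_div_iff (B.red_ne_zero hqx hd)]
      linear_combination h3
  | succ i ih =>
    intro hi z c hz
    obtain ⟨y, e, hy, hzy⟩ :=
      (by simpa using hz.sub (hasVal_C c) : B.HasVal hqx (z - HahnSeries.C c) 0).exists_eq_mul
    obtain ⟨w, e', hw, hw'⟩ := ih (by omega) y e hy
    have hval : B.HasVal hqx (B.unifAt hqx ^ (N - (i + 1)) * (y + B.unifAt hqx * w))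
        (0 ^ (N - (i + 1)) * e + e') :=
      (((hasVal_unifAt.pow (N - (i + 1))).mul hy).add hw).congr (by
        rw [show N - i = N - (i + 1) + 1 by omega, pow_succ]; ring) rfl
    refine ⟨y + B.unifAt hqx * w, _, hval, ?_⟩
    · rw [eq_add_of_sub_eq hzy, map_add, HahnSeries.C_apply, Genus.euler_single_zero, add_zero,
        Genus.euler_mul, euler_unifAt, hw']
      ring

variable (hqn : qn.Prime)

include hqn in
/-- The key property at a zero of `P`: a regular `δ` forces the derivative to vanish. -/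
theorem deriv_eq_zero_of_delta (hP : B.P ∈ x) {z : LaurentSeries k} {a : k}
    (hz : B.HasVal hqx z a) {δ : LaurentSeries k} {c : k} (hδ : B.HasVal hqx δ c)
    (heq : Genus.euler δ = Genus.euler z ^ qn - z ^ (qn - 1) * Genus.euler z)
    {w : LaurentSeries k} {e : k} (hw : B.HasVal hqx w e)
    (hzw : Genus.euler z = w * Genus.euler (B.red B.h)) : e = 0 := by
  by_contra he
  obtain ⟨w', e', hw', hδw⟩ := hδ.exists_deriv
  obtain ⟨m, rfl⟩ : ∃ m, qn = m + 1 := ⟨qn - 1, by have := hqn.pos; omega⟩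
  rw [hδw, hzw] at heq
  simp only [Nat.add_sub_cancel] at heq
  have h1 : B.rho * w ^ (m + 1) = w' + z ^ m * w := by
    refine mul_right_cancel₀ B.euler_h_ne ?_
    rw [rho, Nat.add_sub_cancel]
    linear_combination -heq
  have h2 := HasVal.div (z := B.rho) (h1 ▸ hw'.add ((hz.pow m).mul hw)) (hw.pow (m + 1))
    (pow_ne_zero _ he)
  have h3 := (h2.pow 6).mul (hasVal_red (hqx := hqx) B.P)
  rw [rho, B.rho_pow, (B.ev_eq_zero hqx).2 hP, mul_zero] at h3
  have h4 := h3.unique ((hasVal_red B.Q).pow ((m + 1) - 1))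
  exact pow_ne_zero _ ((B.ev_ne_zero hqx).2 fun hQ =>
    ‹x.IsMaximal›.ne_top (Ideal.eq_top_of_isUnit_mem x hQ B.isUnit_Q)) h4.symm

include hqn in
/-- At a zero of `P` the values of rational functions are in the field with `q ^ 2` elements. -/
theorem ev_pow_eq (hP : B.P ∈ x)
    (hK : ∀ g ∈ B.rat, ∃ δ, Genus.euler δ
        = Genus.euler (B.red g) ^ qn - B.red g ^ (qn - 1) * Genus.euler (B.red g) ∧
      ∃ c, B.HasVal hqx ((B.red g - B.red g ^ qn ^ 2) * δ) c)
    {g : chart O B.j} (hg : g ∈ B.rat) : B.ev x hqx g ^ qn ^ 2 = B.ev x hqx g := by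
  haveI := charP_residue hqn B
  haveI := Fact.mk hqn
  have key : ∀ g ∈ B.rat, ∀ w e, B.HasVal hqx w e →
      Genus.euler (B.red g) = w * Genus.euler (B.red B.h) → e ≠ 0 →
      B.ev x hqx g ^ qn ^ 2 = B.ev x hqx g := by
    intro g hg w e hw hgw he
    by_contra hne
    obtain ⟨δ, hδ, c, hc⟩ := hK g hg
    have h1 : B.HasVal hqx δ (c / (B.ev x hqx g - B.ev x hqx g ^ qn ^ 2)) :=
      HasVal.div (by rwa [mul_comm] at hc) ((hasVal_red g).sub ((hasVal_red g).pow _))
        (sub_ne_zero.2 (Ne.symm hne))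
    exact he (deriv_eq_zero_of_delta hqn hP (hasVal_red g) h1 hδ hw hgw)
  obtain ⟨w, e, hw, hgw⟩ := (hasVal_red (hqx := hqx) g).exists_deriv
  have hh := key B.h B.h_mem_rat 1 1
    (by simpa using hasVal_C (B := B) (hqx := hqx) 1) (one_mul _).symm one_ne_zero
  rcases eq_or_ne e 0 with rfl | he
  · have h := key (g + B.h) (add_mem hg B.h_mem_rat) (w + 1) 1
      (by simpa using hw.add (hasVal_C (B := B) (hqx := hqx) 1))
      (by rw [map_add, map_add, hgw, add_mul, one_mul]) one_ne_zero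
    rw [map_add, add_pow_char_pow, hh] at h
    exact add_right_cancel h
  · exact key g hg w e hw hgw he

include hqn in
/-- At a zero of `P` the product `(h - h ^ (q^2)) δ` does not vanish. -/
theorem ne_zero_of_delta (hP : B.P ∈ x) {δ : LaurentSeries k}
    (hδ : Genus.euler δ
      = Genus.euler (B.red B.h) ^ qn - B.red B.h ^ (qn - 1) * Genus.euler (B.red B.h))
    (hh : B.ev x hqx B.h ^ qn ^ 2 = B.ev x hqx B.h) {c : k}
    (hc : B.HasVal hqx ((B.red B.h - B.red B.h ^ qn ^ 2) * δ) c) : c ≠ 0 := by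
  haveI := charP_residue hqn B
  haveI := Fact.mk hqn
  intro hc0
  subst hc0
  set a := B.ev x hqx B.h with ha
  haveI : CharP (LaurentSeries k) qn :=
    charP_of_injective_ringHom (HahnSeries.C : k →+* LaurentSeries k).injective qn
  obtain ⟨m, hm⟩ : ∃ m, qn ^ 2 = m + 2 := ⟨qn ^ 2 - 2, by
    have := Nat.pow_le_pow_left hqn.two_le 2; omega⟩
  have h1 : B.red B.h = B.unifAt hqx + HahnSeries.C a := (sub_add_cancel _ _).symm
  have h2 : B.red B.h ^ qn ^ 2 = B.unifAt hqx ^ qn ^ 2 + HahnSeries.C a := by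
    rw [h1, add_pow_char_pow, ← map_pow, hh]
  have hfac : (B.red B.h - B.red B.h ^ qn ^ 2) * δ
      = B.unifAt hqx * ((1 - B.unifAt hqx ^ (m + 1)) * δ) := by
    rw [h2, h1, hm, pow_succ (B.unifAt hqx) (m + 1)]
    ring
  obtain ⟨e, he⟩ := hasVal_of_mul_unifAt (hc.congr hfac rfl)
  have hu : B.HasVal hqx (1 - B.unifAt hqx ^ (m + 1)) 1 :=
    ((hasVal_C (B := B) (hqx := hqx) 1).sub (hasVal_unifAt.pow (m + 1))).congr
      (by rw [map_one]) (by rw [zero_pow (Nat.succ_ne_zero m), sub_zero])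
  have hδv := HasVal.div (he.congr (mul_comm _ _) rfl) hu one_ne_zero
  have h11 : B.HasVal hqx 1 1 := (hasVal_C (B := B) (hqx := hqx) 1).congr (map_one _) rfl
  exact one_ne_zero (deriv_eq_zero_of_delta hqn hP (hasVal_red B.h) hδv hδ h11 (one_mul _).symm)

end BaseData

end FLTAgent.LevelSq
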