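import Fermat.Agent.LevelSq.Frame
import Fermat.Agent.LevelSq.Charts
import Fermat.Agent.GoodRed.DualSpace
import Mathlib.RingTheory.DedekindDomain.Different

/-!
# A frame away from the branch points

Let `L` be finite over `K (h)`, `K` of characteristic zero, and suppose that over an algebraically
closed extension the zeros of `h - a` are simple for `S (a) ≠ 0`.  Then the integral closure of
`K [h]` carries a trace frame whose weight is a power of `S (h)`.
-/

set_option autoImplicit false
set_option linter.style.haveILetI false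
set_option linter.unusedSectionVars false
set_option synthInstance.maxHeartbeats 100000
set_option maxHeartbeats 1000000

noncomputable section

open Polynomial IntermediateField AlgebraicCurve

namespace FLTAgent.LevelSq

open FLTAgent.FunctionField FLTAgent.GoodRed

attribute [local instance] FractionRing.liftAlgebra FractionRing.isScalarTower_liftAlgebra

/-- Separability of fraction fields of finite extensions in characteristic zero. -/
theorem isSeparable_fractionRing_of_charZero (A C : Type*) [CommRing A] [IsDomain A] [CommRing C]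
    [IsDomain C] [Algebra A C] [FaithfulSMul A C] [Module.Finite A C] [IsIntegrallyClosed C]
    [CharZero A] : Algebra.IsSeparable (FractionRing A) (FractionRing C) := by
  haveI : CharZero (FractionRing A) :=
    charZero_of_injective_algebraMap (R := A) (IsFractionRing.injective A (FractionRing A))
  haveI : IsLocalization (Algebra.algebraMapSubmonoid C (nonZeroDivisors A)) (FractionRing C) :=
    IsIntegralClosure.isLocalization A (FractionRing A) _ _
  haveI : FiniteDimensional (FractionRing A) (FractionRing C) :=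
    .of_isLocalization A C (nonZeroDivisors A)
  exact Algebra.IsSeparable.of_integral _ _

/-- Residue extensions of finite extensions in characteristic zero are separable. -/
theorem isSeparable_residue_of_charZero (K : Type*) {A C : Type*} [Field K] [CharZero K]
    [CommRing A] [Algebra K A] [CommRing C] [Algebra A C] [Module.Finite A C] (p : Ideal A)
    [p.IsMaximal] (P : Ideal C) [P.IsMaximal] [P.LiesOver p] :
    Algebra.IsSeparable (A ⧸ p) (C ⧸ P) := by
  letI := Ideal.Quotient.field p
  haveI : CharZero (A ⧸ p) :=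
    charZero_of_injective_algebraMap (algebraMap K (A ⧸ p)).injective
  letI := Ideal.Quotient.field P
  haveI : Module.Finite (A ⧸ p) (C ⧸ P) := Module.Finite.of_restrictScalars_finite A _ _
  exact Algebra.IsSeparable.of_integral _ _

variable {K L Kb Lb : Type*} [Field K] [Field L] [Algebra K L] [Field Kb] [Field Lb]
  [Algebra Kb Lb] (φ : K →+* Kb) (ι : L →+* Lb)
  (hι : ∀ a : K, ι (algebraMap K L a) = algebraMap Kb Lb (φ a))

include hι in
theorem map_aeval_compat (h : L) (p : K[X]) : ι (aeval h p) = aeval (ι h) (p.map φ) := by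
  rw [aeval_def, hom_eval₂, aeval_def, eval₂_map]
  exact congrArg (fun f => eval₂ f _ p) (RingHom.ext hι)

variable [CharZero K] [IsAlgClosed Kb] [IsFunctionField Kb Lb]
  (halg : letI := φ.toAlgebra; Algebra.IsAlgebraic K Kb) {h : L} (hh : Transcendental K h)
  (hhb : Transcendental Kb (ι h)) (S : K[X])
  (hord : ∀ a : Kb, (S.map φ).eval a ≠ 0 → ∀ v : Place Kb Lb,
    0 < v.ord (ι h - algebraMap Kb Lb a) → v.ord (ι h - algebraMap Kb Lb a) = 1)

include hι halg hh hhb hord in
/-- A frame with weight a power of `S (h)`. -/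
theorem exists_frame_integralClosure [FiniteDimensional K⟮h⟯ L] :
    ∃ (n m : ℕ) (w : K⟮h⟯) (a c : Fin n → L),
      (algebraMap K⟮h⟯ L w = aeval h S ^ m) ∧
      (∀ i, IsIntegral (Algebra.adjoin K ({h} : Set L)) (a i)) ∧
      (∀ i, IsIntegral (Algebra.adjoin K ({h} : Set L)) (c i)) ∧
      IsTraceFrame K⟮h⟯ w a c := by
  classical
  set A := Algebra.adjoin K ({h} : Set L)
  haveI : CharZero L := charZero_of_injective_algebraMap (algebraMap K L).injective
  haveI : Algebra.IsSeparable K⟮h⟯ L := Algebra.IsSeparable.of_integral K⟮h⟯ L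
  let e : K[X] ≃ₐ[K] A :=
    (AlgEquiv.ofInjective (aeval h) (transcendental_iff_injective.1 hh)).trans
      (Subalgebra.equivOfEq _ _ (Algebra.adjoin_singleton_eq_range_aeval K h).symm)
  have he : ∀ p, (e p : L) = aeval h p := fun p => rfl
  haveI : IsPrincipalIdealRing A :=
    IsPrincipalIdealRing.of_surjective e.toRingEquiv.toRingHom e.surjective
  letI : Algebra A K⟮h⟯ :=
    ((A.val.toRingHom).codRestrict K⟮h⟯.toSubfield.toSubring fun x =>
      algebra_adjoin_le_adjoin K _ x.2).toAlgebra
  haveI : IsScalarTower A K⟮h⟯ L := IsScalarTower.of_algebraMap_eq fun _ => rfl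
  haveI : FaithfulSMul A K⟮h⟯ := (faithfulSMul_iff_algebraMap_injective _ _).2 fun x y e =>
    Subtype.ext (congrArg (fun w : K⟮h⟯ => (w : L)) e)
  haveI : IsFractionRing A K⟮h⟯ := by
    refine IsFractionRing.of_field A _ fun z => ?_
    obtain ⟨r, s, hrs⟩ := (mem_adjoin_simple_iff K (z : L)).1 z.2
    exact ⟨e r, e s, Subtype.ext hrs⟩
  set C := integralClosure A L
  haveI : IsDedekindDomain C := IsIntegralClosure.isDedekindDomain A K⟮h⟯ L C
  haveI : Module.Finite A C := IsIntegralClosure.finite A K⟮h⟯ L C
  haveI : IsFractionRing C L :=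
    IsIntegralClosure.isFractionRing_of_finite_extension A K⟮h⟯ L C
  haveI : CharZero A := charZero_of_injective_algebraMap (algebraMap K A).injective
  haveI := isSeparable_fractionRing_of_charZero A C
  -- the primes off `S` do not divide the different
  set SA : A := e S
  have hP : ∀ P : Ideal C, P.IsPrime → P ≠ ⊥ → algebraMap A C SA ∉ P →
      ¬ P ∣ differentIdeal A C := by
    intro P hPp hP0 hS
    haveI : P.IsMaximal := hPp.isMaximal hP0
    set p := P.under A
    haveI : p.IsMaximal := Ideal.IsMaximal.under A P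
    have hp0 : p ≠ ⊥ := mt Ideal.eq_bot_of_comap_eq_bot hP0
    obtain ⟨g, hg⟩ := (IsPrincipalIdealRing.principal p).principal
    obtain ⟨g₀, rfl⟩ : ∃ g₀, e g₀ = g := e.surjective g
    have hg₀0 : g₀ ≠ 0 := by
      rintro rfl
      exact hp0 (by rw [hg, map_zero, Submodule.span_zero_singleton])
    have hgA : Prime (e g₀) := (Ideal.span_singleton_prime (fun h0 =>
      hg₀0 (e.injective (h0.trans (map_zero _).symm)))).1
      ((show p = Ideal.span {e g₀} from hg) ▸ (inferInstance : p.IsPrime))
    have hirr : Irreducible g₀ :=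
      (MulEquiv.irreducible_iff e.toRingEquiv.toMulEquiv).1 hgA.irreducible
    -- a place over `P`
    let ιC : C →+* Lb := ι.comp C.val.toRingHom
    have hιC : Function.Injective ιC := ι.injective.comp Subtype.val_injective
    let eR : C ≃+* ιC.range := RingEquiv.ofBijective ιC.rangeRestrict
      ⟨fun x y hxy => hιC (congrArg Subtype.val hxy), ιC.rangeRestrict_surjective⟩
    haveI : (P.comap eR.symm.toRingHom).IsPrime := Ideal.comap_isPrime _ _
    obtain ⟨B, hB⟩ := exists_valuationSubring_centre ιC.range (P.comap eR.symm.toRingHom)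
    have hmem : ∀ z : C, ι (z : L) ∈ B ∧ (ι (z : L) ∈ B.nonunits ↔ z ∈ P) := fun z => by
      have hz := hB (eR z)
      refine ⟨hz.1, hz.2.trans ?_⟩
      rw [Ideal.mem_comap, RingEquiv.toRingHom_eq_coe, RingEquiv.coe_toRingHom,
        RingEquiv.symm_apply_apply]
    have hKb : ∀ a : Kb, algebraMap Kb Lb a ∈ B := by
      intro a
      letI := φ.toAlgebra
      haveI := halg
      obtain ⟨r, hr, hra⟩ := Algebra.IsIntegral.isIntegral (R := K) a
      let f : K →+* B := ((algebraMap Kb Lb).comp φ).codRestrict B.toSubring fun c => by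
        rw [RingHom.comp_apply, ← hι]
        exact (hmem (algebraMap K C c)).1
      letI : Algebra K B := f.toAlgebra
      have hint : IsIntegral B (algebraMap Kb Lb a) := by
        refine ⟨r.map f, hr.map _, ?_⟩
        rw [eval₂_map, show (algebraMap B Lb).comp f = (algebraMap Kb Lb).comp φ from
          RingHom.ext fun _ => rfl, ← hom_eval₂]
        show algebraMap Kb Lb (eval₂ (algebraMap K Kb) a r) = 0
        rw [hra, map_zero]
      obtain ⟨w, hw⟩ := IsIntegrallyClosed.isIntegral_iff.1 hint
      exact hw ▸ w.2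
    set gC : C := algebraMap A C (e g₀)
    have hgP : gC ∈ P := show e g₀ ∈ p from hg ▸ Ideal.mem_span_singleton_self _
    have hgne : ι (gC : L) ≠ 0 := by
      show ι (aeval h g₀) ≠ 0
      exact (_root_.map_ne_zero ι).2 fun h0 => hg₀0 (transcendental_iff.1 hh _ h0)
    have hBtop : B ≠ ⊤ := by
      intro htop
      have hn := (hmem gC).2.2 hgP
      rw [← inv_inv (ι (gC : L)), ValuationSubring.inv_mem_nonunits_iff, htop] at hn
      rcases hn with h | h
      · exact inv_ne_zero hgne h
      · exact h (ValuationSubring.mem_top _)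
    set v : Place Kb Lb := placeOfValuationSubring B hKb hBtop
    have hordC : ∀ z : C, OrdGe v 0 (ι (z : L)) := fun z => mem_iff_ordGe_zero.1 (hmem z).1
    have hordP : ∀ z ∈ P, OrdGe v 1 (ι (z : L)) := fun z hz =>
      ordGe_one_iff_mem_nonunits.2 ((hmem z).2.2 hz)
    have hhv : 0 ≤ v.ord (ι h) := (hordC ⟨h, isIntegral_algebraMap
      (x := (⟨h, Algebra.subset_adjoin rfl⟩ : A))⟩).le_ord (ne_zero_of_transcendental hhb)
    haveI := finiteDimensional_adjoin_of_transcendental (K := Kb) hhb
    obtain ⟨a, ha⟩ := exists_value_finite hhv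
    have hav := ord_pos_of_value hhb ha
    have hval : ∀ Q : Kb[X], Q.eval a ≠ 0 →
        aeval (ι h) Q ≠ 0 ∧ v.ord (aeval (ι h) Q) = 0 := fun Q hQ => by
      have h1 : OrdGe v 1 (aeval (ι h) Q - algebraMap Kb Lb (Q.eval a)) := by
        obtain ⟨s, hs⟩ := X_sub_C_dvd_sub_C_eval (a := a) (p := Q)
        have hs' := congrArg (aeval (ι h)) hs
        rw [map_sub, aeval_C, map_mul, map_sub, aeval_X, aeval_C] at hs'
        rw [hs']
        simpa using (ha.mul (ordGe_aeval (ordGe_of_le_ord hhv) s))
      obtain ⟨h2, h3⟩ := ord_eq_of_ordGe_sub h1 (by simpa using hQ) (by rw [ord_algebraMap]; omega)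
      exact ⟨h2, by rw [h3, ord_algebraMap]⟩
    have hSa : (S.map φ).eval a ≠ 0 := by
      intro h0
      apply hS
      refine (hmem _).2.1 ((ordGe_one_iff_mem_nonunits (v := v)).1 ?_)
      obtain ⟨r, hr⟩ := dvd_iff_isRoot.2 (show (S.map φ).IsRoot a from h0)
      show OrdGe v 1 (ι (aeval h S))
      rw [map_aeval_compat φ ι hι, hr, map_mul, map_sub, aeval_X, aeval_C]
      simpa using ha.mul (ordGe_aeval (ordGe_of_le_ord hhv) r)
    have hga : (g₀.map φ).eval a = 0 := by
      by_contra h0
      obtain ⟨h1, h2⟩ := hval _ h0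
      have h3 := hordP gC hgP
      have h4 : OrdGe v 1 (aeval (ι h) (g₀.map φ)) := map_aeval_compat φ ι hι h g₀ ▸ h3
      have := h4.le_ord h1
      omega
    obtain ⟨r, hr⟩ := dvd_iff_isRoot.2 (show (g₀.map φ).IsRoot a from hga)
    have hra : r.eval a ≠ 0 := by
      intro h0
      obtain ⟨r', rfl⟩ := dvd_iff_isRoot.2 (show r.IsRoot a from h0)
      have hsq := (Polynomial.Separable.map (f := φ) hirr.separable).squarefree
        (X - Polynomial.C a) ⟨r', by rw [hr]; ring⟩
      exact not_isUnit_X_sub_C a hsq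
    have hordg : v.ord (ι (gC : L)) = 1 := by
      show v.ord (ι (aeval h g₀)) = 1
      rw [map_aeval_compat φ ι hι, hr, map_mul, map_sub, aeval_X, aeval_C,
        v.ord_mul (sub_algebraMap_ne_zero hhb a) (hval r hra).1, (hval r hra).2,
        hord a hSa v hav, add_zero]
    have hsq : gC ∉ P * P := by
      intro hmem2
      have h2 : OrdGe v 2 (ι (gC : L)) := by
        have key : ∀ z ∈ P * P, OrdGe v 2 (ι ((z : C) : L)) := fun z hz => by
          refine Submodule.mul_induction_on hz (fun x hx y hy => ?_) fun x y hx hy => ?_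
          · rw [MulMemClass.coe_mul, map_mul]
            simpa using (hordP x hx).mul (hordP y hy)
          · rw [AddMemClass.coe_add, map_add]
            exact hx.add hy
        exact key _ hmem2
      have := h2.le_ord hgne
      omega
    haveI : P.LiesOver p := ⟨rfl⟩
    obtain ⟨Q, hQ⟩ : P ∣ p.map (algebraMap A C) :=
      Ideal.dvd_iff_le.2 Ideal.map_comap_le
    have hQP : ¬ Q ≤ P := fun hle => hsq (Ideal.mul_mono le_rfl hle (hQ ▸
      Ideal.mem_map_of_mem _ (show e g₀ ∈ p from hg ▸ Ideal.mem_span_singleton_self _)))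
    have hcop : IsCoprime P Q := Ideal.isCoprime_iff_sup_eq.2
      ((inferInstance : P.IsMaximal).1.2 _ (left_lt_sup.2 hQP))
    haveI := isSeparable_residue_of_charZero K p P
    exact not_dvd_differentIdeal_of_isCoprime_of_isSeparable A P Q hcop hQ.symm
  -- a power of `S` lies in the different
  obtain ⟨m, hm⟩ : algebraMap A C SA ∈ (differentIdeal A C).radical := by
    rw [Ideal.radical_eq_sInf, Ideal.mem_sInf]
    intro P hPle
    obtain ⟨hle, hPp⟩ := hPle
    by_contra hS
    have hP0 : P ≠ ⊥ := fun h0 => differentIdeal_ne_bot (A := A) (B := C)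
      (le_bot_iff.1 (h0 ▸ hle))
    exact hP P hPp hP0 hS (Ideal.dvd_iff_le.2 hle)
  have hdual : ∀ z : L, (∀ c : C, ∃ t : A,
      algebraMap A K⟮h⟯ t = Algebra.trace K⟮h⟯ L (z * c)) →
      IsIntegral A (aeval h S ^ m * z) := by
    intro z hz
    have hzd : z ∈ FractionalIdeal.dual A K⟮h⟯ (1 : FractionalIdeal (nonZeroDivisors C) L) := by
      refine (FractionalIdeal.mem_dual (one_ne_zero' (FractionalIdeal (nonZeroDivisors C) L))).2 fun c hc => ?_
      obtain ⟨c, rfl⟩ := (FractionalIdeal.mem_one_iff _).1 hc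
      obtain ⟨t, ht⟩ := hz c
      exact ⟨t, by rw [ht, Algebra.traceForm_apply]; rfl⟩
    have hmem := FractionalIdeal.mul_mem_mul
      ((FractionalIdeal.mem_coeIdeal (nonZeroDivisors C) (P := L)).2 ⟨_, hm, rfl⟩) hzd
    rw [coeIdeal_differentIdeal A K⟮h⟯ L C,
      inv_mul_cancel₀ (FractionalIdeal.dual_ne_zero A K⟮h⟯ (one_ne_zero' (FractionalIdeal (nonZeroDivisors C) L)))] at hmem
    obtain ⟨w, hw⟩ := (FractionalIdeal.mem_one_iff _).1 hmem
    have : aeval h S ^ m * z = (w : L) := by rw [← show algebraMap C L w = (w : L) from rfl, hw]; rfl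
    exact this ▸ w.2
  -- a basis and its dual
  haveI := IsIntegralClosure.module_free A K⟮h⟯ L C
  haveI : IsLocalization (Algebra.algebraMapSubmonoid C (nonZeroDivisors A)) L :=
    IsIntegralClosure.isLocalization A K⟮h⟯ L C
  let bC := Module.finBasis A C
  let b := bC.localizationLocalization K⟮h⟯ (nonZeroDivisors A) L
  have hb : ∀ i, b i = (bC i : L) := fun i =>
    bC.localizationLocalization_apply K⟮h⟯ (nonZeroDivisors A) L i
  set G := Algebra.traceMatrix K⟮h⟯ b
  have hdet : G.det ≠ 0 := by
    rw [show G = _ from Algebra.traceMatrix_of_basis b]; exact det_traceForm_ne_zero b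
  set Sh : K⟮h⟯ := ⟨aeval h S, algebra_adjoin_le_adjoin K _ (e S).2⟩
  refine ⟨_, m, Sh ^ m, fun i => (Sh ^ m * G.det⁻¹) • adjDual b i, b, ?_, fun i => ?_,
    fun i => hb i ▸ (bC i).2, ?_⟩
  · rw [map_pow]; rfl
  · have hz := hdual (G.det⁻¹ • adjDual b i) fun c => by
      refine ⟨bC.repr c i, ?_⟩
      rw [smul_mul_assoc, map_smul, mul_comm, trace_mul_adjDual, smul_eq_mul, ← mul_assoc,
        inv_mul_cancel₀ hdet, one_mul]
      exact (bC.localizationLocalization_repr_algebraMap K⟮h⟯ (nonZeroDivisors A) L c i).symm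
    beta_reduce
    rw [mul_smul, Algebra.smul_def, map_pow]
    exact hz
  · have := (isTraceFrame_adjDual b hdet).smul_left (Sh ^ m * G.det⁻¹)
    rwa [mul_assoc, inv_mul_cancel₀ hdet, mul_one] at this

end FLTAgent.LevelSq
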