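import Fermat.Agent.GalRep.Existence
import Fermat.Agent.GalRep.Assembly
import Fermat.Agent.JTors.Model
import Fermat.Agent.LevelDrop.Compare
import Fermat.Agent.LevelDrop.Embed
import Fermat.Agent.LevelDrop.Descent
import Fermat.Agent.IntegralStructure.Duality
import Fermat.Agent.Quick.HeckeEigenform
import Fermat.Prelude.Def_CuspForm_Newforms

/-!
# Eigensystems away from a finite set of primes

A character of the Hecke algebra away from a finite set comes from an eigenform, and the eigenvalues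
outside the level are determined by almost all of them.
-/

set_option autoImplicit false

namespace FLTAgent.LevelSq

open Polynomial

local notation "Qbar" => AlgebraicClosure ℚ
local notation "Γℚ" => AlgebraicClosure ℚ ≃ₐ[ℚ] AlgebraicClosure ℚ

/-- The representation attached to a character of the Hecke algebra, over the same ring. -/
theorem exists_galoisRep_same {p : ℕ} [Fact p.Prime] {N : ℕ} [NeZero N] {S : Finset ℕ}
    (M : GalRep.MatModel N p ↑S) (hd : GalRep.FrobeniusDense) (hpS : p ∈ S)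
    (R : Type) [CommRing R] [IsDomain R] [IsDiscreteValuationRing R]
    [IsAdicComplete (IsLocalRing.maximalIdeal R) R] [Finite (IsLocalRing.ResidueField R)]
    [CharZero R] (hpR : (p : R) ∈ IsLocalRing.maximalIdeal R)
    (χ : CuspForm.heckeAlgebra N 2 (↑S : Set ℕ) →+* R) :
    ∃ ρ : GaloisRepAdic R, ∀ (ℓ : ℕ) (hℓ : ℓ.Prime) (hℓN : ¬ ℓ ∣ N) (hℓS : ℓ ∉ (↑S : Set ℕ)),
      ∀ A : ValuationSubring Qbar, A.LiesOverPrime ℓ → ∀ σ : Γℚ, A.IsFrobeniusAt σ ℓ →
        LinearMap.charpoly (ρ.ρ σ) =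
          X ^ 2 - C (χ (CuspForm.heckeAlgebra.T hℓ hℓN hℓS)) * X + C ((ℓ : R)) := by
  obtain ⟨E, hfrob, -⟩ := M.exists_eigenSetup χ hd hpR
  obtain ⟨ρ, htr, hcont, -⟩ := E.exists_rep
  refine ⟨GalRep.adicOfMat ρ hcont, fun ℓ hℓ hℓN hℓS A hA σ hσ => ?_⟩
  obtain ⟨hc, hτ⟩ := hfrob ℓ hℓ hℓN hℓS (fun h => hℓS (by simpa [h] using hpS)) A hA σ hσ
  rw [GalRep.charpoly_adicOfMat, (htr σ).1, (htr σ).2, hc, hτ]

/-- A matrix model at every level, from the specialisations. -/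
theorem exists_matModel (hspec : GalRep.SpecializationsExist) (N : ℕ) [NeZero N] (p : ℕ)
    [Fact p.Prime] (S : Finset ℕ) (hS : ∀ q : ℕ, q.Prime → q ∣ N → q ∈ S) :
    Nonempty (GalRep.MatModel N p ↑S) :=
  GalRep.matModel_of_inputs hspec
    (fun N _ p hp => haveI : NeZero p := ⟨hp.out.ne_zero⟩; ⟨JTors.torsionModel N p⟩) N p S hS

section Compare

variable {M L : ℕ} [NeZero M] [NeZero L] {g : CuspForm (CongruenceSubgroup.Gamma0 M) 2}
  {f : CuspForm (CongruenceSubgroup.Gamma0 L) 2}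

/-- Eigenvalues outside the level are determined by almost all of them. -/
theorem qCoeff_eq_of_almost_all (hspec : GalRep.SpecializationsExist)
    (hg : g.IsNormalizedEigenform) (hf : f.IsNormalizedEigenform) (hLM : L ∣ M) (T : Finset ℕ)
    (h : ∀ ℓ : ℕ, ℓ.Prime → ¬ ℓ ∣ M → ℓ ∉ T →
      ModularFormClass.qCoeff f ℓ = ModularFormClass.qCoeff g ℓ)
    {ℓ : ℕ} (hℓ : ℓ.Prime) (hℓM : ¬ ℓ ∣ M) :
    ModularFormClass.qCoeff f ℓ = ModularFormClass.qCoeff g ℓ := by
  classical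
  obtain ⟨p, hp, hpℓ⟩ : ∃ p : ℕ, p.Prime ∧ p ≠ ℓ := by
    by_cases h2 : ℓ = 2
    · exact ⟨3, Nat.prime_three, by omega⟩
    · exact ⟨2, Nat.prime_two, Ne.symm h2⟩
  have : Fact p.Prime := ⟨hp⟩
  set S : Finset ℕ := (insert p (T ∪ M.primeFactors)).erase ℓ with hS
  have hℓS : ℓ ∉ (↑S : Set ℕ) := by simp [hS]
  have hpS : p ∈ S := by simp [hS, hpℓ]
  have hMS : ∀ q : ℕ, q.Prime → q ∣ M → q ∈ S := fun q hq hqM => by
    simp only [hS, Finset.mem_erase, Finset.mem_insert, Finset.mem_union, Nat.mem_primeFactors]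
    exact ⟨fun e => hℓM (e ▸ hqM), Or.inr (Or.inr ⟨hq, hqM, NeZero.ne M⟩)⟩
  let χg := Quick.eigenformChar hg (↑S : Set ℕ)
  let χf := Quick.eigenformChar hf (↑S : Set ℕ)
  let Rg : Subalgebra ℤ ℂ := χg.toIntAlgHom.range
  let Rf : Subalgebra ℤ ℂ := χf.toIntAlgHom.range
  let R : Subalgebra ℤ ℂ := Rg ⊔ Rf
  have := IntegralStructure.moduleFinite_heckeAlgebra M 2 (↑S : Set ℕ)
  have := IntegralStructure.moduleFinite_heckeAlgebra L 2 (↑S : Set ℕ)
  haveI : Module.Finite ℤ Rg := Module.Finite.of_surjective χg.toIntAlgHom.rangeRestrict.toLinearMap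
    χg.toIntAlgHom.rangeRestrict_surjective
  haveI : Module.Finite ℤ Rf := Module.Finite.of_surjective χf.toIntAlgHom.rangeRestrict.toLinearMap
    χf.toIntAlgHom.rangeRestrict_surjective
  haveI : Module.Finite ℤ R := Subalgebra.finite_sup Rg Rf
  obtain ⟨O, _, _, _, _, _, _, hpO, ι, hι⟩ := LevelDrop.exists_dvr_embedding R p
  let cg : CuspForm.heckeAlgebra M 2 (↑S : Set ℕ) →+* R :=
    χg.codRestrict R.toSubring fun t => (le_sup_left : Rg ≤ R) ⟨t, rfl⟩
  let cf : CuspForm.heckeAlgebra L 2 (↑S : Set ℕ) →+* R :=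
    χf.codRestrict R.toSubring fun t => (le_sup_right : Rf ≤ R) ⟨t, rfl⟩
  obtain ⟨Mg⟩ := exists_matModel hspec M p S hMS
  obtain ⟨Mf⟩ := exists_matModel hspec L p S fun q hq hqL => hMS q hq (hqL.trans hLM)
  obtain ⟨ρg, hρg⟩ := exists_galoisRep_same Mg LevelDrop.frobeniusDense hpS O hpO (ι.comp cg)
  obtain ⟨ρf, hρf⟩ := exists_galoisRep_same Mf LevelDrop.frobeniusDense hpS O hpO (ι.comp cf)
  have hall := LevelDrop.charpoly_eq_of_frobenius LevelDrop.frobeniusDense ρf ρg (insert ℓ S)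
    fun l hl hlT P hP σ hσ => ?_
  · obtain ⟨A, σ, hA, hσ⟩ := Frobenius.exists_liesOverPrime_isFrobeniusAt hℓ
    have e := congrArg (fun P => P.coeff 1) (hall σ)
    simp only [hρf ℓ hℓ (fun hd => hℓM (hd.trans hLM)) hℓS A hA σ hσ,
      hρg ℓ hℓ hℓM hℓS A hA σ hσ, FLTAgent.LevelDrop.X_sq_coeff_one, neg_inj] at e
    have e' := congrArg Subtype.val (hι e)
    rw [← Quick.eigenformChar_T hg hℓ hℓM hℓS,
      ← Quick.eigenformChar_T hf hℓ (fun hd => hℓM (hd.trans hLM)) hℓS]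
    exact e'
  · have hlS : l ∉ (↑S : Set ℕ) := fun hc => hlT (Finset.mem_insert_of_mem hc)
    have hlℓ : l ≠ ℓ := fun e => hlT (by rw [e]; exact Finset.mem_insert_self _ _)
    have hl' : l ∉ insert p (T ∪ M.primeFactors) := fun hc =>
      hlS (Finset.mem_erase.mpr ⟨hlℓ, hc⟩)
    simp only [Finset.mem_insert, Finset.mem_union, Nat.mem_primeFactors, not_or] at hl'
    have hlM : ¬ l ∣ M := fun hd => hl'.2.2 ⟨hl, hd, NeZero.ne M⟩
    rw [hρf l hl (fun hd => hlM (hd.trans hLM)) hlS P hP σ hσ, hρg l hl hlM hlS P hP σ hσ]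
    have e : cf (CuspForm.heckeAlgebra.T hl (fun hd => hlM (hd.trans hLM)) hlS) =
        cg (CuspForm.heckeAlgebra.T hl hlM hlS) := Subtype.ext (by
      show Quick.eigenformChar hf _ _ = Quick.eigenformChar hg _ _
      rw [Quick.eigenformChar_T, Quick.eigenformChar_T]
      exact h l hl hlM hl'.2.1)
    rw [RingHom.comp_apply, RingHom.comp_apply, e]

end Compare

/-- A character of a ring extends along an integral extension. -/
theorem exists_char_extension {A B : Type*} [CommRing A] [CommRing B] (i : A →+* B)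
    (hi : Function.Injective i) (hint : i.IsIntegral) (χ : A →+* ℂ) :
    ∃ χ' : B →+* ℂ, χ'.comp i = χ := by
  haveI hk : (RingHom.ker χ).IsPrime := RingHom.ker_isPrime χ
  obtain ⟨P, hPp, hP⟩ : ∃ P : Ideal B, P.IsPrime ∧ P.comap i = RingHom.ker χ := by
    let _ : Algebra A B := i.toAlgebra
    haveI : Algebra.IsIntegral A B := ⟨hint⟩
    obtain ⟨P, -, hP⟩ := Ideal.exists_ideal_over_prime_of_isIntegral (S := B)
      (RingHom.ker χ) ⊥ (fun x hx => by
        rw [Ideal.mem_comap, Ideal.mem_bot] at hx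
        rw [RingHom.mem_ker, hi (hx.trans (map_zero i).symm), map_zero])
    exact ⟨P, hP⟩
  let φ : A ⧸ RingHom.ker χ →+* B ⧸ P := Ideal.quotientMap P i hP.ge
  have hφi : Function.Injective φ := Ideal.quotientMap_injective' hP.le
  have hφint : φ.IsIntegral := by
    refine RingHom.IsIntegral.tower_top (Ideal.Quotient.mk _) φ ?_
    show (φ.comp (Ideal.Quotient.mk _)).IsIntegral
    rw [show φ.comp (Ideal.Quotient.mk _) = (Ideal.Quotient.mk P).comp i from Ideal.quotientMap_comp_mk hP.ge]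
    exact RingHom.IsIntegral.trans i (Ideal.Quotient.mk P) hint
      (RingHom.isIntegral_of_surjective _ Ideal.Quotient.mk_surjective)
  haveI : (RingHom.ker χ).IsPrime := RingHom.ker_isPrime χ
  let _ : Algebra (A ⧸ RingHom.ker χ) (B ⧸ P) := φ.toAlgebra
  let _ : Algebra (A ⧸ RingHom.ker χ) ℂ := (RingHom.kerLift χ).toAlgebra
  haveI : FaithfulSMul (A ⧸ RingHom.ker χ) ℂ :=
    (faithfulSMul_iff_algebraMap_injective _ _).mpr (RingHom.kerLift_injective χ)
  haveI : FaithfulSMul (A ⧸ RingHom.ker χ) (B ⧸ P) :=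
    (faithfulSMul_iff_algebraMap_injective _ _).mpr hφi
  haveI : Algebra.IsIntegral (A ⧸ RingHom.ker χ) (B ⧸ P) := ⟨hφint⟩
  haveI : Algebra.IsAlgebraic (A ⧸ RingHom.ker χ) (B ⧸ P) := Algebra.IsIntegral.isAlgebraic
  haveI h5 : Module.IsTorsionFree (A ⧸ RingHom.ker χ) (B ⧸ P) :=
    Module.isTorsionFree_iff_algebraMap_injective.mpr hφi
  haveI h6 : Module.IsTorsionFree (A ⧸ RingHom.ker χ) ℂ :=
    Module.isTorsionFree_iff_algebraMap_injective.mpr (RingHom.kerLift_injective χ)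
  let g : B ⧸ P →ₐ[A ⧸ RingHom.ker χ] ℂ := IsAlgClosed.lift
  refine ⟨g.toRingHom.comp (Ideal.Quotient.mk P), RingHom.ext fun a => ?_⟩
  exact (g.commutes (Ideal.Quotient.mk _ a)).trans (RingHom.kerLift_mk χ a)

/-- A character of the Hecke algebra away from `S` is realised by a normalised eigenform. -/
theorem exists_eigenform_away (L : ℕ) [NeZero L] (S : Set ℕ)
    (χ : CuspForm.heckeAlgebra L 2 S →+* ℂ) :
    ∃ f : CuspForm (CongruenceSubgroup.Gamma0 L) 2, f.IsNormalizedEigenform ∧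
      ∀ (ℓ : ℕ) (hℓ : ℓ.Prime) (hℓL : ¬ ℓ ∣ L) (hℓS : ℓ ∉ S),
        ModularFormClass.qCoeff f ℓ = χ (CuspForm.heckeAlgebra.T hℓ hℓL hℓS) := by
  have hle := CuspForm.heckeAlgebra_mono (N := L) (k := 2) (Set.empty_subset S)
  let inc : CuspForm.heckeAlgebra L 2 S →+* CuspForm.heckeAlgebra L 2 (∅ : Set ℕ) :=
    (Subalgebra.inclusion hle).toRingHom
  have := IntegralStructure.moduleFinite_heckeAlgebra L 2 (∅ : Set ℕ)
  have hint : inc.IsIntegral := fun x => by
    let _ : Algebra (CuspForm.heckeAlgebra L 2 S) (CuspForm.heckeAlgebra L 2 (∅ : Set ℕ)) :=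
      inc.toAlgebra
    exact IsIntegral.tower_top (R := ℤ) (Algebra.IsIntegral.isIntegral x)
  obtain ⟨χ', hχ'⟩ := exists_char_extension inc (Subalgebra.inclusion_injective hle) hint χ
  obtain ⟨f, hf, -, hft⟩ := IntegralStructure.exists_normalized_of_char χ'
  refine ⟨f, hf, fun ℓ hℓ hℓL hℓS => ?_⟩
  rw [← hχ']
  show _ = χ' (CuspForm.heckeAlgebra.T hℓ hℓL (Set.notMem_empty ℓ))
  rw [← Quick.eigenformChar_T hf hℓ hℓL (Set.notMem_empty ℓ)]
  have h1 := Quick.eigenformChar_spec hf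
    (CuspForm.heckeAlgebra.T hℓ hℓL (Set.notMem_empty ℓ) : CuspForm.heckeAlgebra L 2 (∅ : Set ℕ))
  exact smul_left_injective ℂ hf.ne_zero (h1.symm.trans (hft _))

end FLTAgent.LevelSq
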