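import Fermat.Agent.LevelSq.ConjRoots

/-!
# The embeddings of level `q ^ 2 N` over the middle copy of level `N`

`lev i : F_N → F_{q²N}` is `t ↦ t ^ (q ^ i)`.  Over `lev 1`, sent to `t ↦ t ^ q`, the field of level
`q ^ 2 N` has exactly the embeddings `emb p`, one for each ordered pair `p` of distinct roots:
`emb p` restricts to `rootMap p.1` on `lev 0` and to `rootMap p.2` on `lev 2`.
-/

set_option autoImplicit false
set_option linter.style.haveILetI false
set_option linter.unusedSectionVars false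

noncomputable section

open ModularCurve AlgebraicCurve Polynomial

namespace FLTAgent.LevelSq

open FLTAgent.Hecke FLTAgent.ModPoly FLTAgent.Igusa FLTAgent.Semistable

/-- Ordered pairs of distinct roots. -/
abbrev RootPair (q : ℕ) : Type := {p : Option (Fin q) × Option (Fin q) // p.1 ≠ p.2}

theorem lev_dvd (q N : ℕ) (i : Fin 3) : N * q ^ (i : ℕ) ∣ q ^ 2 * N := by
  rw [mul_comm]
  exact Nat.mul_dvd_mul_right (pow_dvd_pow q (Nat.le_of_lt_succ i.2)) N

theorem mid_dvd (q N : ℕ) : N * q * 1 ∣ q ^ 2 * N := ⟨q, by ring⟩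

variable (L : Type*) [Field L] [Algebra ℚ L] (q N : ℕ) [NeZero q]

/-- The degeneracy maps to level `q ^ 2 N`. -/
def lev (i : Fin 3) : MF L N →ₐ[L] MF L (q ^ 2 * N) := degMap L (q ^ (i : ℕ)) (lev_dvd q N i)

theorem coe_lev (i : Fin 3) (x : MF L N) :
    (lev L q N i x : LaurentSeries L) = qExpand L (q ^ (i : ℕ)) (x : LaurentSeries L) :=
  coe_degMap L _ _ x

theorem coe_lev_zero (x : MF L N) :
    (lev L q N 0 x : LaurentSeries L) = (x : LaurentSeries L) := by
  rw [coe_lev, qExpand_congr (show q ^ ((0 : Fin 3) : ℕ) = 1 from rfl), qExpand_one_apply]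

theorem coe_lev_one (x : MF L N) :
    (lev L q N 1 x : LaurentSeries L) = qExpand L q (x : LaurentSeries L) := by
  rw [coe_lev]
  exact qExpand_congr (pow_one q) _

theorem coe_lev_two (x : MF L N) :
    (lev L q N 2 x : LaurentSeries L) = qExpand L (q * q) (x : LaurentSeries L) := by
  rw [coe_lev]
  exact qExpand_congr (pow_two q) _

/-- From level `q N` to level `q ^ 2 N`. -/
def upMap : MF L (N * q) →ₐ[L] MF L (q ^ 2 * N) := degMap L 1 (mid_dvd q N)

theorem coe_upMap (x : MF L (N * q)) : (upMap L q N x : LaurentSeries L) = (x : LaurentSeries L) := by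
  rw [upMap, coe_degMap, qExpand_one_apply]

variable [NeZero N] [IsAlgClosed L]

theorem upMap_alphaMap (x : MF L N) : upMap L q N (alphaMap L N q x) = lev L q N 0 x :=
  Subtype.ext (by rw [coe_upMap, coe_alphaMap, coe_lev_zero])

theorem upMap_betaMap (x : MF L N) : upMap L q N (betaMap L N q x) = lev L q N 1 x :=
  Subtype.ext (by rw [coe_upMap, coe_betaMap, coe_lev_one])

/-- `j (t ^ (q ^ 2 N))` as an image of `j_N`. -/
theorem lev_two_jd :
    lev L q N 2 ⟨jd L N, jd_mem L dvd_rfl⟩ = ⟨jd L (q ^ 2 * N), jd_mem L dvd_rfl⟩ := by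
  refine Subtype.ext ?_
  rw [coe_lev_two]
  show qExpand L (q * q) (qExpand L N (jqModC L)) = qExpand L (q ^ 2 * N) (jqModC L)
  rw [qExpand_qExpand]
  exact qExpand_congr (by ring) _

theorem finrankAlong_upMap (hq : q.Prime) : finrankAlong L (upMap L q N) = q := by
  have h := finrankAlong_degMap (degreeFacts L) (M := N * q) (M' := q ^ 2 * N) (mid_dvd q N)
  have h1 : q ^ 2 * N = N * q * q := by ring
  have h2 : dedekindPsi (q ^ 2 * N) = q * dedekindPsi (N * q) := by
    rw [h1, dedekindPsi_mul_prime_of_dvd (mul_ne_zero (NeZero.ne N) hq.ne_zero) hq (dvd_mul_left q N)]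
  change dedekindPsi (N * q) * finrankAlong L (upMap L q N) = _ at h
  rw [h2, mul_comm q] at h
  exact Nat.eq_of_mul_eq_mul_left (dedekindPsi_pos (mul_ne_zero (NeZero.ne N) hq.ne_zero)) h

theorem mem_of_upMap_mem (S : IntermediateField L (MF L (q ^ 2 * N)))
    (hu : ∀ u, upMap L q N u ∈ S)
    (hg : (⟨jd L (q ^ 2 * N), jd_mem L dvd_rfl⟩ : MF L (q ^ 2 * N)) ∈ S)
    (z : MF L (q ^ 2 * N)) : z ∈ S := by
  have gen : MF L (q ^ 2 * N) = modularFunctionFieldC L (q ^ 2 * N) := (degreeFacts L).gen _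
  have hle : MF L (q ^ 2 * N) ≤ S.map (MF L (q ^ 2 * N)).val := by
    conv_lhs => rw [gen]
    refine IntermediateField.adjoin_le_iff.2 ?_
    rintro x (rfl | rfl)
    · exact ⟨_, hu (jMF L (N * q)), coe_upMap L q N _⟩
    · exact ⟨_, hg, rfl⟩
  obtain ⟨y, hy, hyz⟩ := hle z.2
  rwa [← Subtype.ext hyz]

variable {L q N}

/-- The first step: the embeddings of level `q N`. -/
theorem exists_emb_mid (hq : q.Prime) (hN : ¬ q ∣ N) {ζ : Lˣ} (hζ : IsPrimitiveRoot (ζ : L) q)
    (x : Option (Fin q)) :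
    ∃ φ : MF L (N * q) →ₐ[L] LaurentSeries L,
      (∀ u, φ (alphaMap L N q u) = rootMap ζ x (u : LaurentSeries L)) ∧
      ∀ u, φ (betaMap L N q u) = qExpand L q (u : LaurentSeries L) := by
  rcases x with _ | i
  · obtain ⟨w, hwα, hwβ, -⟩ := exists_swap L N q hq hN
    refine ⟨(qExpandAlg L q).comp ((MF L (N * q)).val.comp w.toAlgHom), fun u => ?_, fun u => ?_⟩
    · show qExpand L q ((w (alphaMap L N q u) : MF L (N * q)) : LaurentSeries L) = _
      rw [hwα, coe_betaMap, qExpand_qExpand, rootMap_none]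
    · show qExpand L q ((w (betaMap L N q u) : MF L (N * q)) : LaurentSeries L) = _
      rw [hwβ, coe_alphaMap]
  · refine ⟨(twistHom (ζ ^ (i : ℕ))).comp (MF L (N * q)).val, fun u => ?_, fun u => ?_⟩
    · show twist _ ((alphaMap L N q u : MF L (N * q)) : LaurentSeries L) = _
      rw [coe_alphaMap]; rfl
    · show twist _ ((betaMap L N q u : MF L (N * q)) : LaurentSeries L) = _
      rw [coe_betaMap, twist_qExpand_eq_self]
      rw [← pow_mul, mul_comm, pow_mul, (IsPrimitiveRoot.coe_units_iff.1 hζ).pow_eq_one, one_pow]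

/-- The value at `lev i j` determines the restriction to `lev i`, for `i = 0, 2`. -/
theorem comp_lev_eq_rootMap (hq : q.Prime) (hN : ¬ q ∣ N) {ζ : Lˣ}
    (hζ : IsPrimitiveRoot (ζ : L) q) (e : MF L (q ^ 2 * N) →ₐ[L] LaurentSeries L)
    (he : ∀ u, e (lev L q N 1 u) = qExpand L q (u : LaurentSeries L)) (i : Fin 3)
    (hi : i = 0 ∨ i = 2) :
    ∃ o : Option (Fin q), ∀ u, e (lev L q N i u) = rootMap ζ o (u : LaurentSeries L) := by
  set gN : MF L N := ⟨jd L N, jd_mem L dvd_rfl⟩
  -- `Φ_q` relates `lev 1` to `lev 0` and `lev 2`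
  have hpair : ∀ (n : ℕ) (_ : NeZero n) (v : MF L N), (v : LaurentSeries L) = jd L n →
      PhiRel (L := L) q (e (lev L q N 1 v)) (e (lev L q N i v)) := by
    intro n _ v hv
    refine PhiRel.map e (PhiRel.of_map (MF L (q ^ 2 * N)).val Subtype.val_injective ?_)
    show PhiRel (L := L) q (lev L q N 1 v : LaurentSeries L) (lev L q N i v : LaurentSeries L)
    rw [coe_lev_one, hv]
    rcases hi with rfl | rfl
    · rw [coe_lev_zero, hv]
      have h := phiRel_rootMap_jd hq hζ n (some 0)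
      rwa [rootMap_some, Fin.val_zero, pow_zero, twist_one_unit] at h
    · rw [coe_lev_two, hv]
      exact phiRel_rootMap_jd hq hζ n none
  have hj : PhiRel (L := L) q (jd L q) (e (lev L q N i (jMF L N))) := by
    have h := hpair 1 inferInstance (jMF L N) (by rw [jMF_coe, jd_one])
    rwa [he, jMF_coe] at h
  obtain ⟨o, ho⟩ := (phiRel_rootJ_iff' hq hζ).1 hj
  refine ⟨o, fun u => AlgHom.congr_fun (algHom_MF_ext (f := e.comp (lev L q N i))
    (g := (rootMap ζ o).comp (MF L N).val) ?_ ?_) u⟩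
  · show e (lev L q N i (jMF L N)) = rootMap ζ o (jqModC L)
    rw [ho, rootMap_jqModC]
  · show e (lev L q N i gN) = rootMap ζ o (jd L N)
    refine eq_rootMap_jd hq hζ hN o ?_ ?_
    · have h := hpair N inferInstance gN rfl
      rwa [he] at h
    · rw [← ho]
      refine (PhiRel.map (e.comp (lev L q N i)) (x := jMF L N) (y := gN) ?_)
      exact PhiRel.of_map (MF L N).val Subtype.val_injective (phiRel_jqModC N)

theorem exists_emb (hq : q.Prime) (hN : ¬ q ∣ N) {ζ : Lˣ} (hζ : IsPrimitiveRoot (ζ : L) q)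
    (p : RootPair q) :
    ∃ e : MF L (q ^ 2 * N) →ₐ[L] LaurentSeries L,
      (∀ u, e (lev L q N 1 u) = qExpand L q (u : LaurentSeries L)) ∧
      (∀ u, e (lev L q N 0 u) = rootMap ζ p.1.1 (u : LaurentSeries L)) ∧
      ∀ u, e (lev L q N 2 u) = rootMap ζ p.1.2 (u : LaurentSeries L) := by
  obtain ⟨⟨x, y⟩, hxy⟩ := p
  obtain ⟨φ, hφα, hφβ⟩ := exists_emb_mid (N := N) hq hN hζ x
  set gN : MF L N := ⟨jd L N, jd_mem L dvd_rfl⟩
  set a : MF L (N * q) := alphaMap L N q gN
  set b : MF L (N * q) := betaMap L N q gN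
  set Φ' := (phiK q L).map ((aeval b : L[X] →ₐ[L] MF L (N * q)) : L[X] →+* MF L (N * q))
  have hev : ∀ {T : Type _} [Field T] [Algebra L T] (ψ : MF L (N * q) →ₐ[L] T) (z : T),
      Φ'.eval₂ ψ.toRingHom z = ev2 (ψ b) z (phiK q L) := fun ψ z => eval₂_map_aeval ψ b z _
  have hroot : Φ'.IsRoot a := by
    have h0 := hev (AlgHom.id L (MF L (N * q))) a
    simp only [AlgHom.toRingHom_eq_coe, AlgHom.id_toRingHom, eval₂_id, AlgHom.id_apply] at h0
    rw [IsRoot, h0]
    refine PhiRel.of_map (MF L (N * q)).val Subtype.val_injective ?_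
    show PhiRel (L := L) q (b : LaurentSeries L) (a : LaurentSeries L)
    rw [coe_betaMap, coe_alphaMap]
    have h := phiRel_rootMap_jd hq hζ N (some 0)
    rwa [rootMap_some, Fin.val_zero, pow_zero, twist_one_unit] at h
  set Q := Φ' /ₘ (X - C a)
  have hmul : (X - C a) * Q = Φ' := mul_divByMonic_eq_iff_isRoot.2 hroot
  have hΦm : Φ'.Monic := (phiK_monic q L).map _
  have hQm : Q.Monic := (monic_X_sub_C a).of_mul_monic_left (hmul.symm ▸ hΦm)
  have hQd : Q.natDegree = q := by
    rw [show Q = Φ' /ₘ (X - C a) from rfl, natDegree_divByMonic _ (monic_X_sub_C a),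
      natDegree_X_sub_C, (phiK_monic q L).natDegree_map, natDegree_phiK, dedekindPsi_prime' hq,
      Nat.add_sub_cancel]
  have hQroot : ∀ {T : Type _} [Field T] [Algebra L T] (ψ : MF L (N * q) →ₐ[L] T) (z : T),
      z ≠ ψ a → PhiRel (L := L) q (ψ b) z → Q.eval₂ ψ.toRingHom z = 0 := fun ψ z hne hz => by
    have h := (congrArg (eval₂ ψ.toRingHom z) hmul).trans ((hev ψ z).trans hz)
    rw [eval₂_mul, eval₂_sub, eval₂_X, eval₂_C] at h
    exact (mul_eq_zero.1 h).resolve_left (sub_ne_zero.2 hne)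
  obtain ⟨e, he, heg⟩ := exists_algHom_of_generator (upMap L q N)
    ((levelFacts L).finite (N * q) (q ^ 2 * N) 1 (mid_dvd q N))
    (⟨jd L (q ^ 2 * N), jd_mem L dvd_rfl⟩ : MF L (q ^ 2 * N))
    (fun S hu hg z => mem_of_upMap_mem L q N S hu hg z) hQm
    (by rw [hQd, finrankAlong_upMap L q N hq])
    (by
      refine hQroot _ _ ?_ ?_
      · intro h
        have h2 := congrArg (fun z : MF L (q ^ 2 * N) => (z : LaurentSeries L)) h
        simp only [a, coe_upMap, coe_alphaMap] at h2
        haveI : NeZero (q ^ 2 * N) := inferInstance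
        change jd L (q ^ 2 * N) = jd L N at h2
        rw [jd_eq_J, jd_eq_J] at h2
        have := (J_inj h2).1
        exact absurd this (lt_mul_of_one_lt_left (Nat.pos_of_ne_zero (NeZero.ne N))
          (Nat.one_lt_pow two_ne_zero hq.one_lt)).ne'
      · refine PhiRel.of_map (MF L (q ^ 2 * N)).val Subtype.val_injective ?_
        show PhiRel (L := L) q (upMap L q N b : LaurentSeries L) (jd L (q ^ 2 * N))
        rw [coe_upMap, coe_betaMap]
        have h := phiRel_rootMap_jd hq hζ N none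
        rw [rootMap_none] at h
        convert h using 1
        rw [jd, jd, qExpand_qExpand]
        exact qExpand_congr (by ring) _)
    φ (rootMap ζ y (jd L N))
    (by
      refine hQroot _ _ ?_ ?_
      · simp only [a, hφα]
        exact fun h => hxy ((rootMap_jd_injective hq hζ hN) h).symm
      · simp only [b, hφβ]
        exact phiRel_rootMap_jd hq hζ N y)
  have he1 : ∀ u, e (lev L q N 1 u) = qExpand L q (u : LaurentSeries L) := fun u => by
    rw [← upMap_betaMap, he, hφβ]
  refine ⟨e, he1, fun u => by rw [← upMap_alphaMap, he, hφα], ?_⟩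
  obtain ⟨o, ho⟩ := comp_lev_eq_rootMap hq hN hζ e he1 2 (Or.inr rfl)
  obtain rfl : o = y := rootMap_jd_injective hq hζ hN (by
    show rootMap ζ o (jd L N) = rootMap ζ y (jd L N)
    rw [← heg, ← lev_two_jd, ho])
  exact ho

section Emb

variable (hq : q.Prime) (hN : ¬ q ∣ N) {ζ : Lˣ} (hζ : IsPrimitiveRoot (ζ : L) q)

/-- The embedding attached to a pair of roots. -/
def emb (p : RootPair q) : MF L (q ^ 2 * N) →ₐ[L] LaurentSeries L :=
  (exists_emb hq hN hζ p).choose

theorem emb_lev_one (p : RootPair q) (u : MF L N) :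
    emb hq hN hζ p (lev L q N 1 u) = qExpand L q (u : LaurentSeries L) :=
  (exists_emb hq hN hζ p).choose_spec.1 u

theorem emb_lev_zero (p : RootPair q) (u : MF L N) :
    emb hq hN hζ p (lev L q N 0 u) = rootMap ζ p.1.1 (u : LaurentSeries L) :=
  (exists_emb hq hN hζ p).choose_spec.2.1 u

theorem emb_lev_two (p : RootPair q) (u : MF L N) :
    emb hq hN hζ p (lev L q N 2 u) = rootMap ζ p.1.2 (u : LaurentSeries L) :=
  (exists_emb hq hN hζ p).choose_spec.2.2 u

theorem emb_injective : Function.Injective (emb (N := N) hq hN hζ) := by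
  intro p p' h
  have h0 := AlgHom.congr_fun h (lev L q N 0 ⟨jd L N, jd_mem L dvd_rfl⟩)
  have h2 := AlgHom.congr_fun h (lev L q N 2 ⟨jd L N, jd_mem L dvd_rfl⟩)
  rw [emb_lev_zero, emb_lev_zero] at h0
  rw [emb_lev_two, emb_lev_two] at h2
  exact Subtype.ext (Prod.ext (rootMap_jd_injective hq hζ hN h0)
    (rootMap_jd_injective hq hζ hN h2))

/-- Every embedding over `lev 1` is one of the `emb p`. -/
theorem exists_eq_emb (e : MF L (q ^ 2 * N) →ₐ[L] LaurentSeries L)
    (he : ∀ u, e (lev L q N 1 u) = qExpand L q (u : LaurentSeries L)) :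
    ∃ p, e = emb hq hN hζ p := by
  obtain ⟨x, hx⟩ := comp_lev_eq_rootMap hq hN hζ e he 0 (Or.inl rfl)
  obtain ⟨y, hy⟩ := comp_lev_eq_rootMap hq hN hζ e he 2 (Or.inr rfl)
  set gN : MF L N := ⟨jd L N, jd_mem L dvd_rfl⟩
  have hxy : x ≠ y := by
    rintro rfl
    have h := congrArg (fun z : MF L (q ^ 2 * N) => (z : LaurentSeries L))
      (e.toRingHom.injective ((hx gN).trans (hy gN).symm))
    simp only [coe_lev_zero, coe_lev_two] at h
    have h1 : rootMap ζ (some (0 : Fin q)) (jd L N) = rootMap (q := q) ζ none (jd L N) := by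
      rw [rootMap_some, rootMap_none, Fin.val_zero, pow_zero, twist_one_unit]
      exact h
    exact Option.some_ne_none _ (rootMap_jd_injective hq hζ hN h1)
  refine ⟨⟨(x, y), hxy⟩, algHom_MF_ext ?_ ?_⟩
  · have hj : jMF L (q ^ 2 * N) = lev L q N 0 (jMF L N) :=
      Subtype.ext (by rw [coe_lev_zero]; rfl)
    rw [hj, hx, emb_lev_zero]
  · rw [← lev_two_jd, hy, emb_lev_two]

end Emb

end FLTAgent.LevelSq
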