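import Mathlib.LinearAlgebra.Matrix.ToLin
import Mathlib.LinearAlgebra.FreeModule.Finite.Matrix
import Mathlib.RingTheory.Noetherian.Basic
import Mathlib.Tactic.NoncommRing

/-!
# A group of square-zero translates of the identity has a common fixed vector

If every element of a group acts on a lattice `U` by an operator `1 + a` with `a * a = 0`, then
some nonzero vector of `U` is fixed by all of them.
-/

set_option autoImplicit false

namespace FLTAgent.LevelSq

open Matrix

/-- The noncommutative identity behind the lemma. -/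
theorem aba_eq_zero {E : Type*} [Ring E] {a b : E} (h2 : ∀ x : E, x + x = 0 → x = 0)
    (ha : a * a = 0) (hb : b * b = 0) (h₁ : (a + b + a * b) * (a + b + a * b) = 0)
    (h₂ : (-a + b + -a * b) * (-a + b + -a * b) = 0) : a * b * a = 0 := by
  have haa : ∀ x, a * (a * x) = 0 := fun x => by rw [← mul_assoc, ha, zero_mul]
  have hsum : (a * b * a * (1 + b)) + (a * b * a * (1 + b)) = 0 := by
    calc _ = (a + b + a * b) * (a + b + a * b) + (-a + b + -a * b) * (-a + b + -a * b) := by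
          simp only [mul_add, add_mul, neg_mul, mul_neg, mul_assoc, ha, hb, haa,
            mul_one, mul_zero, neg_zero, add_zero, zero_add]
          abel
      _ = 0 := by rw [h₁, h₂, add_zero]
  have h1b : (1 + b) * (1 - b) = 1 := by rw [add_mul, one_mul, mul_sub, mul_one, hb]; abel
  rw [← mul_one (a * b * a), ← h1b, ← mul_assoc, h2 _ hsum, zero_mul]

/-- The operators anticommute. -/
theorem ab_add_ba_eq_zero {E : Type*} [Ring E] {a b : E}
    (ha : a * a = 0) (hb : b * b = 0) (h₁ : (a + b + a * b) * (a + b + a * b) = 0)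
    (haba : a * b * a = 0) (hbab : b * a * b = 0) : a * b + b * a = 0 := by
  rw [← h₁]
  have haa : ∀ x, a * (a * x) = 0 := fun x => by rw [← mul_assoc, ha, zero_mul]
  have h3 : a * (b * a) = 0 := by rw [← mul_assoc, haba]
  have h4 : b * (a * b) = 0 := by rw [← mul_assoc, hbab]
  simp only [mul_add, add_mul, mul_assoc, ha, hb, haa, h3, h4, mul_zero, add_zero, zero_add]
  abel

theorem add_mul_eq_sub_one {E : Type*} [Ring E] (x y : E) :
    (x - 1) + (y - 1) + (x - 1) * (y - 1) = x * y - 1 := by noncomm_ring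

theorem sub_one_eq_neg {E : Type*} [Ring E] {x z : E} (h : z * x = 1)
    (hsq : (x - 1) * (x - 1) = 0) : z - 1 = -(x - 1) := by
  have hx : x * (1 - (x - 1)) = 1 := by
    rw [show x * (1 - (x - 1)) = 1 - (x - 1) * (x - 1) by noncomm_ring, hsq, sub_zero]
  rw [left_inv_eq_right_inv h hx]
  abel

variable {R : Type*} [CommRing R] [IsDomain R] [IsNoetherianRing R] [CharZero R] {r : ℕ}
  {G : Type*} [Group G] (ρ : G →* Matrix (Fin r) (Fin r) R) (U : Submodule R (Fin r → R))

omit [IsNoetherianRing R] in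
theorem anticommute_on (hstab : ∀ g, ∀ e ∈ U, ρ g *ᵥ e ∈ U)
    (hsq : ∀ g, ∀ e ∈ U, (ρ g - 1) *ᵥ ((ρ g - 1) *ᵥ e) = 0) (g h : G) :
    ∀ e ∈ U, (ρ g - 1) *ᵥ ((ρ h - 1) *ᵥ e) = -((ρ h - 1) *ᵥ ((ρ g - 1) *ᵥ e)) := by
  let φ : G →* Module.End R U :=
    { toFun := fun g => (Matrix.mulVecLin (ρ g)).restrict (hstab g)
      map_one' := LinearMap.ext fun e => Subtype.ext (by simp)
      map_mul' := fun g h => LinearMap.ext fun e => Subtype.ext (by
        show ρ (g * h) *ᵥ (e : Fin r → R) = ρ g *ᵥ (ρ h *ᵥ (e : Fin r → R))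
        rw [map_mul, Matrix.mulVec_mulVec]) }
  have hval : ∀ g (e : U), (((φ g - 1) e : U) : Fin r → R) = (ρ g - 1) *ᵥ (e : Fin r → R) := by
    intro g e
    show ρ g *ᵥ (e : Fin r → R) - (e : Fin r → R) = _
    rw [Matrix.sub_mulVec, Matrix.one_mulVec]
  have h2 : ∀ x : Module.End R U, x + x = 0 → x = 0 := by
    intro x hx
    refine LinearMap.ext fun e => Subtype.ext (funext fun i => ?_)
    have h' := congrArg (fun y : Module.End R U => ((y e : U) : Fin r → R) i) hx
    simp only [LinearMap.add_apply, Submodule.coe_add, Pi.add_apply, LinearMap.zero_apply,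
      Submodule.coe_zero, Pi.zero_apply, ← two_mul] at h'
    simpa using h'
  have hsq' : ∀ g, (φ g - 1) * (φ g - 1) = 0 := fun g => LinearMap.ext fun e => Subtype.ext (by
    rw [Module.End.mul_apply, hval, hval, hsq g _ e.2]; rfl)
  have hmul : ∀ g h, (φ g - 1) + (φ h - 1) + (φ g - 1) * (φ h - 1) = φ (g * h) - 1 := by
    intro g h
    rw [map_mul]
    exact add_mul_eq_sub_one (φ g) (φ h)
  have hinv : ∀ g, φ g⁻¹ - 1 = -(φ g - 1) := fun g =>
    sub_one_eq_neg (x := φ g) (z := φ g⁻¹) (by rw [← map_mul, inv_mul_cancel, map_one]) (hsq' g)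
  have haba : ∀ g h, (φ g - 1) * (φ h - 1) * (φ g - 1) = 0 := fun g h =>
    aba_eq_zero (a := φ g - 1) (b := φ h - 1) h2 (hsq' g) (hsq' h) (by rw [hmul]; exact hsq' _)
      (by rw [← hinv g, hmul]; exact hsq' _)
  have hab := ab_add_ba_eq_zero (a := φ g - 1) (b := φ h - 1) (hsq' g) (hsq' h)
    (by rw [hmul]; exact hsq' _) (haba g h) (haba h g)
  intro e he
  have h5 := congrArg (fun y : Module.End R U => ((y ⟨e, he⟩ : U) : Fin r → R)) hab
  simp only [LinearMap.add_apply, Module.End.mul_apply, Submodule.coe_add, hval,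
    LinearMap.zero_apply, Submodule.coe_zero] at h5
  exact eq_neg_of_add_eq_zero_left h5

/-- A nonzero vector of `U` fixed by the whole group. -/
theorem exists_common_fixed (hU : U ≠ ⊥) (hstab : ∀ g, ∀ e ∈ U, ρ g *ᵥ e ∈ U)
    (hsq : ∀ g, ∀ e ∈ U, (ρ g - 1) *ᵥ ((ρ g - 1) *ᵥ e) = 0) :
    ∃ e ∈ U, e ≠ 0 ∧ ∀ g, ρ g *ᵥ e = e := by
  classical
  have hanti := anticommute_on ρ U hstab hsq
  let W : Submodule R (Matrix (Fin r) (Fin r) R) := Submodule.span R (Set.range fun g => ρ g - 1)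
  let K : (Fin r → R) → Submodule R (Matrix (Fin r) (Fin r) R) := fun e =>
    W ⊓ LinearMap.ker ({ toFun := fun X => X *ᵥ e
                         map_add' := fun X Y => Matrix.add_mulVec X Y e
                         map_smul' := fun c X => Matrix.smul_mulVec c X e } :
      Matrix (Fin r) (Fin r) R →ₗ[R] Fin r → R)
  have hK : ∀ e X, X ∈ K e ↔ X ∈ W ∧ X *ᵥ e = 0 := fun e X => by simp [K]
  obtain ⟨e₀, he₀, he₀'⟩ := Submodule.exists_mem_ne_zero_of_ne_bot hU
  obtain ⟨_, ⟨e, heU, he, rfl⟩, hmax⟩ := set_has_maximal_iff_noetherian.mpr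
    (inferInstance : IsNoetherian R (Matrix (Fin r) (Fin r) R))
    {k | ∃ e ∈ U, e ≠ 0 ∧ k = K e} ⟨K e₀, e₀, he₀, he₀', rfl⟩
  refine ⟨e, heU, he, fun h => ?_⟩
  by_contra hne
  have hne' : (ρ h - 1) *ᵥ e ≠ 0 := by
    rwa [Matrix.sub_mulVec, Matrix.one_mulVec, sub_ne_zero]
  have hmem : ∀ g, ∀ x ∈ U, (ρ g - 1) *ᵥ x ∈ U := fun g x hx => by
    rw [Matrix.sub_mulVec, Matrix.one_mulVec]; exact U.sub_mem (hstab g x hx) hx
  have hanti' : ∀ X ∈ W, X *ᵥ ((ρ h - 1) *ᵥ e) = -((ρ h - 1) *ᵥ (X *ᵥ e)) := by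
    intro X hX
    induction hX using Submodule.span_induction with
    | mem X hX => obtain ⟨g, rfl⟩ := hX; exact hanti g h e heU
    | zero => simp
    | add X Y _ _ hX hY => simp only [Matrix.add_mulVec, Matrix.mulVec_add, hX, hY, neg_add]
    | smul c X _ hX => simp only [Matrix.smul_mulVec, Matrix.mulVec_smul, hX, smul_neg]
  have hlt : K e < K ((ρ h - 1) *ᵥ e) := by
    refine SetLike.lt_iff_le_and_exists.mpr ⟨fun X hX => ?_, ρ h - 1, ?_, ?_⟩
    · rw [hK] at hX ⊢
      exact ⟨hX.1, by rw [hanti' X hX.1, hX.2, Matrix.mulVec_zero, neg_zero]⟩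
    · exact (hK _ _).mpr ⟨Submodule.subset_span ⟨h, rfl⟩, hsq h e heU⟩
    · exact fun hc => hne' ((hK _ _).mp hc).2
  exact hmax _ ⟨_, hmem h e heU, hne', rfl⟩ hlt

end FLTAgent.LevelSq
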