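import Fermat.Agent.LevelSq.NewPart
import Fermat.Agent.LevelSq.Unipotent

/-!
# From a fixed eigenvector to a fixed vector with a nonzero Hecke image

An inertia fixed vector over a coefficient ring gives one over `ℤ_p`, and a `ℤ_p` vector gives
inertia fixed torsion points.
-/

set_option autoImplicit false

noncomputable section

namespace FLTAgent.LevelSq

open Matrix

local notation "Qbar" => AlgebraicClosure ℚ
local notation "Γℚ" => AlgebraicClosure ℚ ≃ₐ[ℚ] AlgebraicClosure ℚ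

variable {p : ℕ} [Fact p.Prime]

theorem padicHom_injective {R : Type*} [CommRing R] [IsDomain R] [CharZero R] (ψ : ℤ_[p] →+* R) :
    Function.Injective ψ := by
  rw [injective_iff_map_eq_zero]
  intro x hx
  by_contra hx0
  rw [PadicInt.unitCoeff_spec hx0, map_mul, map_pow, map_natCast, mul_eq_zero] at hx
  rcases hx with h | h
  · exact ((Units.map ψ.toMonoidHom (PadicInt.unitCoeff hx0)).isUnit.ne_zero) h
  · exact (pow_ne_zero _ (Nat.cast_ne_zero.mpr (Fact.out : p.Prime).ne_zero)) h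

/-- Vectors fixed over an extension give vectors fixed over `ℤ_p` outside a given kernel. -/
theorem exists_padic_fixed {R : Type} [CommRing R] [IsDomain R] [CharZero R] (ψ : ℤ_[p] →+* R)
    {r : ℕ} {ι : Type*} (X : ι → Matrix (Fin r) (Fin r) ℤ_[p])
    (Y : Matrix (Fin r) (Fin r) ℤ_[p]) (e : Fin r → R)
    (hX : ∀ i, ψ.mapMatrix (X i) *ᵥ e = e) (hY : ψ.mapMatrix Y *ᵥ e ≠ 0) :
    ∃ v : Fin r → ℤ_[p], (∀ i, X i *ᵥ v = v) ∧ Y *ᵥ v ≠ 0 := by
  classical
  have hinj : Function.Injective ((algebraMap R (FractionRing R)).comp ψ) :=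
    (IsFractionRing.injective R (FractionRing R)).comp (padicHom_injective ψ)
  let _ : Algebra ℚ_[p] (FractionRing R) :=
    (IsFractionRing.lift (A := ℤ_[p]) (K := ℚ_[p]) hinj).toAlgebra
  have hcast : ∀ x : ℤ_[p], algebraMap ℚ_[p] (FractionRing R) (algebraMap ℤ_[p] ℚ_[p] x) =
      algebraMap R (FractionRing R) (ψ x) := fun x => IsFractionRing.lift_algebraMap hinj x
  obtain ⟨i0, hi0⟩ := Function.ne_iff.mp hY
  let z := algebraMap R (FractionRing R) ((ψ.mapMatrix Y *ᵥ e) i0)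
  have hz : z ≠ 0 := fun h => hi0 (IsFractionRing.injective R (FractionRing R)
    (h.trans (map_zero _).symm))
  obtain ⟨f, hf⟩ : ∃ f : Module.Dual ℚ_[p] (FractionRing R), f z ≠ 0 := by
    by_contra hc
    push Not at hc
    exact hz ((Module.forall_dual_apply_eq_zero_iff ℚ_[p] z).mp hc)
  obtain ⟨s, hs⟩ := IsLocalization.exist_integer_multiples_of_finite (nonZeroDivisors ℤ_[p])
    fun k => f (algebraMap R (FractionRing R) (e k))
  choose v hv using hs
  have hv' : ∀ k, algebraMap ℤ_[p] ℚ_[p] (v k) =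
      algebraMap ℤ_[p] ℚ_[p] (s : ℤ_[p]) * f (algebraMap R (FractionRing R) (e k)) := fun k =>
    (hv k).trans (Algebra.smul_def _ _)
  have key : ∀ (Z : Matrix (Fin r) (Fin r) ℤ_[p]) i,
      algebraMap ℤ_[p] ℚ_[p] ((Z *ᵥ v) i) = algebraMap ℤ_[p] ℚ_[p] (s : ℤ_[p]) *
        f (algebraMap R (FractionRing R) ((ψ.mapMatrix Z *ᵥ e) i)) := by
    intro Z i
    simp only [Matrix.mulVec, dotProduct, map_sum, map_mul, Finset.mul_sum, hv',
      RingHom.mapMatrix_apply, Matrix.map_apply]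
    refine Finset.sum_congr rfl fun k _ => ?_
    rw [← hcast, ← Algebra.smul_def (algebraMap ℤ_[p] ℚ_[p] (Z i k)), map_smul, smul_eq_mul]
    ring
  refine ⟨v, fun i => funext fun k => IsFractionRing.injective ℤ_[p] ℚ_[p] ?_, fun h => hf ?_⟩
  · rw [key, hX, ← hv']
  · have h' := key Y i0
    rw [h, Pi.zero_apply, map_zero, eq_comm, mul_eq_zero] at h'
    exact h'.resolve_left ((map_ne_zero_iff _ (IsFractionRing.injective ℤ_[p] ℚ_[p])).mpr
      (nonZeroDivisors.coe_ne_zero s))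

variable {N : ℕ} [NeZero N] (T : GalRep.TorsionModel N p)

theorem projv_eq_of_cast (n : ℕ) {x y : Fin (Module.finrank ℤ T.H) → ℤ}
    (h : ∀ i, (x i : ZMod (p ^ n)) = (y i : ZMod (p ^ n))) : T.projv n x = T.projv n y := by
  rw [← sub_eq_zero, ← map_sub, T.projv_eq_zero_iff]
  intro i
  rw [← ZMod.intCast_zmod_eq_zero_iff_dvd, Pi.sub_apply, Int.cast_sub, h, sub_self]

theorem cast_mulVec {r n : ℕ} (X : Matrix (Fin r) (Fin r) ℤ) (u : Fin r → ℤ) :
    (fun i => ((X *ᵥ u) i : ZMod n)) =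
      X.map (Int.cast : ℤ → ZMod n) *ᵥ fun i => (u i : ZMod n) := by
  funext i
  exact RingHom.map_mulVec (Int.castRingHom (ZMod n)) X u i

theorem toZModPow_mulVec {r : ℕ} (n : ℕ) (Z : Matrix (Fin r) (Fin r) ℤ_[p]) (u : Fin r → ℤ_[p]) :
    (fun i => PadicInt.toZModPow n ((Z *ᵥ u) i)) =
      GalRep.redP p n Z *ᵥ fun i => PadicInt.toZModPow n (u i) := by
  funext i
  exact RingHom.map_mulVec (PadicInt.toZModPow n) Z u i

/-- If the fixed torsion points in the image of an operator have bounded order, the operator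
kills the fixed `ℤ_p` vectors. -/
theorem mulVec_eq_zero_of_torsion (G : Set Γℚ)
    (Z : Matrix (Fin (Module.finrank ℤ T.H)) (Fin (Module.finrank ℤ T.H)) ℤ)
    (hZ : ∀ σ ∈ G, T.galMat σ * GalRep.castP p Z = GalRep.castP p Z * T.galMat σ)
    {C : ℕ} (hC : C ≠ 0)
    (h : ∀ (n : ℕ) w, (∀ σ ∈ G, σ • T.projv n (Z *ᵥ w) = T.projv n (Z *ᵥ w)) →
      C • T.projv n (Z *ᵥ w) = 0)
    (v : Fin (Module.finrank ℤ T.H) → ℤ_[p]) (hv : ∀ σ ∈ G, T.galMat σ *ᵥ v = v) :
    GalRep.castP p Z *ᵥ v = 0 := by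
  funext i
  have hC' : (C : ℤ_[p]) ≠ 0 := Nat.cast_ne_zero.mpr hC
  refine (mul_eq_zero.mp (PadicInt.ext_of_toZModPow.mp fun n => ?_ :
    (C : ℤ_[p]) * (GalRep.castP p Z *ᵥ v) i = 0)).resolve_left hC'
  haveI : NeZero (p ^ n) := ⟨pow_ne_zero n (Fact.out : p.Prime).ne_zero⟩
  let w : Fin (Module.finrank ℤ T.H) → ℤ := fun k => ((PadicInt.toZModPow n (v k)).val : ℕ)
  have hw : (fun k => (w k : ZMod (p ^ n))) = fun k => PadicInt.toZModPow n (v k) := by
    funext k; simp [w]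
  have hred : (fun k => ((Z *ᵥ w) k : ZMod (p ^ n))) =
      fun k => PadicInt.toZModPow n ((GalRep.castP p Z *ᵥ v) k) := by
    rw [cast_mulVec, hw, toZModPow_mulVec, GalRep.redP_castP]
  have hfix : ∀ σ ∈ G, σ • T.projv n (Z *ᵥ w) = T.projv n (Z *ᵥ w) := fun σ hσ => by
    rw [T.smul_projv]
    refine projv_eq_of_cast T n (congrFun ?_)
    rw [cast_mulVec, ← T.redP_galMat, hred, ← toZModPow_mulVec, Matrix.mulVec_mulVec, hZ σ hσ,
      ← Matrix.mulVec_mulVec, hv σ hσ]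
  have h1 := h n w hfix
  rw [← map_nsmul, T.projv_eq_zero_iff] at h1
  have h2 := h1 i
  rw [← ZMod.intCast_zmod_eq_zero_iff_dvd, Pi.smul_apply, nsmul_eq_mul, Int.cast_mul,
    Int.cast_natCast, congrFun hred i] at h2
  rw [map_mul, map_natCast, map_zero, h2]

end FLTAgent.LevelSq
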