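import Mathlib.RingTheory.Trace.Basic
import Mathlib.LinearAlgebra.Matrix.Adjugate
import Mathlib.RingTheory.Nakayama
import Mathlib.RingTheory.Ideal.Quotient.Basic
import Mathlib.RingTheory.Noetherian.Basic

/-!
# Trace frames

A pair of finite families `a`, `c` with `w x = ∑ tr (x aᵢ) cᵢ = ∑ tr (x cᵢ) aᵢ` and
`∑ aᵢ cᵢ = w`.  With `w = 1` and integral families this is a separability idempotent: maximal
ideals are generated by those below and derivations extend by an explicit formula.
-/

set_option autoImplicit false
set_option linter.unusedSectionVars false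

noncomputable section

open Matrix

namespace FLTAgent.LevelSq

section Defs

variable (K : Type*) {L : Type*} [Field K] [Field L] [Algebra K L]

/-- A trace frame of weight `w`. -/
structure IsTraceFrame {ι : Type*} [Fintype ι] (w : K) (a c : ι → L) : Prop where
  left : ∀ x : L, w • x = ∑ i, Algebra.trace K L (x * a i) • c i
  right : ∀ x : L, w • x = ∑ i, Algebra.trace K L (x * c i) • a i
  casimir : ∑ i, a i * c i = algebraMap K L w

variable {K}

theorem IsTraceFrame.smul_left {ι : Type*} [Fintype ι] {w : K} {a c : ι → L}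
    (h : IsTraceFrame K w a c) (s : K) : IsTraceFrame K (s * w) (fun i => s • a i) c where
  left x := by
    rw [mul_smul, h.left x, Finset.smul_sum]
    exact Finset.sum_congr rfl fun i _ => by rw [mul_smul_comm, map_smul, smul_assoc]
  right x := by
    rw [mul_smul, h.right x, Finset.smul_sum]
    exact Finset.sum_congr rfl fun i _ => smul_comm _ _ _
  casimir := by
    simp only [smul_mul_assoc, ← Finset.smul_sum, h.casimir]
    rw [map_mul, Algebra.smul_def]

theorem IsTraceFrame.sum {ι κ : Type*} [Fintype ι] [Fintype κ] {v w : K} {a c : ι → L}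
    {b d : κ → L} (h : IsTraceFrame K v a c) (h' : IsTraceFrame K w b d) :
    IsTraceFrame K (v + w) (Sum.elim a b) (Sum.elim c d) where
  left x := by rw [Fintype.sum_sum_type, add_smul, h.left x, h'.left x]; rfl
  right x := by rw [Fintype.sum_sum_type, add_smul, h.right x, h'.right x]; rfl
  casimir := by rw [Fintype.sum_sum_type, map_add, ← h.casimir, ← h'.casimir]; rfl

variable {n : Type*} [Fintype n] [DecidableEq n]

/-- The families dual to a basis, cleared of denominators. -/
def adjDual (b : Module.Basis n K L) (i : n) : L :=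
  ∑ j, (Algebra.traceMatrix K b).adjugate i j • b j

theorem trace_adjDual_mul (b : Module.Basis n K L) (i j : n) :
    Algebra.trace K L (adjDual b i * b j) =
      if i = j then (Algebra.traceMatrix K b).det else 0 := by
  have h := congrFun (congrFun (Matrix.adjugate_mul (Algebra.traceMatrix K b)) i) j
  rw [Matrix.mul_apply] at h
  simp only [Matrix.smul_apply, Matrix.one_apply, smul_eq_mul, mul_ite, mul_one, mul_zero] at h
  rw [← h, adjDual, Finset.sum_mul, map_sum]
  refine Finset.sum_congr rfl fun l _ => ?_
  rw [smul_mul_assoc, map_smul, smul_eq_mul, Algebra.traceMatrix_apply, Algebra.traceForm_apply]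

theorem trace_mul_adjDual (b : Module.Basis n K L) (x : L) (i : n) :
    Algebra.trace K L (x * adjDual b i) = (Algebra.traceMatrix K b).det * b.repr x i := by
  conv_lhs => rw [← b.sum_repr x, Finset.sum_mul, map_sum]
  rw [Finset.sum_eq_single i]
  · rw [smul_mul_assoc, map_smul, mul_comm (b i), trace_adjDual_mul, if_pos rfl, smul_eq_mul,
      mul_comm]
  · intro j _ hj
    rw [smul_mul_assoc, map_smul, mul_comm (b j), trace_adjDual_mul, if_neg (Ne.symm hj), smul_zero]
  · simp

theorem trace_eq_sum_repr (b : Module.Basis n K L) (x : L) :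
    Algebra.trace K L x = ∑ i, b.repr (x * b i) i := by
  rw [Algebra.trace_eq_matrix_trace b, Matrix.trace]
  simp [Algebra.leftMulMatrix_eq_repr_mul]

/-- A basis with nonzero discriminant gives a frame. -/
theorem isTraceFrame_adjDual (b : Module.Basis n K L)
    (hd : (Algebra.traceMatrix K b).det ≠ 0) :
    IsTraceFrame K (Algebra.traceMatrix K b).det (adjDual b) b where
  left x := by
    conv_lhs => rw [← b.sum_repr x, Finset.smul_sum]
    exact Finset.sum_congr rfl fun i _ => by rw [trace_mul_adjDual, mul_smul]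
  right x := by
    have hbase : ∀ j, (Algebra.traceMatrix K b).det • b j =
        ∑ i, Algebra.trace K L (b j * b i) • adjDual b i := by
      intro j
      simp only [adjDual, Finset.smul_sum, smul_smul]
      rw [Finset.sum_comm]
      simp only [← Finset.sum_smul]
      have h : ∀ l, (∑ i, Algebra.trace K L (b j * b i) *
          (Algebra.traceMatrix K b).adjugate i l) =
          if j = l then (Algebra.traceMatrix K b).det else 0 := fun l => by
        have h := congrFun (congrFun (Matrix.mul_adjugate (Algebra.traceMatrix K b)) j) l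
        rw [Matrix.mul_apply] at h
        simpa [Matrix.one_apply, Algebra.traceMatrix_apply, Algebra.traceForm_apply] using h
      simp only [h, ite_smul, zero_smul, Finset.sum_ite_eq, Finset.mem_univ, if_true]
    conv_lhs => rw [← b.sum_repr x, Finset.smul_sum]
    conv_rhs => enter [2, i]; rw [← b.sum_repr x, Finset.sum_mul, map_sum, Finset.sum_smul]
    rw [Finset.sum_comm (γ := n)]
    refine Finset.sum_congr rfl fun j _ => ?_
    rw [smul_comm, hbase, Finset.smul_sum]
    exact Finset.sum_congr rfl fun i _ => by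
      rw [smul_mul_assoc, map_smul, smul_assoc]
  casimir := by
    set G := Algebra.traceMatrix K b
    refine sub_eq_zero.1 ?_
    set z := ∑ i, adjDual b i * b i - algebraMap K L G.det
    have hz : ∀ y, Algebra.trace K L (y * z) = 0 := by
      intro y
      rw [mul_sub, map_sub, Finset.mul_sum, map_sum, sub_eq_zero,
        mul_comm y (algebraMap K L G.det), ← Algebra.smul_def, map_smul, trace_eq_sum_repr b y,
        Finset.smul_sum]
      refine Finset.sum_congr rfl fun i _ => ?_
      rw [mul_left_comm, mul_comm, trace_mul_adjDual, smul_eq_mul]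
    have h0 : (Algebra.traceMatrix K b) *ᵥ (fun i => b.repr z i) = 0 := by
      funext j
      have h := hz (b j)
      rw [← b.sum_repr z, Finset.mul_sum, map_sum] at h
      rw [Pi.zero_apply, ← h]
      refine Finset.sum_congr rfl fun i _ => ?_
      show Algebra.traceMatrix K b j i * b.repr z i = _
      rw [mul_smul_comm, map_smul, smul_eq_mul, Algebra.traceMatrix_apply,
        Algebra.traceForm_apply, mul_comm]
    have := Matrix.eq_zero_of_mulVec_eq_zero hd h0
    exact b.repr.map_eq_zero_iff.1 (Finsupp.ext fun i => congrFun this i)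

/-! ### Change of the base field -/

variable {K' L' : Type*} [Field K'] [Field L'] [Algebra K' L'] (ψ : K →+* K') (φ : L →+* L')
  (hφ : ∀ r : K, φ (algebraMap K L r) = algebraMap K' L' (ψ r))

include hφ

theorem map_smul_of_compat (r : K) (x : L) : φ (r • x) = ψ r • φ x := by
  rw [Algebra.smul_def, map_mul, hφ, ← Algebra.smul_def]

/-- The trace commutes with a base change preserving a basis. -/
theorem trace_map_of_basis (b : Module.Basis n K L) (b' : Module.Basis n K' L')
    (hb : ∀ i, b' i = φ (b i)) (x : L) :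
    Algebra.trace K' L' (φ x) = ψ (Algebra.trace K L x) := by
  rw [trace_eq_sum_repr b', trace_eq_sum_repr b, map_sum]
  refine Finset.sum_congr rfl fun i _ => ?_
  have h : φ (x * b i) = ∑ j, ψ (b.repr (x * b i) j) • b' j := by
    conv_lhs => rw [← b.sum_repr (x * b i), map_sum]
    exact Finset.sum_congr rfl fun j _ => by rw [map_smul_of_compat ψ φ hφ, hb]
  rw [map_mul, ← hb] at h
  rw [h, b'.repr_sum_self]

/-- A frame is preserved by a base change preserving a basis. -/
theorem IsTraceFrame.map {ι : Type*} [Fintype ι] {w : K} {a c : ι → L}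
    (h : IsTraceFrame K w a c) (b : Module.Basis n K L) (b' : Module.Basis n K' L')
    (hb : ∀ i, b' i = φ (b i)) :
    IsTraceFrame K' (ψ w) (fun i => φ (a i)) (fun i => φ (c i)) := by
  have key : ∀ (a c : ι → L), (∀ x, w • x = ∑ i, Algebra.trace K L (x * a i) • c i) →
      ∀ x : L', ψ w • x = ∑ i, Algebra.trace K' L' (x * φ (a i)) • φ (c i) := by
    intro a c h x
    have hbase : ∀ j, ψ w • b' j = ∑ i, Algebra.trace K' L' (b' j * φ (a i)) • φ (c i) := fun j => by
      rw [hb, ← map_smul_of_compat ψ φ hφ, h, map_sum]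
      exact Finset.sum_congr rfl fun i _ => by
        rw [map_smul_of_compat ψ φ hφ, ← map_mul, trace_map_of_basis ψ φ hφ b b' hb]
    conv_lhs => rw [← b'.sum_repr x, Finset.smul_sum]
    conv_rhs => enter [2, i]; rw [← b'.sum_repr x, Finset.sum_mul, map_sum, Finset.sum_smul]
    rw [Finset.sum_comm (γ := ι)]
    refine Finset.sum_congr rfl fun j _ => ?_
    rw [smul_comm, hbase, Finset.smul_sum]
    exact Finset.sum_congr rfl fun i _ => by rw [smul_mul_assoc, map_smul, smul_assoc]
  exact ⟨key a c h.left, key c a h.right, by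
    rw [← hφ, ← h.casimir, map_sum]
    exact Finset.sum_congr rfl fun i _ => (map_mul φ _ _).symm⟩

end Defs

/-! ### Consequences of a frame of weight one -/

section Ring

variable {C : Type*} [CommRing C] {ι : Type*} [Fintype ι] (a c : ι → C) (T : C → C)

/-- A maximal ideal is generated locally by `y` when the traces are constants modulo `y`. -/
theorem exists_mul_mem_of_frame [IsNoetherianRing C] (hleft : ∀ z, z = ∑ i, T (z * a i) * c i)
    (hright : ∀ z, z = ∑ i, T (z * c i) * a i) (hcas : ∑ i, a i * c i = 1) (κ : Subring C)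
    {x y : Ideal C} [x.IsMaximal] (hyx : y ≤ x) (hT : ∀ z, ∃ r ∈ κ, T z - r ∈ y)
    (hres : ∀ z, ∃ r ∈ κ, z - r ∈ x) (hκ : ∀ r ∈ κ, r ∈ x → r ∈ y) {z : C} (hz : z ∈ x) :
    ∃ d ∉ x, d * z ∈ y := by
  classical
  choose α hακ hαx using fun i => hres (a i)
  choose τ hτκ hτy using hT
  have hmain : ∀ z ∈ x, z ∈ y ⊔ x * x := by
    intro z hz
    obtain ⟨γ, hγ⟩ : ∃ γ : ι → C, ∀ i, γ i = a i - α i := ⟨_, fun _ => rfl⟩
    have hsum : ∀ l, ∑ i, α i * T (z * c i * a l) ∈ y := by
      intro l
      set s := ∑ i, α i * τ (z * c i * a l)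
      have h1 : ∑ i, α i * T (z * c i * a l) - s ∈ y := by
        rw [← Finset.sum_sub_distrib]
        exact Ideal.sum_mem _ fun i _ => by rw [← mul_sub]; exact y.mul_mem_left _ (hτy _)
      have hs : s ∈ x := by
        have h2 : ∑ i, α i * T (z * c i * a l) ∈ x := by
          have h3 : ∑ i, a i * T (z * c i * a l) = z * a l := by
            conv_rhs => rw [hright (z * a l)]
            exact Finset.sum_congr rfl fun i _ => by rw [mul_right_comm z (a l), mul_comm]
          have h4 : z * a l - ∑ i, α i * T (z * c i * a l) ∈ x := by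
            rw [← h3, ← Finset.sum_sub_distrib]
            exact Ideal.sum_mem _ fun i _ => by rw [← sub_mul]; exact x.mul_mem_right _ (hαx i)
          simpa using x.sub_mem (x.mul_mem_right (a l) hz) h4
        simpa using x.sub_mem h2 (hyx h1)
      have hsy : s ∈ y := hκ _ (Subring.sum_mem _ fun i _ => mul_mem (hακ i) (hτκ _)) hs
      simpa using y.add_mem h1 hsy
    have hrest : ∑ i, α i * (z * c i) ∈ y := by
      have e : ∑ i, α i * (z * c i) = ∑ l, (∑ i, α i * T (z * c i * a l)) * c l := by
        simp only [Finset.sum_mul]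
        rw [Finset.sum_comm]
        refine Finset.sum_congr rfl fun i _ => ?_
        conv_lhs => rw [hleft (z * c i), Finset.mul_sum]
        exact Finset.sum_congr rfl fun l _ => (mul_assoc _ _ _).symm
      rw [e]
      exact Ideal.sum_mem _ fun l _ => y.mul_mem_right _ (hsum l)
    have hsq : ∑ i, γ i * (z * c i) ∈ x * x :=
      Ideal.sum_mem _ fun i _ => Ideal.mul_mem_mul (by rw [hγ]; exact hαx i) (x.mul_mem_right _ hz)
    have e : z = ∑ i, α i * (z * c i) + ∑ i, γ i * (z * c i) := by
      conv_lhs => rw [← mul_one z, ← hcas, Finset.mul_sum]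
      rw [← Finset.sum_add_distrib]
      exact Finset.sum_congr rfl fun i _ => by rw [hγ]; ring
    rw [e]
    exact Submodule.add_mem_sup hrest hsq
  set π := Ideal.Quotient.mk y
  let N : Submodule C (C ⧸ y) :=
    Submodule.restrictScalars C (x.map π : Submodule (C ⧸ y) (C ⧸ y))
  have hle : N ≤ x • N := by
    intro w hw
    obtain ⟨v, hv, rfl⟩ := (Ideal.mem_map_iff_of_surjective π Ideal.Quotient.mk_surjective).1 hw
    obtain ⟨u, hu, t, ht, rfl⟩ := Submodule.mem_sup.1 (hmain v hv)
    rw [map_add, Ideal.Quotient.eq_zero_iff_mem.2 hu, zero_add]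
    refine Submodule.mul_induction_on ht (fun r hr s hs => ?_) fun r s hr hs => ?_
    · rw [map_mul]
      have hsN : π s ∈ N := Ideal.mem_map_of_mem π hs
      exact Submodule.smul_mem_smul (N := N) hr hsN
    · rw [map_add]; exact add_mem hr hs
  have hfg : N.FG := IsNoetherian.noetherian _
  obtain ⟨r, hr, hr0⟩ := Submodule.exists_sub_one_mem_and_smul_eq_zero_of_fg_of_le_smul x _ hfg hle
  refine ⟨r, fun hrx => ?_, Ideal.Quotient.eq_zero_iff_mem.1 ?_⟩
  · exact (inferInstance : x.IsMaximal).ne_top
      ((Ideal.eq_top_iff_one _).2 (by simpa using x.sub_mem hrx hr))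
  · rw [map_mul]
    exact hr0 (π z) (Ideal.mem_map_of_mem π hz)

/-- A derivation on an extension is given by its values on the traces. -/
theorem derivation_eq_of_frame {M : Type*} [CommRing M] (φ : C →+* M) (δ : M →+ M)
    (hδ : ∀ u v, δ (u * v) = δ u * v + u * δ v) (hleft : ∀ z, z = ∑ i, T (z * a i) * c i)
    (hright : ∀ z, z = ∑ i, T (z * c i) * a i) (hcas : ∑ i, a i * c i = 1) (x : C) :
    δ (φ x) = ∑ i, ∑ l, φ (a i) * φ (c l) * δ (φ (T (x * c i * a l))) := by
  have h1 : ∑ i, φ (a i) * δ (φ (x * c i)) =
      δ (φ x) + φ x * ∑ i, φ (a i) * δ (φ (c i)) := by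
    simp only [map_mul, hδ, mul_add, Finset.sum_add_distrib, Finset.mul_sum]
    congr 1
    · have h := congrArg φ hcas
      rw [map_sum, map_one] at h
      simp only [map_mul] at h
      conv_rhs => rw [← mul_one (δ (φ x)), ← h, Finset.mul_sum]
      exact Finset.sum_congr rfl fun i _ => by ring
    · exact Finset.sum_congr rfl fun i _ => by ring
  have h2 : ∑ i, φ (a i) * δ (φ (x * c i)) =
      ∑ i, ∑ l, φ (a i) * φ (c l) * δ (φ (T (x * c i * a l))) +
        ∑ i, ∑ l, φ (a i) * φ (T (x * c i * a l)) * δ (φ (c l)) := by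
    rw [← Finset.sum_add_distrib]
    refine Finset.sum_congr rfl fun i _ => ?_
    rw [← Finset.sum_add_distrib]
    conv_lhs => rw [hleft (x * c i), map_sum, map_sum, Finset.mul_sum]
    exact Finset.sum_congr rfl fun l _ => by rw [map_mul, hδ]; ring
  have h3 : ∑ i, ∑ l, φ (a i) * φ (T (x * c i * a l)) * δ (φ (c l)) =
      φ x * ∑ l, φ (a l) * δ (φ (c l)) := by
    rw [Finset.sum_comm, Finset.mul_sum]
    refine Finset.sum_congr rfl fun l _ => ?_
    rw [← mul_assoc, ← map_mul, ← Finset.sum_mul]
    congr 1
    conv_rhs => rw [hright (x * a l), map_sum]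
    exact Finset.sum_congr rfl fun i _ => by rw [map_mul, mul_right_comm x (a l)]; ring
  rw [h1, h3] at h2
  exact add_right_cancel h2

end Ring

end FLTAgent.LevelSq
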