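import Fermat.Agent.LevelSq.FixedVectors
import Fermat.Agent.LevelDrop.Inputs

/-!
# Inertia at a prime dividing the level of a newform twice is not unipotent

The representation attached to a newform of level `q² M'` is not unipotent at `q`, from the
geometric input `GeometrySq` and the good reduction specialisations.
-/

set_option autoImplicit false

noncomputable section

namespace FLTAgent.LevelSq

open Polynomial Matrix

local notation "Qbar" => AlgebraicClosure ℚ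
local notation "Γℚ" => AlgebraicClosure ℚ ≃ₐ[ℚ] AlgebraicClosure ℚ

variable {M p : ℕ} [NeZero M] [Fact p.Prime] {S : Finset ℕ}

theorem injective_of_chig {chig : CuspForm.heckeAlgebra M 2 (↑S : Set ℕ) →+* ℂ}
    {O : Type} [CommRing O] [IsDomain O] [CharZero O] (iota : chig.range →+* O) :
    Function.Injective iota := by
  have := IntegralStructure.moduleFinite_heckeAlgebra M 2 (↑S : Set ℕ)
  haveI : Module.Finite ℤ chig.range :=
    Module.Finite.of_surjective chig.rangeRestrict.toIntAlgHom.toLinearMap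
      chig.rangeRestrict_surjective
  refine (RingHom.injective_iff_ker_eq_bot iota).mpr ?_
  refine Ideal.eq_bot_of_comap_eq_bot (R := ℤ) (le_bot_iff.mp fun z hz => ?_)
  rw [Ideal.mem_comap, RingHom.mem_ker] at hz
  simpa using hz

/-- The trace of a representation with the eigenvalues of `χ` as Frobenius traces is given by the
operators `g + χ(g) g⁻¹` on the eigenvectors. -/
theorem phi_mulVec_of_unipotent {R : Type} [CommRing R] [IsDomain R] [IsDiscreteValuationRing R]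
    [IsAdicComplete (IsLocalRing.maximalIdeal R) R] [CharZero R]
    (Mx : GalRep.MatModel M p ↑S) (hd : GalRep.FrobeniusDense) (ψ : ℤ_[p] →+* R)
    (hp : (p : R) ∈ IsLocalRing.maximalIdeal R)
    (χ : CuspForm.heckeAlgebra M 2 (↑S : Set ℕ) →+* R) (ρ : GaloisRepAdic R)
    (hρ : ∀ (ℓ : ℕ) (hℓ : ℓ.Prime) (hℓN : ¬ ℓ ∣ M) (hℓS : ℓ ∉ (↑S : Set ℕ)),
      ∀ A : ValuationSubring Qbar, A.LiesOverPrime ℓ → ∀ σ : Γℚ, A.IsFrobeniusAt σ ℓ →
        LinearMap.charpoly (ρ.ρ σ) =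
          X ^ 2 - C (χ (CuspForm.heckeAlgebra.T hℓ hℓN hℓS)) * X + C ((ℓ : R)))
    {g : Γℚ} (hg : LinearMap.charpoly (ρ.ρ g) = (X - 1) ^ 2) (e : Fin Mx.r → R)
    (he : ∀ t, Mx.opR R t *ᵥ e = χ t • e) :
    ψ.mapMatrix (Mx.phi g) *ᵥ e = (2 : R) • e := by
  funext j
  rw [← sub_eq_zero, ← Submodule.mem_bot R, ← Ideal.iInf_pow_eq_bot_of_isLocalRing
    (IsLocalRing.maximalIdeal R) (IsLocalRing.maximalIdeal.isMaximal R).ne_top, Submodule.mem_iInf]
  intro n
  obtain ⟨L, hL, hlev⟩ := LevelDrop.isLevelFunction_charpoly ρ n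
  haveI := hL
  obtain ⟨ℓ, hℓ, hℓN, hℓS, A, hA, σ, hσ, -, hag, happ⟩ := Mx.exists_approx hd g n L
  set t := CuspForm.heckeAlgebra.T (k := 2) hℓ hℓN hℓS
  have h1 : χ t - 2 ∈ IsLocalRing.maximalIdeal R ^ n := by
    have h' := congrArg (fun q => q.coeff 1) (hlev g σ hag)
    simp only [hρ ℓ hℓ hℓN hℓS A hA σ hσ, hg, coeff_map] at h'
    rw [show ((X - 1) ^ 2 : R[X]) = X ^ 2 - C 2 * X + C 1 by rw [C_1, map_ofNat]; ring,
      show ∀ a b : R, (X ^ 2 - C a * X + C b : R[X]).coeff 1 = -a from fun a b => by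
        simp [coeff_X_pow, coeff_C],
      show ∀ a b : R, (X ^ 2 - C a * X + C b : R[X]).coeff 1 = -a from fun a b => by
        simp [coeff_X_pow, coeff_C], map_neg, map_neg, neg_inj] at h'
    exact Ideal.Quotient.eq.mp h'
  have h2 : ∀ a b, (ψ.mapMatrix (Mx.phi g) - Mx.opR R t) a b ∈ IsLocalRing.maximalIdeal R ^ n := by
    intro a b
    rw [← Mx.map_castP ψ]
    exact Mx.sub_mem_of_redP ψ hp happ a b
  have h3 : ((ψ.mapMatrix (Mx.phi g) - Mx.opR R t) *ᵥ e) j ∈ IsLocalRing.maximalIdeal R ^ n := by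
    simp only [Matrix.mulVec, dotProduct]
    exact Ideal.sum_mem _ fun b _ => Ideal.mul_mem_right _ _ (h2 j b)
  rw [Matrix.sub_mulVec, he, Pi.sub_apply, Pi.smul_apply, smul_eq_mul] at h3
  rw [Pi.smul_apply, smul_eq_mul]
  convert add_mem h3 (Ideal.mul_mem_right (e j) _ h1) using 1
  ring

/-- Non-unipotence from the geometric input. -/
theorem not_isUnipotentOnInertiaAt (hspec : GalRep.SpecializationsExist) (hgeom : GeometrySq)
    {g : CuspForm (CongruenceSubgroup.Gamma0 M) 2} (hg : g.IsNewform)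
    (hpS : p ∈ S) (hMS : ∀ r : ℕ, r.Prime → r ∣ M → r ∈ S)
    {R : Type} [CommRing R] [IsDomain R] [IsDiscreteValuationRing R]
    [IsAdicComplete (IsLocalRing.maximalIdeal R) R] [CharZero R]
    (hpR : (p : R) ∈ IsLocalRing.maximalIdeal R)
    (chig : CuspForm.heckeAlgebra M 2 (↑S : Set ℕ) →+* ℂ)
    (hchig : ∀ (ℓ : ℕ) (hℓ : ℓ.Prime) (hℓM : ¬ ℓ ∣ M) (hℓS : ℓ ∉ (↑S : Set ℕ)),
      chig (CuspForm.heckeAlgebra.T hℓ hℓM hℓS) = ModularFormClass.qCoeff g ℓ)
    (iota : chig.range →+* R) (ρ : GaloisRepAdic R)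
    (hρ : ∀ (ℓ : ℕ) (hℓ : ℓ.Prime) (hℓN : ¬ ℓ ∣ M) (hℓS : ℓ ∉ (↑S : Set ℕ)),
      ∀ A : ValuationSubring Qbar, A.LiesOverPrime ℓ → ∀ σ : Γℚ, A.IsFrobeniusAt σ ℓ →
        LinearMap.charpoly (ρ.ρ σ) = X ^ 2 -
          C ((iota.comp chig.rangeRestrict) (CuspForm.heckeAlgebra.T hℓ hℓN hℓS)) * X + C ((ℓ : R)))
    {q : ℕ} (hq : q.Prime) (hqp : q ≠ p) (hfac : M.factorization q = 2) :
    ¬ ρ.IsUnipotentOnInertiaAt q := by
  intro huni
  haveI : NeZero p := ⟨(Fact.out : p.Prime).ne_zero⟩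
  haveI : NeZero q := ⟨hq.ne_zero⟩
  obtain ⟨M', hM⟩ : q ^ 2 ∣ M := hfac ▸ Nat.ordProj_dvd M q
  have hM' : ¬ q ∣ M' := by
    rintro ⟨k, rfl⟩
    have : q ^ 3 ∣ M := ⟨k, by rw [hM]; ring⟩
    have := (hq.pow_dvd_iff_le_factorization (NeZero.ne M)).mp this
    omega
  haveI : NeZero (q * M') := ⟨mul_ne_zero hq.ne_zero fun h => NeZero.ne M (by rw [hM, h, mul_zero])⟩
  have h1 : q * M' * 1 ∣ M := ⟨q, by rw [hM]; ring⟩
  have hq' : q * M' * q ∣ M := ⟨1, by rw [hM]; ring⟩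
  have hLM : q * M' ∣ M := (mul_one (q * M')) ▸ h1
  have hne : q * M' ≠ M := by
    intro h
    rw [hM, sq, mul_assoc] at h
    have h' := mul_left_cancel₀ hq.ne_zero h
    have hM0 : M' ≠ 0 := fun h0 => NeZero.ne M (by rw [hM, h0, mul_zero])
    exact hq.one_lt.ne' (mul_eq_right₀ hM0 |>.mp h'.symm)
  obtain ⟨a, ha, hachig⟩ := exists_op hspec hg S hMS hLM hne chig hchig
  set χ := iota.comp chig.rangeRestrict
  have hχa : χ a ≠ 0 := fun h => hachig (by
    have := injective_of_chig iota (h.trans (map_zero iota).symm)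
    exact congrArg Subtype.val this)
  obtain ⟨A, hA⟩ := Frobenius.exists_liesOverPrime hq
  obtain ⟨C, hC, hgeo⟩ := hgeom q M' M hq hM hM' h1 hq' A hA
  let TM := JTors.torsionModel M p
  let TL := JTors.torsionModel (q * M') p
  have hGM := GalRep.galoisFacts hspec M p
  have hGL := GalRep.galoisFacts hspec (q * M') p
  have hSM : GalRep.levelPrimes M ⊆ (↑S : Set ℕ) := fun r hr => hMS r hr.1 hr.2
  have hSL : GalRep.levelPrimes (q * M') ⊆ (↑S : Set ℕ) := fun r hr =>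
    hMS r hr.1 (hr.2.trans hLM)
  let Mx := TM.matModel hGM hSM
  obtain ⟨ψ⟩ := GalRep.exists_padicHom p R hpR
  let U : Submodule R (Fin Mx.r → R) :=
    ⨅ t, LinearMap.ker (Matrix.mulVecLin (Mx.opR R t) - χ t • LinearMap.id)
  have hmemU : ∀ e, e ∈ U ↔ ∀ t, Mx.opR R t *ᵥ e = χ t • e := fun e => by
    simp [U, Submodule.mem_iInf, sub_eq_zero]
  have hU : U ≠ ⊥ := by
    obtain ⟨e, he0, he⟩ := Mx.exists_eigen_lattice χ
    exact fun hb => he0 ((Submodule.eq_bot_iff U).mp hb e ((hmemU e).mpr he))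
  let RM : Γℚ →* Matrix (Fin Mx.r) (Fin Mx.r) R := ψ.mapMatrix.toMonoidHom.comp Mx.G
  let ρI := RM.comp (A.inertiaSubgroupIn ℚ).subtype
  have hstab : ∀ σ, ∀ e ∈ U, ρI σ *ᵥ e ∈ U := by
    intro σ e he
    rw [hmemU] at he ⊢
    intro t
    show Mx.opR R t *ᵥ (ψ.mapMatrix (Mx.G σ) *ᵥ e) = χ t • (ψ.mapMatrix (Mx.G σ) *ᵥ e)
    rw [← Mx.map_castP ψ, Matrix.mulVec_mulVec, ← map_mul, ← Mx.G_comm, map_mul,
      ← Matrix.mulVec_mulVec, Mx.map_castP, he, Matrix.mulVec_smul]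
  have hsq : ∀ σ, ∀ e ∈ U, (ρI σ - 1) *ᵥ ((ρI σ - 1) *ᵥ e) = 0 := by
    intro σ e he
    have h2 := phi_mulVec_of_unipotent Mx LevelDrop.frobeniusDense ψ hpR χ ρ hρ
      (huni A hA σ σ.2) e ((hmemU e).mp he)
    rw [GalRep.MatModel.phi, GalRep.cyclo_inertia hq hqp hA σ.2, Units.val_one, one_smul,
      map_add, Matrix.add_mulVec] at h2
    have h3 := congrArg (fun x => ψ.mapMatrix (Mx.G σ) *ᵥ x) h2
    simp only [Matrix.mulVec_add, Matrix.mulVec_mulVec, ← map_mul, mul_inv_cancel, map_one,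
      Matrix.one_mulVec, Matrix.mulVec_smul] at h3
    show (ψ.mapMatrix (Mx.G σ) - 1) *ᵥ ((ψ.mapMatrix (Mx.G σ) - 1) *ᵥ e) = 0
    simp only [Matrix.sub_mulVec, Matrix.one_mulVec, Matrix.mulVec_sub]
    rw [map_mul, map_mul, ← Matrix.mulVec_mulVec] at h3
    rw [two_smul] at h3
    linear_combination (norm := abel) h3
  obtain ⟨e, heU, he0, hfix⟩ := exists_common_fixed ρI U hU hstab hsq
  obtain ⟨v, hvfix, hv⟩ := exists_padic_fixed ψ (fun σ : A.inertiaSubgroupIn ℚ => Mx.G σ)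
    (GalRep.castP p (Mx.Tm a)) e hfix (by
      rw [Mx.map_castP ψ, (hmemU e).mp heU a]
      exact smul_ne_zero hχa he0)
  refine hv (mulVec_eq_zero_of_torsion TM (A.inertiaSubgroupIn ℚ : Set Γℚ) (Mx.Tm a)
    (fun σ _ => Mx.G_comm σ a) hC (fun n w hw => ?_) v fun σ hσ => hvfix ⟨σ, hσ⟩)
  refine hgeo (p ^ n) (fun h => hqp ?_) _ (TM.pow_smul_projv n _) hw ?_ ?_
  · exact (Nat.prime_dvd_prime_iff_eq hq (Fact.out : p.Prime)).mp (hq.dvd_of_dvd_pow h)
  · exact push_eq_zero TM hGM hGL hpS hSM hSL 1 h1 ha TL n w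
  · exact push_eq_zero TM hGM hGL hpS hSM hSL q hq' ha TL n w

/-- The statement of S36 from the geometric input. -/
theorem newformRamifiedAtSquare (hspec : GalRep.SpecializationsExist) (hgeom : GeometrySq) :
    LevelDrop.NewformRamifiedAtSquare := by
  intro M _ g hg lam _ S O' _ _ _ _ _ _ hlam _ chig hchig iota hlamS hMS _
  obtain ⟨Mx⟩ := exists_matModel hspec M lam S hMS
  obtain ⟨ρ, hρ⟩ := exists_galoisRep_same Mx LevelDrop.frobeniusDense hlamS O' hlam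
    (iota.comp chig.rangeRestrict)
  exact ⟨O', inferInstance, inferInstance, inferInstance, inferInstance, inferInstance,
    inferInstance, Algebra.id O', Module.Finite.self O', ⟨fun a ha => ha⟩, fun a b h => h, ρ,
    hρ, fun q hq hqlam hfac =>
      not_isUnipotentOnInertiaAt hspec hgeom hg hlamS hMS hlam chig hchig iota ρ hρ hq hqlam hfac⟩

end FLTAgent.LevelSq
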