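import Fermat.Agent.LevelSq.Average
import Fermat.Agent.LevelSq.RepStep
import Fermat.Agent.WeilPairing.FrobeniusTrace

/-!
# The geometric input at a square level

`GeometrySq` follows from the existence of base models at some multiple of the prime-to-`q` level.
-/

set_option autoImplicit false
set_option linter.style.haveILetI false
set_option linter.unusedSectionVars false
set_option synthInstance.maxHeartbeats 100000

noncomputable section

open ModularCurve AlgebraicCurve Finset
open FLTAgent.Hecke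

namespace FLTAgent.LevelSq

local notation "Qbar" => AlgebraicClosure ℚ

/-- A base model exists at some multiple, prime to `q`, of every level prime to `q`. -/
def BaseModelAt (q : ℕ) [Fact q.Prime] : Prop :=
  ∀ (A : ValuationSubring Qbar), A.LiesOverPrime q → ∀ (M : ℕ), 0 < M → ¬ q ∣ M →
    ∀ [IsAlgClosed (IsLocalRing.ResidueField A)],
    ∃ (N : ℕ) (_ : NeZero N), M ∣ N ∧ ¬ q ∣ N ∧
      ∃ B : BaseData (urRing A) (q : urRing A) q (MF (urField A) N) (IsLocalRing.ResidueField A),
        IsBaseModel B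

variable {q : ℕ} [hq : Fact q.Prime]

local instance : NeZero q := ⟨hq.out.ne_zero⟩

variable {A : ValuationSubring Qbar} (hA : A.LiesOverPrime q) {N : ℕ} [NeZero N] (hN : ¬ q ∣ N)
  {ζ : Qbarˣ} (hζ : IsPrimitiveRoot (ζ : Qbar) q) [IsAlgClosed (IsLocalRing.ResidueField A)]
  (B : BaseData (urRing A) (q : urRing A) q (MF (urField A) N) (IsLocalRing.ResidueField A))
  (hB : IsBaseModel B)
include hA hN hζ hB

/-- Products with vanishing row and column sums of exponents are `m`-th powers. -/
theorem exists_pow_eq_conjProd {m : ℕ} (hm : ¬ q ∣ m) {f : MF (urField A) (q ^ 2 * N)} (hf0 : f ≠ 0)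
    (hdivF : ∀ V : ValuationSubring (MF (urField A) (q ^ 2 * N)),
      (∀ x : urField A, algebraMap (urField A) _ x ∈ V) →
      ∃ y u : MF (urField A) (q ^ 2 * N), f = u * y ^ m ∧ u ∈ V ∧ u⁻¹ ∈ V)
    (c : RootPair q → ℤ) (hc1 : ∀ o, ∑ p ∈ univ.filter (fun p : RootPair q => p.1.1 = o), c p = 0)
    (hc2 : ∀ o, ∑ p ∈ univ.filter (fun p : RootPair q => p.1.2 = o), c p = 0) :
    ∃ h : fieldL q A N ζ, h ^ m = ∏ p, (iotaL (A := A) hN hζ p f) ^ c p := by
  obtain ⟨D, hD⟩ := exists_sqData hA hN hζ B hB fun P hP =>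
    exists_eq_branchVal hA hN hζ (hB.j_eq ▸ hP)
  exact exists_pow_eq_conjProd_of_sqData hA hN hζ hB D hD hm hf0 hdivF c hc1 hc2

omit hA hN hζ hB in
/-- The geometric input from the base models. -/
theorem geometrySq_of_baseModel
    (hbase : ∀ (q : ℕ) [Fact q.Prime], BaseModelAt q) : GeometrySq := by
  intro q M' M _ _ _ hqp hM hM' h1 hqd A hA
  haveI : Fact q.Prime := ⟨hqp⟩
  haveI : NeZero M' := ⟨fun h => NeZero.ne (q * M') (by rw [h, mul_zero])⟩
  haveI := WeilPairing.isAlgClosed_residueField A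
  obtain ⟨N, _, hMN, hN, B, hB⟩ := hbase q A hA M' (Nat.pos_of_ne_zero (NeZero.ne M')) hM'
  exact exists_smul_eq_zero_of_baseData hA hM hMN hN B hB rfl h1 hqd

end FLTAgent.LevelSq
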