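import Fermat.Agent.LevelSq.BaseModel
import Fermat.Agent.LevelSq.Geometry

/-!
The geometric input at square levels, unconditionally: base models exist at every prime.
-/

set_option autoImplicit false
set_option synthInstance.maxHeartbeats 100000

noncomputable section

namespace FLTAgent.LevelSq

theorem baseModelAt (q : ℕ) [Fact q.Prime] : BaseModelAt q :=
  fun _ hA M hM hqM _ => exists_baseModel hA M hM hqM

/-- The geometric input of S36. -/
theorem geometrySq : GeometrySq :=
  geometrySq_of_baseModel fun q _ => baseModelAt q

end FLTAgent.LevelSq
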