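import Fermat.Agent.Genus.JDeriv
import Fermat.Agent.Igusa.PrimeEquation
import Fermat.Agent.Igusa.Basis
import Mathlib.NumberTheory.ModularForms.LevelOne.GradedRing

/-!
# The derivative of `j` as a series: `(θj) ^ 6 = j ^ 4 (j - 1728) ^ 3 Δ`
-/

set_option autoImplicit false
set_option linter.unusedSectionVars false

noncomputable section

open HahnSeries ModularCurve UpperHalfPlane
open scoped Manifold

namespace FLTAgent.LevelSq

open FLTAgent.Igusa FLTAgent.ModPoly FLTAgent.Genus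

theorem euler_coeffMap {R S : Type*} [Field R] [Field S] (f : R →+* S) (x : LaurentSeries R) :
    euler (coeffMap f x) = coeffMap f (euler x) := by
  refine HahnSeries.ext (funext fun n => ?_)
  rw [euler_coeff, coeffMap_coeff, coeffMap_coeff, euler_coeff, map_mul, map_intCast]

theorem euler_sq_mul_discriminant :
    euler (jqModC ℂ) ^ 2 * ofZ ℂ psD ^ 2 =
      ofZ ℂ eisenstein4 ^ 4 * (ofZ ℂ eisenstein4 ^ 3 - 1728 * ofZ ℂ psD) := by
  have hD : Expands 1 ModularForm.discriminant (ofZ ℂ psD) := by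
    rw [ofZ_psD]; exact expands_discriminant
  have hE : Expands 1 (ModularForm.E₄ : ℍ → ℂ) (ofZ ℂ eisenstein4) := expands_E₄
  have h1 := ((expands_normalizedDeriv expands_jFun).pow 2).mul (hD.pow 2)
  have h2 := (hE.pow 4).mul ((hE.pow 3).sub ((Expands.const 1 (1728 : ℂ)).mul hD))
  rw [map_ofNat] at h2
  refine h1.unique (h2.congr_fun' (Filter.Eventually.of_forall fun τ => ?_))
  have hj := normalizedDeriv_jFun τ
  have hd := ModularForm.discriminant_eq_E₄_cube_sub_E₆_sq τ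
  simp only [Pi.mul_apply, Pi.pow_apply, Pi.sub_apply]
  set e := ModularForm.E₄ τ
  set g := ModularForm.E₆ τ
  set Δ := ModularForm.discriminant τ
  have hg : e ^ 3 - 1728 * Δ = g ^ 2 := by rw [hd]; ring
  linear_combination (e ^ 4) * hg -
    (Derivative.normalizedDerivOfComplex jFun τ * Δ - e ^ 2 * g) * hj

/-- `(θj) ^ 6 = j ^ 4 (j - 1728) ^ 3 Δ`. -/
theorem euler_jqModC_pow (K : Type) [Field K] :
    euler (jqModC K) ^ 6 = jqModC K ^ 4 * (jqModC K - 1728) ^ 3 * ofZ K psD := by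
  have hC : euler (jqModC ℂ) ^ 6 = jqModC ℂ ^ 4 * (jqModC ℂ - 1728) ^ 3 * ofZ ℂ psD := by
    have h1 := psA_mul_sDinv ℂ
    have h2 := psD_mul_sDinv ℂ
    have hA : ofZ ℂ psA = ofZ ℂ eisenstein4 ^ 3 := by rw [psA, map_pow]
    have h := euler_sq_mul_discriminant
    rw [hA] at h1
    set e := ofZ ℂ eisenstein4
    set d := ofZ ℂ psD
    set i := sDinv ℂ
    set θ := euler (jqModC ℂ)
    set J := jqModC ℂ
    have he : e ^ 3 = J * d := by linear_combination d * h1 - e ^ 3 * h2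
    have hcube : θ ^ 6 * d ^ 6 = J ^ 4 * (J - 1728) ^ 3 * d ^ 7 := by
      have h3 : (θ ^ 2 * d ^ 2) ^ 3 = (e ^ 3) ^ 4 * (e ^ 3 - 1728 * d) ^ 3 := by rw [h]; ring
      rw [he] at h3
      linear_combination h3
    linear_combination i ^ 6 * hcube
      - θ ^ 6 * ((d * i) ^ 5 + (d * i) ^ 4 + (d * i) ^ 3 + (d * i) ^ 2 + d * i + 1) * h2
      + J ^ 4 * (J - 1728) ^ 3 * d *
        ((d * i) ^ 5 + (d * i) ^ 4 + (d * i) ^ 3 + (d * i) ^ 2 + d * i + 1) * h2
  have hQ : euler (jqModC ℚ) ^ 6 = jqModC ℚ ^ 4 * (jqModC ℚ - 1728) ^ 3 * ofZ ℚ psD := by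
    refine (coeffMap (algebraMap ℚ ℂ)).injective ?_
    simp only [map_pow, map_mul, map_sub, map_ofNat, ← euler_coeffMap, coeffMap_jqModC,
      coeffMap_ofZ, hC]
  let θ : LaurentSeries ℤ := ⟨fun n => n * (jqModC ℤ).coeff n,
    (jqModC ℤ).isPWO_support.mono fun n hn h0 => hn (by simp [h0])⟩
  have hθ : ∀ (F : Type) [Field F],
      coeffMap (Int.castRingHom F) θ = euler (jqModC F) := fun F _ =>
    HahnSeries.ext (funext fun n => by
      rw [euler_coeff, coeffMap_coeff, ← coeffMap_jqModC (Int.castRingHom F), coeffMap_coeff]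
      show (Int.castRingHom F) (n * (jqModC ℤ).coeff n) = _
      simp)
  have hZ : θ ^ 6 = jqModC ℤ ^ 4 * (jqModC ℤ - 1728) ^ 3 * ofZ ℤ psD := by
    have hinj : Function.Injective (intToRat : LaurentSeries ℤ → LaurentSeries ℚ) := fun x y h =>
      HahnSeries.ext (funext fun k => (Int.castRingHom ℚ).injective_int
        (congrArg (fun z : LaurentSeries ℚ => z.coeff k) h))
    refine hinj ?_
    simp only [intToRat, map_pow, map_mul, map_sub, map_ofNat, coeffMap_jqModC, coeffMap_ofZ, hθ,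
      hQ]
  have h := congrArg (coeffMap (Int.castRingHom K)) hZ
  simpa only [map_pow, map_mul, map_sub, map_ofNat, coeffMap_jqModC, coeffMap_ofZ, hθ] using h

end FLTAgent.LevelSq
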