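import Fermat.Agent.LevelSq.HauptSeries
import Fermat.Agent.LevelSq.JEuler
import Fermat.Agent.Igusa.ModBasis
import Fermat.Agent.LevelSq.Infinity

/-!
# A coordinate of small level with rational relation to `j`

`Haupt`: a series `h = s⁻¹ + ⋯` of level `lvl` with `j den (h) = num (h)`, where `num = A ^ 3`,
`num - 1728 den = B ^ 2`, and `3 A' den - A den' = h ^ k B`.  The instances are `hauptFourData`
and `hauptNineData`.
-/

set_option autoImplicit false
set_option linter.unusedSectionVars false

noncomputable section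

open ModularCurve Polynomial

namespace FLTAgent.LevelSq

open FLTAgent.Igusa FLTAgent.Genus

/-- A coordinate of level `lvl`. -/
structure Haupt where
  /-- the level -/
  lvl : ℕ
  /-- the only prime of the level -/
  bad : ℕ
  bad_dvd : bad ∣ lvl
  /-- the series -/
  series : LaurentSeries ℤ
  lead : HasLead series (-1) 1
  mem : ∀ M [NeZero M], lvl ∣ M → intToRat series ∈ modularFunctionFieldFull M
  /-- the cube root of the numerator -/
  A : ℤ[X]
  /-- the square root of `num - 1728 den` -/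
  B : ℤ[X]
  /-- the denominator -/
  den : ℤ[X]
  A_monic : A.Monic
  B_monic : B.Monic
  den_monic : den.Monic
  deg : den.natDegree < (A ^ 3).natDegree
  sub_eq : A ^ 3 - C 1728 * den = B ^ 2
  /-- the exponent -/
  k : ℕ
  wronsk : 3 * derivative A * den - A * derivative den = X ^ k * B
  X_dvd : X ∣ den
  equation : jqModC ℤ * aeval series den = aeval series (A ^ 3)
  den_unit : ∀ (R : Type) [CommRing R] (x y : R), IsUnit (bad : R) →
    y * aeval x den = aeval x (A ^ 3) → IsUnit (aeval x den)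

namespace Haupt

variable (H : Haupt)

/-- The series over `R`. -/
def serC (R : Type*) [CommRing R] : LaurentSeries R := intToC R H.series

theorem exists_pole (R : Type*) [CommRing R] :
    ∃ u : PowerSeries R, IsPoleSeries (H.serC R) 1 u ∧ PowerSeries.constantCoeff u = 1 := by
  obtain ⟨f, hf, he⟩ := H.lead
  refine ⟨f.map (Int.castRingHom R), ⟨one_pos, ?_, ?_⟩, ?_⟩
  · rw [← PowerSeries.coeff_zero_eq_constantCoeff, PowerSeries.coeff_map,
      PowerSeries.coeff_zero_eq_constantCoeff, hf, map_one]; exact isUnit_one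
  · rw [serC, intToC, he, map_mul, coeffMap_single, map_one, ofZ_int, coeffMap_ofPowerSeries,
      Nat.cast_one]
  · rw [← PowerSeries.coeff_zero_eq_constantCoeff, PowerSeries.coeff_map,
      PowerSeries.coeff_zero_eq_constantCoeff, hf, map_one]

theorem transcendental (K : Type*) [Field K] : Transcendental K (H.serC K) := by
  obtain ⟨u, hu, hu1⟩ := H.exists_pole K
  rw [transcendental_iff]
  intro p hp
  by_contra h0
  have h := congrArg (fun z : LaurentSeries K => z.coeff (-((p.natDegree * 1 : ℕ) : ℤ))) hp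
  simp only [HahnSeries.coeff_zero] at h
  simp only [aeval_def, eval₂_eq_sum_range, algebraMap_laurentSeries_eq_single,
    ← HahnSeries.C_apply, HahnSeries.coeff_sum, coeff_C_mul'] at h
  rw [Finset.sum_eq_single p.natDegree, (hu.coeff_pow _).1, hu1, one_pow, mul_one] at h
  · exact leadingCoeff_ne_zero.2 h0 h
  · intro i hi hne
    rw [(hu.coeff_pow i).2 _ (by
      have := Finset.mem_range.1 hi
      omega), mul_zero]
  · simp

theorem aeval_serC (R : Type*) [CommRing R] (p : ℤ[X]) :
    aeval (H.serC R) p = intToC R (aeval H.series p) := by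
  simp only [aeval_def, hom_eval₂, serC]
  exact congrArg (fun f => eval₂ f _ p) (RingHom.ext_int _ _)

theorem aeval_serC_map (K : Type*) [Field K] (p : ℤ[X]) :
    aeval (H.serC K) (p.map (Int.castRingHom K)) = aeval (H.serC K) p := by
  simp only [aeval_def, eval₂_map]
  exact congrArg (fun f => eval₂ f _ p) (RingHom.ext_int _ _)

theorem aeval_ne_zero (K : Type*) [Field K] {p : ℤ[X]} (hp : p.Monic) :
    aeval (H.serC K) p ≠ 0 := fun h => (hp.map (Int.castRingHom K)).ne_zero
  (transcendental_iff.1 (H.transcendental K) _ (by rw [H.aeval_serC_map, h]))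

theorem equationC (R : Type*) [CommRing R] :
    jqModC R * aeval (H.serC R) H.den = aeval (H.serC R) (H.A ^ 3) := by
  rw [H.aeval_serC, H.aeval_serC, ← H.equation, map_mul, intToC_jqModC]

theorem euler_intCast (K : Type*) [Field K] (n : ℤ) : euler ((n : LaurentSeries K)) = 0 := by
  rw [← map_intCast (HahnSeries.C : K →+* LaurentSeries K), HahnSeries.C_apply, euler_single_zero]

theorem euler_aeval {K : Type*} [Field K] (x : LaurentSeries K) (p : ℤ[X]) :
    euler (aeval x p) = aeval x (derivative p) * euler x := by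
  induction p using Polynomial.induction_on with
  | C a => simp [euler_intCast]
  | add p r hp hr => simp [hp, hr, add_mul]
  | monomial n a ih =>
    have e : C a * X ^ (n + 1) = C a * X ^ n * (X : ℤ[X]) := by rw [pow_succ, mul_assoc]
    rw [e]
    generalize C a * X ^ n = r at ih ⊢
    rw [derivative_mul, derivative_X, mul_one, map_mul, euler_mul, ih, map_add, map_mul,
      aeval_X]
    ring

/-- `(θh) ^ 6 h ^ (6 k) = den (h) ^ 5 Δ`. -/
theorem theta_pow (K : Type) [Field K] :
    euler (H.serC K) ^ 6 * (H.serC K) ^ (6 * H.k) =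
      aeval (H.serC K) H.den ^ 5 * ofZ K psD := by
  have hA : aeval (H.serC K) H.A ≠ 0 := H.aeval_ne_zero K H.A_monic
  have hB : aeval (H.serC K) H.B ≠ 0 := H.aeval_ne_zero K H.B_monic
  have hS : aeval (H.serC K) H.den ≠ 0 := H.aeval_ne_zero K H.den_monic
  have e1 := H.equationC K
  have e2 := congrArg (aeval (H.serC K)) H.sub_eq
  have e3 := congrArg (aeval (H.serC K)) H.wronsk
  have e4 := congrArg euler e1
  have e5 := euler_jqModC_pow K
  rw [euler_mul, euler_aeval, euler_aeval] at e4
  simp only [map_sub, map_mul, map_pow, aeval_X, derivative_pow, map_ofNat,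
    Nat.cast_ofNat, show (3 : ℕ) - 1 = 2 from rfl] at e1 e2 e3 e4
  set j := jqModC K
  set θj := euler j
  set h := H.serC K
  set θh := euler h
  set a := aeval h H.A
  set b := aeval h H.B
  set s := aeval h H.den
  set a' := aeval h (derivative H.A)
  set s' := aeval h (derivative H.den)
  set d := ofZ K psD
  have key : θj * s ^ 2 = a ^ 2 * (h ^ H.k * b) * θh := by
    linear_combination s * e4 - s' * θh * e1 + a ^ 2 * θh * e3
  have h2 : (j - 1728) * s = b ^ 2 := by linear_combination e1 + e2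
  have h6 : θj ^ 6 * s ^ 12 = a ^ 12 * b ^ 6 * (θh ^ 6 * h ^ (6 * H.k)) := by
    rw [show θj ^ 6 * s ^ 12 = (θj * s ^ 2) ^ 6 by ring, key, mul_comm 6 H.k, pow_mul h H.k 6]
    ring
  refine mul_left_cancel₀ (mul_ne_zero (pow_ne_zero 12 hA) (pow_ne_zero 6 hB)) ?_
  rw [← h6, e5, show j ^ 4 * (j - 1728) ^ 3 * d * s ^ 12 =
    (j * s) ^ 4 * ((j - 1728) * s) ^ 3 * s ^ 5 * d by ring, e1, h2]
  ring

end Haupt

/-- Differences of arguments divide differences of values. -/
theorem sub_dvd_aeval_sub {R : Type*} [CommRing R] (x : R) (a : ℤ) (p : ℤ[X]) :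
    x - (a : R) ∣ aeval x p - ((p.eval a : ℤ) : R) := by
  have h := sub_dvd_eval_sub x (a : R) (p.map (Int.castRingHom R))
  rw [eval_map, eval_intCast_map] at h
  rw [aeval_def, show algebraMap ℤ R = Int.castRingHom R from RingHom.ext_int _ _]
  exact h

/-- The level four coordinate. -/
def hauptFourData : Haupt where
  lvl := 4
  bad := 2
  bad_dvd := ⟨2, rfl⟩
  series := hFour
  lead := hasLead_hFour
  mem M _ h := intToRat_hFour_mem h
  A := X ^ 2 + C 256 * X + C 4096
  B := X ^ 3 - C 480 * X ^ 2 - C 24576 * X - C 262144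
  den := X ^ 4 * (X + C 16)
  A_monic := by monicity!
  B_monic := by monicity!
  den_monic := by monicity!
  deg := by
    have h1 : (X ^ 4 * (X + C 16) : ℤ[X]).natDegree = 5 := by compute_degree!
    have h2 : ((X ^ 2 + C 256 * X + C 4096) ^ 3 : ℤ[X]).natDegree = 6 := by compute_degree!
    omega
  sub_eq := by simp only [map_ofNat]; ring
  k := 3
  wronsk := by simp [derivative_pow]; ring
  X_dvd := Dvd.dvd.mul_right (dvd_pow_self X four_ne_zero) _
  equation := by
    simp only [map_mul, map_pow, map_add, aeval_X, map_ofNat]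
    exact hFour_equation
  den_unit R _ x y h2 h := by
    simp only [map_mul, map_pow, map_add, aeval_X, map_ofNat] at h ⊢
    have hx : IsUnit x := by
      refine isUnit_of_dvd_unit (?_ : x ∣ (4096 : R) ^ 3) ?_
      · have h1 : x ∣ (x ^ 2 + 256 * x + 4096) ^ 3 := by rw [← h]; exact ⟨y * x ^ 3 * (x + 16), by ring⟩
        have h3 : x ∣ (x ^ 2 + 256 * x + 4096) ^ 3 - (4096) ^ 3 :=
          dvd_trans ⟨x + 256, by ring⟩ (sub_dvd_pow_sub_pow _ _ 3)
        simpa using dvd_sub h1 h3
      · rw [show (4096 : R) = ((2 : ℕ) : R) ^ 12 by norm_num]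
        exact (h2.pow 12).pow 3
    have hx16 : IsUnit (x + 16) := by
      refine isUnit_of_dvd_unit (?_ : x + 16 ∣ (256 : R) ^ 3) ?_
      · have h1 : x + 16 ∣ (x ^ 2 + 256 * x + 4096) ^ 3 := by rw [← h]; exact ⟨y * x ^ 4, by ring⟩
        have h3 : x + 16 ∣ (x ^ 2 + 256 * x + 4096) ^ 3 - (256) ^ 3 :=
          dvd_trans ⟨x + 240, by ring⟩ (sub_dvd_pow_sub_pow _ _ 3)
        simpa using dvd_sub h1 h3
      · rw [show (256 : R) = ((2 : ℕ) : R) ^ 8 by norm_num]
        exact (h2.pow 8).pow 3
    exact (hx.pow 4).mul hx16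

/-- The level nine coordinate. -/
def hauptNineData : Haupt where
  lvl := 9
  bad := 3
  bad_dvd := ⟨3, rfl⟩
  series := hNine
  lead := hasLead_hNine
  mem M _ h := intToRat_hNine_mem h
  A := (X + C 9) * (X ^ 3 + C 243 * X ^ 2 + C 2187 * X + C 6561)
  B := X ^ 6 - C 486 * X ^ 5 - C 24057 * X ^ 4 - C 367416 * X ^ 3 - C 2657205 * X ^ 2
    - C 9565938 * X - C 14348907
  den := X ^ 9 * (X ^ 2 + C 9 * X + C 27)
  A_monic := by monicity!
  B_monic := by monicity!
  den_monic := by monicity!
  deg := by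
    have h1 : (X ^ 9 * (X ^ 2 + C 9 * X + C 27) : ℤ[X]).natDegree = 11 := by compute_degree!
    have h2 : (((X + C 9) * (X ^ 3 + C 243 * X ^ 2 + C 2187 * X + C 6561)) ^ 3 :
      ℤ[X]).natDegree = 12 := by compute_degree!
    omega
  sub_eq := by simp only [map_ofNat]; ring
  k := 8
  wronsk := by simp [derivative_pow]; ring
  X_dvd := Dvd.dvd.mul_right (dvd_pow_self X (by norm_num)) _
  equation := by
    simp only [map_mul, map_pow, map_add, aeval_X, map_ofNat]
    exact hNine_equation
  den_unit R _ x y h3 h := by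
    simp only [map_mul, map_pow, map_add, aeval_X, map_ofNat] at h ⊢
    set A := (x + 9) * (x ^ 3 + 243 * x ^ 2 + 2187 * x + 6561) with hA
    have h27 : IsUnit (27 : R) := by
      rw [show (27 : R) = ((3 : ℕ) : R) ^ 3 by norm_num]; exact h3.pow 3
    have hx : IsUnit x := by
      refine isUnit_of_dvd_unit (?_ : x ∣ (59049 : R) ^ 3) ?_
      · have h1 : x ∣ A ^ 3 := by rw [← h]; exact ⟨y * x ^ 8 * (x ^ 2 + 9 * x + 27), by ring⟩
        have h2 : x ∣ A ^ 3 - 59049 ^ 3 := dvd_trans
          ⟨x ^ 3 + 252 * x ^ 2 + 4374 * x + 26244, by rw [hA]; ring⟩ (sub_dvd_pow_sub_pow _ _ 3)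
        simpa using dvd_sub h1 h2
      · rw [show (59049 : R) = ((3 : ℕ) : R) ^ 10 by norm_num]
        exact (h3.pow 10).pow 3
    have ht : IsUnit (x ^ 2 + 9 * x + 27) := by
      set t := x ^ 2 + 9 * x + 27 with ht
      refine isUnit_of_dvd_unit (?_ : t ∣ ((-27) * x ^ 3) ^ 3) (((h27.neg).mul (hx.pow 3)).pow 3)
      have h1 : t ∣ (x * A) ^ 3 := ⟨x ^ 3 * (y * x ^ 9), by rw [mul_pow, ← h]; ring⟩
      have h2 : t ∣ (x * A) ^ 3 - ((-27) * x ^ 3) ^ 3 := dvd_trans
        ⟨x ^ 3 + 243 * t - 27 * 243, by rw [hA, ht]; ring⟩ (sub_dvd_pow_sub_pow _ _ 3)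
      simpa using dvd_sub h1 h2
    exact (hx.pow 9).mul ht

end FLTAgent.LevelSq
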