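import Fermat.Agent.LevelSq.Lattice

/-!
# Idempotents modulo powers of the uniformiser in a chart

If a set `S` of vertical valuations is separated from its complement at every closed point of a
chart, then for every `n` the chart has an element which is idempotent modulo `q ^ n`, congruent
to one on `S` and to zero off `S`.
-/

set_option autoImplicit false
set_option linter.style.haveILetI false
set_option linter.unusedSectionVars false

noncomputable section

open Polynomial IntermediateField Finset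

namespace FLTAgent.LevelSq

variable {O : Type*} {L : Type*} [CommRing O] [Field L] [Algebra O L]

/-- At no closed point of the chart do a valuation in `S` and one outside `S` meet. -/
def Separates (q : O) (φ ψ : L) (S : ValuationSubring L → Prop) : Prop :=
  ∀ m : Ideal (chart O ψ), m.IsMaximal → algebraMap O (chart O ψ) q ∈ m →
    ∀ P P' : ValuationSubring L, IsVert O q φ P → IsVert O q φ P' →
      (∀ z : chart O ψ, (z : L) ∈ P.nonunits → z ∈ m) →
      (∀ z : chart O ψ, (z : L) ∈ P'.nonunits → z ∈ m) → S P → S P'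

/-- `a` is congruent to the indicator of `S` on all vertical valuations. -/
def IsLabel (q : O) (φ : L) (S : ValuationSubring L → Prop) (a : L) : Prop :=
  ∀ P : ValuationSubring L, IsVert O q φ P →
    (S P → a - 1 ∈ P.nonunits) ∧ (¬ S P → a ∈ P.nonunits)

theorem nonunits_add {P : ValuationSubring L} {x y : L} (hx : x ∈ P.nonunits)
    (hy : y ∈ P.nonunits) : x + y ∈ P.nonunits := add_mem hx hy

theorem one_not_mem_nonunits (P : ValuationSubring L) : (1 : L) ∉ P.nonunits := by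
  simp [P.mem_nonunits_iff]

theorem nonunits_mul {P : ValuationSubring L} {x y : L} (hx : x ∈ P)
    (hy : y ∈ P.nonunits) : x * y ∈ P.nonunits := by
  rw [P.mem_nonunits_iff, map_mul] at *
  exact (mul_le_of_le_one_left' ((P.valuation_le_one_iff x).2 hx)).trans_lt hy

theorem IsLabel.sub_mem {q : O} {φ : L} {S : ValuationSubring L → Prop} {a a' : L}
    (ha : IsLabel q φ S a) (ha' : IsLabel q φ S a') {P : ValuationSubring L}
    (hP : IsVert O q φ P) : a - a' ∈ P.nonunits := by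
  by_cases h : S P
  · simpa using _root_.sub_mem ((ha P hP).1 h) ((ha' P hP).1 h)
  · exact _root_.sub_mem ((ha P hP).2 h) ((ha' P hP).2 h)

/-- Approximate idempotents congruent modulo the radical are congruent. -/
theorem exists_sub_eq_smul (R : Subalgebra O L) {c : O} {a a' b b' r : L} {m : ℕ}
    (ha : a ∈ R) (ha' : a' ∈ R) (hb : b ∈ R) (hb' : b' ∈ R) (hr : r ∈ R)
    (h : a * (a - 1) = algebraMap O L c * b) (h' : a' * (a' - 1) = algebraMap O L c * b')
    (hm : (a - a') ^ m = algebraMap O L c * r) :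
    ∃ s ∈ R, a - a' = algebraMap O L c * s := by
  set x := a - a' with hx
  have hxR : x ∈ R := sub_mem ha ha'
  set u := (a + 1 - 3 * a') * b + (3 * a - a' - 1) * b' with hu
  have huR : u ∈ R := by
    refine add_mem (mul_mem (sub_mem (add_mem ha (one_mem _)) (mul_mem ?_ ha')) hb)
      (mul_mem (sub_mem (sub_mem (mul_mem ?_ ha) ha') (one_mem _)) hb') <;>
    exact natCast_mem R 3
  have key : x ^ 3 - x = algebraMap O L c * u := by
    rw [hx, hu]; linear_combination (a + 1 - 3 * a') * h + (3 * a - a' - 1) * h'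
  refine ⟨x * (x ^ m * r) - (∑ i ∈ range m, (x ^ 2) ^ i) * u,
    sub_mem (mul_mem hxR (mul_mem (pow_mem hxR m) hr))
      (mul_mem (sum_mem fun i _ => pow_mem (pow_mem hxR 2) i) huR), ?_⟩
  have hgeom : (∑ i ∈ range m, (x ^ 2) ^ i) * (x ^ 2 - 1) = (x ^ 2) ^ m - 1 := geom_sum_mul _ _
  have h2 : x * (∑ i ∈ range m, (x ^ 2) ^ i) * (x ^ 2 - 1)
      = (∑ i ∈ range m, (x ^ 2) ^ i) * (algebraMap O L c * u) := by
    rw [← key]; ring
  have h3 : (x ^ 2) ^ m = x ^ m * (algebraMap O L c * r) := by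
    rw [← hm, ← pow_add, ← pow_mul]; ring_nf
  linear_combination x * h3 + (x * hgeom) - h2

variable [IsDomain O] [IsDiscreteValuationRing O]

/-- The centre of a vertical valuation on a chart. -/
theorem exists_centre {q : O} {φ ψ : L} {P : ValuationSubring L}
    (hP : IsVert O q φ P) (hle : ∀ z ∈ chart O ψ, z ∈ P) :
    ∃ c : Ideal (chart O ψ), c.IsPrime ∧ algebraMap O (chart O ψ) q ∈ c ∧
      ∀ z : chart O ψ, z ∈ c ↔ (z : L) ∈ P.nonunits := by
  refine ⟨(IsLocalRing.maximalIdeal P).comap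
      (Subring.inclusion (S := (chart O ψ).toSubring) (T := P.toSubring) hle),
    Ideal.comap_isPrime _ _, ?_, fun z => ?_⟩
  · exact P.coe_mem_nonunits_iff.1 hP.q_mem
  · exact P.coe_mem_nonunits_iff.symm

variable {K : Type*} [Field K] [Algebra O K] [IsFractionRing O K] [Algebra K L]
  [IsScalarTower O K L] {q : O} {φ ψ : L} {S : ValuationSubring L → Prop}

theorem isVert_iff_chart (hq : Prime q) (hφ : φ ≠ 0) (hψ : ψ = φ ∨ ψ = φ⁻¹)
    (P : ValuationSubring L) : IsVert O q φ P ↔ IsVert O q ψ P := by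
  rcases hψ with rfl | rfl
  · rfl
  · exact ⟨fun h => h.inv hq.not_isUnit hφ, fun h => by
      simpa using h.inv hq.not_isUnit (inv_ne_zero hφ)⟩

variable [FiniteDimensional K⟮ψ⟯ L] [Algebra.IsSeparable K⟮ψ⟯ L]

include K in
/-- An element of the chart which is a nonunit at all vertical valuations is nilpotent mod `q`. -/
theorem exists_pow_eq (hq : Prime q) (hφ : φ ≠ 0) (hψ' : ψ = φ ∨ ψ = φ⁻¹)
    (hψ : Transcendental O ψ) {x : L} (hx : x ∈ chart O ψ)
    (h : ∀ P, IsVert O q φ P → x ∈ P.nonunits) (n : ℕ) :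
    ∃ m : ℕ, ∃ r ∈ chart O ψ, x ^ m = algebraMap O L (q ^ n) * r := by
  haveI := isNoetherianRing_chart (K := K) hψ
  set x' : chart O ψ := ⟨x, hx⟩
  have hrad : x' ∈ (Ideal.span {algebraMap O (chart O ψ) q}).radical := by
    rw [← Ideal.sInf_minimalPrimes, Submodule.mem_sInf]
    intro 𝔭 h𝔭
    obtain ⟨P, hP, hP'⟩ := exists_isVert_of_minimalPrime hq hψ h𝔭
    exact (hP' x').2.1 (h P ((isVert_iff_chart hq hφ hψ' P).2 hP))
  obtain ⟨k, hk⟩ := hrad
  obtain ⟨r, hr⟩ := Ideal.mem_span_singleton'.1 hk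
  refine ⟨k * n, (r : L) ^ n, pow_mem r.2 n, ?_⟩
  have h1 : x ^ k = (r : L) * algebraMap O L q := (congrArg Subtype.val hr).symm
  rw [pow_mul, h1, mul_pow, map_pow, mul_comm]

include K in
/-- The approximate idempotent. -/
theorem exists_idempotent (hq : Prime q) (hφ : φ ≠ 0) (hψ' : ψ = φ ∨ ψ = φ⁻¹)
    (hψ : Transcendental O ψ) (hsep : Separates q φ ψ S) (n : ℕ) :
    ∃ a ∈ chart O ψ, IsLabel q φ S a ∧
      ∃ b ∈ chart O ψ, a * (a - 1) = algebraMap O L (q ^ n) * b := by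
  classical
  haveI := isNoetherianRing_chart (K := K) hψ
  set I₀ : Ideal (chart O ψ) := Ideal.span {algebraMap O (chart O ψ) q}
  have hfin := Ideal.finite_minimalPrimes_of_isNoetherianRing (chart O ψ) I₀
  set T := hfin.toFinset
  have hspec : ∀ 𝔭 ∈ T, ∃ P : ValuationSubring L, IsVert O q φ P ∧
      ∀ z : chart O ψ, (z : L) ∈ P.nonunits ↔ z ∈ 𝔭 := by
    intro 𝔭 h𝔭
    obtain ⟨P, hP, hP'⟩ := exists_isVert_of_minimalPrime hq hψ (hfin.mem_toFinset.1 h𝔭)
    exact ⟨P, (isVert_iff_chart hq hφ hψ' P).2 hP, fun z => (hP' z).2⟩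
  choose! Pv hPv hPc using hspec
  set I := (T.filter fun 𝔭 => S (Pv 𝔭)).inf id
  set J := (T.filter fun 𝔭 => ¬ S (Pv 𝔭)).inf id
  have hIJ : I ⊔ J = ⊤ := by
    by_contra hne
    obtain ⟨m, hm, hle⟩ := Ideal.exists_le_maximal _ hne
    obtain ⟨𝔭, h1, h1'⟩ := (Ideal.IsPrime.inf_le' hm.isPrime).1 (le_sup_left.trans hle)
    obtain ⟨𝔭', h2, h2'⟩ := (Ideal.IsPrime.inf_le' hm.isPrime).1 (le_sup_right.trans hle)
    obtain ⟨h1T, h1S⟩ := Finset.mem_filter.1 h1
    obtain ⟨h2T, h2S⟩ := Finset.mem_filter.1 h2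
    exact h2S (hsep m hm (h1' ((hfin.mem_toFinset.1 h1T).1.2 (Ideal.mem_span_singleton_self _)))
      _ _ (hPv _ h1T) (hPv _ h2T) (fun z hz => h1' ((hPc _ h1T z).1 hz))
      (fun z hz => h2' ((hPc _ h2T z).1 hz)) h1S)
  obtain ⟨b₀, hb₀, a₀, ha₀, hsum⟩ :=
    Submodule.mem_sup.1 (hIJ ▸ Submodule.mem_top : (1 : chart O ψ) ∈ I ⊔ J)
  have hrad : a₀ * b₀ ∈ I₀.radical := by
    rw [← Ideal.sInf_minimalPrimes, Submodule.mem_sInf]
    intro 𝔭 h𝔭
    have hT : 𝔭 ∈ T := hfin.mem_toFinset.2 h𝔭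
    by_cases hS : S (Pv 𝔭)
    · exact Ideal.mul_mem_left 𝔭 _ (Finset.inf_le (f := id) (Finset.mem_filter.2 ⟨hT, hS⟩) hb₀)
    · exact Ideal.mul_mem_right _ 𝔭 (Finset.inf_le (f := id) (Finset.mem_filter.2 ⟨hT, hS⟩) ha₀)
  obtain ⟨k, hk⟩ := hrad
  obtain ⟨r, hr⟩ := Ideal.mem_span_singleton'.1 hk
  obtain ⟨u, v, huv⟩ :=
    (show IsCoprime a₀ b₀ from ⟨1, 1, by linear_combination hsum⟩).pow
      (m := k * n + 1) (n := k * n + 1)
  set a := u * a₀ ^ (k * n + 1) with ha
  have haJ : a ∈ J := by rw [ha, pow_succ, ← mul_assoc]; exact J.mul_mem_left _ ha₀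
  have haI : a - 1 ∈ I := by
    have : a - 1 = -(v * b₀ ^ (k * n)) * b₀ := by rw [ha]; linear_combination huv
    rw [this]; exact I.mul_mem_left _ hb₀
  refine ⟨a, a.2, fun P hP => ?_, ↑(-(u * v) * (r ^ n * (a₀ * b₀))),
    (-(u * v) * (r ^ n * (a₀ * b₀))).2, ?_⟩
  · have hchart : ∀ z ∈ chart O ψ, z ∈ P := by
      intro z hz
      rcases hψ' with rfl | rfl
      · exact (hP.chart_le' hq).1 hz
      · exact (hP.chart_le' hq).2 hz
    obtain ⟨c, hcp, hcq, hc⟩ := exists_centre hP hchart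
    obtain ⟨𝔭, h𝔭, h𝔭le⟩ := Ideal.exists_minimalPrimes_le
      (show I₀ ≤ c from (Ideal.span_singleton_le_iff_mem _).2 hcq)
    obtain ⟨m, hm, hcm⟩ := Ideal.exists_le_maximal c hcp.ne_top
    have hT : 𝔭 ∈ T := hfin.mem_toFinset.2 h𝔭
    have hsub1 : ∀ z : chart O ψ, (z : L) ∈ P.nonunits → z ∈ m := fun z hz => hcm ((hc z).2 hz)
    have hsub2 : ∀ z : chart O ψ, (z : L) ∈ (Pv 𝔭).nonunits → z ∈ m :=
      fun z hz => hcm (h𝔭le ((hPc _ hT z).1 hz))
    have hmq := hcm hcq
    constructor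
    · intro hS
      have hS' := hsep m hm hmq _ _ hP (hPv _ hT) hsub1 hsub2 hS
      exact (hc (a - 1)).1 (h𝔭le (Finset.inf_le (f := id) (Finset.mem_filter.2 ⟨hT, hS'⟩) haI))
    · intro hS
      have hS' : ¬ S (Pv 𝔭) := fun h' => hS (hsep m hm hmq _ _ (hPv _ hT) hP hsub2 hsub1 h')
      exact (hc a).1 (h𝔭le (Finset.inf_le (f := id) (Finset.mem_filter.2 ⟨hT, hS'⟩) haJ))
  · have h1 : a * (a - 1) = algebraMap O (chart O ψ) (q ^ n) * (-(u * v) * (r ^ n * (a₀ * b₀))) := by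
      have h2 : (a₀ * b₀) ^ (k * n + 1) = r ^ n * algebraMap O (chart O ψ) (q ^ n) * (a₀ * b₀) := by
        rw [pow_succ, pow_mul, ← hr, mul_pow, map_pow]
      have h3 : a - 1 = -(v * b₀ ^ (k * n + 1)) := by rw [ha]; linear_combination huv
      rw [h3, ha]
      rw [mul_pow] at h2
      linear_combination (-(u * v)) * h2
    exact congrArg Subtype.val h1

end FLTAgent.LevelSq
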