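import Fermat.Agent.LevelSq.Charts
import Mathlib.RingTheory.Trace.Basic

/-!
# Lattices of a function field over `O[φ]`
-/

set_option autoImplicit false
set_option linter.style.haveILetI false
set_option linter.unusedSectionVars false

noncomputable section

open Polynomial IntermediateField Finset

namespace FLTAgent.LevelSq

variable {O : Type*} {L : Type*} [CommRing O] [Field L] [Algebra O L]

/-- `∑ pᵢ(φ) eᵢ`. -/
def comb (φ : L) {N : ℕ} (e : Fin N → L) : (Fin N → O[X]) →+ L where
  toFun p := ∑ i, aeval φ (p i) * e i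
  map_zero' := by simp
  map_add' p p' := by simp [add_mul, Finset.sum_add_distrib]

theorem comb_apply (φ : L) {N : ℕ} (e : Fin N → L) (p : Fin N → O[X]) :
    comb φ e p = ∑ i, aeval φ (p i) * e i := rfl

theorem comb_mul (φ : L) {N : ℕ} (e : Fin N → L) (r : O[X]) (p : Fin N → O[X]) :
    comb φ e (fun i => r * p i) = aeval φ r * comb φ e p := by
  simp [comb_apply, Finset.mul_sum, mul_assoc]

theorem comb_sum (φ : L) {N : ℕ} (e : Fin N → L) {ι : Type*} (s : Finset ι)
    (p : ι → Fin N → O[X]) :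
    comb φ e (fun i => ∑ t ∈ s, p t i) = ∑ t ∈ s, comb φ e (p t) := by
  rw [← map_sum]; congr 1; funext i; simp

variable [IsDomain O] [IsDiscreteValuationRing O] {K : Type*} [Field K] [Algebra O K]
  [IsFractionRing O K] [Algebra K L] [IsScalarTower O K L]

theorem transcendental_K_of (φ : L) (hφ : Transcendental O φ) : Transcendental K φ :=
  fun h => hφ ((IsFractionRing.isAlgebraic_iff O K L).2 h)

theorem transcendental_inv {φ : L} (hφ : Transcendental O φ) : Transcendental O φ⁻¹ :=
  fun h => hφ (inv_inv φ ▸ h.inv)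

theorem aeval_ne_zero {φ : L} (hφ : Transcendental O φ) {d : O[X]} (hd : d ≠ 0) :
    aeval φ d ≠ 0 := fun h => hd (transcendental_iff.1 hφ d h)

/-- Denominators can be cleared. -/
theorem exists_denom {φ : L} (hφ : Transcendental O φ) {N : ℕ}
    (b : Module.Basis (Fin N) K⟮φ⟯ L) (s : Finset L) :
    ∃ d : O[X], d ≠ 0 ∧ ∀ z ∈ s, ∃ p, aeval φ d * z = comb (O := O) φ b p := by
  classical
  induction s using Finset.induction with
  | empty => exact ⟨1, one_ne_zero, by simp⟩
  | insert z s hz ih =>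
    obtain ⟨d, hd, hp⟩ := ih
    have h : ∀ i, ∃ r t : O[X], ((b.repr z i : K⟮φ⟯) : L) = aeval φ r / aeval φ t ∧ t ≠ 0 := by
      intro i
      obtain ⟨r, t, h⟩ := exists_eq_div_of_mem_adjoin (O := O) (K := K) (b.repr z i).2
      by_cases ht : t = 0
      · exact ⟨0, 1, by rw [h, ht]; simp, one_ne_zero⟩
      · exact ⟨r, t, h, ht⟩
    choose r t hrt ht using h
    refine ⟨d * ∏ i, t i, mul_ne_zero hd (Finset.prod_ne_zero_iff.2 fun i _ => ht i),
      fun w hw => ?_⟩
    rcases Finset.mem_insert.1 hw with rfl | hw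
    · refine ⟨fun i => d * (r i * ∏ j ∈ univ.erase i, t j), ?_⟩
      rw [comb_mul, map_mul, mul_assoc, comb_apply]
      congr 1
      conv_lhs => rw [← b.sum_repr w, Finset.mul_sum]
      refine Finset.sum_congr rfl fun i _ => ?_
      rw [IntermediateField.smul_def, smul_eq_mul, hrt, ← mul_assoc, map_mul,
        ← Finset.mul_prod_erase univ t (Finset.mem_univ i), map_mul]
      have h0 := aeval_ne_zero hφ (ht i)
      field_simp
    · obtain ⟨p, hp⟩ := hp w hw
      refine ⟨fun i => (∏ i, t i) * p i, ?_⟩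
      rw [comb_mul, ← hp, map_mul]
      ring

theorem comb_injective {φ : L} (hφ : Transcendental O φ) {N : ℕ} {e : Fin N → L}
    (he : LinearIndependent K⟮φ⟯ e) : Function.Injective (comb (O := O) φ e) := by
  rw [injective_iff_map_eq_zero]
  intro p hp
  rw [comb_apply] at hp
  funext i
  have hmem : ∀ i, aeval φ (p i) ∈ K⟮φ⟯ := fun i =>
    adjoin_le_adjoinField ⟨_, aeval_mem_adjoin O φ (p i)⟩
  have h := Fintype.linearIndependent_iff.1 he (fun i => ⟨_, hmem i⟩)
    (by simpa [IntermediateField.smul_def] using hp) i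
  by_contra hne
  exact aeval_ne_zero hφ hne (congrArg Subtype.val h)

/-- A chart with a basis, a denominator, structure constants and a trace dual family. -/
structure LatticeData (O K : Type*) {L : Type*} [CommRing O] [Field K] [Field L] [Algebra O L]
    [Algebra K L] (φ : L) where
  /-- rank -/
  N : ℕ
  /-- basis -/
  e : Fin N → L
  e_mem : ∀ i, e i ∈ chart O φ
  /-- denominator -/
  δ : O[X]
  δ_ne : δ ≠ 0
  span : ∀ z ∈ chart O φ, ∃ p, aeval φ δ * z = comb (O := O) φ e p
  /-- trace dual family -/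
  d : Fin N → L
  d_mem : ∀ i, d i ∈ chart O φ
  /-- its denominator -/
  D : O[X]
  D_ne : D ≠ 0
  trace_eq : ∀ i k, (Algebra.trace K⟮φ⟯ L (e i * d k) : L) = if i = k then aeval φ D else 0
  /-- structure constants -/
  M : Fin N → Fin N → Fin N → O[X]
  mul : ∀ i j, e i * e j = comb φ e (M i j)
  inj : Function.Injective (comb (O := O) φ e)

theorem exists_basis_mem_chart {φ : L} (_hφ : Transcendental O φ) [FiniteDimensional K⟮φ⟯ L] :
    ∃ (N : ℕ) (b : Module.Basis (Fin N) K⟮φ⟯ L), ∀ i, b i ∈ chart O φ := by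
  set A := Algebra.adjoin O ({φ} : Set L)
  letI : Algebra A K⟮φ⟯ :=
    ((A.val.toRingHom).codRestrict K⟮φ⟯.toSubfield.toSubring fun x =>
      adjoin_le_adjoinField (K := K) x).toAlgebra
  haveI : IsScalarTower A K⟮φ⟯ L := IsScalarTower.of_algebraMap_eq fun _ => rfl
  haveI : FaithfulSMul A K⟮φ⟯ := (faithfulSMul_iff_algebraMap_injective _ _).2 fun x y h =>
    Subtype.ext (congrArg (fun w : K⟮φ⟯ => (w : L)) h)
  haveI : IsFractionRing A K⟮φ⟯ := by
    refine IsFractionRing.of_field A _ fun z => ?_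
    obtain ⟨r, s, h⟩ := exists_eq_div_of_mem_adjoin (O := O) z.2
    exact ⟨⟨_, aeval_mem_adjoin O φ r⟩, ⟨_, aeval_mem_adjoin O φ s⟩, Subtype.ext h⟩
  obtain ⟨s, b, hb⟩ := FiniteDimensional.exists_is_basis_integral A K⟮φ⟯ L
  exact ⟨_, b.reindex (Fintype.equivFin _), fun i => (mem_chart O).2 (by
    rw [Module.Basis.reindex_apply]; exact hb _)⟩

theorem exists_latticeData {φ : L} (hφ : Transcendental O φ) [FiniteDimensional K⟮φ⟯ L]
    [Algebra.IsSeparable K⟮φ⟯ L] : Nonempty (LatticeData O K φ) := by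
  classical
  obtain ⟨N, b, hb⟩ := exists_basis_mem_chart (O := O) (K := K) hφ
  obtain ⟨D, hD, hD'⟩ := exists_denom (O := O) hφ b
    ((univ : Finset (Fin N × Fin N)).image fun ij => b ij.1 * b ij.2)
  -- finitely many generators of the chart
  haveI := finite_chart (K := K) hφ
  obtain ⟨G, hG⟩ := Module.Finite.fg_top
    (R := Algebra.adjoin O ({φ} : Set L))
    (M := integralClosure (Algebra.adjoin O ({φ} : Set L)) L)
  obtain ⟨d, hd, hd'⟩ := exists_denom (O := O) hφ b (G.image Subtype.val)
  set dual := (Algebra.traceForm K⟮φ⟯ L).dualBasis (traceForm_nondegenerate K⟮φ⟯ L) b with hdual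
  obtain ⟨Dd, hDd, hDd'⟩ := exists_denom (O := O) hφ b (univ.image fun k => dual k)
  set e : Fin N → L := fun i => aeval φ D * b i
  have hcomb : ∀ p : Fin N → O[X], comb φ e p = aeval φ D * comb φ b p := fun p => by
    simp only [comb_apply, e, Finset.mul_sum]
    exact Finset.sum_congr rfl fun i _ => by ring
  have hmem : ∀ z ∈ G.image Subtype.val,
      ∃ p, aeval φ (D * d) * z = comb (O := O) φ e p := by
    intro z hz
    obtain ⟨p, hp⟩ := hd' z hz
    exact ⟨p, by rw [hcomb, map_mul, mul_assoc, hp]⟩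
  choose! P hP using hmem
  refine ⟨⟨N, e, fun i => mul_mem (aeval_mem_chart O φ D) (hb i), D * d, mul_ne_zero hD hd,
    fun z hz => ?_, fun k => aeval φ Dd * dual k, fun k => ?_, D * Dd, mul_ne_zero hD hDd,
    fun i k => ?_, fun i j => Classical.choose (hD' (b i * b j) (Finset.mem_image.2
      ⟨(i, j), Finset.mem_univ _, rfl⟩)), fun i j => ?_, ?_⟩⟩
  · obtain ⟨f, -, hf⟩ := Submodule.mem_span_finset.1
      (hG ▸ Submodule.mem_top : (⟨z, hz⟩ : integralClosure _ L) ∈ Submodule.span _ (G : Set _))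
    have hr : ∀ g, ∃ r : O[X], aeval φ r = (f g : L) := fun g => exists_aeval_eq O (f g).2
    choose r hr using hr
    refine ⟨fun i => ∑ g ∈ G, r g * P (g : L) i, ?_⟩
    rw [comb_sum]
    have hz' : z = ∑ g ∈ G, aeval φ (r g) * (g : L) := by
      have := congrArg (fun w : integralClosure _ L => (w : L)) hf.symm
      simpa [hr, Algebra.smul_def] using this
    conv_lhs => rw [hz', Finset.mul_sum]
    refine Finset.sum_congr rfl fun g hg => ?_
    rw [comb_mul, ← hP _ (Finset.mem_image_of_mem _ hg)]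
    ring
  · obtain ⟨p, hp⟩ := hDd' _ (Finset.mem_image_of_mem _ (Finset.mem_univ k))
    rw [hp, comb_apply]
    exact sum_mem fun i _ => mul_mem (aeval_mem_chart O φ _) (hb i)
  · have hmemD : ∀ r : O[X], aeval φ r ∈ K⟮φ⟯ := fun r =>
      adjoin_le_adjoinField ⟨_, aeval_mem_adjoin O φ r⟩
    have h0 : Algebra.trace K⟮φ⟯ L (b i * dual k) = if i = k then 1 else 0 := by
      have h := LinearMap.BilinForm.apply_dualBasis_left
        (traceForm_nondegenerate K⟮φ⟯ L) b k i
      rw [Algebra.traceForm_apply] at h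
      rw [mul_comm, hdual]
      exact h
    show ((Algebra.trace K⟮φ⟯ L (aeval φ D * b i * (aeval φ Dd * dual k))) : L) = _
    rw [show aeval φ D * b i * (aeval φ Dd * dual k)
        = (⟨_, hmemD (D * Dd)⟩ : K⟮φ⟯) • (b i * dual k) by
      rw [IntermediateField.smul_def, smul_eq_mul]; simp only [map_mul]; ring, map_smul, h0]
    split_ifs <;> simp
  · have hM := Classical.choose_spec (hD' (b i * b j) (Finset.mem_image.2
      ⟨(i, j), Finset.mem_univ _, rfl⟩))
    rw [hcomb, ← hM]
    show aeval φ D * b i * (aeval φ D * b j) = _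
    ring
  · intro p p' h
    rw [hcomb, hcomb] at h
    exact comb_injective hφ b.linearIndependent (mul_left_cancel₀ (aeval_ne_zero hφ hD) h)

end FLTAgent.LevelSq
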