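import Fermat.Agent.LevelSq.Eigen
import Fermat.Agent.LevelSq.Push
import Fermat.Prelude.Def_GaloisRep_LocalConditions

/-!
# The new part at a prime whose square divides the level

`GeometrySq` is the geometric input: an inertia invariant point of `J₀(q² M')` of order prime to
`q`, killed by the two pushforwards to level `q M'`, is killed by a fixed nonzero integer.
For a newform, some Hecke operator acts as zero at the lower level but not on the newform.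
-/

set_option autoImplicit false

noncomputable section

namespace FLTAgent.LevelSq

open AlgebraicCurve ModularCurve Matrix

local notation "Qbar" => AlgebraicClosure ℚ
local notation "Γℚ" => AlgebraicClosure ℚ ≃ₐ[ℚ] AlgebraicClosure ℚ

/-- The geometric input at level `q ^ 2 * M'`. -/
def GeometrySq : Prop :=
  ∀ (q M' M : ℕ) [NeZero q] [NeZero M] [NeZero (q * M')] (_ : q.Prime) (_ : M = q ^ 2 * M')
    (_ : ¬ q ∣ M') (h1 : q * M' * 1 ∣ M) (hq : q * M' * q ∣ M)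
    (A : ValuationSubring Qbar) (_ : A.LiesOverPrime q),
    ∃ C : ℕ, C ≠ 0 ∧ ∀ m : ℕ, ¬ q ∣ m → ∀ x : JZero M, m • x = 0 →
      (∀ σ ∈ A.inertiaSubgroupIn ℚ, σ • x = x) →
      pushPic 1 h1 x = 0 → pushPic q hq x = 0 → C • x = 0

section Pair

variable (M L : ℕ) [NeZero M] [NeZero L] (S : Set ℕ)

/-- The Hecke operators acting on both levels at once. -/
def pairAlg : Subalgebra ℤ (CuspForm.heckeAlgebra M 2 S × CuspForm.heckeAlgebra L 2 S) :=
  Algebra.adjoin ℤ {x | ∃ (ℓ : ℕ) (hℓ : ℓ.Prime) (hℓM : ¬ ℓ ∣ M) (hℓL : ¬ ℓ ∣ L) (hℓS : ℓ ∉ S),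
    x = (CuspForm.heckeAlgebra.T hℓ hℓM hℓS, CuspForm.heckeAlgebra.T hℓ hℓL hℓS)}

variable {M L S}

theorem exists_pairAlg_fst (hS : ∀ q : ℕ, q.Prime → q ∣ M → q ∈ S) (hLM : L ∣ M)
    (a : CuspForm.heckeAlgebra M 2 S) : ∃ b, (a, b) ∈ pairAlg M L S := by
  obtain ⟨x, hx⟩ := a
  induction hx using Algebra.adjoin_induction with
  | mem x hx =>
    rcases hx with ⟨ℓ, hℓ, hℓM, hℓS, rfl⟩ | ⟨q, hqM, hq, hqS, rfl⟩
    · exact ⟨CuspForm.heckeAlgebra.T hℓ (fun h => hℓM (h.trans hLM)) hℓS, Algebra.subset_adjoin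
        ⟨ℓ, hℓ, hℓM, fun h => hℓM (h.trans hLM), hℓS, rfl⟩⟩
    · exact absurd (hS q hq hqM) hqS
  | algebraMap z => exact ⟨_, (pairAlg M L S).algebraMap_mem z⟩
  | add x y _ _ ihx ihy =>
    obtain ⟨b, hb⟩ := ihx
    obtain ⟨c, hc⟩ := ihy
    exact ⟨b + c, add_mem hb hc⟩
  | mul x y _ _ ihx ihy =>
    obtain ⟨b, hb⟩ := ihx
    obtain ⟨c, hc⟩ := ihy
    exact ⟨b * c, mul_mem hb hc⟩

theorem exists_pairAlg_snd (hS : ∀ q : ℕ, q.Prime → q ∣ M → q ∈ S) (hLM : L ∣ M)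
    (b : CuspForm.heckeAlgebra L 2 S) : ∃ a, (a, b) ∈ pairAlg M L S := by
  obtain ⟨x, hx⟩ := b
  induction hx using Algebra.adjoin_induction with
  | mem x hx =>
    rcases hx with ⟨ℓ, hℓ, hℓL, hℓS, rfl⟩ | ⟨q, hqL, hq, hqS, rfl⟩
    · exact ⟨CuspForm.heckeAlgebra.T hℓ (fun h => hℓS (hS ℓ hℓ h)) hℓS, Algebra.subset_adjoin
        ⟨ℓ, hℓ, fun h => hℓS (hS ℓ hℓ h), hℓL, hℓS, rfl⟩⟩
    · exact absurd (hS q hq (hqL.trans hLM)) hqS
  | algebraMap z => exact ⟨_, (pairAlg M L S).algebraMap_mem z⟩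
  | add x y _ _ ihx ihy =>
    obtain ⟨b, hb⟩ := ihx
    obtain ⟨c, hc⟩ := ihy
    exact ⟨b + c, add_mem hb hc⟩
  | mul x y _ _ ihx ihy =>
    obtain ⟨b, hb⟩ := ihx
    obtain ⟨c, hc⟩ := ihy
    exact ⟨b * c, mul_mem hb hc⟩

/-- Some operator vanishes at the lower level and not on the newform. -/
theorem exists_op (hspec : GalRep.SpecializationsExist)
    {g : CuspForm (CongruenceSubgroup.Gamma0 M) 2} (hg : g.IsNewform) (T : Finset ℕ)
    (hS : ∀ q : ℕ, q.Prime → q ∣ M → q ∈ T) (hLM : L ∣ M) (hne : L ≠ M)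
    (chig : CuspForm.heckeAlgebra M 2 (↑T : Set ℕ) →+* ℂ)
    (hchig : ∀ (ℓ : ℕ) (hℓ : ℓ.Prime) (hℓM : ¬ ℓ ∣ M) (hℓS : ℓ ∉ (↑T : Set ℕ)),
      chig (CuspForm.heckeAlgebra.T hℓ hℓM hℓS) = ModularFormClass.qCoeff g ℓ) :
    ∃ a, (a, (0 : CuspForm.heckeAlgebra L 2 (↑T : Set ℕ))) ∈ pairAlg M L (↑T : Set ℕ) ∧
      chig a ≠ 0 := by
  by_contra hcon
  push Not at hcon
  let π₁ := (RingHom.fst (CuspForm.heckeAlgebra M 2 (↑T : Set ℕ))
    (CuspForm.heckeAlgebra L 2 (↑T : Set ℕ))).comp (pairAlg M L (↑T : Set ℕ)).val.toRingHom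
  let π₂ := (RingHom.snd (CuspForm.heckeAlgebra M 2 (↑T : Set ℕ))
    (CuspForm.heckeAlgebra L 2 (↑T : Set ℕ))).comp (pairAlg M L (↑T : Set ℕ)).val.toRingHom
  have hsurj : Function.Surjective π₂ := fun b => by
    obtain ⟨a, ha⟩ := exists_pairAlg_snd hS hLM b
    exact ⟨⟨_, ha⟩, rfl⟩
  have hker : RingHom.ker π₂ ≤ RingHom.ker (chig.comp π₁) := by
    intro x hx
    rw [RingHom.mem_ker] at hx ⊢
    obtain ⟨⟨a, b⟩, hab⟩ := x
    obtain rfl : b = 0 := hx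
    exact hcon a hab
  let χ' : CuspForm.heckeAlgebra L 2 (↑T : Set ℕ) →+* ℂ :=
    RingHom.liftOfSurjective π₂ hsurj ⟨chig.comp π₁, hker⟩
  obtain ⟨f, hf, hfχ⟩ := exists_eigenform_away L _ χ'
  refine hg.2 L hLM hne ⟨f, hf, fun ℓ hℓ hℓM => ?_⟩
  refine qCoeff_eq_of_almost_all hspec hg.1 hf hLM T (fun l hl hlM hlT => ?_) hℓ hℓM
  have hlT' : l ∉ (↑T : Set ℕ) := by simpa using hlT
  have hlL : ¬ l ∣ L := fun h => hlM (h.trans hLM)
  rw [hfχ l hl hlL hlT', ← hchig l hl hlM hlT']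
  exact RingHom.liftOfRightInverse_comp_apply π₂ _ _ ⟨chig.comp π₁, hker⟩
    (⟨_, Algebra.subset_adjoin ⟨l, hl, hlM, hlL, hlT', rfl⟩⟩ : pairAlg M L (↑T : Set ℕ))

end Pair

section Transport

variable {M L p : ℕ} [NeZero M] [NeZero L] [Fact p.Prime] (TM : GalRep.TorsionModel M p)
  (TL : GalRep.TorsionModel L p) {S : Set ℕ}

/-- The matrix of a Hecke operator away from `S`. -/
def opMat {N : ℕ} [NeZero N] (T : GalRep.TorsionModel N p) (hS : GalRep.levelPrimes N ⊆ S) :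
    CuspForm.heckeAlgebra N 2 S →+*
      Matrix (Fin (Module.finrank ℤ T.H)) (Fin (Module.finrank ℤ T.H)) ℤ :=
  T.heckeMat.comp (Subalgebra.inclusion (CuspForm.heckeAlgebra_mono hS)).toRingHom

theorem push_pair (hGM : GalRep.GaloisFacts M p) (hGL : GalRep.GaloisFacts L p)
    (hpS : p ∈ S) (hSM : GalRep.levelPrimes M ⊆ S) (hSL : GalRep.levelPrimes L ⊆ S)
    (d : ℕ) [NeZero d] (hd : L * d ∣ M)
    {x : CuspForm.heckeAlgebra M 2 S × CuspForm.heckeAlgebra L 2 S} (hx : x ∈ pairAlg M L S) :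
    ∀ (n : ℕ) v w, pushPic d hd (TM.projv n v) = TL.projv n w →
      pushPic d hd (TM.projv n (opMat TM hSM x.1 *ᵥ v)) =
        TL.projv n (opMat TL hSL x.2 *ᵥ w) := by
  induction hx using Algebra.adjoin_induction with
  | mem x hx =>
    obtain ⟨ℓ, hℓ, hℓM, hℓL, hℓS, rfl⟩ := hx
    intro n v w hvw
    obtain ⟨A, σ, hA, hσ⟩ := Frobenius.exists_liesOverPrime_isFrobeniusAt hℓ
    have e₁ := (TM.projv_heckeMat n hℓ hℓM v)
    have e₂ := (TL.projv_heckeMat n hℓ hℓL w)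
    refine (congrArg (pushPic d hd) e₁).trans (Eq.trans ?_ e₂.symm)
    rw [pushPic_hecke d hd hGM hGL hℓ (fun h => (hℓ.dvd_mul.mp h).elim hℓM fun h' =>
      hℓS (by rwa [(Nat.prime_dvd_prime_iff_eq hℓ (Fact.out : p.Prime)).mp h'])) hA hσ _
      ⟨n, TM.pow_smul_projv n v⟩, hvw]
  | algebraMap z =>
    intro n v w hvw
    have e : ∀ {N : ℕ} [NeZero N] (T : GalRep.TorsionModel N p) (hN : GalRep.levelPrimes N ⊆ S)
        (u : Fin (Module.finrank ℤ T.H) → ℤ),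
        opMat T hN (algebraMap ℤ (CuspForm.heckeAlgebra N 2 S) z) *ᵥ u = z • u := fun T hN u => by
      rw [Algebra.algebraMap_eq_smul_one, map_zsmul, map_one, Matrix.smul_mulVec, Matrix.one_mulVec]
    show pushPic d hd (TM.projv n (opMat TM hSM (algebraMap ℤ _ z) *ᵥ v)) =
      TL.projv n (opMat TL hSL (algebraMap ℤ _ z) *ᵥ w)
    rw [e, e, map_zsmul, map_zsmul, map_zsmul, hvw]
  | add x y _ _ ihx ihy =>
    intro n v w hvw
    simp only [Prod.fst_add, Prod.snd_add, map_add, Matrix.add_mulVec, ihx n v w hvw,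
      ihy n v w hvw]
  | mul x y _ _ ihx ihy =>
    intro n v w hvw
    simp only [Prod.fst_mul, Prod.snd_mul, map_mul, ← Matrix.mulVec_mulVec]
    exact ihx n _ _ (ihy n v w hvw)

theorem push_eq_zero (hGM : GalRep.GaloisFacts M p) (hGL : GalRep.GaloisFacts L p)
    (hpS : p ∈ S) (hSM : GalRep.levelPrimes M ⊆ S) (hSL : GalRep.levelPrimes L ⊆ S)
    (d : ℕ) [NeZero d] (hd : L * d ∣ M) {a : CuspForm.heckeAlgebra M 2 S}
    (ha : (a, (0 : CuspForm.heckeAlgebra L 2 S)) ∈ pairAlg M L S)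
    (TL : GalRep.TorsionModel L p) (n : ℕ) (v : Fin (Module.finrank ℤ TM.H) → ℤ) :
    pushPic d hd (TM.projv n (opMat TM hSM a *ᵥ v)) = 0 := by
  obtain ⟨w, hw⟩ := TL.exists_projv n (pushPic d hd (TM.projv n v))
    (by rw [← map_nsmul, TM.pow_smul_projv, map_zero])
  rw [push_pair TM TL hGM hGL hpS hSM hSL d hd ha n v w hw.symm]
  simp

end Transport

end FLTAgent.LevelSq
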