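import Fermat.Agent.LevelSq.RamField

/-!
# The discrete valuation ring `ramRing q A`

Its uniformiser is `η - 1`; its units are `m`-th powers for `m` prime to `q`; an element of `ℚ̄`
fixed by the automorphisms over `urField A` preserving `A` lies in `urField A`.
-/

set_option autoImplicit false
set_option linter.style.haveILetI false
set_option linter.unusedSectionVars false
set_option synthInstance.maxHeartbeats 100000

noncomputable section

namespace FLTAgent.LevelSq

local notation "Qbar" => AlgebraicClosure ℚ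

/-- An element of which every nonzero element is a power up to units is irreducible. -/
theorem irreducible_of_unit_mul_pow {R : Type*} [CommRing R] [IsDomain R] {p : R} (hp : p ≠ 0)
    (hpu : ¬ IsUnit p) (h : ∀ x : R, x ≠ 0 → ∃ (n : ℕ) (u : Rˣ), x = u * p ^ n) :
    Irreducible p := by
  refine ⟨hpu, fun a b hab => ?_⟩
  obtain ⟨m, u, rfl⟩ := h a fun h0 => hp (by rw [hab, h0, zero_mul])
  obtain ⟨n, v, rfl⟩ := h b fun h0 => hp (by rw [hab, h0, mul_zero])
  rcases Nat.eq_zero_or_pos m with rfl | hm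
  · exact Or.inl (by simp)
  rcases Nat.eq_zero_or_pos n with rfl | hn
  · exact Or.inr (by simp)
  refine absurd ?_ hpu
  have h1 : p * ((u : R) * v * p ^ (m + n - 1)) = p * 1 := by
    rw [mul_one]
    conv_rhs => rw [hab]
    rw [mul_left_comm, ← pow_succ', Nat.sub_add_cancel (by omega), pow_add]
    ring
  exact isUnit_of_dvd_one ⟨(u : R) * v * p ^ (m + n - 2), by
    rw [mul_left_comm, ← pow_succ', show m + n - 2 + 1 = m + n - 1 by omega,
      mul_left_cancel₀ hp h1]⟩

variable {q : ℕ} [hq : Fact q.Prime] {A : ValuationSubring Qbar} (hA : A.LiesOverPrime q)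

/-- `η - 1` in `ramRing q A`. -/
def ramUnif (η : Qbar) (hη : η ^ q = 1) : ramRing q A :=
  ⟨⟨η - 1, sub_mem (root_mem_ramField hη) (one_mem _)⟩,
    sub_mem (mem_of_pow_eq_one hA hq.out.ne_zero hη) (one_mem A)⟩

theorem coe_ramUnif (η : Qbar) (hη : η ^ q = 1) :
    (((ramUnif hA η hη : ramRing q A) : ramField q A) : Qbar) = η - 1 := rfl

include hA

theorem not_isUnit_of_mem_nonunits {x : ramRing q A}
    (hx : (((x : ramRing q A) : ramField q A) : Qbar) ∈ A.nonunits) : ¬ IsUnit x := by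
  rintro ⟨u, rfl⟩
  rw [A.mem_nonunits_iff_or] at hx
  rcases hx with h | h
  · have h1 : (u : ramRing q A) = 0 := Subtype.ext (Subtype.ext h)
    exact u.ne_zero h1
  · refine h ?_
    have h2 : ((((u⁻¹ : (ramRing q A)ˣ) : ramRing q A) : ramField q A) : Qbar) =
        ((((u : ramRing q A) : ramField q A) : Qbar))⁻¹ := eq_inv_of_mul_eq_one_left
      (congrArg (fun z : ramRing q A => ((z : ramField q A) : Qbar)) u.inv_mul)
    rw [← h2]
    exact ((u⁻¹ : (ramRing q A)ˣ) : ramRing q A).2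

theorem exists_unit_mul_pow_ram {η : Qbar} (hη : IsPrimitiveRoot η q) {x : ramRing q A}
    (hx : x ≠ 0) : ∃ (n : ℕ) (u : (ramRing q A)ˣ), x = u * ramUnif hA η hη.pow_eq_one ^ n := by
  have hx' : ((x : ramField q A) : Qbar) ≠ 0 := fun h => hx (Subtype.ext (Subtype.ext h))
  obtain ⟨n, u, hu, hui, huK, heq⟩ := exists_unit_mul_zpow_ram hA hη (x : ramField q A).2 hx'
  have hu0 : u ≠ 0 := by rintro rfl; rw [zero_mul] at heq; exact hx' heq
  let uK : ramField q A := ⟨u, huK⟩
  have huR : uK ∈ ramRing q A := hu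
  have huiR : uK⁻¹ ∈ ramRing q A := by
    show algebraMap (ramField q A) Qbar uK⁻¹ ∈ A
    rw [map_inv₀]; exact hui
  have huK0 : uK ≠ 0 := fun h => hu0 (congrArg Subtype.val h)
  let U : (ramRing q A)ˣ := ⟨⟨uK, huR⟩, ⟨uK⁻¹, huiR⟩, Subtype.ext (mul_inv_cancel₀ huK0),
    Subtype.ext (inv_mul_cancel₀ huK0)⟩
  rcases n with n | n
  · exact ⟨n, U, Subtype.ext (Subtype.ext (by simpa [coe_ramUnif, U, uK] using heq))⟩
  · exfalso
    set P := ramUnif hA η hη.pow_eq_one
    refine not_isUnit_of_mem_nonunits hA (x := P) (sub_one_mem_nonunits hA hη.pow_eq_one)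
      (isUnit_of_dvd_unit ⟨P ^ n * x, Subtype.ext (Subtype.ext ?_)⟩ U.isUnit)
    have hπ : η - 1 ≠ 0 := sub_ne_zero.2 (hη.ne_one hq.out.one_lt)
    show u = (η - 1) * ((((P ^ n : ramRing q A) : ramField q A) : Qbar) * _)
    rw [heq, zpow_negSucc, show (((P ^ n : ramRing q A) : ramField q A) : Qbar) = (η - 1) ^ n by
      simp [P, coe_ramUnif], ← mul_assoc, ← pow_succ']
    field_simp

theorem ramUnif_ne_zero {η : Qbar} (hη : IsPrimitiveRoot η q) :
    ramUnif hA η hη.pow_eq_one ≠ 0 := fun h =>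
  sub_ne_zero.2 (hη.ne_one hq.out.one_lt)
    (congrArg (fun z : ramRing q A => ((z : ramField q A) : Qbar)) h)

theorem irreducible_ramUnif {η : Qbar} (hη : IsPrimitiveRoot η q) :
    Irreducible (ramUnif hA η hη.pow_eq_one) :=
  irreducible_of_unit_mul_pow (ramUnif_ne_zero hA hη)
    (not_isUnit_of_mem_nonunits hA (sub_one_mem_nonunits hA hη.pow_eq_one))
    fun _ hx => exists_unit_mul_pow_ram hA hη hx

theorem isDiscreteValuationRing_ramRing : IsDiscreteValuationRing (ramRing q A) := by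
  obtain ⟨η, hη⟩ := exists_eta (q := q)
  refine IsDiscreteValuationRing.ofHasUnitMulPowIrreducibleFactorization
    ⟨_, irreducible_ramUnif hA hη, fun {x} hx => ?_⟩
  obtain ⟨n, u, h⟩ := exists_unit_mul_pow_ram hA hη hx
  exact ⟨n, u, by rw [h, mul_comm]⟩

theorem not_isUnit_urRamIncl : ¬ IsUnit (urRamIncl q A (q : urRing A)) := by
  refine not_isUnit_of_mem_nonunits hA ?_
  rw [map_natCast]
  simpa using natCast_mem_nonunits hA

theorem urRamIncl_natCast_ne_zero : urRamIncl q A (q : urRing A) ≠ 0 := by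
  rw [map_natCast]
  intro h
  have h1 := congrArg (fun z : ramRing q A => ((z : ramField q A) : Qbar)) h
  exact hq.out.ne_zero (by simpa using h1)

/-- Units of `ramRing q A` are `m`-th powers, `m` prime to `q`. -/
theorem exists_root_ram {m : ℕ} (hm : ¬ q ∣ m) (u : (ramRing q A)ˣ) :
    ∃ c : ramRing q A, c ^ m = u := by
  have hm0 : m ≠ 0 := fun h => hm (h ▸ dvd_zero q)
  obtain ⟨y, hy⟩ := IsAlgClosed.exists_pow_nat_eq (((u : ramRing q A) : ramField q A) : Qbar)
    (Nat.pos_of_ne_zero hm0)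
  have hy0 : y ≠ 0 := by
    rintro rfl
    rw [zero_pow hm0] at hy
    exact u.ne_zero (Subtype.ext (Subtype.ext hy.symm))
  have hyA : y ∈ A := by
    rcases A.mem_or_inv_mem y with h | h
    · exact h
    · have h2 : y = (((u : ramRing q A) : ramField q A) : Qbar) * y⁻¹ ^ (m - 1) := by
        rw [← hy, inv_pow, ← div_eq_mul_inv, eq_div_iff (pow_ne_zero _ hy0), ← pow_succ',
          Nat.sub_add_cancel (Nat.pos_of_ne_zero hm0)]
      rw [h2]
      exact mul_mem (u : ramRing q A).2 (pow_mem h _)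
  have hyiA : y⁻¹ ∈ A := by
    have h3 : y⁻¹ = (((u⁻¹ : (ramRing q A)ˣ) : ramRing q A) : ramField q A) * y ^ (m - 1) := by
      refine inv_eq_of_mul_eq_one_right ?_
      rw [mul_left_comm, ← pow_succ', Nat.sub_add_cancel (Nat.pos_of_ne_zero hm0), hy]
      exact congrArg (fun z : ramRing q A => ((z : ramField q A) : Qbar)) u.inv_mul
    rw [h3]
    exact mul_mem ((u⁻¹ : (ramRing q A)ˣ) : ramRing q A).2 (pow_mem hyA _)
  have hfix : y ∈ ramField q A := by
    rw [ramField, IntermediateField.mem_fixedField_iff]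
    intro σ hσ
    have hd := (Frobenius.mem_inertiaSubgroupIn_iff.1 hσ.1).2 y hyA
    have hσA : σ y ∈ A := by
      simpa using A.add_mem _ _ (A.nonunits_subset hd) hyA
    have hm1 : σ y ^ m = y ^ m := by
      rw [← map_pow, hy]
      exact (IntermediateField.mem_fixedField_iff _ _).1 ((u : ramRing q A) : ramField q A).2 σ hσ
    set z : A := ⟨σ y, hσA⟩ * ⟨y⁻¹, hyiA⟩ with hz
    have h1 : z = 1 := by
      refine eq_one_of_residue_eq_one hA hm (Subtype.ext ?_) ?_
      · show (σ y * y⁻¹) ^ m = 1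
        rw [mul_pow, inv_pow, hm1, mul_inv_cancel₀ (pow_ne_zero _ hy0)]
      · rw [hz, map_mul, show IsLocalRing.residue A (⟨σ y, hσA⟩ : A) =
            IsLocalRing.residue A ⟨y, hyA⟩ from by
          rw [← sub_eq_zero, ← map_sub, residue_eq_zero_iff' hA]; exact hd, ← map_mul]
        convert map_one (IsLocalRing.residue A)
        exact Subtype.ext (mul_inv_cancel₀ hy0)
    have h2 : σ y * y⁻¹ = 1 := congrArg Subtype.val h1
    rwa [mul_inv_eq_one₀ hy0] at h2
  exact ⟨⟨⟨y, hfix⟩, hyA⟩, Subtype.ext (Subtype.ext (by simpa using hy))⟩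

omit hq in
theorem mem_urRing_iff_exists (x : urField A) :
    algebraMap (urField A) Qbar x ∈ A ↔ ∃ a : urRing A, algebraMap (urRing A) (urField A) a = x :=
  ⟨fun h => ⟨⟨x, h⟩, rfl⟩, fun ⟨a, ha⟩ => ha ▸ a.2⟩

/-- The fixed points of the automorphisms preserving `A` are in the inertia field. -/
theorem exists_eq_of_fixed (z : Qbar)
    (h : ∀ σ : Qbar ≃ₐ[urField A] Qbar, (∀ w ∈ A, σ w ∈ A) → σ z = z) :
    ∃ y : urField A, algebraMap (urField A) Qbar y = z := by
  refine ⟨⟨z, (IntermediateField.mem_fixedField_iff _ _).2 fun σ hσ => ?_⟩, rfl⟩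
  refine h { σ.toRingEquiv with
    commutes' := fun c => (IntermediateField.mem_fixedField_iff _ _).1 c.2 σ hσ } fun w hw => ?_
  have hd := (Frobenius.mem_inertiaSubgroupIn_iff.1 hσ).2 w hw
  show σ w ∈ A
  simpa using A.add_mem _ _ (A.nonunits_subset hd) hw

end FLTAgent.LevelSq
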