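import Fermat.Agent.LevelSq.HauptData
import Fermat.Agent.LevelSq.DenChart
import Fermat.Agent.Igusa.Exports
import Fermat.Agent.Igusa.Criterion
import Fermat.Agent.FlatModel.LocalBase
import Fermat.Agent.FunctionField.Basic
import Mathlib.LinearAlgebra.FreeModule.PID

/-!
# The rational chart of level `N` and its reduction

The chart of `j` over `ℤ_(q)`, its reduction in `𝔽_q((s))`, and elements whose reductions form a
basis of the reduced chart over `𝔽_q[h]` with `den (h)` inverted.
-/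

set_option autoImplicit false
set_option linter.style.haveILetI false
set_option linter.unusedSectionVars false
set_option synthInstance.maxHeartbeats 200000
set_option maxHeartbeats 800000

noncomputable section

open Polynomial ModularCurve ModularCurve.IgusaScheme IntermediateField

namespace FLTAgent.LevelSq

open FLTAgent.Igusa

/-- The numerator over `R`. -/
def Haupt.numR (H : Haupt) (R : Type*) [CommRing R] : R[X] := (H.A ^ 3).map (Int.castRingHom R)

/-- The denominator over `R`. -/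
def Haupt.denR (H : Haupt) (R : Type*) [CommRing R] : R[X] := H.den.map (Int.castRingHom R)

theorem aeval_map_intCast {R S : Type*} [CommRing R] [CommRing S] [Algebra R S] (x : S)
    (p : ℤ[X]) : aeval x (p.map (Int.castRingHom R)) = aeval x p := by
  rw [aeval_def, eval₂_map, aeval_def]
  exact congrArg (fun f => eval₂ f x p) (RingHom.ext_int _ _)

theorem Haupt.map_denR (H : Haupt) {R S : Type*} [CommRing R] [CommRing S] (f : R →+* S) :
    (H.denR R).map f = H.denR S := by
  rw [Haupt.denR, Haupt.denR, Polynomial.map_map]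
  exact congrArg (fun g => H.den.map g) (RingHom.ext_int _ _)

theorem Haupt.numR_monic (H : Haupt) (R : Type*) [CommRing R] : (H.numR R).Monic :=
  (H.A_monic.pow 3).map _

theorem Haupt.denR_monic (H : Haupt) (R : Type*) [CommRing R] : (H.denR R).Monic :=
  H.den_monic.map _

theorem Haupt.deg_lt (H : Haupt) (R : Type*) [CommRing R] [Nontrivial R] :
    (H.denR R).natDegree < (H.numR R).natDegree := by
  rw [Haupt.denR, Haupt.numR, H.den_monic.natDegree_map, (H.A_monic.pow 3).natDegree_map]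
  exact H.deg

theorem coe_aeval_full {N : ℕ} [NeZero N] (x : ↥(modularFunctionFieldFull N)) (p : ℚ[X]) :
    ((aeval x p : ↥(modularFunctionFieldFull N)) : LaurentSeries ℚ) =
      aeval (x : LaurentSeries ℚ) p := by
  rw [aeval_def, aeval_def]
  show (algebraMap ↥(modularFunctionFieldFull N) (LaurentSeries ℚ)) (eval₂ _ x p) = _
  rw [hom_eval₂]
  exact congrArg (fun f => eval₂ f (x : LaurentSeries ℚ) p) (RingHom.ext_rat _ _)

theorem transcendental_of_coe {N : ℕ} [NeZero N] {x : ↥(modularFunctionFieldFull N)}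
    (h : Transcendental ℚ (x : LaurentSeries ℚ)) : Transcendental ℚ x :=
  transcendental_iff.2 fun p hp => transcendental_iff.1 h p (by rw [← coe_aeval_full, hp]; rfl)

variable (N : ℕ) [NeZero N] (q : ℕ) [Fact q.Prime]

set_option quotPrecheck false in
/-- `ℤ_(q)`. -/
local notation "Oq" => ↥(GaloisRep.ratLocalizedAt q)

set_option quotPrecheck false in
/-- The function field of level `N` over `ℚ`. -/
local notation "Fℚ" => ↥(modularFunctionFieldFull N)

variable {N} (H : Haupt) (hH : H.lvl ∣ N)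

/-- The coordinate in the function field. -/
def hauptEl : Fℚ := ⟨intToRat H.series, H.mem N hH⟩

theorem coe_hauptEl : (hauptEl H hH : LaurentSeries ℚ) = intToRat H.series := rfl

theorem coe_aeval_hauptEl (p : ℤ[X]) :
    ((aeval (hauptEl H hH) p : Fℚ) : LaurentSeries ℚ) = intToRat (aeval H.series p) := by
  show (algebraMap Fℚ (LaurentSeries ℚ)) (aeval (hauptEl H hH) p) = _
  simp only [aeval_def, hom_eval₂]
  exact congrArg₂ (fun f y => eval₂ f y p) (RingHom.ext_int _ _) rfl

theorem jFull_mul_den :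
    jFull N * aeval (hauptEl H hH) (H.denR Oq) = aeval (hauptEl H hH) (H.numR Oq) := by
  rw [Haupt.denR, Haupt.numR, aeval_map_intCast, aeval_map_intCast]
  refine Subtype.ext ?_
  rw [IntermediateField.coe_mul, coe_aeval_hauptEl, coe_aeval_hauptEl, coe_jFull, ← H.equation,
    map_mul, intToRat, coeffMap_jqModC, jqModC_rat]

theorem transcendental_hauptEl : Transcendental ℚ (hauptEl H hH) :=
  transcendental_of_coe (H.transcendental ℚ)

theorem transcendental_hauptEl_local : Transcendental Oq (hauptEl H hH) := by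
  intro ⟨p, hp0, hp⟩
  refine transcendental_hauptEl H hH ⟨p.map (algebraMap Oq ℚ), ?_, ?_⟩
  · rwa [Ne, Polynomial.map_eq_zero_iff (Subtype.val_injective)]
  · rwa [aeval_map_algebraMap]

/-- The chart of `j`. -/
abbrev chartJ (N : ℕ) [NeZero N] : Subalgebra Oq ↥(modularFunctionFieldFull N) :=
  chart Oq (jFull N)

include hH in
theorem isUnit_bad (hqN : ¬ q ∣ N) : IsUnit (H.bad : Oq) := by
  have h : ¬ (q : ℤ) ∣ (H.bad : ℤ) := fun h => hqN
    ((Int.natCast_dvd_natCast.1 h).trans (H.bad_dvd.trans hH))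
  simpa using FlatModel.isUnit_intCast q h

theorem hauptEl_mem : hauptEl H hH ∈ chartJ q N :=
  coord_mem_chart (H.numR_monic Oq) (H.deg_lt Oq) (jFull_mul_den q H hH)

theorem chartH_le {z : Fℚ} (hz : z ∈ chart Oq (hauptEl H hH)) : z ∈ chartJ q N :=
  chart_coord_le_chart (H.numR_monic Oq) (H.deg_lt Oq) (jFull_mul_den q H hH) hz

theorem aeval_hauptEl_mem (p : Oq[X]) : aeval (hauptEl H hH) p ∈ chartJ q N :=
  chartH_le q H hH (aeval_mem_chart Oq _ p)

theorem aeval_den_ne_zero : aeval (hauptEl H hH) (H.denR Oq) ≠ 0 := fun h =>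
  (H.denR_monic Oq).ne_zero (transcendental_iff.1 (transcendental_hauptEl_local q H hH) _ h)

theorem inv_den_mem (hqN : ¬ q ∣ N) : (aeval (hauptEl H hH) (H.denR Oq))⁻¹ ∈ chartJ q N := by
  set x : chartJ q N := ⟨hauptEl H hH, hauptEl_mem q H hH⟩
  set y : chartJ q N := ⟨jFull N, self_mem_chart Oq (jFull N)⟩
  have hbad : IsUnit (H.bad : chartJ q N) := by
    simpa using (isUnit_bad q H hH hqN).map (algebraMap Oq (chartJ q N))
  have hc : ∀ p : ℤ[X], ((aeval x p : chartJ q N) : Fℚ) = aeval (hauptEl H hH) p := fun p =>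
    (Polynomial.aeval_algHom_apply ((chartJ q N).val.restrictScalars ℤ) x p).symm
  have hxy : y * aeval x H.den = aeval x (H.A ^ 3) := Subtype.ext (by
    rw [MulMemClass.coe_mul, hc, hc]
    have := jFull_mul_den q H hH
    rwa [Haupt.denR, Haupt.numR, aeval_map_intCast, aeval_map_intCast] at this)
  obtain ⟨u, hu⟩ := H.den_unit (chartJ q N) x y hbad hxy
  rw [Haupt.denR, aeval_map_intCast, ← hc, ← hu]
  have h1 : ((u : chartJ q N) : Fℚ) * ((↑u⁻¹ : chartJ q N) : Fℚ) = 1 :=
    congrArg Subtype.val u.mul_inv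
  rw [inv_eq_of_mul_eq_one_right h1]
  exact (↑u⁻¹ : chartJ q N).2

/-- Membership in the chart of `j`. -/
theorem mem_chartJ_iff (hqN : ¬ q ∣ N) {z : Fℚ} :
    z ∈ chartJ q N ↔ InDen Oq (hauptEl H hH) (H.denR Oq) z :=
  mem_chart_iff_inDen (H.numR_monic Oq) (H.deg_lt Oq) (jFull_mul_den q H hH)
    (aeval_den_ne_zero q H hH) (inv_den_mem q H hH hqN)

/-! ### Reduction -/

theorem coe_mem_gaussRing_chartJ {z : Fℚ} (hz : z ∈ chartJ q N) :
    (z : LaurentSeries ℚ) ∈ gaussRing q :=
  coe_mem_gaussRing_of_chart N q (S := {jFull N})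
    (fun s hs => by rw [Set.mem_singleton_iff.1 hs, coe_jFull]; exact jq_mem_gaussRing q) hz

/-- The reduction of the chart. -/
def redJ (N : ℕ) [NeZero N] : chartJ q N →+* LaurentSeries (ZMod q) :=
  (red q).comp (((algebraMap ↥(modularFunctionFieldFull N) (LaurentSeries ℚ)).comp
    (chartJ q N).val.toRingHom).codRestrict (gaussRing q) fun z => coe_mem_gaussRing_chartJ q z.2)

theorem redJ_apply (z : chartJ q N) :
    redJ q N z = red q ⟨((z : Fℚ) : LaurentSeries ℚ), coe_mem_gaussRing_chartJ q z.2⟩ := rfl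

theorem redJ_algebraMap (a : Oq) :
    redJ q N (algebraMap Oq _ a) = HahnSeries.C (resHom q a) := by
  rw [redJ_apply]
  have h : ((algebraMap Oq (chartJ q N) a : Fℚ) : LaurentSeries ℚ) = lift q (HahnSeries.C a) :=
    localConst_mem N q a
  rw [show (⟨_, coe_mem_gaussRing_chartJ q (algebraMap Oq (chartJ q N) a).2⟩ : gaussRing q) =
    ⟨lift q (HahnSeries.C a), lift_mem q _⟩ from Subtype.ext h, red_lift, reduce, HahnSeries.C_apply,
    coeffMap_single]
  rfl

theorem redJ_hauptEl :
    redJ q N ⟨hauptEl H hH, hauptEl_mem q H hH⟩ = H.serC (ZMod q) := by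
  rw [redJ_apply]
  obtain ⟨h, hr⟩ := red_intToRat q H.series
  exact hr

theorem redJ_aeval (p : Oq[X]) :
    redJ q N ⟨aeval (hauptEl H hH) p, aeval_hauptEl_mem q H hH p⟩ =
      aeval (H.serC (ZMod q)) (p.map (resHom q)) := by
  have e : (⟨aeval (hauptEl H hH) p, aeval_hauptEl_mem q H hH p⟩ : chartJ q N) =
      aeval (⟨hauptEl H hH, hauptEl_mem q H hH⟩ : chartJ q N) p :=
    Subtype.ext (Polynomial.aeval_subalgebra_coe p (chartJ q N)
      ⟨hauptEl H hH, hauptEl_mem q H hH⟩).symm
  rw [e, aeval_def, hom_eval₂, redJ_hauptEl, aeval_def, eval₂_map]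
  refine congrArg (fun f => eval₂ f (H.serC (ZMod q)) p) (RingHom.ext fun a => ?_)
  rw [RingHom.comp_apply, RingHom.comp_apply, redJ_algebraMap, algebraMap_laurentSeries_eq_single,
    HahnSeries.C_apply]

theorem exists_eq_mul_of_redJ_eq_zero (hqN : ¬ q ∣ N) {z : chartJ q N} (hz : redJ q N z = 0) :
    ∃ w : chartJ q N, z = (q : chartJ q N) * w := by
  obtain ⟨w, hw, hzw⟩ :=
    red_chartFin_eq_zero N q hqN (x := (z : Fℚ)) z.2 (coe_mem_gaussRing_chartJ q z.2) hz
  exact ⟨⟨w, hw⟩, Subtype.ext (by simpa using hzw)⟩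

theorem redJ_mem_fullC (hqN : ¬ q ∣ N) (z : chartJ q N) :
    redJ q N z ∈ modularFunctionFieldFullC (ZMod q) N :=
  red_mem_fullC hqN (z : Fℚ).2 _

theorem exists_map_resHom_eq (p : (ZMod q)[X]) :
    ∃ r : Oq[X], r.map (resHom q) = p := by
  rw [← Polynomial.mem_lifts, lifts_iff_coeff_lifts]
  exact fun i => ⟨((p.coeff i).val : Oq), by simp⟩

theorem C_dvd_of_map_resHom_eq_zero {p : Oq[X]} (hp : p.map (resHom q) = 0) :
    C (q : Oq) ∣ p := by
  rw [C_dvd_iff_dvd_coeff]
  intro i
  have h : resHom q (p.coeff i) = 0 := by rw [← coeff_map, hp, coeff_zero]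
  obtain ⟨y, hy, -⟩ := exists_eq_mul_of_resHom_eq_zero q h
  exact ⟨y, hy⟩

theorem prime_natCast_local : Prime (q : Oq) := by
  refine ⟨?_, ?_, ?_⟩
  · intro h
    have := congrArg Subtype.val h
    simp at this
    exact (Fact.out : q.Prime).ne_zero this
  · intro h
    have := h.map (resHom q)
    simp at this
  · intro a b hab
    obtain ⟨c, hc⟩ := hab
    have h : resHom q a * resHom q b = 0 := by rw [← map_mul, hc]; simp
    rcases mul_eq_zero.1 h with h | h
    · obtain ⟨y, hy, -⟩ := exists_eq_mul_of_resHom_eq_zero q h; exact Or.inl ⟨y, hy⟩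
    · obtain ⟨y, hy, -⟩ := exists_eq_mul_of_resHom_eq_zero q h; exact Or.inr ⟨y, hy⟩

/-! ### Finiteness -/

theorem finiteDimensional_jFull :
    FiniteDimensional ℚ⟮jFull N⟯ ↥(modularFunctionFieldFull N) := by
  obtain ⟨ℓ, hℓ, hprime⟩ : ∃ ℓ, N < ℓ ∧ ℓ.Prime := Nat.exists_infinite_primes (N + 1)
  haveI : Fact ℓ.Prime := ⟨hprime⟩
  have hℓN : ¬ ℓ ∣ N := fun h => by
    have := Nat.le_of_dvd (Nat.pos_of_ne_zero (NeZero.ne N)) h
    omega
  obtain ⟨-, -, hspan⟩ := modBasis_spec N ℓ hℓN
  classical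
  set b : Fin (psiProd N) → Fℚ := fun i => ⟨_, intToRat_mem_full N (modBasis N ℓ hℓN i)⟩
  refine ⟨⟨Finset.univ.image b, eq_top_iff.2 fun y _ => ?_⟩⟩
  obtain ⟨a, ha, -⟩ := hspan _ y.2
  have hle : ∀ x ∈ ratBase, ∃ y ∈ ℚ⟮jFull N⟯, (y : LaurentSeries ℚ) = x := by
    intro x hx
    obtain ⟨r, s, rfl⟩ := (mem_adjoin_simple_iff ℚ x).1 hx
    exact ⟨aeval (jFull N) r / aeval (jFull N) s, (mem_adjoin_simple_iff ℚ _).2 ⟨r, s, rfl⟩, by
      rw [IntermediateField.coe_div, coe_aeval_full, coe_aeval_full, coe_jFull]⟩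
  choose a' ha' hav using fun i => hle _ (a i).2
  have e : y = ∑ i, (⟨a' i, ha' i⟩ : ℚ⟮jFull N⟯) • b i := Subtype.ext (by
    rw [AddSubmonoidClass.coe_finsetSum, ha]
    exact Finset.sum_congr rfl fun i _ => by rw [← hav i]; rfl)
  rw [e, Finset.coe_image, Finset.coe_univ, Set.image_univ]
  exact Submodule.sum_mem _ fun i _ => Submodule.smul_mem _ _ (Submodule.subset_span ⟨i, rfl⟩)

theorem transcendental_jFull : Transcendental ℚ (jFull N) :=
  transcendental_of_coe (by rw [coe_jFull]; exact transcendental_iff_injective.2 injective_aeval_jq)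

theorem finiteDimensional_hauptEl :
    FiniteDimensional ℚ⟮hauptEl H hH⟯ ↥(modularFunctionFieldFull N) :=
  haveI : FunctionField.IsFunctionField ℚ Fℚ :=
    ⟨⟨jFull N, transcendental_jFull, finiteDimensional_jFull⟩⟩
  FunctionField.finiteDimensional_adjoin_of_transcendental (transcendental_hauptEl H hH)

theorem exists_generators_chart {ψ : Fℚ} (hψ : Transcendental Oq ψ)
    [FiniteDimensional ℚ⟮ψ⟯ ↥(modularFunctionFieldFull N)] :
    ∃ (l : ℕ) (g : Fin l → Fℚ), (∀ i, g i ∈ chart Oq ψ) ∧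
      ∀ z ∈ chart Oq ψ, ∃ P : Fin l → Oq[X], z = ∑ i, aeval ψ (P i) * g i := by
  haveI := FlatModel.isFractionRing_ratLocalizedAt q
  haveI : Algebra.IsSeparable ℚ⟮ψ⟯ Fℚ := Algebra.IsSeparable.of_integral _ _
  haveI : Module.Finite (Algebra.adjoin Oq ({ψ} : Set Fℚ))
      (integralClosure (Algebra.adjoin Oq ({ψ} : Set Fℚ)) Fℚ) := finite_chart (K := ℚ) hψ
  obtain ⟨l, g, hg⟩ := Module.Finite.exists_fin (R := Algebra.adjoin Oq ({ψ} : Set Fℚ))
    (M := integralClosure (Algebra.adjoin Oq ({ψ} : Set Fℚ)) Fℚ)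
  refine ⟨l, fun i => g i, fun i => (g i).2, fun z hz => ?_⟩
  obtain ⟨c, hc⟩ := (Submodule.mem_span_range_iff_exists_fun _).1
    (hg.ge (Submodule.mem_top (x := (⟨z, hz⟩ : integralClosure _ Fℚ))))
  choose P hP using fun i => exists_aeval_eq Oq (c i).2
  refine ⟨P, ?_⟩
  have := congrArg Subtype.val hc
  rw [AddSubmonoidClass.coe_finsetSum] at this
  exact this.symm.trans (Finset.sum_congr rfl fun i _ => by rw [hP]; rfl)

/-! ### A basis of the reduction -/

theorem exists_residual_basis (hqN : ¬ q ∣ N) :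
    ∃ (r : ℕ) (e : Fin r → chartJ q N),
      (∀ p : Fin r → (ZMod q)[X],
        ∑ i, aeval (H.serC (ZMod q)) (p i) * redJ q N (e i) = 0 → p = 0) ∧
      ∀ z : chartJ q N, ∃ (m : ℕ) (p : Fin r → Oq[X]) (w : chartJ q N),
        aeval (hauptEl H hH) (H.denR Oq) ^ m * (z : Fℚ) =
          ∑ i, aeval (hauptEl H hH) (p i) * (e i : Fℚ) + (q : Fℚ) * (w : Fℚ) := by
  classical
  haveI := finiteDimensional_jFull (N := N)
  have hjt : Transcendental Oq (jFull N) := fun ⟨p, hp0, hp⟩ => transcendental_jFull (N := N)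
    ⟨p.map (algebraMap Oq ℚ), by rwa [Ne, Polynomial.map_eq_zero_iff Subtype.val_injective],
      by rwa [aeval_map_algebraMap]⟩
  obtain ⟨l, g, hg, hgen⟩ := exists_generators_chart q hjt
  set hb := H.serC (ZMod q)
  set B := Algebra.adjoin (ZMod q) ({hb} : Set (LaurentSeries (ZMod q)))
  haveI : IsPrincipalIdealRing B :=
    let f := ((AlgEquiv.ofInjective (aeval hb)
        (transcendental_iff_injective.1 (H.transcendental (ZMod q)))).trans
      (Subalgebra.equivOfEq _ _ (Algebra.adjoin_singleton_eq_range_aeval (ZMod q) hb).symm))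
    IsPrincipalIdealRing.of_surjective f.toRingEquiv.toRingHom f.surjective
  set gb : Fin l → LaurentSeries (ZMod q) := fun i => redJ q N ⟨g i, hg i⟩
  set M := Submodule.span B (Set.range gb)
  haveI : Module.Finite B M := Module.Finite.span_of_finite B (Set.finite_range gb)
  haveI : Module.IsTorsionFree B M := inferInstance
  obtain ⟨r, bM⟩ := Module.basisOfFiniteTypeTorsionFree' (R := B) (M := M)
  have hlift : ∀ i, ∃ p : Fin l → Oq[X], ((bM i : M) : LaurentSeries (ZMod q)) =
      ∑ k, aeval hb ((p k).map (resHom q)) * gb k := by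
    intro i
    obtain ⟨c, hc⟩ := (Submodule.mem_span_range_iff_exists_fun B).1 (bM i).2
    choose P hP using fun k => exists_aeval_eq (ZMod q) (c k).2
    choose p hp using fun k => exists_map_resHom_eq q (P k)
    refine ⟨p, hc.symm.trans (Finset.sum_congr rfl fun k _ => ?_)⟩
    rw [hp, hP]; rfl
  choose p hp using hlift
  let e : Fin r → chartJ q N := fun i =>
    ∑ k, ⟨aeval (hauptEl H hH) (p i k), aeval_hauptEl_mem q H hH _⟩ * ⟨g k, hg k⟩
  have he : ∀ i, redJ q N (e i) = ((bM i : M) : LaurentSeries (ZMod q)) := fun i => by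
    rw [hp i, map_sum]
    exact Finset.sum_congr rfl fun k _ => by rw [map_mul, redJ_aeval]
  refine ⟨_, e, fun P hP => ?_, fun z => ?_⟩
  · have h0 : ∑ i, (⟨aeval hb (P i), aeval_mem_adjoin (ZMod q) hb (P i)⟩ : B) • bM i = 0 := by
      refine Subtype.ext ?_
      rw [AddSubmonoidClass.coe_finsetSum, ZeroMemClass.coe_zero, ← hP]
      exact Finset.sum_congr rfl fun i _ => by rw [he]; rfl
    funext i
    exact transcendental_iff.1 (H.transcendental (ZMod q)) _
      (congrArg Subtype.val (Fintype.linearIndependent_iff.1 bM.linearIndependent _ h0 i))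
  · obtain ⟨P, hP⟩ := hgen z z.2
    set d := Finset.univ.sup fun k => (P k).natDegree
    choose R hR using fun k => exists_homogenize (jFull_mul_den q H hH) (P k)
      (Finset.le_sup (f := fun k => (P k).natDegree) (Finset.mem_univ k) : (P k).natDegree ≤ d)
    set zs : chartJ q N :=
      ⟨aeval (hauptEl H hH) (H.denR Oq ^ d), aeval_hauptEl_mem q H hH _⟩ * z
    have hzs : zs = ∑ k, ⟨aeval (hauptEl H hH) (R k), aeval_hauptEl_mem q H hH _⟩ * ⟨g k, hg k⟩ := by
      refine Subtype.ext ?_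
      rw [AddSubmonoidClass.coe_finsetSum, MulMemClass.coe_mul, hP, Finset.mul_sum]
      refine Finset.sum_congr rfl fun k _ => ?_
      show aeval (hauptEl H hH) (H.denR Oq ^ d) * (_ * g k) = aeval (hauptEl H hH) (R k) * g k
      rw [← hR k, map_pow, mul_assoc]
    have hmem : redJ q N zs ∈ M := by
      rw [hzs, map_sum]
      refine Submodule.sum_mem _ fun k _ => ?_
      rw [map_mul, redJ_aeval]
      exact Submodule.smul_mem M (⟨_, aeval_mem_adjoin (ZMod q) hb _⟩ : B)
        (Submodule.subset_span ⟨k, rfl⟩)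
    choose Q hQ using fun i => exists_aeval_eq (ZMod q) (bM.repr ⟨_, hmem⟩ i).2
    choose Qh hQh using fun i => exists_map_resHom_eq q (Q i)
    have hz0 : redJ q N (zs - ∑ i, ⟨aeval (hauptEl H hH) (Qh i),
        aeval_hauptEl_mem q H hH _⟩ * e i) = 0 := by
      rw [map_sub, sub_eq_zero, map_sum]
      have := congrArg Subtype.val (bM.sum_repr ⟨_, hmem⟩)
      rw [AddSubmonoidClass.coe_finsetSum] at this
      refine this.symm.trans (Finset.sum_congr rfl fun i _ => ?_)
      symm
      rw [map_mul, redJ_aeval, hQh, hQ, he]; rfl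
    obtain ⟨w, hw⟩ := exists_eq_mul_of_redJ_eq_zero q hqN hz0
    refine ⟨d, Qh, w, ?_⟩
    have h := congrArg Subtype.val (sub_eq_iff_eq_add'.1 hw)
    rw [AddMemClass.coe_add, AddSubmonoidClass.coe_finsetSum] at h
    simpa [zs, map_pow] using h

end FLTAgent.LevelSq
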