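import Fermat.Agent.LevelSq.ResBasis

/-!
# A frame of weight one on a chart

A residual basis with separable residual field and a frame over `K (h)` whose weight is a product of
powers of `q` and `S (h)` give a frame of weight one with values in the chart.
-/

set_option autoImplicit false
set_option linter.style.haveILetI false
set_option linter.unusedSectionVars false

noncomputable section

open Polynomial IntermediateField

namespace FLTAgent.LevelSq

variable {O F κ E : Type*} [CommRing O] [IsDomain O] [IsDiscreteValuationRing O] [Field F]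
  [Algebra O F] [Field κ] [Field E] [Algebra κ E]
  {K₀ : Type*} [Field K₀] [Algebra O K₀] [IsFractionRing O K₀] [Algebra K₀ F]
  [IsScalarTower O K₀ F]

namespace ResData

variable (D : ResData O F κ E)

theorem polK_S_ne : D.polK (K₀ := K₀) D.S ≠ 0 := by
  rw [← map_zero (D.polK (K₀ := K₀))]; exact D.polK_injective.ne D.S_ne

/-- The trace matrix of the lifted basis, cleared, and its determinant modulo `q`. -/
theorem exists_traceMatrix :
    ∃ (m : ℕ) (T : Matrix (Fin D.r) (Fin D.r) O[X]),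
      (D.polK (K₀ := K₀)).mapMatrix T =
        D.polK (K₀ := K₀) (D.f * D.S ^ m) • Algebra.traceMatrix K₀⟮D.h⟯ (D.basis (K₀ := K₀)) ∧
      T.det.map D.res ≠ 0 := by
  classical
  obtain ⟨m, t, ht, hres⟩ :=
    D.exists_trace_eq (K₀ := K₀) (fun s : Fin D.r × Fin D.r => D.e s.1 * D.e s.2)
  refine ⟨m, Matrix.of fun i j => t (i, j), ?_, ?_⟩
  · ext i j : 1
    refine Subtype.ext ?_
    rw [RingHom.mapMatrix_apply, Matrix.map_apply, Matrix.smul_apply, Algebra.traceMatrix_apply,
      Algebra.traceForm_apply, basis_apply, basis_apply, smul_eq_mul]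
    exact (ht (i, j)).symm
  · obtain ⟨Eb, b, hb, -, hfin, hsep⟩ := D.exists_residualField
    haveI := hfin
    haveI := hsep
    have hmem : ∀ P : κ[X], aeval D.hb P ∈ κ⟮D.hb⟯ := fun P =>
      algebra_adjoin_le_adjoin κ _ (aeval_mem_adjoin_singleton κ _)
    let ψ : κ[X] →+* κ⟮D.hb⟯ :=
      (aeval D.hb).toRingHom.codRestrict κ⟮D.hb⟯.toSubfield.toSubring hmem
    have hψ : ∀ P, ψ P = 0 → P = 0 := fun P hP =>
      transcendental_iff.1 D.hb_transcendental P (congrArg Subtype.val hP)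
    have hM : ψ.mapMatrix ((Polynomial.mapRingHom D.res).mapMatrix (Matrix.of fun i j => t (i, j))) =
        ψ ((D.f * D.S ^ m).map D.res) • Algebra.traceMatrix κ⟮D.hb⟯ b := by
      ext i j : 1
      refine Subtype.ext ?_
      rw [RingHom.mapMatrix_apply, Matrix.map_apply, RingHom.mapMatrix_apply, Matrix.map_apply,
        Matrix.smul_apply, Algebra.traceMatrix_apply, Algebra.traceForm_apply, smul_eq_mul]
      exact (hres Eb b hb (i, j) (b i * b j)
        (by rw [MulMemClass.coe_mul, hb, hb, map_mul])).symm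
    intro h0
    have h1 := congrArg Matrix.det hM
    rw [← RingHom.map_det, ← RingHom.map_det, coe_mapRingHom, h0, map_zero, Matrix.det_smul,
      eq_comm, mul_eq_zero] at h1
    rcases h1 with h1 | h1
    · have h2 := hψ _ (pow_eq_zero_iff'.1 h1).1
      rw [Polynomial.map_mul, Polynomial.map_pow, mul_eq_zero] at h2
      exact h2.elim D.f_res_ne (pow_ne_zero _ D.S_res)
    · exact Algebra.discr_not_zero_of_basis κ⟮D.hb⟯ b (by rw [Algebra.discr_def]; exact h1)

/-- A frame over `K₀ (h)` with weight a power of `q` times a power of `S` shows that the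
discriminant divides a power of `S` modulo `q`. -/
theorem exists_disc_dvd {n : ℕ} {a c : Fin n → D.Ch} {β γ : ℕ}
    (hac : IsTraceFrame K₀⟮D.h⟯ (D.polK (K₀ := K₀) (C D.q ^ β * D.S ^ γ))
      (fun i => (a i : F)) fun i => (c i : F))
    {m : ℕ} {T : Matrix (Fin D.r) (Fin D.r) O[X]}
    (hT : (D.polK (K₀ := K₀)).mapMatrix T =
        D.polK (K₀ := K₀) (D.f * D.S ^ m) • Algebra.traceMatrix K₀⟮D.h⟯ (D.basis (K₀ := K₀)))
    (hT0 : T.det.map D.res ≠ 0) :
    ∃ (L : ℕ) (u : O[X]), (u * T.det).map D.res = (D.S.map D.res) ^ L := by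
  classical
  set K := K₀⟮D.h⟯
  set φ := D.polK (K₀ := K₀)
  set G := Algebra.traceMatrix K (D.basis (K₀ := K₀))
  obtain ⟨m₁, A, hA⟩ := D.f_span_family a
  obtain ⟨m₂, B, hB⟩ := D.f_span_family c
  let R : Matrix (Fin n) (Fin D.r) K := fun i k => (D.basis (K₀ := K₀)).repr (a i : F) k
  let Q : Matrix (Fin n) (Fin D.r) K := fun i k => (D.basis (K₀ := K₀)).repr (c i : F) k
  have hR : (Matrix.of A).map φ = φ (D.f * D.S ^ m₁) • R := by
    ext i k : 1
    refine Subtype.ext ?_
    rw [Matrix.map_apply, Matrix.smul_apply, smul_eq_mul]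
    exact (D.repr_basis_of_eq (mul_ne_zero D.f_ne (pow_ne_zero _ D.S_ne))
      (by rw [map_mul, map_pow]; exact hA i) k).symm
  have hQ : (Matrix.of B).map φ = φ (D.f * D.S ^ m₂) • Q := by
    ext i k : 1
    refine Subtype.ext ?_
    rw [Matrix.map_apply, Matrix.smul_apply, smul_eq_mul]
    exact (D.repr_basis_of_eq (mul_ne_zero D.f_ne (pow_ne_zero _ D.S_ne))
      (by rw [map_mul, map_pow]; exact hB i) k).symm
  have hG : G * R.transpose * Q = φ (C D.q ^ β * D.S ^ γ) • 1 := by
    ext j l : 1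
    have h := congrArg (fun y => (D.basis (K₀ := K₀)).repr y l)
      (hac.left (D.basis (K₀ := K₀) j))
    simp only [map_smul, map_sum, Finsupp.smul_apply, Finsupp.coe_finsetSum, Finset.sum_apply,
      Module.Basis.repr_self, smul_eq_mul] at h
    rw [Finsupp.single_apply] at h
    rw [Matrix.smul_apply, Matrix.one_apply, smul_eq_mul, h, Matrix.mul_apply]
    refine Finset.sum_congr rfl fun i _ => congrArg (· * _) ?_
    rw [Matrix.mul_apply]
    conv_rhs => rw [← (D.basis (K₀ := K₀)).sum_repr (a i : F), Finset.mul_sum, map_sum]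
    refine Finset.sum_congr rfl fun k _ => ?_
    rw [mul_smul_comm, map_smul, smul_eq_mul, Matrix.transpose_apply, mul_comm]
    exact congrArg (R i k * ·) ((Algebra.traceMatrix_apply _ _ _ _).trans
      (Algebra.traceForm_apply _ _ _))
  set M := T * (Matrix.of A).transpose * Matrix.of B
  have hM : M = (C D.q ^ β *
      (D.f ^ 3 * D.S ^ (m + m₁ + m₂ + γ))) • (1 : Matrix (Fin D.r) (Fin D.r) O[X]) := by
    refine Matrix.map_injective D.polK_injective (f := φ) ?_
    simp only [M, Matrix.map_mul, Matrix.transpose_map]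
    rw [show T.map φ = φ.mapMatrix T from rfl, hT, hR, hQ]
    simp only [Matrix.transpose_smul, Matrix.smul_mul, Matrix.mul_smul, smul_smul, hG]
    rw [Matrix.map_smul' _ _ _ (map_mul φ), Matrix.map_one _ (map_zero φ) (map_one φ)]
    congr 1
    simp only [← map_mul]
    exact congrArg φ (by ring)
  have hdvd : T.det ∣ (C D.q ^ β * (D.f ^ 3 * D.S ^ (m + m₁ + m₂ + γ))) ^ D.r := by
    refine ⟨((Matrix.of A).transpose * Matrix.of B).det, ?_⟩
    rw [← Matrix.det_mul, ← Matrix.mul_assoc]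
    show _ = M.det
    rw [hM, Matrix.det_smul, Fintype.card_fin, Matrix.det_one, mul_one]
  obtain ⟨U, hU⟩ := hdvd
  rw [mul_pow, ← pow_mul] at hU
  have hq : Prime (C D.q : O[X]) := Polynomial.prime_C_iff.2 D.q_prime
  obtain ⟨U', rfl⟩ := hq.pow_dvd_of_dvd_mul_left (β * D.r)
    (fun h => hT0 ((D.map_res_eq_zero_iff _).2 h)) (hU ▸ Dvd.intro _ rfl)
  rw [mul_left_comm T.det] at hU
  have hU' := mul_left_cancel₀ (pow_ne_zero _ hq.ne_zero) hU
  refine ⟨(D.fExp * 3 + (m + m₁ + m₂ + γ)) * D.r, U', ?_⟩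
  rw [mul_comm U', ← hU', Polynomial.map_pow, Polynomial.map_mul, Polynomial.map_pow,
    Polynomial.map_pow, D.f_map, ← pow_mul, ← pow_add, ← pow_mul]

/-- A frame of weight a power of `S` modulo `q` on the lifted basis, and a frame of weight one. -/
theorem exists_chartFrame {n : ℕ} {a c : Fin n → D.Ch} {β γ : ℕ}
    (hac : IsTraceFrame K₀⟮D.h⟯ (D.polK (K₀ := K₀) (C D.q ^ β * D.S ^ γ))
      (fun i => (a i : F)) fun i => (c i : F)) :
    ∃ (L : ℕ) (W : O[X]) (a₁ : Fin D.r → D.Ch),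
      W.map D.res = (D.S.map D.res) ^ L ∧
      IsTraceFrame K₀⟮D.h⟯ (D.polK (K₀ := K₀) W) (fun i => (a₁ i : F)) (fun i => (D.e i : F)) ∧
      ∃ a' c' : Fin D.r ⊕ Fin n → D.Ch,
        IsTraceFrame K₀⟮D.h⟯ 1 (fun i => (a' i : F)) fun i => (c' i : F) := by
  classical
  set K := K₀⟮D.h⟯
  set φ := D.polK (K₀ := K₀)
  obtain ⟨m, T, hT, hT0⟩ := D.exists_traceMatrix (K₀ := K₀)
  obtain ⟨L, u, hu⟩ := D.exists_disc_dvd hac hT hT0
  set b := D.basis (K₀ := K₀)
  set G := Algebra.traceMatrix K b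
  set s := φ (D.f * D.S ^ m)
  have hdet : φ T.det = s ^ D.r * G.det := by
    rw [RingHom.map_det, hT, Matrix.det_smul, Fintype.card_fin]
  have hG0 : G.det ≠ 0 := by
    intro h0
    rw [h0, mul_zero, ← map_zero φ] at hdet
    exact hT0 (by rw [D.polK_injective hdet, Polynomial.map_zero])
  let a₁ : Fin D.r → D.Ch := fun i =>
    ∑ j, D.pol (u * (D.f * D.S ^ m) * T.adjugate i j) * D.e j
  have ha₁ : ∀ i, (a₁ i : F) = (φ u * s ^ D.r) • adjDual b i := by
    intro i
    have hadj : ∀ j, φ (T.adjugate i j) = s ^ (D.r - 1) * G.adjugate i j := by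
      intro j
      have h := congrFun (congrFun (RingHom.map_adjugate φ T) i) j
      rw [hT, Matrix.adjugate_smul, Fintype.card_fin, Matrix.smul_apply, smul_eq_mul] at h
      exact h
    simp only [a₁, AddSubmonoidClass.coe_finsetSum, adjDual, Finset.smul_sum, smul_smul]
    refine Finset.sum_congr rfl fun j _ => ?_
    rw [MulMemClass.coe_mul, coe_pol, ← D.polK_smul (K₀ := K₀), ← D.basis_apply (K₀ := K₀)]
    congr 1
    show φ _ = _
    rw [map_mul, map_mul, hadj,
      show s ^ D.r = s ^ (D.r - 1) * s by rw [← pow_succ, Nat.sub_add_cancel (Fin.pos i)]]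
    ring
  have h₁ : IsTraceFrame K (φ (u * T.det)) (fun i => (a₁ i : F)) fun i => (D.e i : F) := by
    have h := (isTraceFrame_adjDual b hG0).smul_left (φ u * s ^ D.r)
    rw [mul_assoc, ← hdet, ← map_mul] at h
    simpa only [ha₁, ← D.basis_apply (K₀ := K₀)] using h
  refine ⟨L, u * T.det, a₁, hu, h₁, ?_⟩
  set W := u * T.det
  obtain ⟨Δ, hΔ⟩ := (D.map_res_eq_zero_iff (W - D.S ^ L)).1
    (by rw [Polynomial.map_sub, hu, Polynomial.map_pow, sub_self])
  obtain ⟨α, hα⟩ : W ∣ (C D.q * Δ) ^ β - (-(D.S ^ L)) ^ β := by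
    rw [← hΔ]
    refine dvd_trans ?_ (sub_dvd_pow_sub_pow _ _ β)
    exact ⟨1, by ring⟩
  have key : Δ ^ β * (C D.q ^ β * D.S ^ γ) - α * D.S ^ γ * W =
      (-1) ^ β * D.S ^ (L * β + γ) := by
    rw [neg_pow, ← pow_mul, mul_pow] at hα
    linear_combination D.S ^ γ * hα
  set si := ((φ D.S) ^ (L * β + γ))⁻¹ * (-1) ^ β
  have hsum : si * φ (-(α * D.S ^ γ)) * φ W + si * φ (Δ ^ β) * φ (C D.q ^ β * D.S ^ γ) = 1 := by
    have h := congrArg φ key
    simp only [map_sub, map_mul, map_pow, map_neg, map_one] at h ⊢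
    have h1 : ((-1 : K) ^ β) * (-1) ^ β = 1 := by rw [← mul_pow]; simp
    have h2 : ((φ D.S) ^ (L * β + γ))⁻¹ * (φ D.S) ^ (L * β + γ) = 1 :=
      inv_mul_cancel₀ (pow_ne_zero _ D.polK_S_ne)
    simp only [si]
    linear_combination (((φ D.S) ^ (L * β + γ))⁻¹ * (-1 : K) ^ β) * h +
      ((φ D.S) ^ (L * β + γ))⁻¹ * (φ D.S) ^ (L * β + γ) * h1 + h2
  have hsi : (si : F) ∈ D.Ch := by
    simp only [si, MulMemClass.coe_mul, IntermediateField.coe_inv, IntermediateField.coe_pow,
      IntermediateField.coe_neg, IntermediateField.coe_one]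
    refine mul_mem ?_ (pow_mem (neg_mem (one_mem _)) _)
    rw [← inv_pow]
    exact pow_mem D.inv_mem _
  have hs : ∀ P : O[X], ((si * φ P : K) : F) ∈ D.Ch := fun P =>
    mul_mem hsi (D.aeval_mem P)
  have hframe := (h₁.smul_left (si * φ (-(α * D.S ^ γ)))).sum
    (hac.smul_left (si * φ (Δ ^ β)))
  rw [hsum] at hframe
  refine ⟨Sum.elim (fun i => ⟨_, mul_mem (hs (-(α * D.S ^ γ))) (a₁ i).2⟩)
      (fun i => ⟨_, mul_mem (hs (Δ ^ β)) (a i).2⟩),
    Sum.elim D.e c, ?_⟩
  convert hframe using 1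
  · funext i; rcases i with i | i <;> rfl
  · funext i; rcases i with i | i <;> rfl

end ResData

end FLTAgent.LevelSq
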