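import Fermat.Agent.LevelSq.RatBase
import Fermat.Agent.LevelSq.ResFrame
import Fermat.Agent.LevelSq.DualRam
import Fermat.Agent.GoodRed.SmallPrime.Ramify
import Mathlib.RingTheory.Algebraic.Integral

/-!
# The rational chart with its residual basis and frame

The data of `ResBasis` for the chart of `j` at level `N` over `ℤ_(q)`, and a trace frame whose
weight is a product of powers of `q` and `den (h)`.
-/

set_option autoImplicit false
set_option linter.style.haveILetI false
set_option linter.unusedSectionVars false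
set_option synthInstance.maxHeartbeats 100000
set_option maxHeartbeats 400000

noncomputable section

open Polynomial ModularCurve ModularCurve.IgusaScheme IntermediateField AlgebraicCurve

namespace FLTAgent.LevelSq

open FLTAgent.Igusa FLTAgent.FunctionField

section General

variable {O L : Type*} [CommRing O] [IsDomain O] [Field L] [Algebra O L] [IsDiscreteValuationRing O]
  {K : Type*} [Field K] [Algebra O K] [IsFractionRing O K] [Algebra K L] [IsScalarTower O K L]
  {ψ : L}

/-- Elements algebraic over `K (ψ)` have multiples in the chart. -/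
theorem exists_aeval_mul_mem_chart (_hψ : Transcendental O ψ) [FiniteDimensional K⟮ψ⟯ L] (z : L) :
    ∃ p : O[X], p ≠ 0 ∧ aeval ψ p * z ∈ chart O ψ := by
  set A := Algebra.adjoin O ({ψ} : Set L)
  letI : Algebra A K⟮ψ⟯ :=
    ((A.val.toRingHom).codRestrict K⟮ψ⟯.toSubfield.toSubring fun x =>
      adjoin_le_adjoinField (K := K) x).toAlgebra
  haveI : IsScalarTower A K⟮ψ⟯ L := IsScalarTower.of_algebraMap_eq fun _ => rfl
  haveI : FaithfulSMul A K⟮ψ⟯ := (faithfulSMul_iff_algebraMap_injective _ _).2 fun x y e =>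
    Subtype.ext (congrArg (fun w : K⟮ψ⟯ => (w : L)) e)
  haveI : IsFractionRing A K⟮ψ⟯ := by
    refine IsFractionRing.of_field A _ fun z => ?_
    obtain ⟨r, s, h⟩ := exists_eq_div_of_mem_adjoin (O := O) z.2
    exact ⟨⟨_, aeval_mem_adjoin O ψ r⟩, ⟨_, aeval_mem_adjoin O ψ s⟩, Subtype.ext h⟩
  have halg : IsAlgebraic A z := (IsFractionRing.isAlgebraic_iff A K⟮ψ⟯ L).2
    (Algebra.IsAlgebraic.isAlgebraic z)
  obtain ⟨y, hy0, hy⟩ := halg.exists_integral_multiple
  obtain ⟨p, hp⟩ := exists_aeval_eq O y.2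
  refine ⟨p, ?_, ?_⟩
  · rintro rfl
    exact hy0 (Subtype.ext (by rw [← hp, map_zero]; rfl))
  · rw [hp]; exact hy

omit [IsDiscreteValuationRing O] in
/-- Elements integral over `K [ψ]` have constant multiples in the chart. -/
theorem exists_algebraMap_mul_mem_chart {x : L}
    (hx : IsIntegral (Algebra.adjoin K ({ψ} : Set L)) x) :
    ∃ b : O, b ≠ 0 ∧ algebraMap O L b * x ∈ chart O ψ := by
  classical
  obtain ⟨p, hp, hpx⟩ := hx
  choose c hc using fun i => exists_aeval_eq K (p.coeff i).2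
  choose b hb hbc using fun i =>
    IsLocalization.integerNormalization_spec (nonZeroDivisors O) (c i)
  set B := ∏ i ∈ Finset.range p.natDegree, b i
  have hB : B ≠ 0 := Finset.prod_ne_zero_iff.2 fun i _ => nonZeroDivisors.ne_zero (hb i)
  refine ⟨B, hB, (mem_chart O).2 ?_⟩
  set n := p.natDegree
  set A := Algebra.adjoin O ({ψ} : Set L)
  let r : ℕ → O[X] := fun i => C (B ^ (n - i - 1) * ∏ k ∈ (Finset.range n).erase i, b k) *
    IsLocalization.integerNormalization (nonZeroDivisors O) (c i)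
  have hr : ∀ i < n, aeval ψ (r i) = algebraMap O L B ^ (n - i) * aeval ψ (c i) := by
    intro i hi
    simp only [r, map_mul, aeval_C]
    rw [← aeval_map_algebraMap K ψ (IsLocalization.integerNormalization _ (c i)), hbc,
      Algebra.smul_def, Polynomial.algebraMap_apply, map_mul, aeval_C,
      ← IsScalarTower.algebraMap_apply O K L, ← mul_assoc, mul_assoc (algebraMap O L _ ),
      ← map_mul (algebraMap O L) _ (b i), Finset.prod_erase_mul _ _ (Finset.mem_range.2 hi),
      ← map_pow]
    congr 1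
    rw [← map_mul, ← pow_succ]
    congr 2
    omega
  refine ⟨X ^ n + ∑ i : Fin n, C (⟨_, aeval_mem_adjoin O ψ (r i)⟩ : A) * X ^ (i : ℕ),
    monic_X_pow_add (degree_sum_fin_lt _), ?_⟩
  rw [eval₂_add, eval₂_X_pow, eval₂_finsetSum]
  simp only [eval₂_mul, eval₂_C, eval₂_X_pow]
  have h0 : x ^ n + ∑ i : Fin n, aeval ψ (c i) * x ^ (i : ℕ) = 0 := by
    rw [← hpx, eval₂_eq_sum_range, Finset.sum_range_succ, hp.coeff_natDegree, map_one, one_mul,
      ← Finset.sum_range (fun i => aeval ψ (c i) * x ^ i), add_comm]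
    simp only [hc]
    rfl
  have h1 := congrArg (fun y => algebraMap O L B ^ n * y) h0
  simp only [mul_zero, mul_add, Finset.mul_sum] at h1
  rw [← h1]
  congr 1
  · rw [mul_pow]
  · refine Finset.sum_congr rfl fun i _ => ?_
    show aeval ψ (r i) * _ = _
    rw [hr i i.2, mul_pow]
    rw [show algebraMap O L B ^ n = algebraMap O L B ^ (n - i) * algebraMap O L B ^ (i : ℕ) by
      rw [← pow_add, Nat.sub_add_cancel i.2.le]]
    ring

end General

/-- Separability moves up along `k⟮a⟯ ≤ k⟮b⟯`. -/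
theorem isSeparable_of_adjoin_le {k L : Type*} [Field k] [Field L] [Algebra k L] {a b : L}
    {S : Set L} (hle : k⟮a⟯ ≤ k⟮b⟯)
    (hM : Algebra.IsSeparable k⟮a⟯ (IntermediateField.adjoin k⟮a⟯ S))
    {x : L} (hx : x ∈ IntermediateField.adjoin k⟮a⟯ S) : IsSeparable k⟮b⟯ x := by
  have h := Algebra.IsSeparable.isSeparable k⟮a⟯ (⟨x, hx⟩ : IntermediateField.adjoin k⟮a⟯ S)
  have h' := IsSeparable.map (IntermediateField.adjoin k⟮a⟯ S).val
    (IntermediateField.adjoin k⟮a⟯ S).val.injective h
  rw [IntermediateField.val_mk] at h'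
  letI : Algebra k⟮a⟯ k⟮b⟯ := (IntermediateField.inclusion hle).toRingHom.toAlgebra
  haveI : IsScalarTower k⟮a⟯ k⟮b⟯ L := IsScalarTower.of_algebraMap_eq fun _ => rfl
  exact IsSeparable.tower_top k⟮b⟯ h'

attribute [local instance] FlatModel.isFractionRing_ratLocalizedAt

variable {N : ℕ} [NeZero N] (q : ℕ) [Fact q.Prime] (H : Haupt) (hH : H.lvl ∣ N) (hqN : ¬ q ∣ N)

set_option quotPrecheck false in
/-- `ℤ_(q)`. -/
local notation "Oq" => ↥(GaloisRep.ratLocalizedAt q)

set_option quotPrecheck false in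
/-- The function field of level `N` over `ℚ`. -/
local notation "Fℚ" => ↥(modularFunctionFieldFull N)

local notation "Qbar" => AlgebraicClosure ℚ

theorem transcendental_jFull_local : Transcendental Oq (jFull N) := fun ⟨p, hp0, hp⟩ =>
  transcendental_jFull (N := N)
    ⟨p.map (algebraMap Oq ℚ), by rwa [Ne, Polynomial.map_eq_zero_iff Subtype.val_injective],
      by rwa [aeval_map_algebraMap]⟩

theorem exists_gen_den : ∃ (l : ℕ) (g : Fin l → chartJ q N), ∀ z : chartJ q N,
    ∃ (m : ℕ) (R : Fin l → Oq[X]), aeval (hauptEl H hH) (H.denR Oq) ^ m * (z : Fℚ) =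
      ∑ k, aeval (hauptEl H hH) (R k) * (g k : Fℚ) := by
  classical
  haveI := finiteDimensional_jFull (N := N)
  obtain ⟨l, g, hg, hgen⟩ := exists_generators_chart q (transcendental_jFull_local q (N := N))
  refine ⟨l, fun k => ⟨g k, hg k⟩, fun z => ?_⟩
  obtain ⟨P, hP⟩ := hgen z z.2
  set d := Finset.univ.sup fun k => (P k).natDegree
  choose R hR using fun k => exists_homogenize (jFull_mul_den q H hH) (P k)
    (Finset.le_sup (f := fun k => (P k).natDegree) (Finset.mem_univ k) : (P k).natDegree ≤ d)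
  refine ⟨d, R, ?_⟩
  rw [hP, Finset.mul_sum]
  exact Finset.sum_congr rfl fun k _ => by rw [← mul_assoc, hR]

theorem exists_dense (z : Fℚ) :
    ∃ p : Oq[X], p ≠ 0 ∧ aeval (hauptEl H hH) p * z ∈ chartJ q N := by
  haveI := finiteDimensional_jFull (N := N)
  haveI := FlatModel.isFractionRing_ratLocalizedAt q
  obtain ⟨d, hd0, hd⟩ :=
    exists_aeval_mul_mem_chart (K := ℚ) (transcendental_jFull_local q (N := N)) z
  obtain ⟨R, hR⟩ := exists_homogenize (jFull_mul_den q H hH) d (le_refl d.natDegree)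
  refine ⟨R, fun h0 => ?_, ?_⟩
  · rw [h0, map_zero] at hR
    rcases mul_eq_zero.1 hR with h | h
    · exact pow_ne_zero _ (aeval_den_ne_zero q H hH) h
    · exact hd0 (transcendental_iff.1 (transcendental_jFull_local q (N := N)) _ h)
  · rw [← hR, mul_assoc]
    refine mul_mem (pow_mem ?_ _) hd
    exact aeval_hauptEl_mem q H hH _

theorem isSeparable_serC (H : Haupt) (k : Type) [Field k] (N : ℕ) [NeZero N] (hN : (N : k) ≠ 0)
    {x : LaurentSeries k} (hx : x ∈ modularFunctionFieldFullC k N) :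
    IsSeparable k⟮H.serC k⟯ x := by
  rw [full_eq_restrictScalars, IntermediateField.mem_restrictScalars] at hx
  refine isSeparable_of_adjoin_le (k := k) (L := LaurentSeries k) (a := jqModC k) (b := H.serC k)
    (S := divisorExpansionsC k N) ?_ (isSeparable_adjoin_divisorExpansionsC k N hN) hx
  rw [IntermediateField.adjoin_simple_le_iff]
  have hmem : ∀ p : ℤ[X], aeval (H.serC k) p ∈ k⟮H.serC k⟯ := fun p => by
    rw [← H.aeval_serC_map]
    exact algebra_adjoin_le_adjoin k _ (aeval_mem_adjoin_singleton k _)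
  rw [eq_div_of_mul_eq (H.aeval_ne_zero k H.den_monic) (H.equationC k)]
  exact div_mem (hmem _) (hmem _)

/-- The rational chart with a residual basis. -/
def ratData : ResData Oq Fℚ (ZMod q) (LaurentSeries (ZMod q)) where
  Ch := chartJ q N
  h := hauptEl H hH
  S := H.denR Oq
  q := (q : Oq)
  res := resHom q
  red := redJ q N
  hb := H.serC (ZMod q)
  q_prime := prime_natCast_local q
  res_surjective := fun a => ⟨(a.val : Oq), by simp⟩
  res_eq_zero := fun a => ⟨fun h => by
      obtain ⟨y, hy, -⟩ := exists_eq_mul_of_resHom_eq_zero q h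
      exact ⟨y, hy⟩, by rintro ⟨y, rfl⟩; simp⟩
  h_transcendental := transcendental_hauptEl_local q H hH
  hb_transcendental := H.transcendental (ZMod q)
  aeval_mem := aeval_hauptEl_mem q H hH
  red_aeval := redJ_aeval q H hH
  S_res := by rw [H.map_denR]; exact (H.denR_monic (ZMod q)).ne_zero
  inv_mem := inv_den_mem q H hH hqN
  l := (exists_gen_den q H hH).choose
  g := (exists_gen_den q H hH).choose_spec.choose
  gen := (exists_gen_den q H hH).choose_spec.choose_spec
  r := (exists_residual_basis q H hH hqN).choose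
  e := (exists_residual_basis q H hH hqN).choose_spec.choose
  indep := (exists_residual_basis q H hH hqN).choose_spec.choose_spec.1
  expand z := by
    obtain ⟨m, p, w, h⟩ := (exists_residual_basis q H hH hqN).choose_spec.choose_spec.2 z
    exact ⟨m, p, w, by rw [h, map_natCast]⟩
  dense := exists_dense q H hH
  sep z := isSeparable_serC H (ZMod q) N (natCast_ne_zero_of_not_dvd N q (ZMod q) hqN)
    (redJ_mem_fullC q hqN z)

/-- Expansions over `ℚ̄`. -/
def toBar (N : ℕ) [NeZero N] :
    ↥(modularFunctionFieldFull N) →+* ↥(modularFunctionFieldBar N) :=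
  ((coeffEmb Qbar).comp (algebraMap ↥(modularFunctionFieldFull N) (LaurentSeries ℚ))).codRestrict
    (modularFunctionFieldBar N).toSubfield.toSubring
    fun x => coeffEmb_mem_laurentBaseChange Qbar x.2

theorem toBar_algebraMap (a : ℚ) :
    toBar N (algebraMap ℚ Fℚ a) =
      algebraMap Qbar (modularFunctionFieldBar N) (algebraMap ℚ Qbar a) :=
  RingHom.congr_fun (Subsingleton.elim ((toBar N).comp (algebraMap ℚ Fℚ))
    ((algebraMap Qbar (modularFunctionFieldBar N)).comp (algebraMap ℚ Qbar))) a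

theorem coe_toBar_hauptEl :
    (toBar N (hauptEl H hH) : LaurentSeries Qbar) = H.serC Qbar := by
  show coeffEmb Qbar (intToRat H.series) = _
  rw [coeffEmb, intToRat, coeffMap_coeffMap, Haupt.serC, intToC]
  exact coeffMap_congr (RingHom.ext_int _ _) _

theorem coe_toBar_jFull : (toBar N (jFull N) : LaurentSeries Qbar) = jqModC Qbar := by
  show coeffEmb Qbar ((jFull N : Fℚ) : LaurentSeries ℚ) = _
  rw [coe_jFull, ModPoly.coeffEmb_jq]

theorem transcendental_toBar_hauptEl : Transcendental Qbar (toBar N (hauptEl H hH)) := by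
  rw [← transcendental_algebraMap_iff (A := LaurentSeries Qbar) Subtype.val_injective]
  show Transcendental Qbar ((toBar N (hauptEl H hH) : modularFunctionFieldBar N) : LaurentSeries Qbar)
  rw [coe_toBar_hauptEl]
  exact H.transcendental Qbar

theorem ord_toBar_hauptEl (a : Qbar) (ha : (((H.denR ℚ).map (algebraMap ℚ Qbar))).eval a ≠ 0)
    (v : Place Qbar (modularFunctionFieldBar N))
    (hv : 0 < v.ord (toBar N (hauptEl H hH) - algebraMap Qbar _ a)) :
    v.ord (toBar N (hauptEl H hH) - algebraMap Qbar _ a) = 1 := by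
  rw [H.map_denR] at ha
  set P := H.numR Qbar
  set Q := H.denR Qbar
  set x := toBar N (hauptEl H hH)
  set j := toBar N (jFull N)
  have hc : ∀ p : ℤ[X], aeval x p = toBar N (aeval (hauptEl H hH) p) := fun p =>
    Polynomial.aeval_algHom_apply (toBar N).toIntAlgHom _ p
  have hy : j * aeval x Q = aeval x P := by
    simp only [P, Q, Haupt.numR, Haupt.denR, aeval_map_intCast, hc]
    rw [← map_mul]
    congr 1
    have h := jFull_mul_den 2 H hH (N := N)
    rwa [Haupt.denR, Haupt.numR, aeval_map_intCast, aeval_map_intCast] at h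
  have hx := transcendental_toBar_hauptEl H hH (N := N)
  have hdeg : Q.natDegree < P.natDegree := H.deg_lt Qbar
  set α := P.eval a / Q.eval a
  have hroot : (P - C α * Q).IsRoot a := by
    simp [α, div_mul_cancel₀ _ ha]
  obtain ⟨h3, h2, h1⟩ : (α = 0 → (X - C a) ^ 3 ∣ P - C α * Q) ∧
      (α = 1728 → (X - C a) ^ 2 ∣ P - C α * Q) ∧ (X - C a) ^ 1 ∣ P - C α * Q := by
    refine ⟨fun h => ?_, fun h => ?_, by rw [pow_one]; exact dvd_iff_isRoot.2 hroot⟩
    · rw [h, map_zero, zero_mul, sub_zero] at hroot ⊢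
      simp only [P, Haupt.numR, Polynomial.map_pow, IsRoot, eval_pow] at hroot ⊢
      exact pow_dvd_pow_of_dvd (dvd_iff_isRoot.2 (pow_eq_zero_iff'.1 hroot).1) 3
    · have e : P - C α * Q = (H.B.map (Int.castRingHom Qbar)) ^ 2 := by
        rw [h, ← Polynomial.map_pow, ← H.sub_eq, Polynomial.map_sub, Polynomial.map_mul, map_C]
        simp [P, Q, Haupt.numR, Haupt.denR]
      rw [e, IsRoot, eval_pow] at hroot
      rw [e]
      exact pow_dvd_pow_of_dvd (dvd_iff_isRoot.2 (pow_eq_zero_iff'.1 hroot).1) 2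
  by_cases h0 : α = 0
  · exact GoodRed.SmallPrime.ord_eq_one_of_pow_dvd hx hdeg hy three_pos ha (h3 h0) hv fun hpos =>
      (GoodRed.SmallPrime.ord_sub_le_of_eq_modularC (ModPoly.modularFunctionFieldBar_eq N) j
        (coe_toBar_jFull) hpos).1 h0
  by_cases h1728 : α = 1728
  · exact GoodRed.SmallPrime.ord_eq_one_of_pow_dvd hx hdeg hy two_pos ha (h2 h1728) hv fun hpos =>
      (GoodRed.SmallPrime.ord_sub_le_of_eq_modularC (ModPoly.modularFunctionFieldBar_eq N) j
        (coe_toBar_jFull) hpos).2.1 h1728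
  · exact GoodRed.SmallPrime.ord_eq_one_of_pow_dvd hx hdeg hy one_pos ha h1 hv fun hpos =>
      (GoodRed.SmallPrime.ord_sub_le_of_eq_modularC (ModPoly.modularFunctionFieldBar_eq N) j
        (coe_toBar_jFull) hpos).2.2 h0 h1728

/-- Symmetry of frames. -/
theorem IsTraceFrame.symm {K L : Type*} [Field K] [Field L] [Algebra K L] {ι : Type*} [Fintype ι]
    {w : K} {a c : ι → L} (h : IsTraceFrame K w a c) : IsTraceFrame K w c a :=
  ⟨h.right, h.left, by rw [← h.casimir]; exact Finset.sum_congr rfl fun i _ => mul_comm _ _⟩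

/-- A frame away from the zeros of `den (h)`. -/
theorem exists_rat_frame :
    ∃ (n β γ : ℕ) (a c : Fin n → (ratData q H hH hqN).Ch),
      IsTraceFrame ℚ⟮(ratData q H hH hqN).h⟯
        ((ratData q H hH hqN).polK (K₀ := ℚ)
          (C (ratData q H hH hqN).q ^ β * (ratData q H hH hqN).S ^ γ))
        (fun i => (a i : Fℚ)) fun i => (c i : Fℚ) := by
  classical
  haveI := FlatModel.isFractionRing_ratLocalizedAt q
  haveI := finiteDimensional_hauptEl H hH (N := N)
  obtain ⟨n, m, w, a, c, hw, ha, hc, hframe⟩ := exists_frame_integralClosure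
    (algebraMap ℚ Qbar) (toBar N) toBar_algebraMap
    (by
      have e : (algebraMap ℚ Qbar).toAlgebra = (inferInstance : Algebra ℚ Qbar) :=
        Subsingleton.elim _ _
      rw [e]; exact AlgebraicClosure.isAlgebraic ℚ)
    (transcendental_hauptEl H hH) (transcendental_toBar_hauptEl H hH) (H.denR ℚ)
    (fun b hb v hv => ord_toBar_hauptEl H hH b hb v hv)
  have key : ∀ x : Fℚ, IsIntegral (Algebra.adjoin ℚ ({hauptEl H hH} : Set Fℚ)) x →
      ∃ β : ℕ, ∀ k, β ≤ k → (q : Fℚ) ^ k * x ∈ chartJ q N := by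
    intro x hx
    obtain ⟨b, hb0, hb⟩ := exists_algebraMap_mul_mem_chart (O := Oq) hx
    have hirr : Irreducible (q : Oq) := (prime_natCast_local q).irreducible
    obtain ⟨β, hβ⟩ := IsDiscreteValuationRing.associated_pow_irreducible hb0 hirr
    obtain ⟨u, hu⟩ := hβ
    refine ⟨β, fun k hk => ?_⟩
    have e : (q : Fℚ) ^ k * x = algebraMap Oq Fℚ ((q : Oq) ^ (k - β) * u) *
        (algebraMap Oq Fℚ b * x) := by
      rw [← mul_assoc, ← map_mul, mul_assoc, mul_comm (u : Oq) b, hu, ← pow_add,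
        Nat.sub_add_cancel hk, map_pow, map_natCast]
    rw [e]
    exact mul_mem (Subalgebra.algebraMap_mem _ _) (chartH_le q H hH hb)
  choose βa hβa using fun i => key _ (ha i)
  choose βc hβc using fun i => key _ (hc i)
  set β := Finset.univ.sup βa + Finset.univ.sup βc
  have hqa : ∀ i, (q : Fℚ) ^ β * a i ∈ chartJ q N := fun i =>
    hβa i β (le_add_right (Finset.le_sup (Finset.mem_univ i)))
  have hqc : ∀ i, (q : Fℚ) ^ β * c i ∈ chartJ q N := fun i =>
    hβc i β (le_add_left (Finset.le_sup (Finset.mem_univ i)))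
  refine ⟨n, β + β, m, fun i => ⟨_, hqa i⟩, fun i => ⟨_, hqc i⟩, ?_⟩
  have h := ((hframe.smul_left ((q : ℚ⟮hauptEl H hH⟯) ^ β)).symm.smul_left
    ((q : ℚ⟮hauptEl H hH⟯) ^ β)).symm
  have hs : ∀ y : Fℚ, ((q : ℚ⟮hauptEl H hH⟯) ^ β) • y = (q : Fℚ) ^ β * y := fun y => by
    rw [Algebra.smul_def, map_pow, map_natCast]
  simp only [hs] at h
  have ew : ((ratData q H hH hqN).polK (K₀ := ℚ)
      (C (ratData q H hH hqN).q ^ (β + β) * (ratData q H hH hqN).S ^ m) : ℚ⟮hauptEl H hH⟯) =
      (q : ℚ⟮hauptEl H hH⟯) ^ β * ((q : ℚ⟮hauptEl H hH⟯) ^ β * w) := by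
    refine Subtype.ext ?_
    show aeval (hauptEl H hH) (C (q : Oq) ^ (β + β) * H.denR Oq ^ m) =
      ((_ * (_ * w) : ℚ⟮hauptEl H hH⟯) : Fℚ)
    rw [MulMemClass.coe_mul, MulMemClass.coe_mul, IntermediateField.coe_pow,
      show ((w : ℚ⟮hauptEl H hH⟯) : Fℚ) = _ from hw, map_mul, map_pow, map_pow, aeval_C,
      map_natCast, ← H.map_denR (algebraMap Oq ℚ), aeval_map_algebraMap]
    rw [show (((q : ℚ⟮hauptEl H hH⟯)) : Fℚ) = (q : Fℚ) from
      map_natCast (algebraMap ℚ⟮hauptEl H hH⟯ Fℚ) q]
    ring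
  rw [← ew] at h
  exact h

end FLTAgent.LevelSq
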