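import Fermat.Agent.LevelSq.Frame
import Fermat.Agent.LevelSq.DenChart
import Mathlib.FieldTheory.SeparableClosure
import Mathlib.RingTheory.Trace.Basic
import Mathlib.RingTheory.Discriminant
import Mathlib.RingTheory.Polynomial.UniqueFactorization

/-!
# Lifting a residual basis

A subalgebra `C` of a field `F` reduced modulo a prime `q` of `O`, a coordinate `h` and elements of
`C` whose reductions form a separable basis over the residual coordinate line: they form a basis of
`F` over `K (h)`, the traces reduce, and the discriminant is prime to `q`.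
-/

set_option autoImplicit false
set_option linter.style.haveILetI false
set_option linter.unusedSectionVars false

noncomputable section

open Polynomial IntermediateField

namespace FLTAgent.LevelSq

variable {O F κ E : Type*} [CommRing O] [IsDomain O] [Field F] [Algebra O F] [Field κ] [Field E]
  [Algebra κ E]

/-- A chart with a residual basis. -/
structure ResData (O F κ E : Type*) [CommRing O] [Field F] [Algebra O F] [Field κ] [Field E]
    [Algebra κ E] where
  /-- the chart -/
  Ch : Subalgebra O F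
  /-- the coordinate -/
  h : F
  /-- the inverted polynomial -/
  S : O[X]
  /-- the prime -/
  q : O
  /-- reduction of constants -/
  res : O →+* κ
  /-- reduction -/
  red : Ch →+* E
  /-- reduction of the coordinate -/
  hb : E
  q_prime : Prime q
  res_surjective : Function.Surjective res
  res_eq_zero : ∀ a : O, res a = 0 ↔ q ∣ a
  h_transcendental : Transcendental O h
  hb_transcendental : Transcendental κ hb
  aeval_mem : ∀ p : O[X], aeval h p ∈ Ch
  red_aeval : ∀ p : O[X], red ⟨aeval h p, aeval_mem p⟩ = aeval hb (p.map res)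
  S_res : S.map res ≠ 0
  inv_mem : (aeval h S)⁻¹ ∈ Ch
  /-- number of generators -/
  l : ℕ
  /-- generators -/
  g : Fin l → Ch
  gen : ∀ z : Ch, ∃ (m : ℕ) (R : Fin l → O[X]),
    aeval h S ^ m * (z : F) = ∑ k, aeval h (R k) * (g k : F)
  /-- residual rank -/
  r : ℕ
  /-- lifts of a residual basis -/
  e : Fin r → Ch
  indep : ∀ p : Fin r → κ[X], ∑ i, aeval hb (p i) * red (e i) = 0 → p = 0
  expand : ∀ z : Ch, ∃ (m : ℕ) (p : Fin r → O[X]) (w : Ch),
    aeval h S ^ m * (z : F) = ∑ i, aeval h (p i) * (e i : F) + algebraMap O F q * (w : F)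
  dense : ∀ z : F, ∃ p : O[X], p ≠ 0 ∧ aeval h p * z ∈ Ch
  sep : ∀ z : Ch, IsSeparable κ⟮hb⟯ (red z)

namespace ResData

variable (D : ResData O F κ E)

/-- Polynomials in the coordinate, inside the chart. -/
def pol : O[X] →+* D.Ch := (aeval D.h).toRingHom.codRestrict D.Ch.toSubring D.aeval_mem

theorem coe_pol (p : O[X]) : ((D.pol p : D.Ch) : F) = aeval D.h p := rfl

theorem red_pol (p : O[X]) : D.red (D.pol p) = aeval D.hb (p.map D.res) := D.red_aeval p

theorem aeval_injective : Function.Injective (aeval D.h : O[X] → F) :=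
  transcendental_iff_injective.1 D.h_transcendental

theorem aeval_ne_zero {p : O[X]} (hp : p ≠ 0) : aeval D.h p ≠ 0 := fun e =>
  hp (transcendental_iff.1 D.h_transcendental p e)

theorem aeval_hb_ne_zero {p : κ[X]} (hp : p ≠ 0) : aeval D.hb p ≠ 0 := fun e =>
  hp (transcendental_iff.1 D.hb_transcendental p e)

theorem S_ne : D.S ≠ 0 := fun e => D.S_res (by rw [e, Polynomial.map_zero])

theorem aeval_S_ne : aeval D.h D.S ≠ 0 := D.aeval_ne_zero D.S_ne

theorem map_res_eq_zero_iff (p : O[X]) : p.map D.res = 0 ↔ C D.q ∣ p := by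
  rw [C_dvd_iff_dvd_coeff, Polynomial.ext_iff]
  simp [coeff_map, D.res_eq_zero]

theorem map_res_surjective (p : κ[X]) : ∃ P : O[X], P.map D.res = p :=
  map_surjective D.res D.res_surjective p

theorem res_q : D.res D.q = 0 := (D.res_eq_zero _).2 dvd_rfl

/-- A polynomial, nonzero modulo `q`, clearing the coordinates in the lifted basis. -/
theorem exists_span :
    ∃ (f : O[X]) (M : ℕ), f.map D.res = (D.S.map D.res) ^ M ∧
      ∀ z : D.Ch, ∃ (m : ℕ) (p : Fin D.r → O[X]),
        aeval D.h f * aeval D.h D.S ^ m * (z : F) = ∑ i, aeval D.h (p i) * (D.e i : F) := by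
  classical
  set φ : O[X] →+* F := (aeval D.h : O[X] →ₐ[O] F).toRingHom
  choose m₁ P W hP using fun k => D.expand (D.g k)
  choose m₂ R hR using fun k => D.gen (W k)
  let A : Matrix (Fin D.l) (Fin D.l) O[X] := fun k i =>
    (if k = i then D.S ^ (m₁ k + m₂ k) else 0) - C D.q * R k i
  let b : Fin D.l → Fin D.r → O[X] := fun k i => D.S ^ m₂ k * P k i
  have hA : ∀ k, ∑ i, φ (A k i) * (D.g i : F) = ∑ i, φ (b k i) * (D.e i : F) := by
    intro k
    simp only [A, b, map_sub, sub_mul, Finset.sum_sub_distrib, apply_ite φ, map_zero, ite_mul,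
      zero_mul, Finset.sum_ite_eq, Finset.mem_univ, if_true]
    have h1 := congrArg (fun z : F => aeval D.h D.S ^ m₂ k * z) (hP k)
    simp only [mul_add, Finset.mul_sum] at h1
    have h2 : aeval D.h D.S ^ m₂ k * (algebraMap O F D.q * (W k : F)) =
        ∑ i, φ (C D.q * R k i) * (D.g i : F) := by
      rw [mul_left_comm, hR k, Finset.mul_sum]
      exact Finset.sum_congr rfl fun i _ => by
        show _ = aeval D.h (C D.q * R k i) * _
        rw [map_mul, aeval_C, mul_assoc]
    rw [h2, ← mul_assoc, ← pow_add] at h1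
    rw [sub_eq_iff_eq_add]
    refine Eq.trans ?_ (h1.trans (congrArg (· + _) (Finset.sum_congr rfl fun i _ => ?_)))
    · show aeval D.h (D.S ^ (m₁ k + m₂ k)) * _ = _
      rw [map_pow, add_comm]
    · show _ = aeval D.h (D.S ^ m₂ k * P k i) * _
      rw [map_mul, map_pow, mul_assoc]
  have hdet : A.det.map D.res = (D.S.map D.res) ^ ∑ k, (m₁ k + m₂ k) := by
    have hd : (Polynomial.mapRingHom D.res).mapMatrix A =
        Matrix.diagonal fun k => (D.S.map D.res) ^ (m₁ k + m₂ k) := by
      ext k i : 2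
      rw [RingHom.mapMatrix_apply, Matrix.map_apply, coe_mapRingHom, Matrix.diagonal_apply]
      simp only [A, Polynomial.map_sub, Polynomial.map_mul, map_C, D.res_q, map_zero, zero_mul,
        sub_zero, apply_ite (Polynomial.map D.res), Polynomial.map_pow, Polynomial.map_zero]
    conv_lhs => rw [← coe_mapRingHom, RingHom.map_det]
    rw [hd, Matrix.det_diagonal, Finset.prod_pow_eq_pow_sum]
  have hg : ∀ j, φ A.det * (D.g j : F) =
      ∑ i, φ (∑ k, A.adjugate j k * b k i) * (D.e i : F) := by
    intro j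
    have h1 : ∑ k, φ (A.adjugate j k) * (∑ i, φ (A k i) * (D.g i : F)) =
        φ A.det * (D.g j : F) := by
      simp only [Finset.mul_sum, ← mul_assoc, ← map_mul]
      rw [Finset.sum_comm]
      have hAA : ∀ i, ∑ k, A.adjugate j k * A k i = if j = i then A.det else 0 := fun i => by
        rw [← Matrix.mul_apply, Matrix.adjugate_mul, Matrix.smul_apply, Matrix.one_apply,
          smul_eq_mul, mul_ite, mul_one, mul_zero]
      simp only [← Finset.sum_mul, ← map_sum, hAA, apply_ite φ, map_zero, ite_mul, zero_mul,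
        Finset.sum_ite_eq, Finset.mem_univ, if_true]
    rw [← h1]
    simp only [hA, Finset.mul_sum, map_sum, Finset.sum_mul, map_mul, mul_assoc]
    rw [Finset.sum_comm]
  refine ⟨A.det, _, hdet, fun z => ?_⟩
  obtain ⟨m, R', hR'⟩ := D.gen z
  refine ⟨m, fun i => ∑ j, R' j * ∑ k, A.adjugate j k * b k i, ?_⟩
  rw [mul_assoc, hR', Finset.mul_sum]
  show ∑ j, φ A.det * (φ (R' j) * (D.g j : F)) = ∑ i, φ (∑ j, R' j * _) * (D.e i : F)
  simp only [mul_left_comm (φ A.det), hg, map_sum φ, Finset.mul_sum, Finset.sum_mul, map_mul φ,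
    mul_assoc]
  rw [Finset.sum_comm]

/-- The clearing polynomial. -/
def f : O[X] := D.exists_span.choose

/-- The exponent of `f` modulo `q`. -/
def fExp : ℕ := D.exists_span.choose_spec.choose

theorem f_map : D.f.map D.res = (D.S.map D.res) ^ D.fExp :=
  D.exists_span.choose_spec.choose_spec.1

theorem f_span (z : D.Ch) : ∃ (m : ℕ) (p : Fin D.r → O[X]),
    aeval D.h D.f * aeval D.h D.S ^ m * (z : F) = ∑ i, aeval D.h (p i) * (D.e i : F) :=
  D.exists_span.choose_spec.choose_spec.2 z

theorem f_res_ne : D.f.map D.res ≠ 0 := by rw [D.f_map]; exact pow_ne_zero _ D.S_res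

theorem f_ne : D.f ≠ 0 := fun e => D.f_res_ne (by rw [e, Polynomial.map_zero])

/-- Common exponent for finitely many elements. -/
theorem f_span_family {ι : Type*} [Fintype ι] (z : ι → D.Ch) :
    ∃ (m : ℕ) (p : ι → Fin D.r → O[X]), ∀ t,
      aeval D.h D.f * aeval D.h D.S ^ m * (z t : F) = ∑ i, aeval D.h (p t i) * (D.e i : F) := by
  choose m p hp using fun t => D.f_span (z t)
  refine ⟨Finset.univ.sup m, fun t i => D.S ^ (Finset.univ.sup m - m t) * p t i, fun t => ?_⟩
  have e : Finset.univ.sup m = (Finset.univ.sup m - m t) + m t :=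
    (Nat.sub_add_cancel (Finset.le_sup (Finset.mem_univ t))).symm
  conv_lhs => rw [e, pow_add, mul_left_comm, mul_assoc, hp, Finset.mul_sum]
  exact Finset.sum_congr rfl fun i _ => by rw [map_mul, map_pow, mul_assoc]

/-- Reduction of an identity in the chart. -/
theorem red_eq_sum {z : D.Ch} {P : O[X]} {p : Fin D.r → O[X]}
    (hz : aeval D.h P * (z : F) = ∑ i, aeval D.h (p i) * (D.e i : F)) :
    aeval D.hb (P.map D.res) * D.red z =
      ∑ i, aeval D.hb ((p i).map D.res) * D.red (D.e i) := by
  have h : D.pol P * z = ∑ i, D.pol (p i) * D.e i := Subtype.ext (by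
    rw [MulMemClass.coe_mul, AddSubmonoidClass.coe_finsetSum]
    exact hz)
  have h' := congrArg D.red h
  rw [map_mul, map_sum, D.red_pol] at h'
  rw [h']
  exact Finset.sum_congr rfl fun i _ => by rw [map_mul, D.red_pol]

theorem sum_eq_zero [IsNoetherianRing O] (hinj : Function.Injective (algebraMap O F))
    {p : Fin D.r → O[X]} (hp : ∑ i, aeval D.h (p i) * (D.e i : F) = 0) : p = 0 := by
  have step : ∀ (n : ℕ) (p : Fin D.r → O[X]), ∑ i, aeval D.h (p i) * (D.e i : F) = 0 →
      ∀ i, C (D.q ^ n) ∣ p i := by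
    intro n
    induction n with
    | zero => intro p _ i; simp
    | succ n ih =>
      intro p hp i
      have h0 := D.red_eq_sum (z := 0) (P := 1) (p := p) (by simpa using hp.symm)
      rw [map_zero, mul_zero] at h0
      have hz := D.indep _ h0.symm
      choose p' hp' using fun i => (D.map_res_eq_zero_iff (p i)).1 (congrFun hz i)
      have hp'0 : ∑ i, aeval D.h (p' i) * (D.e i : F) = 0 := by
        have hq : algebraMap O F D.q ≠ 0 := by
          rw [← map_zero (algebraMap O F)]; exact hinj.ne D.q_prime.ne_zero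
        refine (mul_eq_zero.1 ((?_ : algebraMap O F D.q * _ = 0))).resolve_left hq
        rw [← hp, Finset.mul_sum]
        exact Finset.sum_congr rfl fun i _ => by rw [hp' i, map_mul, aeval_C, mul_assoc]
      rw [hp' i, pow_succ', C_mul]
      exact mul_dvd_mul_left _ (ih p' hp'0 i)
  funext i
  refine Polynomial.ext fun k => ?_
  by_contra hk
  rw [Pi.zero_apply, coeff_zero] at hk
  obtain ⟨n, hn⟩ := FiniteMultiplicity.of_prime_left D.q_prime hk
  exact hn (C_dvd_iff_dvd_coeff _ _ |>.1 (step (n + 1) p hp i) k)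

/-! ### The residual field -/

theorem red_e_span (z : D.Ch) :
    D.red z ∈ Submodule.span κ⟮D.hb⟯ (Set.range fun i => D.red (D.e i)) := by
  obtain ⟨m, p, hp⟩ := D.f_span z
  have hne : (D.f * D.S ^ m).map D.res ≠ 0 := by
    rw [Polynomial.map_mul, Polynomial.map_pow]
    exact mul_ne_zero D.f_res_ne (pow_ne_zero _ D.S_res)
  have h := D.red_eq_sum (z := z) (P := D.f * D.S ^ m) (p := p)
    (by rw [map_mul, map_pow]; exact hp)
  have hmem : ∀ P : κ[X], aeval D.hb P ∈ κ⟮D.hb⟯ := fun P =>
    algebra_adjoin_le_adjoin κ _ (aeval_mem_adjoin_singleton κ _)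
  have e : D.red z = ∑ i, ((⟨_, hmem ((p i).map D.res)⟩ : κ⟮D.hb⟯) /
      ⟨_, hmem ((D.f * D.S ^ m).map D.res)⟩) • D.red (D.e i) := by
    refine mul_left_cancel₀ (D.aeval_hb_ne_zero hne) ?_
    rw [h, Finset.mul_sum]
    refine Finset.sum_congr rfl fun i _ => ?_
    rw [Algebra.smul_def, IntermediateField.algebraMap_apply, IntermediateField.coe_div,
      ← mul_assoc, mul_div_cancel₀ _ (D.aeval_hb_ne_zero hne)]
  rw [e]
  exact Submodule.sum_mem _ fun i _ => Submodule.smul_mem _ _ (Submodule.subset_span ⟨i, rfl⟩)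

theorem exists_residualField :
    ∃ (Eb : IntermediateField κ⟮D.hb⟯ E) (b : Module.Basis (Fin D.r) κ⟮D.hb⟯ Eb),
      (∀ i, (b i : E) = D.red (D.e i)) ∧ (∀ z : D.Ch, D.red z ∈ Eb) ∧
      FiniteDimensional κ⟮D.hb⟯ Eb ∧ Algebra.IsSeparable κ⟮D.hb⟯ Eb := by
  classical
  set K := κ⟮D.hb⟯
  set V := Submodule.span K (Set.range fun i => D.red (D.e i))
  have hone : (1 : E) ∈ V := by simpa using D.red_e_span 1
  have hmul : ∀ a ∈ V, ∀ b ∈ V, a * b ∈ V := by
    intro a ha b hb
    induction ha using Submodule.span_induction with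
    | mem x hx =>
      induction hb using Submodule.span_induction with
      | mem y hy =>
        obtain ⟨i, rfl⟩ := hx
        obtain ⟨k, rfl⟩ := hy
        rw [← map_mul]
        exact D.red_e_span _
      | zero => simp
      | add y z _ _ hy hz => rw [mul_add]; exact add_mem hy hz
      | smul r y _ hy => rw [mul_smul_comm]; exact V.smul_mem _ hy
    | zero => simp
    | add y z _ _ hy hz => rw [add_mul]; exact add_mem hy hz
    | smul r y _ hy => rw [smul_mul_assoc]; exact V.smul_mem _ hy
  set T : Subalgebra K E := V.toSubalgebra hone fun a b ha hb => hmul a ha b hb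
  haveI : Module.Finite K T := by
    change Module.Finite K V
    exact Module.Finite.span_of_finite _ (Set.finite_range _)
  set Eb : IntermediateField K E := T.toIntermediateField fun x hx =>
    T.inv_mem_of_algebraic (x := ⟨x, hx⟩)
      ((Algebra.IsIntegral.isIntegral (⟨x, hx⟩ : T)).map T.val).isAlgebraic
  have hmemEb : ∀ i, D.red (D.e i) ∈ Eb := fun i => Submodule.subset_span ⟨i, rfl⟩
  have hli : LinearIndependent K fun i => D.red (D.e i) := by
    rw [Fintype.linearIndependent_iff]
    intro a ha i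
    choose u v huv using fun i => (mem_adjoin_simple_iff κ (a i : E)).1 (a i).2
    by_contra hai
    have hv : ∀ j, (a j : E) ≠ 0 → aeval D.hb (v j) ≠ 0 := fun j hj e =>
      hj (by rw [huv j, e, div_zero])
    set s : Fin D.r → κ[X] := fun j => if aeval D.hb (v j) = 0 then 1 else v j
    set t : Fin D.r → κ[X] := fun j => if aeval D.hb (v j) = 0 then 0 else u j
    have hst : ∀ j, aeval D.hb (s j) * (a j : E) = aeval D.hb (t j) ∧ s j ≠ 0 := by
      intro j
      rcases eq_or_ne (aeval D.hb (v j)) 0 with h0 | h0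
      · have ha0 : (a j : E) = 0 := by rw [huv j, h0, div_zero]
        simp [s, t, h0, ha0]
      · simp only [s, t, if_neg h0]
        exact ⟨by rw [huv j, mul_div_cancel₀ _ h0], fun e => h0 (by rw [e, map_zero])⟩
    have hP := D.indep (fun j => (∏ k ∈ Finset.univ.erase j, s k) * t j) (by
      rw [← mul_zero (aeval D.hb (∏ k, s k)), ← ha, Finset.mul_sum]
      refine Finset.sum_congr rfl fun j _ => ?_
      rw [Algebra.smul_def, IntermediateField.algebraMap_apply,
        ← Finset.mul_prod_erase _ s (Finset.mem_univ j), map_mul, map_mul, ← (hst j).1]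
      ring)
    have hi0 : (∏ k ∈ Finset.univ.erase i, s k) * t i = 0 := congrFun hP i
    rcases mul_eq_zero.1 hi0 with h0 | h0
    · obtain ⟨k, -, hk⟩ := Finset.prod_eq_zero_iff.1 h0
      exact (hst k).2 hk
    · have h1 := (hst i).1
      rw [h0, map_zero, mul_eq_zero] at h1
      exact hai (Subtype.ext (h1.resolve_left (D.aeval_hb_ne_zero (hst i).2)))
  let b : Module.Basis (Fin D.r) K Eb := (Module.Basis.span hli).map
    (LinearEquiv.refl K V : V ≃ₗ[K] V)
  refine ⟨Eb, b, fun i => ?_, fun z => D.red_e_span z, ?_, ?_⟩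
  · show ((Module.Basis.span hli i : V) : E) = _
    rw [Module.Basis.span_apply]
  · exact Module.Finite.of_basis b
  · refine (le_separableClosure_iff K E Eb).1 fun x hx => ?_
    have hx' : x ∈ V := hx
    induction hx' using Submodule.span_induction with
    | mem y hy =>
      obtain ⟨i, rfl⟩ := hy
      exact mem_separableClosure_iff.2 (D.sep _)
    | zero => exact zero_mem _
    | add y z hy hz ihy ihz => exact add_mem (ihy hy) (ihz hz)
    | smul r y hy ih =>
      rw [Algebra.smul_def]
      exact mul_mem ((separableClosure K E).algebraMap_mem r) (ih hy)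

/-! ### The lifted basis and the traces -/

variable {K₀ : Type*} [Field K₀] [Algebra O K₀] [IsFractionRing O K₀] [Algebra K₀ F]
  [IsScalarTower O K₀ F] [IsDiscreteValuationRing O]

theorem algebraMap_injective' (K₀ : Type*) [Field K₀] [Algebra O K₀] [IsFractionRing O K₀]
    [Algebra K₀ F] [IsScalarTower O K₀ F] : Function.Injective (algebraMap O F) := by
  rw [IsScalarTower.algebraMap_eq O K₀ F]
  exact (algebraMap K₀ F).injective.comp (IsFractionRing.injective O K₀)

theorem aeval_mem_field (p : O[X]) : aeval D.h p ∈ K₀⟮D.h⟯ :=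
  adjoin_le_adjoinField (K := K₀) ⟨_, aeval_mem_adjoin O D.h p⟩

/-- Polynomials in the coordinate, in `K₀ (h)`. -/
def polK : O[X] →+* K₀⟮D.h⟯ :=
  (aeval D.h).toRingHom.codRestrict K₀⟮D.h⟯.toSubfield.toSubring fun p => D.aeval_mem_field p

theorem coe_polK (p : O[X]) : ((D.polK (K₀ := K₀) p : K₀⟮D.h⟯) : F) = aeval D.h p := rfl

theorem polK_injective : Function.Injective (D.polK (K₀ := K₀)) := fun _ _ e =>
  D.aeval_injective (congrArg Subtype.val e)

theorem polK_smul (p : O[X]) (z : F) : D.polK (K₀ := K₀) p • z = aeval D.h p * z := by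
  rw [Algebra.smul_def, IntermediateField.algebraMap_apply, coe_polK]

theorem linearIndependent_e : LinearIndependent K₀⟮D.h⟯ fun i => (D.e i : F) := by
  classical
  rw [Fintype.linearIndependent_iff]
  intro a ha i
  choose u v huv using fun i => exists_eq_div_of_mem_adjoin (O := O) (K := K₀) (a i).2
  have hst : ∀ j, ∃ s t : O[X], s ≠ 0 ∧ aeval D.h s * (a j : F) = aeval D.h t := by
    intro j
    rcases eq_or_ne (aeval D.h (v j)) 0 with h0 | h0
    · exact ⟨1, 0, one_ne_zero, by rw [huv j, h0, div_zero, mul_zero, map_zero]⟩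
    · exact ⟨v j, u j, fun e => h0 (by rw [e, map_zero]), by rw [huv j, mul_div_cancel₀ _ h0]⟩
  choose s t hs hst using hst
  have hP := D.sum_eq_zero (algebraMap_injective' K₀)
    (p := fun j => (∏ k ∈ Finset.univ.erase j, s k) * t j) (by
      rw [← mul_zero (aeval D.h (∏ k, s k)), ← ha, Finset.mul_sum]
      refine Finset.sum_congr rfl fun j _ => ?_
      rw [Algebra.smul_def, IntermediateField.algebraMap_apply,
        ← Finset.mul_prod_erase _ s (Finset.mem_univ j), map_mul, map_mul, ← hst j]
      ring)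
  rcases mul_eq_zero.1 (congrFun hP i) with h0 | h0
  · obtain ⟨k, -, hk⟩ := Finset.prod_eq_zero_iff.1 h0
    exact absurd hk (hs k)
  · have h1 := hst i
    rw [h0, map_zero, mul_eq_zero] at h1
    exact Subtype.ext (h1.resolve_left (D.aeval_ne_zero (hs i)))

theorem span_e : ⊤ ≤ Submodule.span K₀⟮D.h⟯ (Set.range fun i => (D.e i : F)) := by
  intro z _
  obtain ⟨P, hP, hz⟩ := D.dense z
  obtain ⟨m, p, hp⟩ := D.f_span ⟨_, hz⟩
  set W := D.f * D.S ^ m * P
  have hW : (D.polK (K₀ := K₀) W) ≠ 0 := by
    rw [← map_zero (D.polK (K₀ := K₀))]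
    exact D.polK_injective.ne (mul_ne_zero (mul_ne_zero D.f_ne (pow_ne_zero _ D.S_ne)) hP)
  have h : D.polK (K₀ := K₀) W • z = ∑ i, D.polK (K₀ := K₀) (p i) • (D.e i : F) := by
    simp only [polK_smul, W, map_mul, map_pow]
    rw [← hp]
    show _ = _
    simp only [← map_pow, ← map_mul, polK_smul]
    simp only [map_mul, map_pow]; ring
  rw [← inv_smul_smul₀ hW z, h]
  exact Submodule.smul_mem _ _ (Submodule.sum_mem _ fun i _ =>
    Submodule.smul_mem _ _ (Submodule.subset_span ⟨i, rfl⟩))

/-- The basis of `F` over `K₀ (h)`. -/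
def basis : Module.Basis (Fin D.r) K₀⟮D.h⟯ F :=
  Module.Basis.mk (D.linearIndependent_e (K₀ := K₀)) D.span_e

theorem basis_apply (i : Fin D.r) : D.basis (K₀ := K₀) i = D.e i := Module.Basis.mk_apply _ _ i

theorem repr_basis_of_eq {z : F} {P : O[X]} (hP : P ≠ 0) {p : Fin D.r → O[X]}
    (hz : aeval D.h P * z = ∑ i, aeval D.h (p i) * (D.e i : F)) (i : Fin D.r) :
    aeval D.h P * ((D.basis (K₀ := K₀)).repr z i : F) = aeval D.h (p i) := by
  have h : D.polK (K₀ := K₀) P • z = ∑ j, D.polK (K₀ := K₀) (p j) • D.basis (K₀ := K₀) j := by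
    simp only [basis_apply, polK_smul]
    exact hz
  have h' := congrArg (fun y => (D.basis (K₀ := K₀)).repr y i) h
  simp only [map_smul, Finsupp.smul_apply, smul_eq_mul, Module.Basis.repr_sum_self] at h'
  exact congrArg Subtype.val h'

/-- The traces reduce to the residual traces. -/
theorem exists_trace_eq {ι : Type*} [Fintype ι] (z : ι → D.Ch) :
    ∃ (m : ℕ) (t : ι → O[X]),
      (∀ s, aeval D.h (D.f * D.S ^ m) *
        (Algebra.trace K₀⟮D.h⟯ F (z s : F) : F) = aeval D.h (t s)) ∧
      ∀ (Eb : IntermediateField κ⟮D.hb⟯ E) (b : Module.Basis (Fin D.r) κ⟮D.hb⟯ Eb),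
        (∀ i, (b i : E) = D.red (D.e i)) → ∀ (s : ι) (x : Eb), (x : E) = D.red (z s) →
          aeval D.hb ((D.f * D.S ^ m).map D.res) *
            (Algebra.trace κ⟮D.hb⟯ Eb x : E) = aeval D.hb ((t s).map D.res) := by
  classical
  obtain ⟨m, p, hp⟩ := D.f_span_family (fun si : ι × Fin D.r => z si.1 * D.e si.2)
  have hp' : ∀ si : ι × Fin D.r, aeval D.h (D.f * D.S ^ m) * ((z si.1 * D.e si.2 : D.Ch) : F) =
      ∑ i, aeval D.h (p si i) * (D.e i : F) := fun si => by rw [map_mul, map_pow]; exact hp si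
  have hne : D.f * D.S ^ m ≠ 0 := mul_ne_zero D.f_ne (pow_ne_zero _ D.S_ne)
  refine ⟨m, fun s => ∑ i, p (s, i) i, fun s => ?_, fun Eb b hb s x hx => ?_⟩
  · rw [trace_eq_sum_repr (D.basis (K₀ := K₀)), AddSubmonoidClass.coe_finsetSum, Finset.mul_sum,
      map_sum]
    refine Finset.sum_congr rfl fun i _ => ?_
    rw [basis_apply]
    exact D.repr_basis_of_eq hne (hp' (s, i)) i
  · rw [trace_eq_sum_repr b, AddSubmonoidClass.coe_finsetSum, Finset.mul_sum, Polynomial.map_sum,
      map_sum]
    refine Finset.sum_congr rfl fun i _ => ?_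
    have hmem : ∀ P : κ[X], aeval D.hb P ∈ κ⟮D.hb⟯ := fun P =>
      algebra_adjoin_le_adjoin κ _ (aeval_mem_adjoin_singleton κ _)
    have hr := D.red_eq_sum (hp' (s, i))
    have h : (⟨_, hmem ((D.f * D.S ^ m).map D.res)⟩ : κ⟮D.hb⟯) • (x * b i) =
        ∑ j, (⟨_, hmem ((p (s, i) j).map D.res)⟩ : κ⟮D.hb⟯) • b j := by
      refine Subtype.ext ?_
      rw [AddSubmonoidClass.coe_finsetSum, IntermediateField.coe_smul, MulMemClass.coe_mul, hx,
        hb, Algebra.smul_def, IntermediateField.algebraMap_apply, ← map_mul, hr]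
      refine Finset.sum_congr rfl fun j _ => ?_
      rw [IntermediateField.coe_smul, hb, Algebra.smul_def, IntermediateField.algebraMap_apply]
    have h' := congrArg (fun y => b.repr y i) h
    simp only [map_smul, Finsupp.smul_apply, smul_eq_mul, Module.Basis.repr_sum_self] at h'
    exact congrArg Subtype.val h'

end ResData

end FLTAgent.LevelSq
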