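import Fermat.Agent.LevelSq.SqData
import Mathlib.FieldTheory.IsAlgClosed.Basic
import Mathlib.RingTheory.Jacobson.Ring
import Mathlib.RingTheory.FiniteType
import Mathlib.Algebra.CharP.Lemmas

/-!
# The level `N` curve modulo `q`

Closed points are rational, `h - a` is a uniformiser, the residual chart is normal, `θ / θh`
preserves regularity, and at the zeros of `P` the function `δ` has a pole, so the values of
rational functions lie in the field with `q ^ 2` elements.
-/

set_option autoImplicit false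
set_option linter.style.haveILetI false
set_option linter.unusedSectionVars false

noncomputable section

open Polynomial

namespace FLTAgent.LevelSq

variable {O : Type} [CommRing O] [IsDomain O] [IsDiscreteValuationRing O] {q : O} {qn : ℕ}
  {FN : Type} [Field FN] [Algebra O FN] {k : Type} [Field k]

namespace BaseData

variable (B : BaseData O q qn FN k)

theorem red_q : B.red (algebraMap O _ q) = 0 := (B.red_eq_zero _).2 dvd_rfl

theorem algebraMap_q_mem_span (z : chart O B.j) (hz : B.red z = 0) (x : Ideal (chart O B.j))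
    (hqx : algebraMap O _ q ∈ x) : z ∈ x :=
  Ideal.mem_of_dvd x ((B.red_eq_zero z).1 hz) hqx

theorem red_ne_zero_of_notMem {x : Ideal (chart O B.j)} (hqx : algebraMap O _ q ∈ x)
    {d : chart O B.j} (hd : d ∉ x) : B.red d ≠ 0 :=
  fun h => hd (B.algebraMap_q_mem_span d h x hqx)

theorem finiteType : Algebra.FiniteType O (chart O B.j) := by
  let A := Algebra.adjoin O ({B.j} : Set FN)
  haveI := B.finite
  haveI h1 : Algebra.FiniteType O A :=
    (Subalgebra.fg_iff_finiteType _).1 (Subalgebra.fg_adjoin_finset {B.j} |> fun h => by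
      simpa using h)
  haveI h2 : Algebra.FiniteType A (integralClosure A FN) := inferInstance
  exact (Algebra.FiniteType.trans h1 h2 : Algebra.FiniteType O (integralClosure A FN))

theorem isNoetherianRing : IsNoetherianRing (chart O B.j) := by
  haveI := B.finiteType
  exact Algebra.FiniteType.isNoetherianRing O _

variable [IsAlgClosed k]

/-- Closed points over `q` are rational. -/
theorem exists_const (x : Ideal (chart O B.j)) [x.IsMaximal] (hqx : algebraMap O _ q ∈ x)
    (g : chart O B.j) : ∃ a : O, g - algebraMap O _ a ∈ x := by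
  haveI := B.finiteType
  letI : Field (chart O B.j ⧸ x) := Ideal.Quotient.field x
  let e : O →+* chart O B.j ⧸ x := (Ideal.Quotient.mk x).comp (algebraMap O _)
  let f : k →+* chart O B.j ⧸ x := RingHom.liftOfSurjective B.resO B.resO_surjective
    ⟨e, fun a ha => by
      obtain ⟨b, rfl⟩ := (B.resO_eq_zero a).1 ha
      exact Ideal.Quotient.eq_zero_iff_mem.2 (by rw [map_mul]; exact x.mul_mem_right _ hqx)⟩
  letI : Algebra k (chart O B.j ⧸ x) := f.toAlgebra
  letI : Algebra O k := B.resO.toAlgebra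
  have hfe : ∀ a, f (B.resO a) = e a := fun a =>
    RingHom.liftOfRightInverse_comp_apply B.resO _ _ _ a
  haveI : IsScalarTower O k (chart O B.j ⧸ x) := IsScalarTower.of_algebraMap_eq fun a =>
    (hfe a).symm
  haveI : Algebra.FiniteType O (chart O B.j ⧸ x) :=
    Algebra.FiniteType.of_surjective (Ideal.Quotient.mkₐ O x) Ideal.Quotient.mk_surjective
  haveI := Algebra.FiniteType.of_restrictScalars_finiteType O k (chart O B.j ⧸ x)
  haveI := finite_of_finite_type_of_isJacobsonRing k (chart O B.j ⧸ x)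
  obtain ⟨c, hc⟩ := (IsAlgClosed.algebraMap_bijective_of_isIntegral
    (k := k) (K := chart O B.j ⧸ x)).2 (Ideal.Quotient.mk x g)
  obtain ⟨a, rfl⟩ := B.resO_surjective c
  refine ⟨a, Ideal.Quotient.eq.1 ?_⟩
  rw [← hc]
  exact hfe a

theorem resO_congr {x : Ideal (chart O B.j)} [x.IsMaximal] (hqx : algebraMap O _ q ∈ x)
    {g : chart O B.j} {a b : O} (ha : g - algebraMap O _ a ∈ x)
    (hb : g - algebraMap O _ b ∈ x) : B.resO a = B.resO b := by
  by_contra hne
  obtain ⟨e, he⟩ := B.resO_surjective (B.resO a - B.resO b)⁻¹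
  obtain ⟨c, hc⟩ := (B.resO_eq_zero ((a - b) * e - 1)).1 (by
    rw [map_sub, map_mul, map_sub, he, mul_inv_cancel₀ (sub_ne_zero.2 hne), map_one, sub_self])
  refine ‹x.IsMaximal›.ne_top ((Ideal.eq_top_iff_one x).2 ?_)
  have h1 : algebraMap O (chart O B.j) (a - b) ∈ x := by
    simpa [map_sub] using x.sub_mem hb ha
  have h2 := congrArg (algebraMap O (chart O B.j)) hc
  rw [map_sub, map_mul, map_mul, map_one] at h2
  have h3 := x.sub_mem (x.mul_mem_right (algebraMap O _ e) h1)
    (x.mul_mem_right (algebraMap O _ c) hqx)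
  rwa [← h2, sub_sub_cancel] at h3

/-- The value at a closed point. -/
def ev (x : Ideal (chart O B.j)) [x.IsMaximal] (hqx : algebraMap O _ q ∈ x) :
    chart O B.j →+* k where
  toFun g := B.resO (B.exists_const x hqx g).choose
  map_one' := by
    rw [← map_one B.resO]; exact B.resO_congr hqx (B.exists_const x hqx 1).choose_spec (by simp)
  map_mul' g g' := by
    rw [← map_mul]
    refine B.resO_congr hqx (B.exists_const x hqx (g * g')).choose_spec ?_
    have h1 := (B.exists_const x hqx g).choose_spec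
    have h2 := (B.exists_const x hqx g').choose_spec
    rw [map_mul]
    convert x.add_mem (x.mul_mem_left g h2)
      (x.mul_mem_right (algebraMap O _ (B.exists_const x hqx g').choose) h1) using 1
    ring
  map_zero' := by
    rw [← map_zero B.resO]; exact B.resO_congr hqx (B.exists_const x hqx 0).choose_spec (by simp)
  map_add' g g' := by
    rw [← map_add]
    refine B.resO_congr hqx (B.exists_const x hqx (g + g')).choose_spec ?_
    rw [map_add, add_sub_add_comm]
    exact x.add_mem (B.exists_const x hqx g).choose_spec (B.exists_const x hqx g').choose_spec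

section Point

variable {x : Ideal (chart O B.j)} [x.IsMaximal] (hqx : algebraMap O _ q ∈ x)

theorem ev_algebraMap (a : O) : B.ev x hqx (algebraMap O _ a) = B.resO a :=
  B.resO_congr hqx (B.exists_const x hqx _).choose_spec (by simp)

theorem ev_eq_zero {g : chart O B.j} : B.ev x hqx g = 0 ↔ g ∈ x := by
  have hs := (B.exists_const x hqx g).choose_spec
  constructor
  · intro h
    obtain ⟨c, hc⟩ := (B.resO_eq_zero _).1 h
    rw [hc, map_mul] at hs
    simpa using x.add_mem hs (x.mul_mem_right (algebraMap O _ c) hqx)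
  · intro h
    rw [← map_zero B.resO]
    exact B.resO_congr hqx hs (by simpa using h)

theorem ev_ne_zero {g : chart O B.j} : B.ev x hqx g ≠ 0 ↔ g ∉ x := (B.ev_eq_zero hqx).not

theorem ev_congr {g g' : chart O B.j} (h : B.red g = B.red g') :
    B.ev x hqx g = B.ev x hqx g' := by
  rw [← sub_eq_zero, ← map_sub, B.ev_eq_zero]
  exact B.algebraMap_q_mem_span _ (by rw [map_sub, h, sub_self]) x hqx

include hqx in
theorem red_ne_zero {d : chart O B.j} (hd : d ∉ x) : B.red d ≠ 0 :=
  B.red_ne_zero_of_notMem hqx hd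

/-- A function regular at `x` with value `c`. -/
def HasVal (z : LaurentSeries k) (c : k) : Prop :=
  ∃ g d : chart O B.j, d ∉ x ∧ z * B.red d = B.red g ∧ B.ev x hqx g = c * B.ev x hqx d

variable {B hqx}

theorem hasVal_red (g : chart O B.j) : B.HasVal hqx (B.red g) (B.ev x hqx g) :=
  ⟨g, 1, fun h => Ideal.one_notMem x h, by simp, by simp⟩

theorem HasVal.add {z z' : LaurentSeries k} {c c' : k} (h : B.HasVal hqx z c)
    (h' : B.HasVal hqx z' c') : B.HasVal hqx (z + z') (c + c') := by
  obtain ⟨g, d, hd, hz, hc⟩ := h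
  obtain ⟨g', d', hd', hz', hc'⟩ := h'
  refine ⟨g * d' + g' * d, d * d', fun hh => (‹x.IsMaximal›.isPrime.mem_or_mem hh).elim hd hd',
    ?_, ?_⟩ <;> simp only [map_add, map_mul]
  · linear_combination B.red d' * hz + B.red d * hz'
  · linear_combination B.ev x hqx d' * hc + B.ev x hqx d * hc'

theorem HasVal.mul {z z' : LaurentSeries k} {c c' : k} (h : B.HasVal hqx z c)
    (h' : B.HasVal hqx z' c') : B.HasVal hqx (z * z') (c * c') := by
  obtain ⟨g, d, hd, hz, hc⟩ := h
  obtain ⟨g', d', hd', hz', hc'⟩ := h'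
  refine ⟨g * g', d * d', fun hh => (‹x.IsMaximal›.isPrime.mem_or_mem hh).elim hd hd', ?_, ?_⟩ <;>
    simp only [map_mul]
  · rw [← hz, ← hz']; ring
  · rw [hc, hc']; ring

theorem hasVal_C (c : k) : B.HasVal hqx (HahnSeries.C c) c := by
  obtain ⟨a, rfl⟩ := B.resO_surjective c
  simpa [B.red_algebraMap, B.ev_algebraMap] using hasVal_red (hqx := hqx) (algebraMap O _ a)

theorem HasVal.neg {z : LaurentSeries k} {c : k} (h : B.HasVal hqx z c) :
    B.HasVal hqx (-z) (-c) := by
  simpa using (hasVal_C (B := B) (hqx := hqx) (-1)).mul h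

theorem HasVal.sub {z z' : LaurentSeries k} {c c' : k} (h : B.HasVal hqx z c)
    (h' : B.HasVal hqx z' c') : B.HasVal hqx (z - z') (c - c') := by
  simpa [sub_eq_add_neg] using h.add h'.neg

theorem HasVal.pow {z : LaurentSeries k} {c : k} (h : B.HasVal hqx z c) (n : ℕ) :
    B.HasVal hqx (z ^ n) (c ^ n) := by
  induction n with
  | zero => simpa using hasVal_C (B := B) (hqx := hqx) 1
  | succ n ih => rw [pow_succ, pow_succ]; exact ih.mul h

theorem HasVal.unique {z : LaurentSeries k} {c c' : k} (h : B.HasVal hqx z c)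
    (h' : B.HasVal hqx z c') : c = c' := by
  obtain ⟨g, d, hd, hz, hc⟩ := h
  obtain ⟨g', d', hd', hz', hc'⟩ := h'
  have e := B.ev_congr hqx (g := g * d') (g' := g' * d) (by
    rw [map_mul, map_mul, ← hz, ← hz']; ring)
  rw [map_mul, map_mul, hc, hc'] at e
  exact mul_right_cancel₀ (mul_ne_zero ((B.ev_ne_zero hqx).2 hd) ((B.ev_ne_zero hqx).2 hd'))
    (by linear_combination e)

theorem HasVal.div {z w : LaurentSeries k} {c e : k} (h : B.HasVal hqx (z * w) c)
    (h' : B.HasVal hqx w e) (he : e ≠ 0) : B.HasVal hqx z (c / e) := by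
  obtain ⟨g, d, hd, hz, hc⟩ := h
  obtain ⟨g', d', hd', hz', hc'⟩ := h'
  refine ⟨g * d', d * g', fun hh => (‹x.IsMaximal›.isPrime.mem_or_mem hh).elim hd
    ((B.ev_ne_zero hqx).1 (hc' ▸ mul_ne_zero he ((B.ev_ne_zero hqx).2 hd'))), ?_, ?_⟩ <;>
    simp only [map_mul]
  · rw [← hz, ← hz']; ring
  · rw [hc, hc']; field_simp

variable (B hqx)

/-- The uniformiser. -/
def unifAt : LaurentSeries k := B.red B.h - HahnSeries.C (B.ev x hqx B.h)

theorem unifAt_ne_zero : B.unifAt hqx ≠ 0 := by
  intro h
  refine B.euler_h_ne ?_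
  rw [sub_eq_zero.1 h, HahnSeries.C_apply, Genus.euler_single_zero]

theorem euler_unifAt : Genus.euler (B.unifAt hqx) = Genus.euler (B.red B.h) := by
  rw [unifAt, map_sub, HahnSeries.C_apply, Genus.euler_single_zero, sub_zero]

variable {B hqx}

theorem hasVal_unifAt : B.HasVal hqx (B.unifAt hqx) 0 := by
  simpa [unifAt] using (hasVal_red (hqx := hqx) B.h).sub (hasVal_C (B.ev x hqx B.h))

/-- Functions vanishing at `x` are multiples of the uniformiser. -/
theorem HasVal.exists_eq_mul {z : LaurentSeries k} (h : B.HasVal hqx z 0) :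
    ∃ w c, B.HasVal hqx w c ∧ z = B.unifAt hqx * w := by
  obtain ⟨g, d, hd, hz, hc⟩ := h
  rw [zero_mul, B.ev_eq_zero] at hc
  obtain ⟨a, ha, hgen⟩ := B.unif x inferInstance hqx
  obtain ⟨d', u, v, hd', heq⟩ := hgen g hc
  have hX : B.red (B.h - algebraMap O _ a) = B.unifAt hqx := by
    rw [map_sub, B.red_algebraMap, unifAt]
    congr 2
    exact B.resO_congr hqx ha (B.exists_const x hqx B.h).choose_spec
  have hdd : d * d' ∉ x := fun hh => (‹x.IsMaximal›.isPrime.mem_or_mem hh).elim hd hd'
  refine ⟨B.red v / B.red (d * d'), B.ev x hqx v / B.ev x hqx (d * d'),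
    ⟨v, d * d', hdd, div_mul_cancel₀ _ (B.red_ne_zero hqx hdd),
      (div_mul_cancel₀ _ ((B.ev_ne_zero hqx).2 hdd)).symm⟩, ?_⟩
  have h2 := congrArg B.red heq
  rw [map_add, map_mul, map_mul, map_mul, B.red_q, mul_zero, zero_add, hX, ← hz] at h2
  rw [mul_div, eq_div_iff (B.red_ne_zero hqx hdd), map_mul]
  linear_combination h2

theorem hasVal_of_mul_unifAt {z : LaurentSeries k} (h : B.HasVal hqx (B.unifAt hqx * z) 0) :
    ∃ c, B.HasVal hqx z c := by
  obtain ⟨w, c, hw, heq⟩ := h.exists_eq_mul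
  exact ⟨c, mul_left_cancel₀ (B.unifAt_ne_zero hqx) heq ▸ hw⟩

/-- A non-zero regular function is a power of the uniformiser times a unit. -/
theorem HasVal.exists_pow {z : LaurentSeries k} {c : k} (h : B.HasVal hqx z c) (hz : z ≠ 0) :
    ∃ (n : ℕ) (u : LaurentSeries k) (e : k), e ≠ 0 ∧ B.HasVal hqx u e ∧
      z = B.unifAt hqx ^ n * u := by
  haveI := B.isNoetherianRing
  by_contra hno
  push Not at hno
  let S := {w : LaurentSeries k // B.HasVal hqx w 0 ∧ ∃ n, z = B.unifAt hqx ^ n * w}
  have step : ∀ w : S, ∃ w' : S, w.1 = B.unifAt hqx * w'.1 := by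
    rintro ⟨w, hw, n, hn⟩
    obtain ⟨w', e, hw', heq⟩ := hw.exists_eq_mul
    have hz' : z = B.unifAt hqx ^ (n + 1) * w' := by rw [hn, heq, pow_succ]; ring
    rcases eq_or_ne e 0 with rfl | he
    · exact ⟨⟨w', hw', _, hz'⟩, heq⟩
    · exact absurd hz' (hno (n + 1) w' e he hw')
  have h0 : B.HasVal hqx z 0 := by
    rcases eq_or_ne c 0 with rfl | hc
    · exact h
    · exact absurd (by simp) (hno 0 z c hc h)
  choose f hf using step
  let seq : ℕ → S := fun n => Nat.rec ⟨z, h0, 0, by simp⟩ (fun _ w => f w) n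
  -- the multiples
  let J : ℕ → Ideal (chart O B.j) := fun n =>
    { carrier := {g | ∃ e w, B.HasVal hqx w e ∧ B.red g = (seq n).1 * w}
      zero_mem' := ⟨0, 0, by simpa using hasVal_C (B := B) (hqx := hqx) 0, by simp⟩
      add_mem' := by
        rintro g g' ⟨e, w, hw, hg⟩ ⟨e', w', hw', hg'⟩
        exact ⟨_, _, hw.add hw', by rw [map_add, hg, hg', mul_add]⟩
      smul_mem' := by
        rintro a g ⟨e, w, hw, hg⟩
        exact ⟨_, _, (hasVal_red a).mul hw, by rw [smul_eq_mul, map_mul, hg]; ring⟩ }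
  have hmono : Monotone J := by
    refine monotone_nat_of_le_succ fun n => ?_
    rintro g ⟨e, w, hw, hg⟩
    refine ⟨_, _, hasVal_unifAt.mul hw, ?_⟩
    rw [hg, hf (seq n)]
    show B.unifAt hqx * (seq (n + 1)).1 * w = _
    ring
  obtain ⟨N, hN⟩ := monotone_stabilizes_iff_noetherian.2 ‹IsNoetherianRing (chart O B.j)›
    ⟨J, hmono⟩
  obtain ⟨g, d, hd, hgd, -⟩ := (seq (N + 1)).2.1
  have hmem : g ∈ J (N + 1) := ⟨_, _, hasVal_red d, hgd.symm⟩
  rw [← show J N = J (N + 1) from hN (N + 1) (Nat.le_succ N)] at hmem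
  obtain ⟨e, w, hw, hgw⟩ := hmem
  have hne : (seq (N + 1)).1 ≠ 0 := by
    obtain ⟨n, hn⟩ := (seq (N + 1)).2.2
    intro h0
    exact hz (by rw [hn, h0, mul_zero])
  rw [← hgd, hf (seq N)] at hgw
  have h1 : B.red d = B.unifAt hqx * w := mul_left_cancel₀ hne (by
    show (seq (N + 1)).1 * _ = _
    rw [hgw]
    show B.unifAt hqx * (seq (N + 1)).1 * w = _
    ring)
  have h2 := (hasVal_red (hqx := hqx) d).unique (h1 ▸ hasVal_unifAt.mul hw)
  rw [zero_mul] at h2
  exact hd ((B.ev_eq_zero hqx).1 h2)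

/-- The residual chart is a valuation ring at `x`: an integral fraction is regular. -/
theorem exists_hasVal_of_integral {z : LaurentSeries k}
    (hz : ∃ g d : chart O B.j, B.red d ≠ 0 ∧ z * B.red d = B.red g) (p : Polynomial (LaurentSeries k))
    (hp : p.Monic) (hcoeff : ∀ i, ∃ c, B.HasVal hqx (p.coeff i) c) (hroot : p.eval z = 0) :
    ∃ c, B.HasVal hqx z c := by
  obtain ⟨g, d, hd, hgd⟩ := hz
  rcases eq_or_ne z 0 with rfl | hz0
  · exact ⟨0, by simpa using hasVal_C (B := B) (hqx := hqx) 0⟩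
  have hg : B.red g ≠ 0 := hgd ▸ mul_ne_zero hz0 hd
  obtain ⟨i, u, e, he, hu, hgi⟩ := (hasVal_red (hqx := hqx) g).exists_pow hg
  obtain ⟨j, v, f, hf, hv, hdj⟩ := (hasVal_red (hqx := hqx) d).exists_pow hd
  rcases le_or_gt j i with hji | hij
  · obtain ⟨l, rfl⟩ := Nat.exists_eq_add_of_le hji
    have : z * v = B.unifAt hqx ^ l * u :=
      mul_left_cancel₀ (pow_ne_zero j (B.unifAt_ne_zero hqx)) (by
        rw [hgi, hdj] at hgd; rw [pow_add] at hgd; linear_combination hgd)
    exact ⟨_, HasVal.div (this ▸ (hasVal_unifAt.pow l).mul hu) hv hf⟩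
  exfalso
  obtain ⟨l, rfl⟩ : ∃ l, j = i + (l + 1) := ⟨j - i - 1, by omega⟩
  set w := B.unifAt hqx ^ (l + 1) * (v / u) with hw
  have hu0 : u ≠ 0 := fun h0 => hg (by rw [hgi, h0, mul_zero])
  have hzw : z * w = 1 := by
    rw [hgi, hdj] at hgd
    rw [hw, pow_add] at *
    field_simp
    exact mul_left_cancel₀ (pow_ne_zero i (B.unifAt_ne_zero hqx)) (by linear_combination hgd)
  have hwval : B.HasVal hqx w 0 := by
    have h1 : B.HasVal hqx (v / u) (f / e) :=
      HasVal.div (by rwa [div_mul_cancel₀ _ hu0]) hu he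
    simpa [hw] using (hasVal_unifAt.pow (l + 1)).mul h1
  have h1 : B.HasVal hqx (∑ n ∈ Finset.range p.natDegree, p.coeff n * w ^ (p.natDegree - n)) 0 := by
    classical
    suffices H : ∀ s ⊆ Finset.range p.natDegree,
        B.HasVal hqx (∑ n ∈ s, p.coeff n * w ^ (p.natDegree - n)) 0 from H _ subset_rfl
    intro s hs
    induction s using Finset.induction with
    | empty => simpa using hasVal_C (B := B) (hqx := hqx) 0
    | insert a s ha ih =>
      obtain ⟨c, hc⟩ := hcoeff a
      have hlt : a < p.natDegree := Finset.mem_range.1 (hs (Finset.mem_insert_self a s))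
      rw [Finset.sum_insert ha]
      simpa [zero_pow (show p.natDegree - a ≠ 0 by omega)] using
        (hc.mul (hwval.pow (p.natDegree - a))).add
          (ih ((Finset.subset_insert a s).trans hs))
  have h2 : ∑ n ∈ Finset.range p.natDegree, p.coeff n * w ^ (p.natDegree - n) = -1 := by
    have h := congrArg (· * w ^ p.natDegree) hroot
    simp only [zero_mul, eval_eq_sum_range, Finset.sum_range_succ, hp.coeff_natDegree, one_mul,
      add_mul, Finset.sum_mul] at h
    rw [← mul_pow, hzw, one_pow, add_eq_zero_iff_eq_neg] at h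
    rw [← h]
    refine Finset.sum_congr rfl fun n hn => ?_
    rw [Finset.mem_range] at hn
    conv_rhs => rw [show p.natDegree = n + (p.natDegree - n) by omega, pow_add]
    rw [show p.coeff n * z ^ n * (w ^ n * w ^ (p.natDegree - n))
      = p.coeff n * (z * w) ^ n * w ^ (p.natDegree - n) by ring, hzw, one_pow, mul_one]
  rw [h2] at h1
  have h3 := h1.unique (by simpa using hasVal_C (B := B) (hqx := hqx) (-1))
  exact one_ne_zero (neg_eq_zero.1 h3.symm)

end Point

end BaseData

end FLTAgent.LevelSq
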